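import Mathlib

/-! S14 package B, leaf B3 (pure algebraic number theory, away from `p`).  -/

set_option autoImplicit false

open NumberField

namespace Fermat.Agent.S14L

/-- trivial inertia ⟹ unramified: `ℓ` is a uniformizer at `P`. -/
theorem nf_unram (L : Type) [Field L] [NumberField L] [IsGalois ℚ L] (ℓ : ℕ) (hℓ : ℓ.Prime)
    (P : Ideal (𝓞 L)) (hP : P.IsPrime) (hmem : (ℓ : 𝓞 L) ∈ P)
    (htriv : ∀ τ : L ≃ₐ[ℚ] L,
      (∀ x : 𝓞 L, RingOfIntegers.mapRingEquiv (τ : L ≃+* L) x - x ∈ P) → τ = 1) :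
    (ℓ : 𝓞 L) ∉ P ^ 2 := by
  let _ : MulSemiringAction (L ≃ₐ[ℚ] L) (𝓞 L) :=
    IsIntegralClosure.MulSemiringAction ℤ ℚ L (𝓞 L)
  have := IsGaloisGroup.of_isFractionRing (L ≃ₐ[ℚ] L) ℤ (𝓞 L) ℚ L
  have hp' : Prime (ℓ : ℤ) := Nat.prime_iff_prime_int.mp hℓ
  have hlo : P.LiesOver (Ideal.span {(ℓ : ℤ)}) :=
    (Ideal.liesOver_span_iff Ideal.IsPrime.ne_top' hp').mpr (by simpa using hmem)
  have hspan : Ideal.span {(ℓ : ℤ)} = Ideal.under ℤ P := hlo.1
  have hpne : (Ideal.span {(ℓ : ℤ)}) ≠ ⊥ := by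
    simpa using hℓ.ne_zero
  have hprime : (P.under ℤ).IsPrime := inferInstance
  have hfin : Finite (ℤ ⧸ P.under ℤ) := Ring.HasFiniteQuotients.finiteQuotient (hspan ▸ hpne)
  have hcard : Nat.card (P.inertia (L ≃ₐ[ℚ] L))
      = (P.under ℤ).ramificationIdxIn (𝓞 L) :=
    Ideal.card_inertia_eq_ramificationIdxIn (P.under ℤ) P
  have hbot : P.inertia (L ≃ₐ[ℚ] L) = ⊥ := by
    rw [Subgroup.eq_bot_iff_forall]
    intro τ hτ
    apply htriv
    intro x
    have h := hτ x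
    have hx : RingOfIntegers.mapRingEquiv (τ : L ≃+* L) x = τ • x := by
      apply Subtype.ext
      exact (algebraMap_galRestrict_apply ℤ τ x).symm
    rw [hx]
    exact h
  have h1 : P.ramificationIdx ℤ = 1 := by
    rw [← Ideal.ramificationIdxIn_eq_ramificationIdx (P.under ℤ) P (L ≃ₐ[ℚ] L), ← hcard, hbot]
    simp
  have h2 : (Ideal.span {(ℓ : ℤ)}).ramificationIdx' P = 1 := by
    rw [Ideal.ramificationIdx'_eq_ramificationIdx _ _ hpne, h1]
  intro hmem2
  have hle : Ideal.map (algebraMap ℤ (𝓞 L)) (Ideal.span {(ℓ : ℤ)}) ≤ P ^ 2 := by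
    rw [Ideal.map_span, Ideal.span_le]
    rintro _ ⟨y, hy, rfl⟩
    rw [Set.mem_singleton_iff] at hy
    subst hy
    simpa using hmem2
  have h3 : (Ideal.span {(ℓ : ℤ)}).ramificationIdx' P ≠ 0 := by rw [h2]; exact one_ne_zero
  have hmapne : Ideal.map (algebraMap ℤ (𝓞 L)) (Ideal.span {(ℓ : ℤ)}) ≠ ⊥ :=
    Ideal.map_ne_bot_of_ne_bot hpne
  have hPne : P ≠ ⊥ := by
    rintro rfl
    apply hℓ.ne_zero
    simpa using hmem
  have hfin2 : ¬ (∀ n : ℕ, ∃ k, Ideal.map (algebraMap ℤ (𝓞 L)) (Ideal.span {(ℓ : ℤ)}) ≤ P ^ k ∧ n < k) :=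
    fun h => h3 (Ideal.ramificationIdx'_eq_zero h)
  push Not at hfin2
  obtain ⟨n, hn⟩ := hfin2
  have h4 : 2 ≤ (Ideal.span {(ℓ : ℤ)}).ramificationIdx' P := by
    unfold Ideal.ramificationIdx'
    exact le_csSup ⟨n, fun k hk => hn k hk⟩ hle
  omega

/-- if a rational integer `ℓ` is a uniformizer at the prime `P` of `L` and `a ∈ 𝓞 K` becomes a
`p`-th power in `𝓞 L`, then `p` divides the multiplicity of `P ∩ 𝓞 K` in `(a)`. -/
theorem nf_away (K L : Type) [Field K] [NumberField K] [Field L] [NumberField L] [Algebra K L]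
    (p : ℕ) (hp : p.Prime) (ℓ : ℕ) (P : Ideal (𝓞 L)) (hP : P.IsPrime)
    (hℓ : (ℓ : 𝓞 L) ∈ P) (hℓ2 : (ℓ : 𝓞 L) ∉ P ^ 2) (a : 𝓞 K) (ha : a ≠ 0) (b : 𝓞 L)
    (hab : algebraMap (𝓞 K) (𝓞 L) a = b ^ p) :
    p ∣ multiplicity (Ideal.comap (algebraMap (𝓞 K) (𝓞 L)) P) (Ideal.span {a}) := by
  set f := algebraMap (𝓞 K) (𝓞 L) with hf
  have hfinj : Function.Injective f := FaithfulSMul.algebraMap_injective (𝓞 K) (𝓞 L)
  set q := Ideal.comap f P with hq
  have hqprime : q.IsPrime := Ideal.comap_isPrime f P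
  have hPne : P ≠ ⊥ := by
    rintro rfl
    apply hℓ2
    have h0 : (ℓ : 𝓞 L) = 0 := by simpa using hℓ
    rw [h0]
    exact Ideal.zero_mem _
  have hPprime : Prime P := Ideal.prime_of_isPrime hPne hP
  have hqunit : ¬ IsUnit q := by
    rw [Ideal.isUnit_iff]
    exact hqprime.ne_top
  have hane : (Ideal.span {a} : Ideal (𝓞 K)) ≠ 0 := by
    rw [Ideal.zero_eq_bot, Ne, Ideal.span_singleton_eq_bot]
    exact ha
  have hfin : FiniteMultiplicity q (Ideal.span {a}) := FiniteMultiplicity.of_not_isUnit hqunit hane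
  obtain ⟨J, hJ, hJq⟩ := hfin.exists_eq_pow_mul_and_not_dvd
  set m := multiplicity q (Ideal.span {a}) with hm
  -- the image ideal
  have hb0 : b ≠ 0 := by
    rintro rfl
    rw [zero_pow hp.ne_zero] at hab
    exact ha (hfinj (by rw [hab, map_zero]))
  have hbne : (Ideal.span {b} : Ideal (𝓞 L)) ≠ 0 := by
    rw [Ideal.zero_eq_bot, Ne, Ideal.span_singleton_eq_bot]
    exact hb0
  have hmap1 : Ideal.map f (Ideal.span {a}) = (Ideal.span {b}) ^ p := by
    rw [Ideal.map_span, Set.image_singleton, hab, Ideal.span_singleton_pow]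
  have hmap2 : Ideal.map f (Ideal.span {a}) = (Ideal.map f q) ^ m * Ideal.map f J := by
    rw [hJ, Ideal.map_mul, Ideal.map_pow]
  have hfinb : FiniteMultiplicity P (Ideal.span {b}) := FiniteMultiplicity.of_prime_left hPprime hbne
  have hℓq : (ℓ : 𝓞 K) ∈ q := by
    rw [hq, Ideal.mem_comap, map_natCast]
    exact hℓ
  have hnd : ¬ P ^ (1 + 1) ∣ Ideal.map f q := by
    rw [Ideal.dvd_iff_le]
    intro hle
    apply hℓ2
    have : f (ℓ : 𝓞 K) ∈ Ideal.map f q := Ideal.mem_map_of_mem f hℓq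
    rw [map_natCast] at this
    exact hle this
  have hfinq : FiniteMultiplicity P (Ideal.map f q) := ⟨1, hnd⟩
  have h1 : multiplicity P (Ideal.map f q) = 1 := by
    apply multiplicity_eq_of_dvd_of_not_dvd
    · rw [pow_one, Ideal.dvd_iff_le]
      exact Ideal.map_comap_le
    · exact hnd
  have h0 : multiplicity P (Ideal.map f J) = 0 := by
    rw [multiplicity_eq_zero, Ideal.dvd_iff_le]
    intro hle
    apply hJq
    rw [Ideal.dvd_iff_le, hq, ← Ideal.map_le_iff_le_comap]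
    exact hle
  have hfin2 : FiniteMultiplicity P ((Ideal.map f q) ^ m * Ideal.map f J) := by
    rw [← hmap2, hmap1]
    exact hfinb.pow hPprime
  have e1 : multiplicity P (Ideal.map f (Ideal.span {a})) = m := by
    rw [hmap2, multiplicity_mul hPprime hfin2, h0,
      hfinq.multiplicity_pow hPprime, h1]
    simp
  have e2 : multiplicity P (Ideal.map f (Ideal.span {a})) = p * multiplicity P (Ideal.span {b}) := by
    rw [hmap1, hfinb.multiplicity_pow hPprime]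
  exact ⟨_, e1.symm.trans e2⟩

end Fermat.Agent.S14L
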