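import Mathlib

/-! S14 package B, leaf B4: auxiliary lemmas (splitting of a prime with `p` distinct conjugates). -/

set_option autoImplicit false

open NumberField

namespace Fermat.Agent.S14L

/-- A prime of `𝓞 L` containing the image of a prime element `π` lies over `(π)`. -/
theorem bknfp_liesOver (K L : Type) [Field K] [NumberField K] [Field L] [NumberField L]
    [Algebra K L] (π : 𝓞 K) (hπ : Prime π) (Q : Ideal (𝓞 L)) (hQ : Q.IsPrime)
    (hπQ : algebraMap (𝓞 K) (𝓞 L) π ∈ Q) : Q.LiesOver (Ideal.span {π}) := by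
  have hpr : (Ideal.span {π} : Ideal (𝓞 K)).IsPrime :=
    (Ideal.span_singleton_prime hπ.ne_zero).mpr hπ
  have hmax : (Ideal.span {π} : Ideal (𝓞 K)).IsMaximal :=
    hpr.isMaximal (by simpa using hπ.ne_zero)
  constructor
  have hle : Ideal.span {π} ≤ Q.under (𝓞 K) := by
    rw [Ideal.span_singleton_le_iff_mem]
    exact hπQ
  have hne : Q.under (𝓞 K) ≠ ⊤ := (Ideal.comap_isPrime _ Q).ne_top
  exact hmax.eq_of_le hne hle

/-- Fundamental identity consequence: `p` distinct primes over `𝔭` in an extension of degree `p`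
force `e = f = 1`. -/
theorem bknfp_ef (K L : Type) [Field K] [NumberField K] [Field L] [NumberField L] [Algebra K L]
    (p : ℕ) (hdeg : Module.finrank K L = p) (𝔭 : Ideal (𝓞 K)) [𝔭.IsMaximal]
    (Q : ℕ → Ideal (𝓞 L)) (hQp : ∀ i, i < p → (Q i).IsPrime)
    (hQl : ∀ i, i < p → (Q i).LiesOver 𝔭)
    (hinj : ∀ i j, i < p → j < p → Q i = Q j → i = j) (i : ℕ) (hi : i < p) :
    (Q i).ramificationIdx (𝓞 K) = 1 ∧ (Q i).inertiaDeg (𝓞 K) = 1 := by
  have hsum := Ideal.sum_ramification_inertia_eq_finrank 𝔭 (𝓞 L)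
  have hfr : Module.finrank (𝓞 K) (𝓞 L) = p := by
    rw [← hdeg]
    exact (IsFractionRing.finrank_eq (𝓞 K) K (𝓞 L) L).symm
  rw [hfr] at hsum
  let f : Fin p → 𝔭.primesOver (𝓞 L) := fun k => ⟨Q k, hQp k k.2, hQl k k.2⟩
  have hf : Function.Injective f := by
    intro a b hab
    have : Q a = Q b := congrArg Subtype.val hab
    exact Fin.ext (hinj a b a.2 b.2 this)
  have hcard : p ≤ Fintype.card (𝔭.primesOver (𝓞 L)) := by
    simpa using Fintype.card_le_of_injective f hf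
  have hge : ∀ q ∈ (Finset.univ : Finset (𝔭.primesOver (𝓞 L))),
      (fun _ => 1) q ≤ (fun q : 𝔭.primesOver (𝓞 L) =>
        q.1.ramificationIdx (𝓞 K) * q.1.inertiaDeg (𝓞 K)) q := by
    intro q _
    have h1 : 0 < q.1.ramificationIdx (𝓞 K) := Ideal.ramificationIdx_pos _ _
    have h2 : 0 < q.1.inertiaDeg (𝓞 K) := Ideal.inertiaDeg_pos _ _
    exact Nat.mul_pos h1 h2
  have hle := Finset.sum_le_sum hge
  have heq : ∑ q : 𝔭.primesOver (𝓞 L), (fun _ => 1) q =
      ∑ q : 𝔭.primesOver (𝓞 L), q.1.ramificationIdx (𝓞 K) * q.1.inertiaDeg (𝓞 K) := by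
    refine le_antisymm hle ?_
    rw [hsum]
    simpa using hcard
  have hall := (Finset.sum_eq_sum_iff_of_le hge).mp heq (f ⟨i, hi⟩) (Finset.mem_univ _)
  have h1 : (Q i).ramificationIdx (𝓞 K) * (Q i).inertiaDeg (𝓞 K) = 1 := hall.symm
  simpa using h1

/-- An automorphism over `K` fixes the image of `𝓞 K`. -/
theorem bknfp_sigma_alg (K L : Type) [Field K] [NumberField K] [Field L] [NumberField L]
    [Algebra K L] (s : L ≃ₐ[K] L) (x : 𝓞 K) :
    RingOfIntegers.mapRingEquiv ((s : L ≃ₐ[K] L) : L ≃+* L) (algebraMap (𝓞 K) (𝓞 L) x) =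
      algebraMap (𝓞 K) (𝓞 L) x := by
  apply RingOfIntegers.ext
  have : ((algebraMap (𝓞 K) (𝓞 L) x : 𝓞 L) : L) = algebraMap K L (x : K) := rfl
  rw [RingOfIntegers.mapRingEquiv_apply, this]
  exact s.commutes _

theorem bknfp_sigma_mul (K L : Type) [Field K] [NumberField K] [Field L] [NumberField L]
    [Algebra K L] (s u : L ≃ₐ[K] L) (x : 𝓞 L) :
    RingOfIntegers.mapRingEquiv ((s * u : L ≃ₐ[K] L) : L ≃+* L) x =
      RingOfIntegers.mapRingEquiv ((s : L ≃ₐ[K] L) : L ≃+* L)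
        (RingOfIntegers.mapRingEquiv ((u : L ≃ₐ[K] L) : L ≃+* L) x) := by
  apply RingOfIntegers.ext
  rfl

theorem bknfp_map_mul (K L : Type) [Field K] [NumberField K] [Field L] [NumberField L]
    [Algebra K L] (s u : L ≃ₐ[K] L) (P : Ideal (𝓞 L)) :
    Ideal.map (RingOfIntegers.mapRingEquiv ((s * u : L ≃ₐ[K] L) : L ≃+* L)) P =
      Ideal.map (RingOfIntegers.mapRingEquiv ((s : L ≃ₐ[K] L) : L ≃+* L))
        (Ideal.map (RingOfIntegers.mapRingEquiv ((u : L ≃ₐ[K] L) : L ≃+* L)) P) := by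
  ext y
  simp only [Ideal.mem_map_of_equiv]
  constructor
  · rintro ⟨x, hx, rfl⟩
    exact ⟨_, ⟨x, hx, rfl⟩, (bknfp_sigma_mul K L s u x).symm⟩
  · rintro ⟨_, ⟨x, hx, rfl⟩, rfl⟩
    exact ⟨x, hx, bknfp_sigma_mul K L s u x⟩

theorem bknfp_map_one (K L : Type) [Field K] [NumberField K] [Field L] [NumberField L]
    [Algebra K L] (P : Ideal (𝓞 L)) :
    Ideal.map (RingOfIntegers.mapRingEquiv (((1 : L ≃ₐ[K] L)) : L ≃+* L)) P = P := by
  ext y
  simp only [Ideal.mem_map_of_equiv]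
  have h1 : ∀ x : 𝓞 L, RingOfIntegers.mapRingEquiv (((1 : L ≃ₐ[K] L)) : L ≃+* L) x = x := by
    intro x
    apply RingOfIntegers.ext
    rfl
  constructor
  · rintro ⟨x, hx, rfl⟩
    rw [h1]; exact hx
  · intro hy
    exact ⟨y, hy, h1 y⟩

theorem bknfp_map_inj (K L : Type) [Field K] [NumberField K] [Field L] [NumberField L]
    [Algebra K L] (s : L ≃ₐ[K] L) (I J : Ideal (𝓞 L))
    (h : Ideal.map (RingOfIntegers.mapRingEquiv ((s : L ≃ₐ[K] L) : L ≃+* L)) I =
      Ideal.map (RingOfIntegers.mapRingEquiv ((s : L ≃ₐ[K] L) : L ≃+* L)) J) : I = J := by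
  have key : ∀ I J : Ideal (𝓞 L),
      Ideal.map (RingOfIntegers.mapRingEquiv ((s : L ≃ₐ[K] L) : L ≃+* L)) I =
      Ideal.map (RingOfIntegers.mapRingEquiv ((s : L ≃ₐ[K] L) : L ≃+* L)) J → I ≤ J := by
    intro I J h x hx
    have h1 : RingOfIntegers.mapRingEquiv ((s : L ≃ₐ[K] L) : L ≃+* L) x ∈
        Ideal.map (RingOfIntegers.mapRingEquiv ((s : L ≃ₐ[K] L) : L ≃+* L)) I :=
      (Ideal.mem_map_of_equiv _ _).mpr ⟨x, hx, rfl⟩
    rw [h] at h1
    obtain ⟨x', hx', he⟩ := (Ideal.mem_map_of_equiv _ _).mp h1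
    have := (RingOfIntegers.mapRingEquiv ((s : L ≃ₐ[K] L) : L ≃+* L)).injective he
    rw [← this]; exact hx'
  exact le_antisymm (key I J h) (key J I h.symm)

/-- The conjugates `t^i(P)`, `i < p`, are pairwise distinct primes containing the image of `π`. -/
theorem bknfp_conj (K L : Type) [Field K] [NumberField K] [Field L] [NumberField L]
    [Algebra K L] (p : ℕ) (π : 𝓞 K)
    (P : Ideal (𝓞 L)) (hP : P.IsPrime) (hπP : algebraMap (𝓞 K) (𝓞 L) π ∈ P)
    (t : L ≃ₐ[K] L)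
    (ht : ∀ i : ℕ, 0 < i → i < p →
      Ideal.map (RingOfIntegers.mapRingEquiv ((t ^ i : L ≃ₐ[K] L) : L ≃+* L)) P ≠ P) :
    (∀ i : ℕ, (Ideal.map (RingOfIntegers.mapRingEquiv ((t ^ i : L ≃ₐ[K] L) : L ≃+* L)) P).IsPrime
      ∧ algebraMap (𝓞 K) (𝓞 L) π ∈
        Ideal.map (RingOfIntegers.mapRingEquiv ((t ^ i : L ≃ₐ[K] L) : L ≃+* L)) P) ∧
    (∀ i j : ℕ, i < p → j < p →
      Ideal.map (RingOfIntegers.mapRingEquiv ((t ^ i : L ≃ₐ[K] L) : L ≃+* L)) P =
      Ideal.map (RingOfIntegers.mapRingEquiv ((t ^ j : L ≃ₐ[K] L) : L ≃+* L)) P → i = j) := by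
  refine ⟨fun i => ⟨Ideal.map_isPrime_of_equiv _, ?_⟩, ?_⟩
  · exact (Ideal.mem_map_of_equiv _ _).mpr ⟨_, hπP, bknfp_sigma_alg K L (t ^ i) π⟩
  · have key : ∀ i j : ℕ, i < j → j < p →
        Ideal.map (RingOfIntegers.mapRingEquiv ((t ^ i : L ≃ₐ[K] L) : L ≃+* L)) P ≠
        Ideal.map (RingOfIntegers.mapRingEquiv ((t ^ j : L ≃ₐ[K] L) : L ≃+* L)) P := by
      intro i j hij hj h
      have hj' : t ^ j = t ^ i * t ^ (j - i) := by
        rw [← pow_add]; congr 1; omega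
      rw [hj', bknfp_map_mul] at h
      have h2 := bknfp_map_inj K L (t ^ i) _ _ h
      exact ht (j - i) (by omega) (by omega) h2.symm
    intro i j hi hj h
    rcases lt_trichotomy i j with h1 | h1 | h1
    · exact absurd h (key i j h1 hj)
    · exact h1
    · exact absurd h.symm (key j i h1 hi)

section Val

variable {B : Type*} [CommRing B] [IsDedekindDomain B] (P : Ideal B)

theorem bknfp_v_mul (hP : P.IsPrime) (hP0 : P ≠ ⊥) (x y : B) :
    emultiplicity P (Ideal.span {x * y}) =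
      emultiplicity P (Ideal.span {x}) + emultiplicity P (Ideal.span {y}) := by
  rw [← Ideal.span_singleton_mul_span_singleton]
  exact emultiplicity_mul (Ideal.prime_of_isPrime hP0 hP)

theorem bknfp_v_pow (hP : P.IsPrime) (hP0 : P ≠ ⊥) (x : B) (k : ℕ) :
    emultiplicity P (Ideal.span {x ^ k}) = k * emultiplicity P (Ideal.span {x}) := by
  rw [← Ideal.span_singleton_pow]
  exact emultiplicity_pow (Ideal.prime_of_isPrime hP0 hP)

theorem bknfp_v_le (x : B) (n : ℕ) :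
    (n : ℕ∞) ≤ emultiplicity P (Ideal.span {x}) ↔ x ∈ P ^ n := by
  rw [← pow_dvd_iff_le_emultiplicity, Ideal.dvd_span_singleton]

theorem bknfp_v_one (x : B) (h1 : x ∈ P) (h2 : x ∉ P ^ 2) :
    emultiplicity P (Ideal.span {x}) = 1 := by
  have : emultiplicity P (Ideal.span {x}) = ((1 : ℕ) : ℕ∞) := by
    rw [emultiplicity_eq_coe, Ideal.dvd_span_singleton, Ideal.dvd_span_singleton]
    exact ⟨by simpa using h1, h2⟩
  simpa using this

theorem bknfp_v_zero (x : B) (h1 : x ∉ P) :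
    emultiplicity P (Ideal.span {x}) = 0 := by
  rw [emultiplicity_eq_zero, Ideal.dvd_span_singleton]
  exact h1

/-- Successive approximation: if `A → B/P` is onto and `ϖ ∈ P \ P²` comes from `A`, then
`A → B/P^n` is onto. -/
theorem bknfp_approx {A : Type*} [CommRing A] [Algebra A B] (hP : P.IsPrime) (hP0 : P ≠ ⊥)
    (ϖ : A) (h1 : algebraMap A B ϖ ∈ P) (h2 : algebraMap A B ϖ ∉ P ^ 2)
    (hsurj : ∀ y : B, ∃ x : A, y - algebraMap A B x ∈ P) (n : ℕ) :
    ∀ y : B, ∃ x : A, y - algebraMap A B x ∈ P ^ n := by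
  induction n with
  | zero => intro y; exact ⟨0, by simp⟩
  | succ n ih =>
    intro y
    obtain ⟨x, hx⟩ := ih y
    have hv : emultiplicity P (Ideal.span {algebraMap A B ϖ ^ n}) = n := by
      rw [bknfp_v_pow P hP hP0, bknfp_v_one P _ h1 h2, mul_one]
    have hmem : algebraMap A B ϖ ^ n ∈ P ^ n := by
      rw [← bknfp_v_le, hv]
    have hnmem : algebraMap A B ϖ ^ n ∉ P ^ (n + 1) := by
      rw [← bknfp_v_le, hv]
      intro h
      have : n + 1 ≤ n := by exact_mod_cast h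
      omega
    obtain ⟨d, e, he, hde⟩ :=
      Ideal.exists_mul_add_mem_pow_succ hP0 (algebraMap A B ϖ ^ n) (y - algebraMap A B x)
        hmem hnmem hx
    obtain ⟨x', hx'⟩ := hsurj d
    refine ⟨x + ϖ ^ n * x', ?_⟩
    have : y - algebraMap A B (x + ϖ ^ n * x') =
        algebraMap A B ϖ ^ n * (d - algebraMap A B x') + e := by
      rw [map_add, map_mul, map_pow]
      linear_combination -hde
    rw [this]
    refine Ideal.add_mem _ ?_ he
    rw [pow_succ]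
    exact Ideal.mul_mem_mul hmem hx'

end Val

/-- `e = 1` and `f = 1` in concrete terms. -/
theorem bknfp_local (K L : Type) [Field K] [NumberField K] [Field L] [NumberField L]
    [Algebra K L] (π : 𝓞 K) (hπ : Prime π) (P : Ideal (𝓞 L)) (hP : P.IsPrime)
    (hπP : algebraMap (𝓞 K) (𝓞 L) π ∈ P)
    (he : P.ramificationIdx (𝓞 K) = 1) (hf : P.inertiaDeg (𝓞 K) = 1) :
    P ≠ ⊥ ∧ algebraMap (𝓞 K) (𝓞 L) π ∉ P ^ 2 ∧
      ∀ y : 𝓞 L, ∃ x : 𝓞 K, y - algebraMap (𝓞 K) (𝓞 L) x ∈ P := by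
  have hpr : (Ideal.span {π} : Ideal (𝓞 K)).IsPrime :=
    (Ideal.span_singleton_prime hπ.ne_zero).mpr hπ
  have hmax : (Ideal.span {π} : Ideal (𝓞 K)).IsMaximal :=
    hpr.isMaximal (by simpa using hπ.ne_zero)
  have hlo : P.LiesOver (Ideal.span {π}) := bknfp_liesOver K L π hπ P hP hπP
  have hπ'0 : algebraMap (𝓞 K) (𝓞 L) π ≠ 0 := by
    intro h
    exact hπ.ne_zero (FaithfulSMul.algebraMap_injective (𝓞 K) (𝓞 L) (by simpa using h))
  have hP0 : P ≠ ⊥ := by
    intro h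
    rw [h] at hπP
    exact hπ'0 (by simpa using hπP)
  have hPmax : P.IsMaximal := hP.isMaximal hP0
  have hmap : Ideal.map (algebraMap (𝓞 K) (𝓞 L)) (Ideal.span {π}) =
      Ideal.span {algebraMap (𝓞 K) (𝓞 L) π} := by
    rw [Ideal.map_span, Set.image_singleton]
  have hmap0 : Ideal.map (algebraMap (𝓞 K) (𝓞 L)) (Ideal.span {π}) ≠ ⊥ := by
    rw [hmap]
    simpa using hπ'0
  refine ⟨hP0, ?_, ?_⟩
  · have h1 := Ideal.IsDedekindDomain.ramificationIdx_eq_multiplicity (Ideal.span {π}) P hmap0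
    rw [he, hmap] at h1
    have hfin : FiniteMultiplicity P (Ideal.span {algebraMap (𝓞 K) (𝓞 L) π}) :=
      FiniteMultiplicity.of_not_isUnit (Ideal.prime_of_isPrime hP0 hP).not_isUnit
        (by simpa using hπ'0)
    have h2 := (hfin.multiplicity_eq_iff).mp h1.symm
    intro hmem
    exact h2.2 (Ideal.dvd_span_singleton.mpr hmem)
  · have h1 := Ideal.inertiaDeg_eq_of_isMaximal (Ideal.span {π}) P
    rw [hf] at h1
    let : Field (𝓞 K ⧸ Ideal.span {π}) := Ideal.Quotient.field _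
    have h2 : (⊥ : Subalgebra (𝓞 K ⧸ Ideal.span {π}) (𝓞 L ⧸ P)) = ⊤ :=
      Subalgebra.bot_eq_top_of_finrank_eq_one h1.symm
    have h3 : Function.Surjective (algebraMap (𝓞 K ⧸ Ideal.span {π}) (𝓞 L ⧸ P)) :=
      Algebra.surjective_algebraMap_iff.mpr h2.symm
    intro y
    obtain ⟨z, hz⟩ := h3 (Ideal.Quotient.mk P y)
    obtain ⟨x, rfl⟩ := Ideal.Quotient.mk_surjective z
    refine ⟨x, ?_⟩
    rw [← Ideal.Quotient.eq]
    rw [← hz]
    rfl

end Fermat.Agent.S14L
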