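import Mathlib
import Fermat.Agent.S14L.BookNFPAux

/-! S14 package B, leaf B4 (pure algebraic number theory at a completely split prime).
-/

set_option autoImplicit false

open NumberField

namespace Fermat.Agent.S14L

/-- `L/K` of prime degree `p`, `(π)` a principal prime of `K`, `P` a prime of `L` above it whose
`p` conjugates under `t ∈ Aut(L/K)` are pairwise distinct (so `(π)` splits completely).  If
`a ∈ 𝓞 K` is a `p`-th power in `𝓞 L` then `a = π^{pj}·a₁` with `a₁` prime to `π` and a `p`-th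
power modulo `π³`. -/
theorem nf_atp (K L : Type) [Field K] [NumberField K] [Field L] [NumberField L] [Algebra K L]
    (p : ℕ) [Fact p.Prime] (hdeg : Module.finrank K L = p) (π : 𝓞 K) (hπ : Prime π)
    (P : Ideal (𝓞 L)) (hP : P.IsPrime) (hπP : algebraMap (𝓞 K) (𝓞 L) π ∈ P)
    (t : L ≃ₐ[K] L)
    (ht : ∀ i : ℕ, 0 < i → i < p →
      Ideal.map (RingOfIntegers.mapRingEquiv ((t ^ i : L ≃ₐ[K] L) : L ≃+* L)) P ≠ P)
    (a : 𝓞 K) (ha : a ≠ 0) (b : 𝓞 L) (hab : algebraMap (𝓞 K) (𝓞 L) a = b ^ p) :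
    ∃ (j : ℕ) (a₁ w : 𝓞 K), a = π ^ (p * j) * a₁ ∧ ¬ π ∣ a₁ ∧ π ^ 3 ∣ a₁ - w ^ p := by
  classical
  have hpp : p.Prime := Fact.out
  obtain ⟨hQ, hinj⟩ := bknfp_conj K L p π P hP hπP t ht
  have hpr : (Ideal.span {π} : Ideal (𝓞 K)).IsPrime :=
    (Ideal.span_singleton_prime hπ.ne_zero).mpr hπ
  have hmax : (Ideal.span {π} : Ideal (𝓞 K)).IsMaximal :=
    hpr.isMaximal (by simpa using hπ.ne_zero)
  have hef := bknfp_ef K L p hdeg (Ideal.span {π})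
    (fun i => Ideal.map (RingOfIntegers.mapRingEquiv ((t ^ i : L ≃ₐ[K] L) : L ≃+* L)) P)
    (fun i _ => (hQ i).1) (fun i _ => bknfp_liesOver K L π hπ _ (hQ i).1 (hQ i).2) hinj 0 hpp.pos
  simp only [pow_zero] at hef
  rw [bknfp_map_one] at hef
  obtain ⟨hP0, hπ2, hsurj⟩ := bknfp_local K L π hπ P hP hπP hef.1 hef.2
  have hϖ0 : algebraMap (𝓞 K) (𝓞 L) π ≠ 0 := by
    intro h
    exact hπ.ne_zero (FaithfulSMul.algebraMap_injective (𝓞 K) (𝓞 L) (by simpa using h))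
  have hvϖ : emultiplicity P (Ideal.span {algebraMap (𝓞 K) (𝓞 L) π}) = 1 :=
    bknfp_v_one P _ hπP hπ2
  have hunder : ∀ z : 𝓞 K, ¬ π ∣ z → algebraMap (𝓞 K) (𝓞 L) z ∉ P := by
    intro z hz hmem
    have hlo := bknfp_liesOver K L π hπ P hP hπP
    have : z ∈ Ideal.span {π} := by
      rw [hlo.over, Ideal.under_def, Ideal.mem_comap]
      exact hmem
    exact hz (Ideal.mem_span_singleton.mp this)
  have hval : ∀ (r : ℕ) (z₁ : 𝓞 K), ¬ π ∣ z₁ →
      emultiplicity P (Ideal.span {algebraMap (𝓞 K) (𝓞 L) (π ^ r * z₁)}) = r := by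
    intro r z₁ hz
    rw [map_mul, map_pow, bknfp_v_mul P hP hP0, bknfp_v_pow P hP hP0, hvϖ,
      bknfp_v_zero P _ (hunder z₁ hz)]
    simp
  obtain ⟨m, a₁, ha₁, rfl⟩ := WfDvdMonoid.max_power_factor ha hπ.irreducible
  have hm := hval m a₁ ha₁
  rw [hab, bknfp_v_pow P hP hP0] at hm
  obtain ⟨j, hj⟩ : ∃ j : ℕ, emultiplicity P (Ideal.span {b}) = j := by
    cases h : emultiplicity P (Ideal.span {b}) with
    | top =>
      rw [h] at hm
      exfalso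
      have hp0 : (p : ℕ∞) ≠ 0 := by exact_mod_cast hpp.ne_zero
      rw [ENat.mul_top hp0] at hm
      exact ENat.top_ne_natCast m hm
    | coe j => exact ⟨j, rfl⟩
  rw [hj] at hm
  have hmj : m = p * j := by exact_mod_cast hm.symm
  subst hmj
  have hdiv : algebraMap (𝓞 K) (𝓞 L) π ^ j ∣ b := by
    rw [← IsIntegrallyClosed.pow_dvd_pow_iff hpp.ne_zero, ← hab, ← pow_mul, map_mul, map_pow,
      mul_comm j p]
    exact Dvd.intro _ rfl
  obtain ⟨b₁, rfl⟩ := hdiv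
  have hb₁ : b₁ ^ p = algebraMap (𝓞 K) (𝓞 L) a₁ := by
    have h := hab
    rw [map_mul, map_pow, mul_pow, ← pow_mul, mul_comm j p] at h
    exact (mul_left_cancel₀ (pow_ne_zero _ hϖ0) h).symm
  obtain ⟨w, hw⟩ := bknfp_approx P hP hP0 π hπP hπ2 hsurj 3 b₁
  refine ⟨j, a₁, w, rfl, ha₁, ?_⟩
  have hmem : algebraMap (𝓞 K) (𝓞 L) (a₁ - w ^ p) ∈ P ^ 3 := by
    rw [map_sub, map_pow, ← hb₁]
    obtain ⟨c, hc⟩ := sub_dvd_pow_sub_pow b₁ (algebraMap (𝓞 K) (𝓞 L) w) p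
    rw [hc]
    exact Ideal.mul_mem_right _ _ hw
  by_cases hz : a₁ - w ^ p = 0
  · rw [hz]
    exact dvd_zero _
  obtain ⟨r, z₁, hz₁, hzeq⟩ := WfDvdMonoid.max_power_factor hz hπ.irreducible
  have hr := hval r z₁ hz₁
  rw [← hzeq] at hr
  have h3 : ((3 : ℕ) : ℕ∞) ≤ (r : ℕ∞) := by
    rw [← hr]
    exact (bknfp_v_le P _ 3).mpr hmem
  have h3' : 3 ≤ r := by exact_mod_cast h3
  rw [hzeq]
  exact Dvd.dvd.mul_right (pow_dvd_pow π h3') _

end Fermat.Agent.S14L
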