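import Mathlib

/-!
# S14 (vanishing of the admissible extension class) — shared definitions

Route: Kummer generator `α` of the degree-`p` extension cut out by a non-split admissible
extension (`Witness`), Thaine relation for the cyclotomic unit `delta`, a density inequality
(bounded class `L`-function), and the one-dimensionality of the relevant unit eigenspace.
-/

set_option autoImplicit false

open NumberField
open scoped nonZeroDivisors

namespace Fermat.Agent.S14L

section Analytic

variable (K : Type*) [Field K] [NumberField K]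

/-- `N(I)^{-s}` for an ideal `I` of the ring of integers and a real exponent `s`. -/
noncomputable def idN (s : ℝ) (I : Ideal (𝓞 K)) : ℝ := (Ideal.absNorm I : ℝ) ^ (-s)

/-- The `L`-series of an ideal class character at a real point `s`. -/
noncomputable def classL (χ : ClassGroup (𝓞 K) →* ℂˣ) (s : ℝ) : ℂ :=
  ∑' I : (Ideal (𝓞 K))⁰, (χ (ClassGroup.mk0 I) : ℂ) * ((idN K s (I : Ideal (𝓞 K)) : ℝ) : ℂ)

end Analytic

section Algebraic

variable (p : ℕ) [Fact p.Prime] (K : Type) [Field K] [NumberField K]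
  (ζ : K) (hζ : IsPrimitiveRoot ζ p)

/-- the primitive root as an algebraic integer -/
noncomputable def zInt : 𝓞 K :=
  haveI : NeZero p := ⟨(Fact.out : p.Prime).ne_zero⟩
  hζ.toInteger

/-- the ideal `(ζ - 1)` -/
noncomputable def ppIdeal : Ideal (𝓞 K) := Ideal.span {zInt p K ζ hζ - 1}

/-- the cyclotomic unit `∏_{0<a<p} ((ζ^a - 1)/(ζ - 1))^{a^{p-3}}`, of type `ω²` modulo `p`-th
powers -/
noncomputable def delta : 𝓞 K :=
  ∏ a ∈ Finset.Ioo 0 p, (∑ i ∈ Finset.range a, zInt p K ζ hζ ^ i) ^ (a ^ (p - 3))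

/-- The Kummer generator data extracted from a non-split admissible extension. -/
structure Witness (α : 𝓞 K) : Prop where
  ne_zero : α ≠ 0
  not_mem : α ∉ ppIdeal p K ζ hζ
  span_eq : ∃ 𝔞 : Ideal (𝓞 K), Ideal.span {α} = 𝔞 ^ p
  eigen : ∀ (σ : K ≃ₐ[ℚ] K) (k : ℕ), σ ζ = ζ ^ k →
    ∃ γ : K, σ (α : K) = (α : K) ^ (k ^ 2) * γ ^ p
  local_pow : ∃ w : 𝓞 K, α - w ^ p ∈ ppIdeal p K ζ hζ ^ 3

end Algebraic

end Fermat.Agent.S14L
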