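import Mathlib
import Fermat.Agent.S14L.Defs
import Fermat.Agent.S14L.BookNF
import Fermat.Agent.S14L.BookNFP

/-! S14 package B, leaf B6a (number-field half of the assembly; owner helper8). -/

set_option autoImplicit false

open NumberField

namespace Fermat.Agent.S14L

/-- an ideal of a Dedekind domain all of whose prime multiplicities are divisible by `p` is a
`p`-th power -/
theorem bkasm_ideal_pow {R : Type*} [CommRing R] [IsDedekindDomain R] (I : Ideal R) (hI : I ≠ ⊥)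
    (p : ℕ) (h : ∀ 𝔮 : Ideal R, 𝔮.IsPrime → 𝔮 ≠ ⊥ → p ∣ multiplicity 𝔮 I) :
    ∃ J : Ideal R, I = J ^ p := by
  classical
  obtain ⟨u, hu⟩ := Multiset.exists_smul_of_dvd_count (UniqueFactorizationMonoid.normalizedFactors I)
    (k := p) (by
      intro 𝔮 h𝔮
      have hprime : Prime 𝔮 := UniqueFactorizationMonoid.prime_of_normalized_factor 𝔮 h𝔮
      have h1 : 𝔮.IsPrime := Ideal.isPrime_of_prime hprime
      have h2 : 𝔮 ≠ ⊥ := hprime.ne_zero
      have h3 := h 𝔮 h1 h2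
      rwa [UniqueFactorizationMonoid.multiplicity_eq_count_normalizedFactors hprime.irreducible hI,
        normalize_eq] at h3)
  refine ⟨u.prod, ?_⟩
  rw [← Multiset.prod_nsmul, ← hu, Ideal.prod_normalizedFactors_eq_self hI]

/-- a nonzero prime of the ring of integers contains a rational prime -/
theorem bkasm_rat_prime (K : Type*) [Field K] [NumberField K] (𝔮 : Ideal (𝓞 K)) (h𝔮 : 𝔮.IsPrime)
    (h0 : 𝔮 ≠ ⊥) : ∃ ℓ : ℕ, ℓ.Prime ∧ (ℓ : 𝓞 K) ∈ 𝔮 := by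
  classical
  have hex : ∃ n : ℕ, 0 < n ∧ (n : 𝓞 K) ∈ 𝔮 := by
    refine ⟨Ideal.absNorm 𝔮, ?_, Ideal.absNorm_mem 𝔮⟩
    exact Nat.pos_of_ne_zero (fun h => h0 (Ideal.absNorm_eq_zero_iff.mp h))
  let ℓ := Nat.find hex
  have hℓ : 0 < ℓ ∧ (ℓ : 𝓞 K) ∈ 𝔮 := Nat.find_spec hex
  have hmin : ∀ m : ℕ, m < ℓ → ¬ (0 < m ∧ (m : 𝓞 K) ∈ 𝔮) := fun m hm => Nat.find_min hex hm
  refine ⟨ℓ, ?_, hℓ.2⟩
  rw [Nat.prime_def]
  refine ⟨?_, ?_⟩
  · by_contra hlt
    have h1 : ℓ = 1 := by omega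
    have : (1 : 𝓞 K) ∈ 𝔮 := by simpa [h1] using hℓ.2
    exact h𝔮.ne_top ((Ideal.eq_top_iff_one 𝔮).mpr this)
  · intro a ⟨b, hab⟩
    by_contra hne
    rw [not_or] at hne
    have ha0 : 0 < a := Nat.pos_of_ne_zero (by rintro rfl; simp at hab; omega)
    have hb0 : 0 < b := Nat.pos_of_ne_zero (by rintro rfl; simp at hab; omega)
    have hmem : ((a : 𝓞 K) * (b : 𝓞 K)) ∈ 𝔮 := by
      have := hℓ.2
      rw [hab] at this
      simpa using this
    have halt : a < ℓ := by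
      rcases Nat.lt_or_ge a ℓ with h | h
      · exact h
      · exfalso
        have : a * b ≥ ℓ * b := Nat.mul_le_mul_right b h
        have hb1 : b = 1 := by nlinarith
        subst hb1
        exact hne.2 (by simpa using hab.symm)
    have hblt : b < ℓ := by
      rcases Nat.lt_or_ge b ℓ with h | h
      · exact h
      · exfalso
        have : a * b ≥ a * ℓ := Nat.mul_le_mul_left a h
        have ha1 : a = 1 := by nlinarith
        exact hne.1 ha1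
    rcases h𝔮.mem_or_mem hmem with h | h
    · exact hmin a halt ⟨ha0, h⟩
    · exact hmin b hblt ⟨hb0, h⟩

/-- lying over -/
theorem bkasm_lying_over (K L : Type*) [Field K] [NumberField K] [Field L] [NumberField L]
    [Algebra K L] (𝔮 : Ideal (𝓞 K)) (h𝔮 : 𝔮.IsPrime) :
    ∃ P : Ideal (𝓞 L), P.IsPrime ∧ Ideal.comap (algebraMap (𝓞 K) (𝓞 L)) P = 𝔮 := by
  have := h𝔮
  obtain ⟨Q, -, hQ, hQ'⟩ := Ideal.exists_ideal_over_prime_of_isIntegral 𝔮 (⊥ : Ideal (𝓞 L)) (by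
    intro x hx
    rw [Ideal.mem_comap, Ideal.mem_bot] at hx
    have : x = 0 := by
      have hinj : Function.Injective (algebraMap (𝓞 K) (𝓞 L)) :=
        RingOfIntegers.algebraMap.injective K L
      exact hinj (by simpa using hx)
    rw [this]
    exact 𝔮.zero_mem)
  exact ⟨Q, hQ, hQ'⟩

/-- Number-field core of the bookkeeping: `K = ℚ(ζ_p) ⊆ L` of degree `p`, `a ∈ 𝓞 K` a `p`-th
power in `𝓞 L`; `L/ℚ` has trivial inertia at all primes not above `p`, and the primes of `L`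
above `p` have trivial stabiliser in `⟨t⟩ ≤ Aut(L/K)`.  Then `a = (ζ-1)^{pj}·a₁` with `a₁` prime
to `ζ-1`, generating the `p`-th power of an ideal, and a `p`-th power modulo `(ζ-1)³`. -/
theorem bkasm_nf (p : ℕ) [Fact p.Prime] (K L : Type) [Field K] [NumberField K] [Field L]
    [NumberField L] [Algebra K L] [IsGalois ℚ L] [IsCyclotomicExtension {p} ℚ K]
    (ζ : K) (hζ : IsPrimitiveRoot ζ p) (hdeg : Module.finrank K L = p)
    (a : 𝓞 K) (ha : a ≠ 0) (b : 𝓞 L) (hab : algebraMap (𝓞 K) (𝓞 L) a = b ^ p)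
    (hI : ∀ ℓ : ℕ, ℓ.Prime → ℓ ≠ p → ∀ P : Ideal (𝓞 L), P.IsPrime → (ℓ : 𝓞 L) ∈ P →
      ∀ τ : L ≃ₐ[ℚ] L,
        (∀ x : 𝓞 L, RingOfIntegers.mapRingEquiv (τ : L ≃+* L) x - x ∈ P) → τ = 1)
    (t : L ≃ₐ[K] L)
    (hII : ∀ P : Ideal (𝓞 L), P.IsPrime → (p : 𝓞 L) ∈ P → ∀ i : ℕ, 0 < i → i < p →
      Ideal.map (RingOfIntegers.mapRingEquiv ((t ^ i : L ≃ₐ[K] L) : L ≃+* L)) P ≠ P) :
    ∃ (j : ℕ) (a₁ w : 𝓞 K), a = (zInt p K ζ hζ - 1) ^ (p * j) * a₁ ∧ a₁ ≠ 0 ∧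
      a₁ ∉ ppIdeal p K ζ hζ ∧ (∃ 𝔞 : Ideal (𝓞 K), Ideal.span {a₁} = 𝔞 ^ p) ∧
      a₁ - w ^ p ∈ ppIdeal p K ζ hζ ^ 3 := by
  classical
  have hp : p.Prime := Fact.out
  have hπ : Prime (zInt p K ζ hζ - 1) := hζ.zeta_sub_one_prime'
  have hπ0 : zInt p K ζ hζ - 1 ≠ 0 := hπ.ne_zero
  have hspan_prime : (Ideal.span {zInt p K ζ hζ - 1}).IsPrime :=
    (Ideal.span_singleton_prime hπ0).mpr hπ
  obtain ⟨P₀, hP₀, hP₀c⟩ := bkasm_lying_over K L (Ideal.span {zInt p K ζ hζ - 1}) hspan_prime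
  have hπP : algebraMap (𝓞 K) (𝓞 L) (zInt p K ζ hζ - 1) ∈ P₀ := by
    have h1 : zInt p K ζ hζ - 1 ∈ Ideal.comap (algebraMap (𝓞 K) (𝓞 L)) P₀ := by
      rw [hP₀c]
      exact Ideal.mem_span_singleton_self _
    exact h1
  have hassoc : Associated ((zInt p K ζ hζ - 1) ^ (p - 1)) (p : 𝓞 K) :=
    IsCyclotomicExtension.Rat.associated_zeta_sub_one_pow_prime p hζ
  have hπp : zInt p K ζ hζ - 1 ∣ (p : 𝓞 K) :=
    (dvd_pow_self _ (by have := hp.two_le; omega)).trans hassoc.dvd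
  have hpP : (p : 𝓞 L) ∈ P₀ := by
    obtain ⟨c, hc⟩ := hπp
    have h1 : (p : 𝓞 L) = algebraMap (𝓞 K) (𝓞 L) (zInt p K ζ hζ - 1) *
        algebraMap (𝓞 K) (𝓞 L) c := by
      rw [← map_mul, ← hc, map_natCast]
    rw [h1]
    exact P₀.mul_mem_right _ hπP
  obtain ⟨j, a₁, w, ha1, hnd, h3⟩ :=
    nf_atp K L p hdeg (zInt p K ζ hζ - 1) hπ P₀ hP₀ hπP t (hII P₀ hP₀ hpP) a ha b hab
  have ha₁0 : a₁ ≠ 0 := by
    rintro rfl
    exact hnd (dvd_zero _)
  refine ⟨j, a₁, w, ha1, ha₁0, ?_, ?_, ?_⟩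
  · intro hmem
    exact hnd (Ideal.mem_span_singleton.mp hmem)
  · apply bkasm_ideal_pow (Ideal.span {a₁}) (by simpa using ha₁0) p
    intro 𝔮 h𝔮 h0
    have hqprime : Prime 𝔮 := Ideal.prime_of_isPrime h0 h𝔮
    by_cases hq : 𝔮 = Ideal.span {zInt p K ζ hζ - 1}
    · subst hq
      have hnot : ¬ (Ideal.span {zInt p K ζ hζ - 1} ∣ Ideal.span {a₁}) := by
        rw [Ideal.dvd_span_singleton]
        exact fun h => hnd (Ideal.mem_span_singleton.mp h)
      rw [multiplicity_eq_zero.mpr hnot]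
      exact dvd_zero p
    · have hπq : zInt p K ζ hζ - 1 ∉ 𝔮 := by
        intro hmem
        have hle : Ideal.span {zInt p K ζ hζ - 1} ≤ 𝔮 :=
          (Ideal.span_singleton_le_iff_mem 𝔮).mpr hmem
        have hmax : (Ideal.span {zInt p K ζ hζ - 1}).IsMaximal :=
          hspan_prime.isMaximal (by simpa using hπ0)
        exact hq (hmax.eq_of_le h𝔮.ne_top hle).symm
      obtain ⟨ℓ, hℓ, hℓq⟩ := bkasm_rat_prime K 𝔮 h𝔮 h0
      have hℓp : ℓ ≠ p := by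
        intro hℓp
        rw [hℓp] at hℓq
        have h1 : (zInt p K ζ hζ - 1) ^ (p - 1) ∈ 𝔮 := by
          obtain ⟨u, hu⟩ := hassoc.symm
          rw [← hu]
          exact 𝔮.mul_mem_right _ hℓq
        exact hπq (h𝔮.mem_of_pow_mem _ h1)
      obtain ⟨P, hP, hPc⟩ := bkasm_lying_over K L 𝔮 h𝔮
      have hℓP : (ℓ : 𝓞 L) ∈ P := by
        have h1 : (ℓ : 𝓞 K) ∈ Ideal.comap (algebraMap (𝓞 K) (𝓞 L)) P := by
          rw [hPc]
          exact hℓq
        simpa using h1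
      have hℓ2 : (ℓ : 𝓞 L) ∉ P ^ 2 := nf_unram L ℓ hℓ P hP hℓP (hI ℓ hℓ hℓp P hP hℓP)
      have hdiv := nf_away K L p hp ℓ P hP hℓP hℓ2 a ha b hab
      rw [hPc] at hdiv
      have hmul : multiplicity 𝔮 (Ideal.span {a}) = multiplicity 𝔮 (Ideal.span {a₁}) := by
        have hspan : Ideal.span {a} =
            Ideal.span {zInt p K ζ hζ - 1} ^ (p * j) * Ideal.span {a₁} := by
          rw [ha1, Ideal.span_singleton_pow, Ideal.span_singleton_mul_span_singleton]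
        have hfin : FiniteMultiplicity 𝔮 (Ideal.span {a}) :=
          FiniteMultiplicity.of_prime_left hqprime (by simpa using ha)
        have hnd' : ¬ 𝔮 ∣ Ideal.span {zInt p K ζ hζ - 1} ^ (p * j) := by
          intro hd
          have h2 := hqprime.dvd_of_dvd_pow hd
          rw [Ideal.dvd_span_singleton] at h2
          exact hπq h2
        rw [hspan] at hfin ⊢
        rw [multiplicity_mul hqprime hfin, multiplicity_eq_zero.mpr hnd', zero_add]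
      rwa [hmul] at hdiv
  · have h4 : a₁ - w ^ p ∈ Ideal.span {(zInt p K ζ hζ - 1) ^ 3} := Ideal.mem_span_singleton.mpr h3
    rw [← Ideal.span_singleton_pow] at h4
    exact h4

end Fermat.Agent.S14L
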