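import Mathlib
import Fermat.Prelude.Def_ExtCitation_AdmissibleExtension_v2
import Fermat.Prelude.Def_ExtCitation_KummerBridge
import Fermat.Agent.S14L.Defs

/-!
# S14 package B (bookkeeping): shared definitions

`Gq = Gal(ℚ̄/ℚ)`.  From a non-split admissible extension we extract
* `BkGroup p N τ₀`: an open normal subgroup `N ≤ H = ker(cyclotomic character mod p)` with
  `H/N` cyclic of order `p` generated by `τ₀`, on which conjugation by `σ` acts through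
  `χ(σ)`, containing all inertia groups away from `p` and `D_A ∩ H` for `A ∣ p`;
* `BkKummer p N τ₀ ζ β`: a Kummer generator `β` (an algebraic integer with `τ₀ β = ζ β`,
  fixed by `N`, `β^p ∈ ℚ(ζ)`, and `σ β / β^{k²} ∈ ℚ(ζ)` when `σ ζ = ζ^k`).
-/

set_option autoImplicit false

open NumberField

namespace Fermat.Agent.S14L

/-- group-theoretic data extracted from a non-split admissible extension -/
structure BkGroup (p : ℕ) [Fact p.Prime]
    (N : Subgroup (AlgebraicClosure ℚ ≃ₐ[ℚ] AlgebraicClosure ℚ))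
    (τ₀ : AlgebraicClosure ℚ ≃ₐ[ℚ] AlgebraicClosure ℚ) : Prop where
  isOpen : IsOpen (N : Set (AlgebraicClosure ℚ ≃ₐ[ℚ] AlgebraicClosure ℚ))
  normal : N.Normal
  le_ker : N ≤ (ExtCitation.cycloChar p).ker
  mem_ker : τ₀ ∈ (ExtCitation.cycloChar p).ker
  not_mem : τ₀ ∉ N
  pow_mem : τ₀ ^ p ∈ N
  gen : ∀ τ ∈ (ExtCitation.cycloChar p).ker, ∃ j : ℕ, τ * τ₀ ^ j ∈ N
  conj : ∀ (σ τ : AlgebraicClosure ℚ ≃ₐ[ℚ] AlgebraicClosure ℚ) (k : ℕ),
    τ ∈ (ExtCitation.cycloChar p).ker →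
    (k : ZMod p) = ((ExtCitation.cycloChar p σ : (ZMod p)ˣ) : ZMod p) →
    σ⁻¹ * τ * σ * (τ ^ k)⁻¹ ∈ N
  inertia : ∀ ℓ : ℕ, ℓ.Prime → ℓ ≠ p → ∀ A : ValuationSubring (AlgebraicClosure ℚ),
    A.LiesOverPrime ℓ → A.inertiaSubgroupIn ℚ ≤ N
  decomp : ∀ A : ValuationSubring (AlgebraicClosure ℚ), A.LiesOverPrime p →
    ∀ σ ∈ A.decompositionSubgroup ℚ, σ ∈ (ExtCitation.cycloChar p).ker → σ ∈ N

/-- Kummer generator data -/
structure BkKummer (p : ℕ) [Fact p.Prime]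
    (N : Subgroup (AlgebraicClosure ℚ ≃ₐ[ℚ] AlgebraicClosure ℚ))
    (τ₀ : AlgebraicClosure ℚ ≃ₐ[ℚ] AlgebraicClosure ℚ) (ζ β : AlgebraicClosure ℚ) : Prop where
  prim : IsPrimitiveRoot ζ p
  integral : IsIntegral ℤ β
  ne_zero : β ≠ 0
  fixed : ∀ τ ∈ N, τ β = β
  gen : τ₀ β = ζ * β
  pow_mem : β ^ p ∈ IntermediateField.adjoin ℚ {ζ}
  eigen : ∀ (σ : AlgebraicClosure ℚ ≃ₐ[ℚ] AlgebraicClosure ℚ) (k : ℕ), σ ζ = ζ ^ k →
    ∃ γ ∈ IntermediateField.adjoin ℚ {ζ}, σ β = β ^ (k ^ 2) * γ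

/-- the algebra structure on the larger of two nested intermediate fields -/
@[reducible] noncomputable def bkAlg {K L : IntermediateField ℚ (AlgebraicClosure ℚ)}
    (h : K ≤ L) : Algebra K L :=
  (IntermediateField.inclusion h).toRingHom.toAlgebra

end Fermat.Agent.S14L
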