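import Mathlib
import Fermat.Agent.S14L.BookDefs

/-! S14 package B, leaf B2 (Kummer generator via a Lagrange resolvent). -/

set_option autoImplicit false

namespace Fermat.Agent.S14L

theorem bkum_pow_eq_pow_iff (p : ℕ) [Fact p.Prime] (ζ : AlgebraicClosure ℚ)
    (hζ : IsPrimitiveRoot ζ p) (a b : ℕ) : ζ ^ a = ζ ^ b ↔ (a : ZMod p) = (b : ZMod p) := by
  have hfin : IsOfFinOrder ζ := isOfFinOrder_iff_pow_eq_one.mpr
    ⟨p, (Fact.out : p.Prime).pos, hζ.pow_eq_one⟩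
  rw [hfin.pow_eq_pow_iff_modEq, ← hζ.eq_orderOf, ZMod.natCast_eq_natCast_iff]

theorem bkum_char_val (p : ℕ) [Fact p.Prime] (ζ : AlgebraicClosure ℚ) (hζ : IsPrimitiveRoot ζ p)
    (σ : AlgebraicClosure ℚ ≃ₐ[ℚ] AlgebraicClosure ℚ) :
    σ ζ = ζ ^ ((ExtCitation.cycloChar p σ : (ZMod p)ˣ) : ZMod p).val := by
  have : NeZero p := ⟨(Fact.out : p.Prime).ne_zero⟩
  have hu : (hζ.isUnit (NeZero.ne p)).unit ∈ rootsOfUnity p (AlgebraicClosure ℚ) := by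
    rw [mem_rootsOfUnity]
    ext
    simp [hζ.pow_eq_one]
  have := modularCyclotomicCharacter.spec (AlgebraicClosure ℚ)
    (ExtCitation.card_rootsOfUnity_eq_self p) (σ : AlgebraicClosure ℚ ≃+* AlgebraicClosure ℚ) hu
  simp at this
  exact this

theorem book_char_spec (p : ℕ) [Fact p.Prime] (ζ : AlgebraicClosure ℚ) (hζ : IsPrimitiveRoot ζ p)
    (σ : AlgebraicClosure ℚ ≃ₐ[ℚ] AlgebraicClosure ℚ) (k : ℕ) :
    σ ζ = ζ ^ k ↔ (k : ZMod p) = ((ExtCitation.cycloChar p σ : (ZMod p)ˣ) : ZMod p) := by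
  have : NeZero p := ⟨(Fact.out : p.Prime).ne_zero⟩
  rw [bkum_char_val p ζ hζ σ, bkum_pow_eq_pow_iff p ζ hζ,
    ZMod.natCast_val, ZMod.cast_id', id, eq_comm]

theorem book_ker_iff (p : ℕ) [Fact p.Prime] (ζ : AlgebraicClosure ℚ) (hζ : IsPrimitiveRoot ζ p)
    (σ : AlgebraicClosure ℚ ≃ₐ[ℚ] AlgebraicClosure ℚ) :
    σ ∈ (ExtCitation.cycloChar p).ker ↔ σ ζ = ζ := by
  have h := book_char_spec p ζ hζ σ 1
  rw [pow_one, Nat.cast_one] at h
  rw [h, MonoidHom.mem_ker, ← Units.val_eq_one, eq_comm]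

/-- Galois correspondence for `ℚ(ζ)`. -/
theorem book_mem_adjoin_iff (p : ℕ) [Fact p.Prime] (ζ : AlgebraicClosure ℚ)
    (hζ : IsPrimitiveRoot ζ p) (x : AlgebraicClosure ℚ) :
    x ∈ IntermediateField.adjoin ℚ {ζ} ↔
      ∀ σ ∈ (ExtCitation.cycloChar p).ker, σ x = x := by
  have halg : Algebra.IsAlgebraic ℚ (AlgebraicClosure ℚ) := AlgebraicClosure.isAlgebraic ℚ
  have hcl : IsAlgClosure ℚ (AlgebraicClosure ℚ) :=
    (inferInstance : @IsAlgClosure ℚ (AlgebraicClosure ℚ) _ _ (AlgebraicClosure.instAlgebra ℚ) _)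
  have hgal : IsGalois ℚ (AlgebraicClosure ℚ) := inferInstance
  have hfix : (IntermediateField.adjoin ℚ {ζ}).fixingSubgroup = (ExtCitation.cycloChar p).ker := by
    ext σ
    rw [book_ker_iff p ζ hζ σ, IntermediateField.mem_fixingSubgroup_iff]
    constructor
    · intro h
      exact h ζ (IntermediateField.mem_adjoin_simple_self ℚ ζ)
    · intro h y hy
      have hle : IntermediateField.adjoin ℚ {ζ} ≤ IntermediateField.fixedField (Subgroup.zpowers σ) := by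
        rw [IntermediateField.adjoin_simple_le_iff, IntermediateField.mem_fixedField_iff]
        intro τ hτ
        have hmem : τ ∈ MulAction.stabilizer (AlgebraicClosure ℚ ≃ₐ[ℚ] AlgebraicClosure ℚ) ζ :=
          (Subgroup.zpowers_le.mpr (MulAction.mem_stabilizer_iff.mpr h)) hτ
        exact MulAction.mem_stabilizer_iff.mp hmem
      exact (IntermediateField.mem_fixedField_iff _ _).mp (hle hy) σ (Subgroup.mem_zpowers σ)
  have h2 := InfiniteGalois.fixedField_fixingSubgroup (IntermediateField.adjoin ℚ {ζ})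
  rw [hfix] at h2
  conv_lhs => rw [← h2]
  rw [IntermediateField.mem_fixedField_iff]


theorem bkum_exists_prim (p : ℕ) [Fact p.Prime] :
    ∃ ζ : AlgebraicClosure ℚ, IsPrimitiveRoot ζ p := by
  have : NeZero p := ⟨(Fact.out : p.Prime).ne_zero⟩
  have : NeZero (p : AlgebraicClosure ℚ) := ⟨Nat.cast_ne_zero.mpr (NeZero.ne p)⟩
  exact HasEnoughRootsOfUnity.exists_primitiveRoot (AlgebraicClosure ℚ) p

theorem bkum_zpow_dvd (p : ℕ) [Fact p.Prime]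
    (N : Subgroup (AlgebraicClosure ℚ ≃ₐ[ℚ] AlgebraicClosure ℚ))
    (τ₀ : AlgebraicClosure ℚ ≃ₐ[ℚ] AlgebraicClosure ℚ) (h1 : τ₀ ∉ N) (h2 : τ₀ ^ p ∈ N)
    (d : ℤ) (hd : τ₀ ^ d ∈ N) : (p : ℤ) ∣ d := by
  by_contra hnd
  have hp : Prime (p : ℤ) := Nat.prime_iff_prime_int.mp (Fact.out : p.Prime)
  have hcop : IsCoprime (p : ℤ) d := (Prime.coprime_iff_not_dvd hp).mpr hnd
  obtain ⟨a, b, hab⟩ := hcop
  apply h1
  have : τ₀ = (τ₀ ^ p) ^ a * (τ₀ ^ d) ^ b := by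
    rw [← zpow_natCast, ← zpow_mul, ← zpow_mul, ← zpow_add, mul_comm (p : ℤ), mul_comm d, hab,
      zpow_one]
  rw [this]
  exact N.mul_mem (N.zpow_mem h2 a) (N.zpow_mem hd b)

theorem bkum_resolvent_exists (p : ℕ) [Fact p.Prime]
    (N : Subgroup (AlgebraicClosure ℚ ≃ₐ[ℚ] AlgebraicClosure ℚ))
    (τ₀ : AlgebraicClosure ℚ ≃ₐ[ℚ] AlgebraicClosure ℚ)
    (hop : IsOpen (N : Set (AlgebraicClosure ℚ ≃ₐ[ℚ] AlgebraicClosure ℚ)))
    (h1 : τ₀ ∉ N) (h2 : τ₀ ^ p ∈ N) (c : AlgebraicClosure ℚ) (hc : c ≠ 0) :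
    ∃ x : AlgebraicClosure ℚ, (∀ n ∈ N, n x = x) ∧
      ∑ i ∈ Finset.range p, c ^ i * (τ₀ ^ i) x ≠ 0 := by
  have halg : Algebra.IsAlgebraic ℚ (AlgebraicClosure ℚ) := AlgebraicClosure.isAlgebraic ℚ
  have hcl : IsAlgClosure ℚ (AlgebraicClosure ℚ) :=
    (inferInstance : @IsAlgClosure ℚ (AlgebraicClosure ℚ) _ _ (AlgebraicClosure.instAlgebra ℚ) _)
  have hgal : IsGalois ℚ (AlgebraicClosure ℚ) := inferInstance
  have hp : p.Prime := Fact.out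
  let L : IntermediateField ℚ (AlgebraicClosure ℚ) := IntermediateField.fixedField N
  have hfix : L.fixingSubgroup = N :=
    InfiniteGalois.fixingSubgroup_fixedField ⟨N, Subgroup.isClosed_of_isOpen N hop⟩
  let f : Fin p → (L →* AlgebraicClosure ℚ) := fun i =>
    (((τ₀ ^ (i : ℕ) : AlgebraicClosure ℚ ≃ₐ[ℚ] AlgebraicClosure ℚ) : 
      AlgebraicClosure ℚ →ₐ[ℚ] AlgebraicClosure ℚ).comp L.val : L →* AlgebraicClosure ℚ)
  have hfapp : ∀ i (x : L), f i x = (τ₀ ^ (i : ℕ)) (x : AlgebraicClosure ℚ) := fun i x => rfl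
  have hinj : Function.Injective f := by
    intro i j hij
    have hmem : τ₀ ^ ((j : ℤ) - (i : ℤ)) ∈ N := by
      rw [← hfix, IntermediateField.mem_fixingSubgroup_iff]
      intro x hx
      have h3 := DFunLike.congr_fun hij ⟨x, hx⟩
      rw [hfapp, hfapp] at h3
      rw [sub_eq_neg_add, zpow_add, zpow_neg, zpow_natCast, zpow_natCast, AlgEquiv.mul_apply]
      change (τ₀ ^ (i:ℕ))⁻¹ ((τ₀ ^ (j:ℕ)) x) = x
      rw [← h3]
      exact AlgEquiv.symm_apply_apply _ _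
    have hdvd := bkum_zpow_dvd p N τ₀ h1 h2 _ hmem
    have h0 := Int.eq_zero_of_abs_lt_dvd hdvd (by
      have := i.2; have := j.2; rw [abs_lt]; omega)
    apply Fin.ext; omega
  have hli : LinearIndependent (AlgebraicClosure ℚ)
      (fun i : Fin p => ((f i : L →* AlgebraicClosure ℚ) : L → AlgebraicClosure ℚ)) :=
    (linearIndependent_monoidHom L (AlgebraicClosure ℚ)).comp f hinj
  rw [Fintype.linearIndependent_iff] at hli
  by_contra hcon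
  push Not at hcon
  have := hli (fun i => c ^ (i : ℕ)) (by
    funext x
    rw [Finset.sum_apply]
    have h4 := hcon (x : AlgebraicClosure ℚ) (fun n hn => x.2 ⟨n, hn⟩)
    rw [← Fin.sum_univ_eq_sum_range (fun i => c ^ i * (τ₀ ^ i) (x : AlgebraicClosure ℚ))] at h4
    simpa [hfapp] using h4) ⟨0, hp.pos⟩
  exact pow_ne_zero _ hc this


theorem bkum_pow_apply (ζ β : AlgebraicClosure ℚ)
    (τ : AlgebraicClosure ℚ ≃ₐ[ℚ] AlgebraicClosure ℚ) (i : ℕ) (hζ : τ ζ = ζ)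
    (hβ : τ β = ζ ^ i * β) (k : ℕ) : (τ ^ k) β = ζ ^ (i * k) * β := by
  induction k with
  | zero => simp
  | succ k ih =>
    rw [pow_succ', AlgEquiv.mul_apply, ih, map_mul, map_pow, hζ, hβ]
    ring

theorem bkum_sum_shift (g : ℕ → AlgebraicClosure ℚ) (n : ℕ) (h : g n = g 0) :
    ∑ i ∈ Finset.range n, g (i + 1) = ∑ i ∈ Finset.range n, g i := by
  have h3 := Finset.sum_range_succ' g n
  rw [Finset.sum_range_succ, h] at h3
  exact (add_right_cancel h3).symm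

theorem bkum_pre (p : ℕ) [Fact p.Prime]
    (N : Subgroup (AlgebraicClosure ℚ ≃ₐ[ℚ] AlgebraicClosure ℚ))
    (τ₀ : AlgebraicClosure ℚ ≃ₐ[ℚ] AlgebraicClosure ℚ) (hG : BkGroup p N τ₀)
    (ζ : AlgebraicClosure ℚ) (hζ : IsPrimitiveRoot ζ p) :
    ∃ β : AlgebraicClosure ℚ, β ≠ 0 ∧ (∀ n ∈ N, n β = β) ∧ τ₀ β = ζ * β := by
  have hp : p.Prime := Fact.out
  have hζ0 : ζ ≠ 0 := hζ.ne_zero hp.ne_zero
  obtain ⟨x, hx, hne⟩ := bkum_resolvent_exists p N τ₀ hG.isOpen hG.not_mem hG.pow_mem ζ⁻¹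
    (inv_ne_zero hζ0)
  have hτζ : τ₀ ζ = ζ := (book_ker_iff p ζ hζ τ₀).mp hG.mem_ker
  refine ⟨_, hne, ?_, ?_⟩
  · intro n hn
    have hnζ : n ζ = ζ := (book_ker_iff p ζ hζ n).mp (hG.le_ker hn)
    rw [map_sum]
    refine Finset.sum_congr rfl (fun i _ => ?_)
    rw [map_mul, map_pow, map_inv₀, hnζ]
    congr 1
    have h := hx _ (hG.normal.conj_mem n hn (τ₀ ^ i)⁻¹)
    rw [inv_inv, AlgEquiv.mul_apply, AlgEquiv.mul_apply] at h
    have h' := congrArg (τ₀ ^ i) h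
    change (τ₀ ^ i) ((τ₀ ^ i).symm _) = _ at h'
    rw [AlgEquiv.apply_symm_apply] at h'
    exact h'
  · have hpx : (τ₀ ^ p) x = x := hx _ hG.pow_mem
    have e1 : τ₀ (∑ i ∈ Finset.range p, ζ⁻¹ ^ i * (τ₀ ^ i) x) =
        ∑ i ∈ Finset.range p, (fun j => ζ * ζ⁻¹ ^ j * (τ₀ ^ j) x) (i + 1) := by
      rw [map_sum]
      refine Finset.sum_congr rfl (fun i _ => ?_)
      rw [map_mul, map_pow, map_inv₀, hτζ]
      change _ = ζ * ζ⁻¹ ^ (i + 1) * (τ₀ ^ (i + 1)) x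
      rw [pow_succ' τ₀, AlgEquiv.mul_apply, pow_succ]
      congr 1
      field_simp
    have e2 : ∑ i ∈ Finset.range p, (fun j => ζ * ζ⁻¹ ^ j * (τ₀ ^ j) x) (i + 1) =
        ∑ i ∈ Finset.range p, (fun j => ζ * ζ⁻¹ ^ j * (τ₀ ^ j) x) i := by
      refine bkum_sum_shift (fun j => ζ * ζ⁻¹ ^ j * (τ₀ ^ j) x) p ?_
      rw [hpx, inv_pow, hζ.pow_eq_one, pow_zero, inv_one, pow_zero]
      rfl
    rw [e1, e2, Finset.mul_sum]
    refine Finset.sum_congr rfl (fun i _ => ?_)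
    ring

theorem bkum_core (p : ℕ) [Fact p.Prime]
    (N : Subgroup (AlgebraicClosure ℚ ≃ₐ[ℚ] AlgebraicClosure ℚ))
    (τ₀ : AlgebraicClosure ℚ ≃ₐ[ℚ] AlgebraicClosure ℚ) (hG : BkGroup p N τ₀)
    (ζ : AlgebraicClosure ℚ) (hζ : IsPrimitiveRoot ζ p) (β : AlgebraicClosure ℚ)
    (hint : IsIntegral ℤ β) (h0 : β ≠ 0) (hfix : ∀ n ∈ N, n β = β) (hgen : τ₀ β = ζ * β) :
    BkKummer p N τ₀ ζ β := by
  have hp : p.Prime := Fact.out
  have hζ0 : ζ ≠ 0 := hζ.ne_zero hp.ne_zero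
  have hτζ : τ₀ ζ = ζ := (book_ker_iff p ζ hζ τ₀).mp hG.mem_ker
  have hH : ∀ τ ∈ (ExtCitation.cycloChar p).ker, ∃ i : ℕ, τ β = ζ ^ i * β := by
    intro τ hτ
    obtain ⟨j, hj⟩ := hG.gen τ hτ
    have hτζ' : τ ζ = ζ := (book_ker_iff p ζ hζ τ).mp hτ
    have h1 := hfix _ hj
    rw [AlgEquiv.mul_apply, bkum_pow_apply ζ β τ₀ 1 hτζ (by rw [pow_one, hgen]) j, one_mul,
      map_mul, map_pow, hτζ'] at h1
    refine ⟨(p - 1) * j, ?_⟩
    have h2 : ζ ^ ((p - 1) * j) * ζ ^ j = 1 := by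
      rw [← pow_add, ← add_one_mul, Nat.sub_add_cancel hp.one_le, pow_mul, hζ.pow_eq_one, one_pow]
    calc τ β = ζ ^ ((p - 1) * j) * ζ ^ j * τ β := by rw [h2, one_mul]
      _ = ζ ^ ((p - 1) * j) * β := by rw [mul_assoc, h1]
  refine ⟨hζ, hint, h0, hfix, hgen, ?_, ?_⟩
  · rw [book_mem_adjoin_iff p ζ hζ]
    intro τ hτ
    obtain ⟨i, hi⟩ := hH τ hτ
    rw [map_pow, hi, mul_pow, ← pow_mul, mul_comm i p, pow_mul, hζ.pow_eq_one, one_pow, one_mul]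
  · intro σ k hk
    have hkχ := (book_char_spec p ζ hζ σ k).mp hk
    refine ⟨σ β / β ^ (k ^ 2), ?_, ?_⟩
    · rw [book_mem_adjoin_iff p ζ hζ]
      intro τ hτ
      obtain ⟨i, hi⟩ := hH τ hτ
      have hτζ' : τ ζ = ζ := (book_ker_iff p ζ hζ τ).mp hτ
      have hn := hG.conj σ τ k hτ hkχ
      have hnζ := (book_ker_iff p ζ hζ _).mp (hG.le_ker hn)
      have h1 := hfix _ hn
      have h2 : (σ⁻¹ * τ * σ) β = ζ ^ (i * k) * β := by
        have h3 : σ⁻¹ * τ * σ = (σ⁻¹ * τ * σ * (τ ^ k)⁻¹) * τ ^ k := by group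
        rw [h3, AlgEquiv.mul_apply, bkum_pow_apply ζ β τ i hτζ' hi k, map_mul, map_pow, hnζ, h1]
      have h4 : τ (σ β) = ζ ^ (i * k ^ 2) * σ β := by
        have h5 : τ (σ β) = σ ((σ⁻¹ * τ * σ) β) := by
          rw [AlgEquiv.mul_apply, AlgEquiv.mul_apply]
          change _ = σ (σ.symm _)
          rw [AlgEquiv.apply_symm_apply]
        rw [h5, h2, map_mul, map_pow, hk, ← pow_mul]
        congr 2
        ring
      rw [map_div₀, map_pow, h4, hi, mul_pow, ← pow_mul]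
      have : ζ ^ (i * k ^ 2) ≠ 0 := pow_ne_zero _ hζ0
      field_simp
    · field_simp

theorem book_kummer (p : ℕ) [Fact p.Prime]
    (N : Subgroup (AlgebraicClosure ℚ ≃ₐ[ℚ] AlgebraicClosure ℚ))
    (τ₀ : AlgebraicClosure ℚ ≃ₐ[ℚ] AlgebraicClosure ℚ) (hG : BkGroup p N τ₀) :
    ∃ ζ β : AlgebraicClosure ℚ, BkKummer p N τ₀ ζ β := by
  obtain ⟨ζ, hζ⟩ := bkum_exists_prim p
  obtain ⟨β₀, h0, hfix, hgen⟩ := bkum_pre p N τ₀ hG ζ hζ
  have halg : IsAlgebraic ℤ β₀ :=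
    (IsFractionRing.isAlgebraic_iff ℤ ℚ (AlgebraicClosure ℚ)).mpr
      ((AlgebraicClosure.isAlgebraic ℚ).isAlgebraic β₀)
  obtain ⟨m, hm, hint⟩ := halg.exists_integral_multiple
  rw [zsmul_eq_mul] at hint
  refine ⟨ζ, (m : AlgebraicClosure ℚ) * β₀, bkum_core p N τ₀ hG ζ hζ _ hint
    (mul_ne_zero (Int.cast_ne_zero.mpr hm) h0) ?_ ?_⟩
  · intro n hn
    rw [map_mul, map_intCast, hfix n hn]
  · rw [map_mul, map_intCast, hgen]
    ring

end Fermat.Agent.S14L
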