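import Mathlib
import Fermat.Agent.S14L.BookDefs
import Fermat.Agent.S14L.BookKum
import Fermat.Agent.S13L.GlbVal
import Fermat.Agent.S13L.GlbField
import Fermat.Agent.S13L.GlbLift

/-! S14 package B, leaf B5: auxiliary lemmas for the bridge. -/

set_option autoImplicit false

open NumberField
open scoped Pointwise

namespace Fermat.Agent.S14L

attribute [local instance] FermatAgent.Frob.actB
attribute [local instance] FermatAgent.Frob.isAlgebraic_Qb
  FermatAgent.Frob.isAlgClosure_Qb FermatAgent.Frob.isGalois_Qb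

local notation "Qb" => AlgebraicClosure ℚ
local notation "Gq" => (AlgebraicClosure ℚ ≃ₐ[ℚ] AlgebraicClosure ℚ)
local notation "Bz" => integralClosure ℤ (AlgebraicClosure ℚ)

theorem bkbr_isClosed (N : Subgroup Gq) (hop : IsOpen (N : Set Gq)) : IsClosed (N : Set Gq) :=
  Subgroup.isClosed_of_isOpen N hop

theorem bkbr_fix (N : Subgroup Gq) (hop : IsOpen (N : Set Gq)) :
    (IntermediateField.fixedField N).fixingSubgroup = N :=
  InfiniteGalois.fixingSubgroup_fixedField ⟨N, bkbr_isClosed N hop⟩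

theorem bkbr_fd (N : Subgroup Gq) (hop : IsOpen (N : Set Gq)) :
    FiniteDimensional ℚ (IntermediateField.fixedField N) := by
  rw [← InfiniteGalois.isOpen_iff_finite, bkbr_fix N hop]
  exact hop

theorem bkbr_nf (N : Subgroup Gq) (hop : IsOpen (N : Set Gq)) :
    NumberField (IntermediateField.fixedField N) :=
  { to_charZero := inferInstance, to_finiteDimensional := bkbr_fd N hop }

theorem bkbr_gal (N : Subgroup Gq) (hn : N.Normal) (hop : IsOpen (N : Set Gq)) :
    IsGalois ℚ (IntermediateField.fixedField N) := by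
  have h1 := (InfiniteGalois.normal_iff_isGalois (IntermediateField.fixedField N)).mp
    (by rw [bkbr_fix N hop]; exact hn)
  convert h1
  exact Subsingleton.elim _ _

theorem bkbr_nfK (ζ : Qb) : NumberField (IntermediateField.adjoin ℚ {ζ}) :=
  { to_charZero := inferInstance
    to_finiteDimensional :=
      IntermediateField.adjoin.finiteDimensional (Algebra.IsIntegral.isIntegral ζ) }

theorem bkbr_le (p : ℕ) [Fact p.Prime] (N : Subgroup Gq) (ζ : Qb) (hζ : IsPrimitiveRoot ζ p)
    (hle : N ≤ (ExtCitation.cycloChar p).ker) :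
    IntermediateField.adjoin ℚ {ζ} ≤ IntermediateField.fixedField N := by
  rw [IntermediateField.adjoin_simple_le_iff, IntermediateField.mem_fixedField_iff]
  intro σ hσ
  exact (book_ker_iff p ζ hζ σ).mp (hle hσ)

/-- an element of `Gq` fixing `L` pointwise lies in `N`. -/
theorem bkbr_mem_of_fix (N : Subgroup Gq) (hop : IsOpen (N : Set Gq)) (g : Gq)
    (hg : ∀ x ∈ IntermediateField.fixedField N, g x = x) : g ∈ N := by
  rw [← bkbr_fix N hop, IntermediateField.mem_fixingSubgroup_iff]
  exact hg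

theorem bkbr_lift (L : IntermediateField ℚ Qb) [Normal ℚ L] (τ : L ≃ₐ[ℚ] L) :
    ∃ g : Gq, ∀ x : L, g (x : Qb) = ((τ x : L) : Qb) := by
  obtain ⟨g, hg⟩ := AlgEquiv.restrictNormalHom_surjective (F := ℚ) (K₁ := L) Qb τ
  refine ⟨g, fun x => ?_⟩
  have h2 := AlgEquiv.restrictNormal_commutes g L x
  rw [← hg]
  exact h2.symm

/-- invariants of `N` in `ℤ̄` come from `𝓞 L`. -/
theorem bkbr_inv (N : Subgroup Gq) (b : Bz) (hb : ∀ h ∈ N, h • b = b) :
    ∃ x : 𝓞 (IntermediateField.fixedField N),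
      Fermat.Agent.S13L.glbf_incl (IntermediateField.fixedField N) x = b := by
  have hbK : (b : Qb) ∈ IntermediateField.fixedField N := by
    rw [IntermediateField.mem_fixedField_iff]
    intro h hh
    have := hb h hh
    rw [← FermatAgent.Frob.coe_smul, this]
  have hint : IsIntegral ℤ (⟨(b : Qb), hbK⟩ : IntermediateField.fixedField N) := by
    have h1 : IsIntegral ℤ (algebraMap (IntermediateField.fixedField N) Qb ⟨(b : Qb), hbK⟩) := b.2
    exact (isIntegral_algebraMap_iff
      (algebraMap (IntermediateField.fixedField N) Qb).injective).mp h1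
  exact ⟨⟨⟨(b : Qb), hbK⟩, hint⟩, Subtype.ext rfl⟩

theorem bkbr_incl_fixed (N : Subgroup Gq) (x : 𝓞 (IntermediateField.fixedField N)) :
    ∀ h ∈ N, h • Fermat.Agent.S13L.glbf_incl (IntermediateField.fixedField N) x =
      Fermat.Agent.S13L.glbf_incl (IntermediateField.fixedField N) x := by
  intro h hh
  apply Subtype.ext
  rw [FermatAgent.Frob.coe_smul, Fermat.Agent.S13L.glbf_incl_coe]
  have := (x : IntermediateField.fixedField N).2
  rw [IntermediateField.mem_fixedField_iff] at this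
  exact this h hh

theorem bkbr_incl_inj (L : IntermediateField ℚ Qb) :
    Function.Injective (Fermat.Agent.S13L.glbf_incl L) := by
  intro x y hxy
  have := congrArg (fun b : Bz => (b : Qb)) hxy
  simp only [Fermat.Agent.S13L.glbf_incl_coe] at this
  exact RingOfIntegers.ext (Subtype.ext this)

/-- compatibility of the two actions -/
theorem bkbr_incl_smul (L : IntermediateField ℚ Qb) (g : Gq) (τ : L ≃+* L)
    (h : ∀ x : L, g (x : Qb) = ((τ x : L) : Qb)) (x : 𝓞 L) :
    g • Fermat.Agent.S13L.glbf_incl L x =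
      Fermat.Agent.S13L.glbf_incl L (RingOfIntegers.mapRingEquiv τ x) := by
  apply Subtype.ext
  rw [FermatAgent.Frob.coe_smul, Fermat.Agent.S13L.glbf_incl_coe,
    Fermat.Agent.S13L.glbf_incl_coe, RingOfIntegers.mapRingEquiv_apply]
  exact h _

/-- a prime of `ℤ̄` over a prime of `𝓞 L`. -/
theorem bkbr_exists_over (L : IntermediateField ℚ Qb) (P : Ideal (𝓞 L)) [P.IsPrime] :
    ∃ Q : Ideal Bz, Q.IsPrime ∧ Q.comap (Fermat.Agent.S13L.glbf_incl L) = P := by
  let _ : Algebra (𝓞 L) Bz := (Fermat.Agent.S13L.glbf_incl L).toAlgebra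
  have hint : Algebra.IsIntegral (𝓞 L) Bz := by
    refine ⟨fun b => ?_⟩
    have hb : IsIntegral ℤ b := by
      have := b.2
      exact (isIntegral_algebraMap_iff (B := Qb) (Subtype.val_injective)).mp this
    exact hb.tower_top
  have hker : RingHom.ker (algebraMap (𝓞 L) Bz) ≤ P := by
    intro x hx
    rw [RingHom.mem_ker] at hx
    have : x = 0 := bkbr_incl_inj L (hx.trans (map_zero _).symm)
    rw [this]
    exact P.zero_mem
  exact Ideal.exists_ideal_over_prime_of_isIntegral_of_isDomain P hker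

/-- `valSub Q` lies over `ℓ` when `ℓ ∈ Q`. -/
theorem bkbr_liesOver (Q : Ideal Bz) [Q.IsPrime] (ℓ : ℕ) (hℓ : (ℓ : Bz) ∈ Q) :
    (FermatAgent.Frob.valSub Q).LiesOverPrime ℓ := by
  have := FermatAgent.Frob.coe_mem_nonunits Q (ℓ : Bz) hℓ
  simpa [ValuationSubring.LiesOverPrime] using this

theorem bkbr_mem_of_pow {G : Type*} [Group G] (N : Subgroup G) (t : G) (p i : ℕ) (hp : p.Prime)
    (hi0 : 0 < i) (hip : i < p) (h1 : t ^ p ∈ N) (h2 : t ^ i ∈ N) : t ∈ N := by
  have hc : Nat.Coprime i p :=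
    Nat.Coprime.symm ((Nat.Prime.coprime_iff_not_dvd hp).mpr (Nat.not_dvd_of_pos_of_lt hi0 hip))
  have hb := Nat.gcd_eq_gcd_ab i p
  rw [hc] at hb
  have ht : t = (t ^ i) ^ (Nat.gcdA i p) * (t ^ p) ^ (Nat.gcdB i p) := by
    rw [← zpow_natCast t i, ← zpow_natCast t p, ← zpow_mul, ← zpow_mul, ← zpow_add, ← hb]
    simp
  rw [ht]
  exact N.mul_mem (N.zpow_mem h2 _) (N.zpow_mem h1 _)

/-- Bridge I: inertia away from `p` is trivial in `Gal(L/ℚ)`. -/
theorem bkbr_bridgeI (p : ℕ) [Fact p.Prime] (N : Subgroup Gq) (τ₀ : Gq) (hG : BkGroup p N τ₀)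
    (ℓ : ℕ) (hℓ : ℓ.Prime) (hne : ℓ ≠ p)
    (P : Ideal (𝓞 (IntermediateField.fixedField N))) (hP : P.IsPrime)
    (hℓP : (ℓ : 𝓞 (IntermediateField.fixedField N)) ∈ P)
    (τ : IntermediateField.fixedField N ≃ₐ[ℚ] IntermediateField.fixedField N)
    (hτ : ∀ x : 𝓞 (IntermediateField.fixedField N),
      RingOfIntegers.mapRingEquiv
        (τ : IntermediateField.fixedField N ≃+* IntermediateField.fixedField N) x - x ∈ P) :
    τ = 1 := by
  have hop := hG.isOpen
  have hcl := bkbr_isClosed N hop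
  have hgal := bkbr_gal N hG.normal hop
  obtain ⟨Q, hQ, hQP⟩ := bkbr_exists_over _ P
  obtain ⟨g, hg⟩ := bkbr_lift _ τ
  have hgb : ∀ b : Bz, (∀ h ∈ N, h • b = b) → g • b - b ∈ Q := by
    intro b hb
    obtain ⟨x, rfl⟩ := bkbr_inv N b hb
    rw [bkbr_incl_smul _ g
      (τ : IntermediateField.fixedField N ≃+* IntermediateField.fixedField N) hg x, ← map_sub]
    have := hτ x
    rw [← hQP] at this
    exact this
  obtain ⟨h, hh, hstab, htriv⟩ := Fermat.Agent.S13L.glb_lift N hG.normal hcl Q g hgb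
  have hσ := Fermat.Agent.S13L.glb_mem_inertia Q (h * g) hstab htriv
  have hℓQ : (ℓ : Bz) ∈ Q := by
    have : (ℓ : 𝓞 (IntermediateField.fixedField N)) ∈
        Q.comap (Fermat.Agent.S13L.glbf_incl (IntermediateField.fixedField N)) := by
      rw [hQP]; exact hℓP
    rw [Ideal.mem_comap, map_natCast] at this
    exact this
  have hmem : h * g ∈ N := hG.inertia ℓ hℓ hne _ (bkbr_liesOver Q ℓ hℓQ) hσ
  have hgN : g ∈ N := (Subgroup.mul_mem_cancel_left N hh).mp hmem
  ext x
  rw [AlgEquiv.one_apply, ← hg x]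
  have := x.2
  rw [IntermediateField.mem_fixedField_iff] at this
  exact this g hgN

/-- Bridge II: a power `τ₀ ^ i`, `0 < i < p`, moves every prime of `𝓞 L` above `p`. -/
theorem bkbr_bridgeII (p : ℕ) [Fact p.Prime] (N : Subgroup Gq) (τ₀ : Gq) (hG : BkGroup p N τ₀)
    (i : ℕ) (hi0 : 0 < i) (hip : i < p)
    (P : Ideal (𝓞 (IntermediateField.fixedField N))) (hP : P.IsPrime)
    (hpP : (p : 𝓞 (IntermediateField.fixedField N)) ∈ P)
    (e : IntermediateField.fixedField N ≃+* IntermediateField.fixedField N)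
    (he : ∀ x : IntermediateField.fixedField N, (τ₀ ^ i) (x : Qb) = ((e x :
      IntermediateField.fixedField N) : Qb)) :
    Ideal.map (RingOfIntegers.mapRingEquiv e) P ≠ P := by
  intro hmap
  have hop := hG.isOpen
  have hcl := bkbr_isClosed N hop
  obtain ⟨Q, hQ, hQP⟩ := bkbr_exists_over _ P
  have hprime : ((τ₀ ^ i) • Q).IsPrime := inferInstance
  have hxP : ∀ y, Fermat.Agent.S13L.glbf_incl (IntermediateField.fixedField N) y ∈ Q ↔ y ∈ P :=
    fun y => by rw [← hQP, Ideal.mem_comap]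
  have hunder : ((τ₀ ^ i) • Q).under (FixedPoints.subalgebra ℤ Bz N)
      = Q.under (FixedPoints.subalgebra ℤ Bz N) := by
    ext ⟨b, hb⟩
    have hb' : ∀ h ∈ N, h • b = b := fun h hh => hb ⟨h, hh⟩
    simp only [Ideal.under_def, Ideal.mem_comap]
    show b ∈ (τ₀ ^ i) • Q ↔ b ∈ Q
    obtain ⟨x, rfl⟩ := bkbr_inv N b hb'
    have key : (τ₀ ^ i)⁻¹ • Fermat.Agent.S13L.glbf_incl (IntermediateField.fixedField N) x =
        Fermat.Agent.S13L.glbf_incl (IntermediateField.fixedField N)
          ((RingOfIntegers.mapRingEquiv e).symm x) := by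
      rw [inv_smul_eq_iff, bkbr_incl_smul _ (τ₀ ^ i) e he, RingEquiv.apply_symm_apply]
    rw [hxP, Ideal.mem_pointwise_smul_iff_inv_smul_mem, key, hxP]
    constructor
    · intro h
      rw [← hmap]
      have := Ideal.mem_map_of_mem (RingOfIntegers.mapRingEquiv e) h
      simpa using this
    · intro h
      rw [← hmap, Ideal.mem_map_of_equiv] at h
      obtain ⟨y, hy, rfl⟩ := h
      rw [RingEquiv.symm_apply_apply]
      exact hy
  obtain ⟨h, hh⟩ := Fermat.Agent.S13L.glbl_trans N hcl ((τ₀ ^ i) • Q) Q hunder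
  have hstab : ((h : Gq) * τ₀ ^ i) • Q = Q := by
    rw [mul_smul]
    exact hh.symm
  have hdec := FermatAgent.Frob.mem_decomp Q _ hstab
  have hker : (h : Gq) * τ₀ ^ i ∈ (ExtCitation.cycloChar p).ker :=
    mul_mem (hG.le_ker h.2) (pow_mem hG.mem_ker i)
  have hpQ : (p : Bz) ∈ Q := by
    have : (p : 𝓞 (IntermediateField.fixedField N)) ∈
        Q.comap (Fermat.Agent.S13L.glbf_incl (IntermediateField.fixedField N)) := by
      rw [hQP]; exact hpP
    rw [Ideal.mem_comap, map_natCast] at this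
    exact this
  have hmem := hG.decomp (FermatAgent.Frob.valSub Q) (bkbr_liesOver Q p hpQ) _ hdec hker
  have hgN : τ₀ ^ i ∈ N := (Subgroup.mul_mem_cancel_left N h.2).mp hmem
  exact hG.not_mem (bkbr_mem_of_pow N τ₀ p i Fact.out hi0 hip hG.pow_mem hgN)

/-- restriction of an element of `Gq` fixing `K` to a `K`-automorphism of `L`. -/
theorem bkbr_exists_res {K L : IntermediateField ℚ Qb} (hKL : K ≤ L) [Normal ℚ L] (g : Gq)
    (hg : ∀ x ∈ K, g x = x) :
    letI : Algebra K L := bkAlg hKL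
    ∃ t : L ≃ₐ[K] L, ∀ x : L, ((t x : L) : Qb) = g (x : Qb) := by
  let _ : Algebra K L := bkAlg hKL
  refine ⟨AlgEquiv.ofRingEquiv (f := (g.restrictNormal L).toRingEquiv) ?_, ?_⟩
  · intro k
    apply Subtype.ext
    have h2 := AlgEquiv.restrictNormal_commutes g L (algebraMap K L k)
    exact h2.trans (hg _ k.2)
  · intro x
    exact AlgEquiv.restrictNormal_commutes g L x

theorem bkbr_res_pow {K L : IntermediateField ℚ Qb} (hKL : K ≤ L) (g : Gq) :
    letI : Algebra K L := bkAlg hKL
    ∀ t : L ≃ₐ[K] L, (∀ x : L, ((t x : L) : Qb) = g (x : Qb)) →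
      ∀ (i : ℕ) (x : L), (((t ^ i) x : L) : Qb) = (g ^ i) (x : Qb) := by
  let _ : Algebra K L := bkAlg hKL
  intro t ht i
  induction i with
  | zero => intro x; simp
  | succ n ih =>
    intro x
    rw [pow_succ, pow_succ, AlgEquiv.mul_apply, AlgEquiv.mul_apply, ih, ht]

/-- `[L : ℚ(ζ)] = p`. -/
theorem bkbr_finrank (p : ℕ) [Fact p.Prime] (N : Subgroup Gq) (τ₀ : Gq) (ζ β : Qb)
    (hG : BkGroup p N τ₀) (hK : BkKummer p N τ₀ ζ β)
    (hKL : IntermediateField.adjoin ℚ {ζ} ≤ IntermediateField.fixedField N) :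
    letI : Algebra (IntermediateField.adjoin ℚ {ζ}) (IntermediateField.fixedField N) :=
      bkAlg hKL
    Module.finrank (IntermediateField.adjoin ℚ {ζ}) (IntermediateField.fixedField N) = p := by
  let _ : Algebra (IntermediateField.adjoin ℚ {ζ}) (IntermediateField.fixedField N) :=
    bkAlg hKL
  have hgal := bkbr_gal N hG.normal hG.isOpen
  have hfd := bkbr_fd N hG.isOpen
  have : IsScalarTower ℚ (IntermediateField.adjoin ℚ {ζ}) (IntermediateField.fixedField N) :=
    IsScalarTower.of_algebraMap_eq (fun q => rfl)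
  have : IsGalois (IntermediateField.adjoin ℚ {ζ}) (IntermediateField.fixedField N) :=
    IsGalois.tower_top_of_isGalois ℚ _ _
  have : FiniteDimensional (IntermediateField.adjoin ℚ {ζ}) (IntermediateField.fixedField N) :=
    FiniteDimensional.right ℚ _ _
  rw [← IsGalois.card_aut_eq_finrank (IntermediateField.adjoin ℚ {ζ})
    (IntermediateField.fixedField N)]
  have hfixL : ∀ n ∈ N, ∀ x : IntermediateField.fixedField N, n (x : Qb) = x := by
    intro n hn x
    have := x.2
    rw [IntermediateField.mem_fixedField_iff] at this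
    exact this n hn
  have hτK : ∀ x ∈ IntermediateField.adjoin ℚ {ζ}, τ₀ x = x := fun x hx =>
    (book_mem_adjoin_iff p ζ hK.prim x).mp hx τ₀ hG.mem_ker
  obtain ⟨t, ht⟩ := bkbr_exists_res hKL τ₀ hτK
  have htp := bkbr_res_pow hKL τ₀ t ht
  have h1 : t ^ p = 1 := by
    ext x
    rw [htp, AlgEquiv.one_apply]
    exact hfixL _ hG.pow_mem x
  have hβL : β ∈ IntermediateField.fixedField N := by
    rw [IntermediateField.mem_fixedField_iff]
    exact hK.fixed
  have h2 : t ≠ 1 := by
    intro h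
    have h3 := ht ⟨β, hβL⟩
    rw [h, AlgEquiv.one_apply, hK.gen] at h3
    have h4 : ζ = 1 := by
      have h5 : (ζ - 1) * β = 0 := by linear_combination -h3
      rcases mul_eq_zero.mp h5 with h6 | h6
      · exact sub_eq_zero.mp h6
      · exact absurd h6 hK.ne_zero
    exact hK.prim.ne_one (Fact.out : p.Prime).one_lt h4
  have hord : orderOf t = p := orderOf_eq_prime h1 h2
  have hζL : ζ ∈ IntermediateField.adjoin ℚ {ζ} := IntermediateField.mem_adjoin_simple_self ℚ ζ
  have htop : Subgroup.zpowers t = ⊤ := by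
    rw [eq_top_iff]
    intro s _
    obtain ⟨g, hg⟩ := bkbr_lift (IntermediateField.fixedField N) (s.restrictScalars ℚ)
    have hgζ : g ζ = ζ := by
      have h3 := hg (algebraMap (IntermediateField.adjoin ℚ {ζ})
        (IntermediateField.fixedField N) ⟨ζ, hζL⟩)
      rw [AlgEquiv.restrictScalars_apply, AlgEquiv.commutes] at h3
      exact h3
    have hgH : g ∈ (ExtCitation.cycloChar p).ker := (book_ker_iff p ζ hK.prim g).mpr hgζ
    obtain ⟨j, hj⟩ := hG.gen g hgH
    have hs : s * t ^ j = 1 := by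
      ext x
      rw [AlgEquiv.mul_apply, AlgEquiv.one_apply]
      have h3 := hg ((t ^ j) x)
      rw [AlgEquiv.restrictScalars_apply] at h3
      rw [← h3, htp, ← AlgEquiv.mul_apply]
      exact hfixL _ hj x
    rw [Subgroup.mem_zpowers_iff]
    refine ⟨-(j : ℤ), ?_⟩
    rw [zpow_neg, zpow_natCast]
    exact (eq_inv_of_mul_eq_one_left hs).symm
  calc Nat.card (IntermediateField.fixedField N ≃ₐ[IntermediateField.adjoin ℚ {ζ}]
        IntermediateField.fixedField N)
      = Nat.card (⊤ : Subgroup (IntermediateField.fixedField N ≃ₐ[IntermediateField.adjoin ℚ {ζ}]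
        IntermediateField.fixedField N)) := (Subgroup.card_top).symm
    _ = Nat.card (Subgroup.zpowers t) := by rw [htop]
    _ = orderOf t := Nat.card_zpowers t
    _ = p := hord

end Fermat.Agent.S14L
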