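import Mathlib
import Fermat.Agent.S14L.BookDefs
import Fermat.Agent.S14L.BookKum
import Fermat.Agent.S13L.GlbVal
import Fermat.Agent.S13L.GlbField
import Fermat.Agent.S13L.GlbLift
import Fermat.Agent.S14L.BookBridgeAux

/-! S14 package B, leaf B5 (bridge between `Gal(ℚ̄/ℚ)`, valuation subrings of `ℚ̄` and the
number fields `ℚ(ζ) ⊆ L = ℚ̄^N`).  INTERFACE STUB. -/

set_option autoImplicit false

open NumberField

namespace Fermat.Agent.S14L

theorem bk_bridge (p : ℕ) [Fact p.Prime]
    (N : Subgroup (AlgebraicClosure ℚ ≃ₐ[ℚ] AlgebraicClosure ℚ))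
    (τ₀ : AlgebraicClosure ℚ ≃ₐ[ℚ] AlgebraicClosure ℚ) (ζ β : AlgebraicClosure ℚ)
    (hG : BkGroup p N τ₀) (hK : BkKummer p N τ₀ ζ β) :
    ∃ (hKL : IntermediateField.adjoin ℚ {ζ} ≤ IntermediateField.fixedField N)
      (_ : NumberField (IntermediateField.fixedField N))
      (_ : NumberField (IntermediateField.adjoin ℚ {ζ}))
      (_ : IsGalois ℚ (IntermediateField.fixedField N)),
      letI : Algebra (IntermediateField.adjoin ℚ {ζ}) (IntermediateField.fixedField N) :=
        bkAlg hKL
      Module.finrank (IntermediateField.adjoin ℚ {ζ}) (IntermediateField.fixedField N) = p ∧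
      (∃ b : 𝓞 (IntermediateField.fixedField N),
        ((b : IntermediateField.fixedField N) : AlgebraicClosure ℚ) = β) ∧
      (∀ ℓ : ℕ, ℓ.Prime → ℓ ≠ p → ∀ P : Ideal (𝓞 (IntermediateField.fixedField N)), P.IsPrime →
        (ℓ : 𝓞 (IntermediateField.fixedField N)) ∈ P →
        ∀ τ : IntermediateField.fixedField N ≃ₐ[ℚ] IntermediateField.fixedField N,
          (∀ x : 𝓞 (IntermediateField.fixedField N),
            RingOfIntegers.mapRingEquiv
              (τ : IntermediateField.fixedField N ≃+* IntermediateField.fixedField N) x - x ∈ P) →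
          τ = 1) ∧
      (∃ t : IntermediateField.fixedField N ≃ₐ[IntermediateField.adjoin ℚ {ζ}]
          IntermediateField.fixedField N,
        ∀ P : Ideal (𝓞 (IntermediateField.fixedField N)), P.IsPrime →
          (p : 𝓞 (IntermediateField.fixedField N)) ∈ P → ∀ i : ℕ, 0 < i → i < p →
          Ideal.map (RingOfIntegers.mapRingEquiv
            ((t ^ i : IntermediateField.fixedField N ≃ₐ[IntermediateField.adjoin ℚ {ζ}]
              IntermediateField.fixedField N) :
              IntermediateField.fixedField N ≃+* IntermediateField.fixedField N)) P ≠ P) := by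
  have hKL := bkbr_le p N ζ hK.prim hG.le_ker
  have hgal := bkbr_gal N hG.normal hG.isOpen
  refine ⟨hKL, bkbr_nf N hG.isOpen, bkbr_nfK ζ, hgal, ?_, ?_, ?_, ?_⟩
  · exact bkbr_finrank p N τ₀ ζ β hG hK hKL
  · have hβL : β ∈ IntermediateField.fixedField N := by
      rw [IntermediateField.mem_fixedField_iff]
      exact hK.fixed
    have hint : IsIntegral ℤ (⟨β, hβL⟩ : IntermediateField.fixedField N) := by
      have h1 : IsIntegral ℤ (algebraMap (IntermediateField.fixedField N)
        (AlgebraicClosure ℚ) ⟨β, hβL⟩) := hK.integral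
      exact (isIntegral_algebraMap_iff
        (algebraMap (IntermediateField.fixedField N) (AlgebraicClosure ℚ)).injective).mp h1
    exact ⟨⟨⟨β, hβL⟩, hint⟩, rfl⟩
  · intro ℓ hℓ hne P hP hℓP τ hτ
    exact bkbr_bridgeI p N τ₀ hG ℓ hℓ hne P hP hℓP τ hτ
  · have hτK : ∀ x ∈ IntermediateField.adjoin ℚ {ζ}, τ₀ x = x := fun x hx =>
      (book_mem_adjoin_iff p ζ hK.prim x).mp hx τ₀ hG.mem_ker
    obtain ⟨t, ht⟩ := bkbr_exists_res hKL τ₀ hτK
    refine ⟨t, ?_⟩
    intro P hP hpP i hi0 hip
    refine bkbr_bridgeII p N τ₀ hG i hi0 hip P hP hpP _ ?_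
    intro x
    exact (bkbr_res_pow hKL τ₀ t ht i x).symm

end Fermat.Agent.S14L
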