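import Mathlib
import Fermat.Prelude.Def_ExtCitation_AdmissibleExtension_v2
import Fermat.Agent.S14L.Defs
import Fermat.Agent.S14L.BookDefs
import Fermat.Agent.S14L.BookKum
import Fermat.Agent.S14L.BookAsm

/-!
# S14 package B: final assembly lemmas (`ℚ̄`-level glue)
-/

set_option autoImplicit false

open NumberField

namespace Fermat.Agent.S14L

/-- `β` does not lie in `ℚ(ζ)`. -/
theorem bkfin_not_mem (p : ℕ) [Fact p.Prime]
    (N : Subgroup (AlgebraicClosure ℚ ≃ₐ[ℚ] AlgebraicClosure ℚ))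
    (τ₀ : AlgebraicClosure ℚ ≃ₐ[ℚ] AlgebraicClosure ℚ) (ζ β : AlgebraicClosure ℚ)
    (hG : BkGroup p N τ₀) (hK : BkKummer p N τ₀ ζ β) :
    β ∉ IntermediateField.adjoin ℚ {ζ} := by
  intro hmem
  have hp : p.Prime := Fact.out
  have h1 := (book_mem_adjoin_iff p ζ hK.prim β).mp hmem τ₀ hG.mem_ker
  have h2 := hK.gen
  rw [h1] at h2
  have h3 : ζ = 1 := by
    have h4 : (1 : AlgebraicClosure ℚ) * β = ζ * β := by rw [one_mul]; exact h2
    exact (mul_right_cancel₀ hK.ne_zero h4).symm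
  exact hK.prim.ne_one hp.one_lt h3

/-- if `β^p = d^p` with `d ∈ ℚ(ζ)` then `β ∈ ℚ(ζ)`. -/
theorem bkfin_mem_of_pow (p : ℕ) [Fact p.Prime] (ζ β d : AlgebraicClosure ℚ)
    (hζ : IsPrimitiveRoot ζ p) (hβ : β ≠ 0) (hd : d ∈ IntermediateField.adjoin ℚ {ζ})
    (h : β ^ p = d ^ p) : β ∈ IntermediateField.adjoin ℚ {ζ} := by
  have hp : p.Prime := Fact.out
  have : NeZero p := ⟨hp.ne_zero⟩
  have hd0 : d ≠ 0 := by
    rintro rfl
    rw [zero_pow hp.ne_zero] at h
    exact hβ (pow_eq_zero_iff hp.ne_zero |>.mp h)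
  have h1 : (β / d) ^ p = 1 := by
    rw [div_pow, h, div_self (pow_ne_zero _ hd0)]
  obtain ⟨i, -, hi⟩ := hζ.eq_pow_of_pow_eq_one h1
  have h2 : β = ζ ^ i * d := by
    rw [hi, div_mul_cancel₀ _ hd0]
  rw [h2]
  exact mul_mem (pow_mem (IntermediateField.mem_adjoin_simple_self ℚ ζ) i) hd

/-- the `ℚ̄`-level glue: from the group/Kummer/bridge data to a witness. -/
theorem bkfin_main (p : ℕ) [Fact p.Prime]
    (N : Subgroup (AlgebraicClosure ℚ ≃ₐ[ℚ] AlgebraicClosure ℚ))
    (τ₀ : AlgebraicClosure ℚ ≃ₐ[ℚ] AlgebraicClosure ℚ) (ζ β : AlgebraicClosure ℚ)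
    (hG : BkGroup p N τ₀) (hK : BkKummer p N τ₀ ζ β)
    (hKL : IntermediateField.adjoin ℚ {ζ} ≤ IntermediateField.fixedField N)
    [NumberField (IntermediateField.fixedField N)]
    [NumberField (IntermediateField.adjoin ℚ {ζ})]
    [IsGalois ℚ (IntermediateField.fixedField N)]
    (hrest :
      letI : Algebra (IntermediateField.adjoin ℚ {ζ}) (IntermediateField.fixedField N) :=
        bkAlg hKL
      Module.finrank (IntermediateField.adjoin ℚ {ζ}) (IntermediateField.fixedField N) = p ∧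
      (∃ b : 𝓞 (IntermediateField.fixedField N),
        ((b : IntermediateField.fixedField N) : AlgebraicClosure ℚ) = β) ∧
      (∀ ℓ : ℕ, ℓ.Prime → ℓ ≠ p → ∀ P : Ideal (𝓞 (IntermediateField.fixedField N)), P.IsPrime →
        (ℓ : 𝓞 (IntermediateField.fixedField N)) ∈ P →
        ∀ τ : IntermediateField.fixedField N ≃ₐ[ℚ] IntermediateField.fixedField N,
          (∀ x : 𝓞 (IntermediateField.fixedField N),
            RingOfIntegers.mapRingEquiv
              (τ : IntermediateField.fixedField N ≃+* IntermediateField.fixedField N) x - x ∈ P) →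
          τ = 1) ∧
      (∃ t : IntermediateField.fixedField N ≃ₐ[IntermediateField.adjoin ℚ {ζ}]
          IntermediateField.fixedField N,
        ∀ P : Ideal (𝓞 (IntermediateField.fixedField N)), P.IsPrime →
          (p : 𝓞 (IntermediateField.fixedField N)) ∈ P → ∀ i : ℕ, 0 < i → i < p →
          Ideal.map (RingOfIntegers.mapRingEquiv
            ((t ^ i : IntermediateField.fixedField N ≃ₐ[IntermediateField.adjoin ℚ {ζ}]
              IntermediateField.fixedField N) :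
              IntermediateField.fixedField N ≃+* IntermediateField.fixedField N)) P ≠ P)) :
    ∃ (_ : IsCyclotomicExtension {p} ℚ (IntermediateField.adjoin ℚ {ζ}))
      (ζK : IntermediateField.adjoin ℚ {ζ}) (hζK : IsPrimitiveRoot ζK p)
      (α : 𝓞 (IntermediateField.adjoin ℚ {ζ})),
      Witness p (IntermediateField.adjoin ℚ {ζ}) ζK hζK α ∧
        ¬ ∃ c : IntermediateField.adjoin ℚ {ζ}, (α : IntermediateField.adjoin ℚ {ζ}) = c ^ p := by
  classical
  have hp : p.Prime := Fact.out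
  have : NeZero p := ⟨hp.ne_zero⟩
  have halg : Algebra.IsAlgebraic ℚ (AlgebraicClosure ℚ) := AlgebraicClosure.isAlgebraic ℚ
  have hclos : IsAlgClosure ℚ (AlgebraicClosure ℚ) := ⟨inferInstance, inferInstance⟩
  have hnormal : Normal ℚ (AlgebraicClosure ℚ) := IsAlgClosure.normal ℚ (AlgebraicClosure ℚ)
  let _ : Algebra (IntermediateField.adjoin ℚ {ζ}) (IntermediateField.fixedField N) := bkAlg hKL
  obtain ⟨hdeg, ⟨b, hb⟩, hI, ⟨t, hII⟩⟩ := hrest
  -- Step 1: the primitive root and the cyclotomic structure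
  set ζK : IntermediateField.adjoin ℚ {ζ} := ⟨ζ, IntermediateField.mem_adjoin_simple_self ℚ ζ⟩
    with hζKdef
  have hζK : IsPrimitiveRoot ζK p := IsPrimitiveRoot.coe_submonoidClass_iff.mp hK.prim
  have hcyc : IsCyclotomicExtension {p} ℚ (IntermediateField.adjoin ℚ {ζ}) :=
    hK.prim.intermediateField_adjoin_isCyclotomicExtension ℚ
  -- Step 2: the element `a = β^p` of `𝓞 K`
  have hint : IsIntegral ℤ (⟨β ^ p, hK.pow_mem⟩ : IntermediateField.adjoin ℚ {ζ}) := by
    rw [← isIntegral_algebraMap_iff (B := AlgebraicClosure ℚ)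
      (algebraMap (IntermediateField.adjoin ℚ {ζ}) (AlgebraicClosure ℚ)).injective]
    exact hK.integral.pow p
  set a : 𝓞 (IntermediateField.adjoin ℚ {ζ}) :=
    IsIntegralClosure.mk' (𝓞 (IntermediateField.adjoin ℚ {ζ}))
      (⟨β ^ p, hK.pow_mem⟩ : IntermediateField.adjoin ℚ {ζ}) hint with hadef
  have haK : ((a : 𝓞 (IntermediateField.adjoin ℚ {ζ})) : IntermediateField.adjoin ℚ {ζ}) =
      ⟨β ^ p, hK.pow_mem⟩ :=
    IsIntegralClosure.algebraMap_mk' (𝓞 (IntermediateField.adjoin ℚ {ζ})) _ hint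
  have haQ : (((a : 𝓞 (IntermediateField.adjoin ℚ {ζ})) : IntermediateField.adjoin ℚ {ζ}) :
      AlgebraicClosure ℚ) = β ^ p := by rw [haK]
  have ha : a ≠ 0 := by
    intro h
    rw [h] at haQ
    exact hK.ne_zero (pow_eq_zero_iff hp.ne_zero |>.mp (by simpa using haQ.symm))
  have hab : algebraMap (𝓞 (IntermediateField.adjoin ℚ {ζ})) (𝓞 (IntermediateField.fixedField N)) a
      = b ^ p := by
    apply RingOfIntegers.ext
    apply Subtype.ext
    have h1 : (((algebraMap (𝓞 (IntermediateField.adjoin ℚ {ζ}))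
        (𝓞 (IntermediateField.fixedField N)) a : 𝓞 (IntermediateField.fixedField N)) :
        IntermediateField.fixedField N) : AlgebraicClosure ℚ) =
        (((a : 𝓞 (IntermediateField.adjoin ℚ {ζ})) : IntermediateField.adjoin ℚ {ζ}) :
          AlgebraicClosure ℚ) := rfl
    rw [h1, haQ]
    have h2 : (((b ^ p : 𝓞 (IntermediateField.fixedField N)) : IntermediateField.fixedField N) :
        AlgebraicClosure ℚ) = ((b : IntermediateField.fixedField N) : AlgebraicClosure ℚ) ^ p := by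
      push_cast
      rfl
    rw [h2, hb]
  -- Step 3: the number-field core
  obtain ⟨j, a₁, w, ha_eq, ha₁0, ha₁nm, hspan, hloc⟩ :=
    bkasm_nf p (IntermediateField.adjoin ℚ {ζ}) (IntermediateField.fixedField N) ζK hζK hdeg a ha b
      hab hI t hII
  -- the uniformizer `π = ζ - 1` and the decomposition of `a` in `K`
  set π : IntermediateField.adjoin ℚ {ζ} :=
    ((zInt p (IntermediateField.adjoin ℚ {ζ}) ζK hζK : 𝓞 (IntermediateField.adjoin ℚ {ζ})) :
      IntermediateField.adjoin ℚ {ζ}) - 1 with hπdef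
  have hπ : π = ζK - 1 := rfl
  have hπ0 : π ≠ 0 := by
    rw [hπ, sub_ne_zero]
    exact hζK.ne_one hp.one_lt
  have haKeq : ((a : 𝓞 (IntermediateField.adjoin ℚ {ζ})) : IntermediateField.adjoin ℚ {ζ}) =
      π ^ (p * j) * ((a₁ : 𝓞 (IntermediateField.adjoin ℚ {ζ})) : IntermediateField.adjoin ℚ {ζ}) := by
    have h := congrArg (fun x : 𝓞 (IntermediateField.adjoin ℚ {ζ}) =>
      (x : IntermediateField.adjoin ℚ {ζ})) ha_eq
    simp only [map_mul, map_pow, map_sub, map_one] at h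
    exact h
  refine ⟨hcyc, ζK, hζK, a₁, ⟨ha₁0, ha₁nm, hspan, ?_, ⟨w, hloc⟩⟩, ?_⟩
  · -- the eigen-relation
    intro σ k hσk
    have hg : ∀ x : IntermediateField.adjoin ℚ {ζ},
        (σ.liftNormal (AlgebraicClosure ℚ)) (x : AlgebraicClosure ℚ) =
          ((σ x : IntermediateField.adjoin ℚ {ζ}) : AlgebraicClosure ℚ) :=
      fun x => AlgEquiv.liftNormal_commutes σ (AlgebraicClosure ℚ) x
    have hgζ : (σ.liftNormal (AlgebraicClosure ℚ)) ζ = ζ ^ k := by
      have h := hg ζK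
      rw [hσk] at h
      simpa [hζKdef] using h
    obtain ⟨γ₀, hγ₀mem, hγ₀⟩ := hK.eigen (σ.liftNormal (AlgebraicClosure ℚ)) k hgζ
    have hσa : σ ((a : 𝓞 (IntermediateField.adjoin ℚ {ζ})) : IntermediateField.adjoin ℚ {ζ}) =
        ((a : 𝓞 (IntermediateField.adjoin ℚ {ζ})) : IntermediateField.adjoin ℚ {ζ}) ^ (k ^ 2) *
          (⟨γ₀, hγ₀mem⟩ : IntermediateField.adjoin ℚ {ζ}) ^ p := by
      apply Subtype.ext
      rw [← hg]
      push_cast
      rw [haQ, map_pow, hγ₀, mul_pow, ← pow_mul, ← pow_mul, mul_comm p (k ^ 2)]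
    rw [haKeq, map_mul, map_pow] at hσa
    have hσπ : σ π ≠ 0 := by
      intro h
      exact hπ0 ((map_eq_zero σ).mp h)
    refine ⟨π ^ (j * k ^ 2) * (⟨γ₀, hγ₀mem⟩ : IntermediateField.adjoin ℚ {ζ}) / σ π ^ j, ?_⟩
    rw [div_pow, mul_div_assoc', eq_div_iff (pow_ne_zero _ (pow_ne_zero _ hσπ))]
    linear_combination hσa
  · -- not a `p`-th power
    rintro ⟨c, hc⟩
    have h1 : β ^ p = ((π ^ j * c : IntermediateField.adjoin ℚ {ζ}) : AlgebraicClosure ℚ) ^ p := by
      rw [← haQ, haKeq, hc]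
      push_cast
      ring
    exact bkfin_not_mem p N τ₀ ζ β hG hK
      (bkfin_mem_of_pow p ζ β _ hK.prim hK.ne_zero (π ^ j * c).2 h1)

end Fermat.Agent.S14L
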