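import Mathlib
import Fermat.Agent.S14L.BookDefs

/-! S14 package B, leaf B1: auxiliary lemmas (nontriviality of the mod `p` cyclotomic character). -/

set_option autoImplicit false

namespace Fermat.Agent.S14L

/-- for `p ≥ 3` the mod `p` cyclotomic character is nontrivial -/
theorem bkgrp_exists_char_ne_one (p : ℕ) [Fact p.Prime] (h3 : 3 ≤ p) :
    ∃ σ : AlgebraicClosure ℚ ≃ₐ[ℚ] AlgebraicClosure ℚ,
      ((ExtCitation.cycloChar p σ : (ZMod p)ˣ) : ZMod p) ≠ 1 := by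
  have hp : p.Prime := Fact.out
  have : NeZero p := ⟨hp.ne_zero⟩
  have : NeZero (p : AlgebraicClosure ℚ) := ⟨Nat.cast_ne_zero.mpr hp.ne_zero⟩
  have hcl : IsAlgClosure ℚ (AlgebraicClosure ℚ) :=
    (inferInstance : @IsAlgClosure ℚ (AlgebraicClosure ℚ) _ _ (AlgebraicClosure.instAlgebra ℚ) _)
  have hnorm : Normal ℚ (AlgebraicClosure ℚ) := IsAlgClosure.normal _ _
  obtain ⟨ζ, hζ⟩ := HasEnoughRootsOfUnity.exists_primitiveRoot (AlgebraicClosure ℚ) p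
  have hζ2 : IsPrimitiveRoot (ζ ^ 2) p := by
    apply hζ.pow_of_coprime
    rw [Nat.coprime_comm]
    exact (Nat.Prime.coprime_iff_not_dvd hp).mpr (fun h => by
      have := Nat.le_of_dvd (by norm_num) h
      omega)
  have hconj : IsConjRoot ℚ (ζ ^ 2) ζ := by
    rw [isConjRoot_def, ← Polynomial.cyclotomic_eq_minpoly_rat hζ hp.pos,
      ← Polynomial.cyclotomic_eq_minpoly_rat hζ2 hp.pos]
  obtain ⟨σ, hσ⟩ := hconj.exists_algEquiv
  refine ⟨σ, fun h1 => ?_⟩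
  have hζ0 : ζ ≠ 0 := hζ.ne_zero hp.ne_zero
  have hmem : (Units.mk0 ζ hζ0) ∈ rootsOfUnity p (AlgebraicClosure ℚ) := by
    rw [mem_rootsOfUnity]
    ext
    simp [hζ.pow_eq_one]
  have hspec := modularCyclotomicCharacter.spec (AlgebraicClosure ℚ)
    (ExtCitation.card_rootsOfUnity_eq_self p) (σ : AlgebraicClosure ℚ ≃+* AlgebraicClosure ℚ) hmem
  have h1' : ((modularCyclotomicCharacter (AlgebraicClosure ℚ)
      (ExtCitation.card_rootsOfUnity_eq_self p)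
      (σ : AlgebraicClosure ℚ ≃+* AlgebraicClosure ℚ) : (ZMod p)ˣ) : ZMod p) = 1 := h1
  rw [h1'] at hspec
  have : Fact (1 < p) := ⟨hp.one_lt⟩
  rw [ZMod.val_one] at hspec
  have h2 : σ ζ = ζ := by simpa using hspec
  rw [hσ] at h2
  have h3' : ζ = 1 := by
    have : ζ * ζ = ζ * 1 := by rw [mul_one, ← sq]; exact h2
    exact mul_left_cancel₀ hζ0 this
  exact hζ.ne_one hp.one_lt h3'

/-- linear algebra on `C ⊆ V` from the cardinalities -/
theorem bkgrp_linalg (p : ℕ) [Fact p.Prime] (V : Type) [AddCommGroup V] [Module (ZMod p) V]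
    (C : Submodule (ZMod p) V) (hC : Nat.card C = p) (hVc : Nat.card V = p ^ 2) :
    ∃ v₀ : V, v₀ ∉ C ∧ C ⊔ Submodule.span (ZMod p) {v₀} = ⊤ ∧
      ∀ c ∈ C, c ≠ 0 → ∀ c' ∈ C, ∃ a : ZMod p, a • c = c' := by
  have hp : p.Prime := Fact.out
  have hfin : Finite V := Nat.finite_of_card_ne_zero (by rw [hVc]; exact pow_ne_zero _ hp.ne_zero)
  have hmf : Module.Finite (ZMod p) V := Module.Finite.of_finite
  have hV2 : Module.finrank (ZMod p) V = 2 := by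
    have h := Module.natCard_eq_pow_finrank (K := ZMod p) (V := V)
    rw [hVc, Nat.card_zmod] at h
    exact (Nat.pow_right_injective hp.two_le h).symm
  have hC1 : Module.finrank (ZMod p) C = 1 := by
    have h := Module.natCard_eq_pow_finrank (K := ZMod p) (V := C)
    rw [hC, Nat.card_zmod] at h
    have h' : p ^ 1 = p ^ Module.finrank (ZMod p) C := by rw [pow_one]; exact h
    exact (Nat.pow_right_injective hp.two_le h').symm
  have hne : C ≠ ⊤ := by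
    intro h
    rw [h, finrank_top, hV2] at hC1
    omega
  obtain ⟨v₀, hv₀⟩ : ∃ v₀ : V, v₀ ∉ C := by
    by_contra hcon
    exact hne (eq_top_iff.mpr fun x _ => by
      by_contra hx
      exact hcon ⟨x, hx⟩)
  refine ⟨v₀, hv₀, ?_, ?_⟩
  · apply Submodule.eq_top_of_finrank_eq
    have hlt : C < C ⊔ Submodule.span (ZMod p) {v₀} := by
      refine lt_of_le_of_ne le_sup_left fun h => hv₀ ?_
      rw [h]
      exact Submodule.mem_sup_right (Submodule.mem_span_singleton_self v₀)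
    have h1 := Submodule.finrank_lt_finrank_of_lt hlt
    have h2 := Submodule.finrank_le (C ⊔ Submodule.span (ZMod p) {v₀})
    omega
  · intro c hc hc0 c' hc'
    have h := (finrank_eq_one_iff_of_nonzero' (⟨c, hc⟩ : C)
      (fun h => hc0 (congrArg Subtype.val h))).mp hC1 ⟨c', hc'⟩
    obtain ⟨a, ha⟩ := h
    exact ⟨a, congrArg Subtype.val ha⟩

section core

variable {p : ℕ} [Fact p.Prime] {G : Type*} [Group G] {V : Type*} [AddCommGroup V]
  [Module (ZMod p) V] [DistribMulAction G V] [SMulCommClass G (ZMod p) V]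

/-- the group-theoretic core: `N` = kernel of the action, `H = ker χ` -/
theorem bkgrp_core (χ : G →* (ZMod p)ˣ) (C : Submodule (ZMod p) V)
    (hfix : ∀ σ : G, ∀ x ∈ C, σ • x = x)
    (hq : ∀ σ : G, ∀ x : V, σ • x - ((χ σ : (ZMod p)ˣ) : ZMod p) • x ∈ C)
    (v₀ : V) (hv₀ : v₀ ∉ C) (htop : C ⊔ Submodule.span (ZMod p) {v₀} = ⊤)
    (hC1 : ∀ c ∈ C, c ≠ 0 → ∀ c' ∈ C, ∃ a : ZMod p, a • c = c')
    (N : Subgroup G) (hN : ∀ σ : G, σ ∈ N ↔ ∀ v : V, σ • v = v) :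
    N ≤ χ.ker ∧ ∀ τ₀ ∈ χ.ker, τ₀ ∉ N →
      (τ₀ ^ p ∈ N ∧ (∀ τ ∈ χ.ker, ∃ j : ℕ, τ * τ₀ ^ j ∈ N) ∧
        ∀ (σ τ : G) (k : ℕ), τ ∈ χ.ker → (k : ZMod p) = ((χ σ : (ZMod p)ˣ) : ZMod p) →
          σ⁻¹ * τ * σ * (τ ^ k)⁻¹ ∈ N) := by
  have hp : p.Prime := Fact.out
  have : NeZero p := ⟨hp.ne_zero⟩
  have hd_mem : ∀ τ ∈ χ.ker, τ • v₀ - v₀ ∈ C := by
    intro τ hτ
    have h := hq τ v₀
    rw [MonoidHom.mem_ker.mp hτ, Units.val_one, one_smul] at h
    exact h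
  have hker : ∀ τ ∈ χ.ker, τ • v₀ - v₀ = 0 → τ ∈ N := by
    intro τ _ h0
    rw [hN]
    intro v
    have hv : v ∈ C ⊔ Submodule.span (ZMod p) {v₀} := htop ▸ Submodule.mem_top
    rw [Submodule.mem_sup] at hv
    obtain ⟨c, hc, w, hw, rfl⟩ := hv
    rw [Submodule.mem_span_singleton] at hw
    obtain ⟨a, rfl⟩ := hw
    rw [smul_add, hfix τ c hc, smul_comm, sub_eq_zero.mp h0]
  have hmul : ∀ τ : G, ∀ τ' ∈ χ.ker,
      (τ * τ') • v₀ - v₀ = (τ • v₀ - v₀) + (τ' • v₀ - v₀) := by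
    intro τ τ' hτ'
    have h1 : τ' • v₀ = v₀ + (τ' • v₀ - v₀) := by abel
    rw [mul_smul]
    conv_lhs => rw [h1]
    rw [smul_add, hfix τ _ (hd_mem τ' hτ')]
    abel
  have hpow : ∀ τ ∈ χ.ker, ∀ n : ℕ, (τ ^ n) • v₀ - v₀ = n • (τ • v₀ - v₀) := by
    intro τ hτ n
    induction n with
    | zero => simp
    | succ n ih =>
      rw [pow_succ', hmul τ (τ ^ n) (Subgroup.pow_mem _ hτ n), ih, succ_nsmul]
      abel
  have hinv : ∀ τ ∈ χ.ker, τ⁻¹ • v₀ - v₀ = -(τ • v₀ - v₀) := by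
    intro τ hτ
    have h := hmul τ τ⁻¹ (Subgroup.inv_mem _ hτ)
    rw [mul_inv_cancel, one_smul, sub_self] at h
    exact eq_neg_of_add_eq_zero_right h.symm
  refine ⟨?_, ?_⟩
  · intro σ hσ
    rw [hN] at hσ
    have h := hq σ v₀
    rw [hσ v₀] at h
    rw [MonoidHom.mem_ker]
    apply Units.ext
    rw [Units.val_one]
    by_contra hne
    have hne' : (1 - ((χ σ : (ZMod p)ˣ) : ZMod p)) ≠ 0 := sub_ne_zero.mpr (Ne.symm hne)
    have h2 : (1 - ((χ σ : (ZMod p)ˣ) : ZMod p)) • v₀ ∈ C := by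
      rw [sub_smul, one_smul]
      exact h
    have h3 := C.smul_mem (1 - ((χ σ : (ZMod p)ˣ) : ZMod p))⁻¹ h2
    rw [smul_smul, inv_mul_cancel₀ hne', one_smul] at h3
    exact hv₀ h3
  · intro τ₀ hτ₀ hτ₀N
    have hc₀ : τ₀ • v₀ - v₀ ≠ 0 := fun h => hτ₀N (hker τ₀ hτ₀ h)
    refine ⟨?_, ?_, ?_⟩
    · apply hker _ (Subgroup.pow_mem _ hτ₀ p)
      rw [hpow τ₀ hτ₀, ZModModule.char_nsmul_eq_zero p]
    · intro τ hτ
      obtain ⟨a, ha⟩ := hC1 _ (hd_mem τ₀ hτ₀) hc₀ (-(τ • v₀ - v₀)) (C.neg_mem (hd_mem τ hτ))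
      refine ⟨a.val, hker _ (Subgroup.mul_mem _ hτ (Subgroup.pow_mem _ hτ₀ _)) ?_⟩
      rw [hmul τ _ (Subgroup.pow_mem _ hτ₀ _), hpow τ₀ hτ₀, ← Nat.cast_smul_eq_nsmul (ZMod p),
        ZMod.natCast_zmod_val, ha, add_neg_cancel]
    · intro σ τ k hτ hk
      have hconj : σ⁻¹ * τ * σ ∈ χ.ker := by
        have h := (inferInstance : χ.ker.Normal).conj_mem τ hτ σ⁻¹
        rwa [inv_inv] at h
      have hτk : (τ ^ k)⁻¹ ∈ χ.ker := Subgroup.inv_mem _ (Subgroup.pow_mem _ hτ k)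
      apply hker _ (Subgroup.mul_mem _ hconj hτk)
      rw [hmul _ _ hτk, hinv _ (Subgroup.pow_mem _ hτ k), hpow τ hτ,
        ← Nat.cast_smul_eq_nsmul (ZMod p), hk]
      have hσ := hq σ v₀
      have h1 : σ • v₀ = ((χ σ : (ZMod p)ˣ) : ZMod p) • v₀ +
          (σ • v₀ - ((χ σ : (ZMod p)ˣ) : ZMod p) • v₀) := by abel
      have h2 : τ • v₀ = v₀ + (τ • v₀ - v₀) := by abel
      have h3 : τ • σ • v₀ = σ • v₀ + ((χ σ : (ZMod p)ˣ) : ZMod p) • (τ • v₀ - v₀) := by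
        conv_lhs => rw [h1]
        rw [smul_add, hfix τ _ hσ, smul_comm, smul_sub]
        abel
      have h4 : (σ⁻¹ * τ * σ) • v₀ = v₀ + ((χ σ : (ZMod p)ˣ) : ZMod p) • (τ • v₀ - v₀) := by
        rw [mul_smul, mul_smul, h3, smul_add, inv_smul_smul,
          hfix σ⁻¹ _ (C.smul_mem _ (hd_mem τ hτ))]
      rw [h4]
      abel

/-- if `ker χ` acts trivially and `χ` is nontrivial, the extension splits -/
theorem bkgrp_split (χ : G →* (ZMod p)ˣ) (C : Submodule (ZMod p) V)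
    (hfix : ∀ σ : G, ∀ x ∈ C, σ • x = x)
    (hq : ∀ σ : G, ∀ x : V, σ • x - ((χ σ : (ZMod p)ˣ) : ZMod p) • x ∈ C)
    (hχ : ∃ σ₀ : G, ((χ σ₀ : (ZMod p)ˣ) : ZMod p) ≠ 1)
    (hHN : ∀ τ ∈ χ.ker, ∀ v : V, τ • v = v) :
    ∃ C' : Submodule (ZMod p) V, (∀ σ : G, ∀ x ∈ C', σ • x ∈ C') ∧ IsCompl C C' := by
  obtain ⟨σ₀, hσ₀⟩ := hχ
  set a : ZMod p := ((χ σ₀ : (ZMod p)ˣ) : ZMod p) with ha
  have hne' : (1 - a) ≠ 0 := sub_ne_zero.mpr (Ne.symm hσ₀)
  let C' : Submodule (ZMod p) V :=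
    { carrier := {v | σ₀ • v = a • v}
      add_mem' := by
        intro x y hx hy
        simp only [Set.mem_ofPred_eq] at hx hy ⊢
        rw [smul_add, smul_add, hx, hy]
      zero_mem' := by simp
      smul_mem' := by
        intro c x hx
        simp only [Set.mem_ofPred_eq] at hx ⊢
        rw [smul_comm, hx, smul_comm] }
  have hmemC' : ∀ v : V, v ∈ C' ↔ σ₀ • v = a • v := fun v => Iff.rfl
  refine ⟨C', ?_, ?_⟩
  · intro σ x hx
    rw [hmemC'] at hx ⊢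
    have hcomm : σ⁻¹ * σ₀⁻¹ * σ * σ₀ ∈ χ.ker := by
      rw [MonoidHom.mem_ker]
      simp only [map_mul, map_inv]
      rw [mul_assoc, mul_assoc, mul_comm (χ σ) (χ σ₀), ← mul_assoc (χ σ₀)⁻¹, inv_mul_cancel,
        one_mul, inv_mul_cancel]
    have h := hHN _ hcomm x
    rw [mul_smul, mul_smul, mul_smul] at h
    have h2 : σ • σ₀ • x = σ₀ • σ • x := by
      have := congrArg (fun y => σ₀ • σ • y) h
      simp only [smul_inv_smul] at this
      exact this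
    rw [← h2, hx, smul_comm]
  · refine ⟨?_, ?_⟩
    · rw [Submodule.disjoint_def]
      intro x hx hx'
      rw [hmemC', hfix σ₀ x hx] at hx'
      have h1 : (1 - a) • x = 0 := by
        rw [sub_smul, one_smul, ← hx', sub_self]
      exact (smul_eq_zero.mp h1).resolve_left hne'
    · rw [codisjoint_iff, eq_top_iff]
      intro v _
      have hu : σ₀ • v - a • v ∈ C := hq σ₀ v
      rw [Submodule.mem_sup]
      have hw : (1 - a)⁻¹ • (σ₀ • v - a • v) ∈ C := C.smul_mem _ hu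
      have hw2 : (1 - a) • (1 - a)⁻¹ • (σ₀ • v - a • v) = σ₀ • v - a • v := by
        rw [smul_smul, mul_inv_cancel₀ hne', one_smul]
      generalize (1 - a)⁻¹ • (σ₀ • v - a • v) = w at hw hw2
      refine ⟨w, hw, v - w, ?_, by abel⟩
      rw [hmemC', smul_sub, smul_sub, hfix σ₀ _ hw]
      rw [sub_smul, one_smul] at hw2
      have h3 : σ₀ • v = a • v + (w - a • w) := by rw [hw2]; abel
      rw [h3]
      abel

end core

end Fermat.Agent.S14L
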