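import Mathlib
import Fermat.Agent.S14L.BookDefs
import Fermat.Agent.S14L.BookGrpAux

/-! S14 package B, leaf B1 (group theory on `V`).  INTERFACE STUB. -/

set_option autoImplicit false

namespace Fermat.Agent.S14L

theorem book_group (p : ℕ) [Fact p.Prime] (h3 : 3 ≤ p)
    (V : Type) [AddCommGroup V] [Module (ZMod p) V]
    [DistribMulAction (AlgebraicClosure ℚ ≃ₐ[ℚ] AlgebraicClosure ℚ) V]
    [SMulCommClass (AlgebraicClosure ℚ ≃ₐ[ℚ] AlgebraicClosure ℚ) (ZMod p) V]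
    (C : Submodule (ZMod p) V) (hV : ExtCitation.IsAdmissibleExtensionCts p V C)
    (hns : ¬ ExtCitation.SplitsGlobally C) :
    ∃ (N : Subgroup (AlgebraicClosure ℚ ≃ₐ[ℚ] AlgebraicClosure ℚ))
      (τ₀ : AlgebraicClosure ℚ ≃ₐ[ℚ] AlgebraicClosure ℚ), BkGroup p N τ₀ := by
  have hq : ∀ σ : AlgebraicClosure ℚ ≃ₐ[ℚ] AlgebraicClosure ℚ, ∀ x : V,
      σ • x - ((ExtCitation.cycloChar p σ : (ZMod p)ˣ) : ZMod p) • x ∈ C := by
    intro σ x
    rw [ExtCitation.coe_cycloChar]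
    exact hV.cyclo_quot σ x
  obtain ⟨v₀, hv₀, htop, hC1⟩ := bkgrp_linalg p V C hV.card_sub hV.card_total
  let N : Subgroup (AlgebraicClosure ℚ ≃ₐ[ℚ] AlgebraicClosure ℚ) :=
    { carrier := {σ | ∀ v : V, σ • v = v}
      mul_mem' := by
        intro a b ha hb v
        rw [mul_smul, hb v, ha v]
      one_mem' := fun v => one_smul _ v
      inv_mem' := by
        intro a ha v
        rw [inv_smul_eq_iff, ha v] }
  have hN : ∀ σ : AlgebraicClosure ℚ ≃ₐ[ℚ] AlgebraicClosure ℚ, σ ∈ N ↔ ∀ v : V, σ • v = v :=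
    fun σ => Iff.rfl
  obtain ⟨hle, hcore⟩ := bkgrp_core (ExtCitation.cycloChar p) C hV.fixed_sub hq v₀ hv₀ htop hC1
    N hN
  have hex : ∃ τ₀ ∈ (ExtCitation.cycloChar p).ker, τ₀ ∉ N := by
    by_contra hcon
    apply hns
    apply bkgrp_split (ExtCitation.cycloChar p) C hV.fixed_sub hq (bkgrp_exists_char_ne_one p h3)
    intro τ hτ
    rw [← hN]
    by_contra hτN
    exact hcon ⟨τ, hτ, hτN⟩
  obtain ⟨τ₀, hτ₀, hτ₀N⟩ := hex
  obtain ⟨hpow, hgen, hconj⟩ := hcore τ₀ hτ₀ hτ₀N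
  refine ⟨N, τ₀, ?_⟩
  refine
    { isOpen := hV.open_kernel
      normal := ⟨fun n hn g v => by
        rw [mul_smul, mul_smul, hn, smul_inv_smul]⟩
      le_ker := hle
      mem_ker := hτ₀
      not_mem := hτ₀N
      pow_mem := hpow
      gen := hgen
      conj := hconj
      inertia := fun ℓ hℓ hne A hA σ hσ => (hN σ).mpr
        (hV.unramified_outside ℓ hℓ hne A hA σ hσ)
      decomp := ?_ }
  intro A hA σ hσD hσH
  obtain ⟨C', hst, hcompl⟩ := hV.locally_split A hA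
  rw [hN]
  intro v
  have hv : v ∈ C ⊔ C' := hcompl.sup_eq_top ▸ Submodule.mem_top
  rw [Submodule.mem_sup] at hv
  obtain ⟨c, hc, c', hc', rfl⟩ := hv
  have h1 : σ • c' - c' ∈ C := by
    have h := hq σ c'
    rw [MonoidHom.mem_ker.mp hσH, Units.val_one, one_smul] at h
    exact h
  have h2 : σ • c' - c' ∈ C' := C'.sub_mem (hst σ hσD c' hc') hc'
  have h3 : σ • c' - c' = 0 := by
    have : σ • c' - c' ∈ C ⊓ C' := ⟨h1, h2⟩
    rw [hcompl.inf_eq_bot] at this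
    exact (Submodule.mem_bot _).mp this
  rw [smul_add, hV.fixed_sub σ c hc, sub_eq_zero.mp h3]

end Fermat.Agent.S14L
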