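import Mathlib
import Fermat.Prelude.Def_ExtCitation_AdmissibleExtension_v2
import Fermat.Agent.S14L.Defs
import Fermat.Agent.S14L.BookDefs
import Fermat.Agent.S14L.BookGrp
import Fermat.Agent.S14L.BookKum
import Fermat.Agent.S14L.BookBridge
import Fermat.Agent.S14L.BookAsm
import Fermat.Agent.S14L.BookFin

/-! S14 package B (owner: helper8): from a non-split admissible extension to a Kummer
witness. -/

set_option autoImplicit false

open NumberField IsDedekindDomain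
open scoped nonZeroDivisors

namespace Fermat.Agent.S14L

theorem exists_witness (p : ℕ) [Fact p.Prime] (h3 : 3 ≤ p)
    (V : Type) [AddCommGroup V] [Module (ZMod p) V]
    [DistribMulAction (AlgebraicClosure ℚ ≃ₐ[ℚ] AlgebraicClosure ℚ) V]
    [SMulCommClass (AlgebraicClosure ℚ ≃ₐ[ℚ] AlgebraicClosure ℚ) (ZMod p) V]
    (C : Submodule (ZMod p) V) (hV : ExtCitation.IsAdmissibleExtensionCts p V C)
    (hns : ¬ ExtCitation.SplitsGlobally C) :
    ∃ (K : IntermediateField ℚ (AlgebraicClosure ℚ)) (_ : NumberField K)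
      (_ : IsCyclotomicExtension {p} ℚ K) (ζ : K) (hζ : IsPrimitiveRoot ζ p) (α : 𝓞 K),
      Witness p K ζ hζ α ∧ ¬ ∃ β : K, (α : K) = β ^ p := by
  obtain ⟨N, τ₀, hG⟩ := book_group p h3 V C hV hns
  obtain ⟨ζ, β, hK⟩ := book_kummer p N τ₀ hG
  obtain ⟨hKL, hNFL, hNFK, hGal, hrest⟩ := bk_bridge p N τ₀ ζ β hG hK
  obtain ⟨hcyc, ζK, hζK, α, hW, hnot⟩ := bkfin_main p N τ₀ ζ β hG hK hKL hrest
  exact ⟨IntermediateField.adjoin ℚ {ζ}, hNFK, hcyc, ζK, hζK, α, hW, hnot⟩

end Fermat.Agent.S14L
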