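import Fermat.Agent.S14L.LatSeries

/-!
# S14L — (D) Dirichlet series of ideal classes, part 2: sums over ideals as Dirichlet series
-/

set_option autoImplicit false

namespace Fermat.Agent.S14L

open NumberField Ideal Filter Topology Module Finset MeasureTheory Asymptotics

open scoped nonZeroDivisors Real

/-- counting a type fibred over `ℕ` with finite fibres and no fibre over `0` -/
theorem latS_sum_card_fiber {α : Type*} (N : α → ℕ) (h0 : ∀ a, N a ≠ 0)
    (hfin : ∀ m, Finite {a // N a = m}) (n : ℕ) :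
    ∑ m ∈ Finset.Icc 1 n, Nat.card {a // N a = m} = Nat.card {a // N a ≤ n} := by
  rw [← Finset.card_preimage_eq_sum_card_image_eq (f := N) (s := Finset.Icc 1 n)
    (fun b _ => hfin b)]
  refine Nat.card_congr (Equiv.subtypeEquivRight fun a => ?_)
  have := h0 a
  simp only [Set.mem_preimage, Finset.coe_Icc, Set.mem_Icc]
  omega

/-- a sum over a type fibred over `ℕ` with finite fibres as a Dirichlet series -/
theorem latS_fiber_series {α : Type*} (N : α → ℕ) (h0 : ∀ a, N a ≠ 0)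
    (hfin : ∀ m, Finite {a // N a = m}) {s : ℝ}
    (hS : LSeriesSummable (fun m => (Nat.card {a // N a = m} : ℂ)) s) :
    Summable (fun a => (N a : ℝ) ^ (-s)) ∧
      ∑' a, (((N a : ℝ) ^ (-s) : ℝ) : ℂ)
        = LSeries (fun m => (Nat.card {a // N a = m} : ℂ)) s := by
  have hcard0 : Nat.card {a // N a = 0} = 0 := by
    have : IsEmpty {a // N a = 0} := ⟨fun a => h0 a.1 a.2⟩
    exact Nat.card_of_isEmpty
  have hfib : ∀ m, ∑' y : {a // N a = m}, (N y.1 : ℝ) ^ (-s)
      = Nat.card {a // N a = m} * (m : ℝ) ^ (-s) := by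
    intro m
    have : ∀ y : {a // N a = m}, (N y.1 : ℝ) ^ (-s) = (m : ℝ) ^ (-s) := fun y => by rw [y.2]
    simp_rw [this]
    rw [tsum_const, nsmul_eq_mul]
  have hsum : Summable (fun a => (N a : ℝ) ^ (-s)) := by
    rw [← (Equiv.sigmaFiberEquiv N).summable_iff]
    refine (summable_sigma_of_nonneg
      (fun x => Real.rpow_nonneg (Nat.cast_nonneg _) _)).mpr ⟨fun m => ?_, ?_⟩
    · have := hfin m
      exact Summable.of_finite
    · have h1 : (fun m => ∑' y : {a // N a = m},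
          ((fun a => (N a : ℝ) ^ (-s)) ∘ (Equiv.sigmaFiberEquiv N)) ⟨m, y⟩)
          = fun m => ‖LSeries.term (fun m => (Nat.card {a // N a = m} : ℂ)) s m‖ := by
        funext m
        rw [LSeries.norm_term_eq]
        have := hfib m
        simp only [Function.comp_apply, Equiv.sigmaFiberEquiv_apply] at this ⊢
        rw [this]
        split_ifs with hm
        · subst hm
          simp [hcard0]
        · simp [Real.rpow_neg, div_eq_mul_inv]
      exact h1 ▸ hS.norm
  refine ⟨hsum, ?_⟩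
  have hsumC : Summable (fun a => (((N a : ℝ) ^ (-s) : ℝ) : ℂ)) :=
    Complex.ofRealCLM.summable hsum
  have h2 := hsumC.hasSum.tsum_fiberwise N
  rw [LSeries, ← h2.tsum_eq]
  refine tsum_congr fun m => ?_
  have h3 : ∀ y : N ⁻¹' {m}, (((N y.1 : ℝ) ^ (-s) : ℝ) : ℂ) = (((m : ℝ) ^ (-s) : ℝ) : ℂ) :=
    fun y => by rw [show N y.1 = m from y.2]
  simp_rw [h3]
  rw [tsum_const, nsmul_eq_mul]
  rcases eq_or_ne m 0 with rfl | hm
  · have : Nat.card (N ⁻¹' {0}) = 0 := hcard0
    simp [this]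
  · rw [LSeries.term_of_ne_zero hm, Complex.ofReal_cpow (Nat.cast_nonneg m), Complex.ofReal_neg,
      Complex.cpow_neg, div_eq_mul_inv]
    rfl

variable (K : Type*) [Field K] [NumberField K]

/-- the number of nonzero integral ideals of norm `m` in the class `C` -/
noncomputable def latClassCoeff (C : ClassGroup (𝓞 K)) (m : ℕ) : ℕ :=
  Nat.card {I : {I : (Ideal (𝓞 K))⁰ // ClassGroup.mk0 I = C} // absNorm (I.1 : Ideal (𝓞 K)) = m}

theorem latS_absNorm_ne_zero (I : (Ideal (𝓞 K))⁰) : absNorm (I : Ideal (𝓞 K)) ≠ 0 :=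
  (absNorm_pos_of_nonZeroDivisors I).ne'

theorem latS_finite_fiber (C : ClassGroup (𝓞 K)) (m : ℕ) :
    Finite {I : {I : (Ideal (𝓞 K))⁰ // ClassGroup.mk0 I = C} //
      absNorm (I.1 : Ideal (𝓞 K)) = m} := by
  have h : Finite {I : Ideal (𝓞 K) // absNorm I = m} :=
    (Ideal.finite_setOfPred_absNorm_eq (S := 𝓞 K) m).to_subtype
  refine Finite.of_injective
    (fun I => (⟨I.1.1.1, I.2⟩ : {I : Ideal (𝓞 K) // absNorm I = m})) ?_
  intro a b hab
  have h' := congrArg Subtype.val hab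
  exact Subtype.ext (Subtype.ext (Subtype.ext h'))

theorem latClassCoeff_sum (C : ClassGroup (𝓞 K)) (n : ℕ) :
    ∑ m ∈ Finset.Icc 1 n, latClassCoeff K C m = latClassCount K C (n : ℝ) := by
  unfold latClassCoeff latClassCount
  rw [latS_sum_card_fiber
    (fun I : {I : (Ideal (𝓞 K))⁰ // ClassGroup.mk0 I = C} => absNorm (I.1 : Ideal (𝓞 K)))
    (fun I => latS_absNorm_ne_zero K I.1) (latS_finite_fiber K C) n]
  refine Nat.card_congr ?_
  refine (Equiv.subtypeSubtypeEquivSubtypeInter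
    (fun I : (Ideal (𝓞 K))⁰ => ClassGroup.mk0 I = C)
    (fun I : (Ideal (𝓞 K))⁰ => absNorm (I : Ideal (𝓞 K)) ≤ n)).trans
    (Equiv.subtypeEquivRight fun I => ?_)
  rw [Nat.cast_le, and_comm]

theorem latClassCoeff_lseriesSummable (C : ClassGroup (𝓞 K)) {s : ℝ} (hs : 1 < s) :
    LSeriesSummable (fun m => (latClassCoeff K C m : ℂ)) s := by
  have hO : (fun n : ℕ => ∑ k ∈ Finset.Icc 1 n, (latClassCoeff K C k : ℝ))
      =O[atTop] fun n : ℕ => (n : ℝ) ^ (1 : ℝ) := by
    have h1 : (fun n : ℕ => ∑ k ∈ Finset.Icc 1 n, (latClassCoeff K C k : ℝ))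
        = fun n : ℕ => (latClassCount K C (n : ℝ) : ℝ) := by
      funext n
      rw [← latClassCoeff_sum]
      push_cast
      rfl
    rw [h1]
    simp only [Real.rpow_one]
    refine Asymptotics.isBigO_of_div_tendsto_nhds ?_ (latClassConst K)
      ((tendsto_latClassCount_div K C).comp tendsto_natCast_atTop_atTop)
    filter_upwards [eventually_ne_atTop 0] with n hn h
    exact absurd (Nat.cast_eq_zero.mp h) hn
  have := LSeriesSummable_of_sum_norm_bigO_and_nonneg hO (fun n => Nat.cast_nonneg _)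
    zero_le_one (s := (s : ℂ)) (by simpa using hs)
  simpa using this

theorem latS_classChar_sum_eq_zero (χ : ClassGroup (𝓞 K) →* ℂˣ) (hχ : χ ≠ 1) :
    ∑ C : ClassGroup (𝓞 K), (χ C : ℂ) = 0 := by
  have h : (Units.coeHom ℂ).comp χ ≠ 1 := by
    intro h
    apply hχ
    ext C
    have := DFunLike.congr_fun h C
    simpa using this
  exact sum_hom_units_eq_zero _ h

theorem latS_classChar_norm (χ : ClassGroup (𝓞 K) →* ℂˣ) (C : ClassGroup (𝓞 K)) :
    ‖(χ C : ℂ)‖ = 1 := by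
  refine Complex.norm_eq_one_of_pow_eq_one (n := Fintype.card (ClassGroup (𝓞 K))) ?_
    Fintype.card_ne_zero
  rw [← Units.val_pow_eq_pow_val, ← map_pow, pow_card_eq_one, map_one, Units.val_one]

theorem latS_classChar_partial_sum_le (χ : ClassGroup (𝓞 K) →* ℂˣ) (hχ : χ ≠ 1) :
    ∃ A : ℝ, 0 ≤ A ∧ ∀ n : ℕ,
      ‖∑ k ∈ Finset.Icc 1 n, ∑ C, (χ C : ℂ) * (latClassCoeff K C k : ℂ)‖
        ≤ A * (n : ℝ) ^ (1 - 1 / (finrank ℚ K : ℝ)) := by
  choose A hA using latClassCount_sub_le K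
  have hA0 : ∀ C, 0 ≤ A C := by
    intro C
    have := hA C 1 le_rfl
    simp only [Real.one_rpow, mul_one] at this
    exact (abs_nonneg _).trans this
  have hA0' : 0 ≤ ∑ C, A C := Finset.sum_nonneg fun C _ => hA0 C
  refine ⟨∑ C, A C, hA0', fun n => ?_⟩
  rcases Nat.eq_zero_or_pos n with rfl | hn
  · simp only [zero_lt_one, Finset.Icc_eq_empty_of_lt, Finset.sum_empty, norm_zero]
    exact mul_nonneg hA0' (Real.rpow_nonneg (Nat.cast_nonneg _) _)
  · rw [Finset.sum_comm]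
    have h1 : ∀ C, ∑ k ∈ Finset.Icc 1 n, (χ C : ℂ) * (latClassCoeff K C k : ℂ)
        = (χ C : ℂ) * (latClassCount K C n : ℂ) := by
      intro C
      rw [← Finset.mul_sum, ← latClassCoeff_sum]
      push_cast
      rfl
    simp_rw [h1]
    have h2 : ∑ C, (χ C : ℂ) * (latClassCount K C n : ℂ)
        = ∑ C, (χ C : ℂ) * (((latClassCount K C n : ℝ) - latClassConst K * n : ℝ) : ℂ) := by
      have hz := latS_classChar_sum_eq_zero K χ hχ
      simp_rw [Complex.ofReal_sub, mul_sub, Finset.sum_sub_distrib]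
      rw [← Finset.sum_mul, hz, zero_mul, sub_zero]
      simp
    rw [h2]
    refine (norm_sum_le _ _).trans ?_
    rw [Finset.sum_mul]
    refine Finset.sum_le_sum fun C _ => ?_
    rw [norm_mul, Complex.norm_real, Real.norm_eq_abs, latS_classChar_norm, one_mul]
    exact hA C n (by exact_mod_cast hn)

/-- summability of `N(I)^{-s}` over the nonzero integral ideals, `s > 1` -/
theorem latS_summable_absNorm_rpow {s : ℝ} (hs : 1 < s) :
    Summable (fun I : (Ideal (𝓞 K))⁰ => (absNorm (I : Ideal (𝓞 K)) : ℝ) ^ (-s)) := by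
  rw [← (Equiv.sigmaFiberEquiv (ClassGroup.mk0 (R := 𝓞 K))).summable_iff]
  refine (summable_sigma_of_nonneg
    (fun x => Real.rpow_nonneg (Nat.cast_nonneg _) _)).mpr ⟨fun C => ?_, Summable.of_finite⟩
  exact (latS_fiber_series
    (fun I : {I : (Ideal (𝓞 K))⁰ // ClassGroup.mk0 I = C} => absNorm (I.1 : Ideal (𝓞 K)))
    (fun I => latS_absNorm_ne_zero K I.1) (latS_finite_fiber K C)
    (latClassCoeff_lseriesSummable K C hs)).1

/-- the class `L`-series as a Dirichlet series -/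
theorem latS_classL_eq_LSeries (χ : ClassGroup (𝓞 K) →* ℂˣ) {s : ℝ} (hs : 1 < s) :
    ∑' I : (Ideal (𝓞 K))⁰, (χ (ClassGroup.mk0 I) : ℂ) *
        (((absNorm (I : Ideal (𝓞 K)) : ℝ) ^ (-s) : ℝ) : ℂ)
      = LSeries (∑ C, (χ C : ℂ) • fun m => (latClassCoeff K C m : ℂ)) s := by
  have hsum : Summable (fun I : (Ideal (𝓞 K))⁰ => (χ (ClassGroup.mk0 I) : ℂ) *
        (((absNorm (I : Ideal (𝓞 K)) : ℝ) ^ (-s) : ℝ) : ℂ)) := by
    refine Summable.of_norm ?_
    refine (latS_summable_absNorm_rpow K hs).congr fun I => ?_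
    rw [norm_mul, latS_classChar_norm, one_mul, Complex.norm_real, Real.norm_eq_abs,
      abs_of_nonneg (Real.rpow_nonneg (Nat.cast_nonneg _) _)]
  have h1 := hsum.hasSum.tsum_fiberwise (ClassGroup.mk0 (R := 𝓞 K))
  rw [← h1.tsum_eq, tsum_fintype,
    LSeries_sum (fun C _ => (latClassCoeff_lseriesSummable K C hs).smul _)]
  refine Finset.sum_congr rfl fun C _ => ?_
  rw [LSeries_smul]
  have h2 := (latS_fiber_series
    (fun I : {I : (Ideal (𝓞 K))⁰ // ClassGroup.mk0 I = C} => absNorm (I.1 : Ideal (𝓞 K)))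
    (fun I => latS_absNorm_ne_zero K I.1) (latS_finite_fiber K C)
    (latClassCoeff_lseriesSummable K C hs)).2
  have h3 : (LSeries (fun m => (latClassCoeff K C m : ℂ)) s) = _ := h2.symm
  rw [h3, ← tsum_mul_left]
  refine tsum_congr fun b => ?_
  rw [show ClassGroup.mk0 b.1 = C from b.2]

/-- **The `L`-series of a nontrivial ideal class character is bounded on `s > 1`.** -/
theorem latS_classL_isBounded (χ : ClassGroup (𝓞 K) →* ℂˣ) (hχ : χ ≠ 1) :
    ∃ B : ℝ, ∀ s : ℝ, 1 < s → s ≤ 2 →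
      ‖∑' I : (Ideal (𝓞 K))⁰, (χ (ClassGroup.mk0 I) : ℂ) *
        (((Ideal.absNorm (I : Ideal (𝓞 K)) : ℝ) ^ (-s) : ℝ) : ℂ)‖ ≤ B := by
  obtain ⟨A, hA0, hA⟩ := latS_classChar_partial_sum_le K χ hχ
  have hd : (1 : ℝ) ≤ (finrank ℚ K : ℝ) := by
    have : 0 < finrank ℚ K := Module.finrank_pos
    exact_mod_cast this
  have hθ0 : (0 : ℝ) ≤ 1 - 1 / (finrank ℚ K : ℝ) := by
    rw [sub_nonneg, div_le_one (by linarith)]
    exact hd
  have hθ1 : 1 - 1 / (finrank ℚ K : ℝ) < 1 := by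
    have : (0 : ℝ) < 1 / (finrank ℚ K : ℝ) := by positivity
    linarith
  refine ⟨A / (1 - (1 - 1 / (finrank ℚ K : ℝ))), fun s hs _ => ?_⟩
  rw [latS_classL_eq_LSeries K χ hs]
  refine latS_lseries_norm_le_of_sum_le hθ0 hθ1 (fun n => ?_) hs
    (LSeriesSummable.sum fun C _ => (latClassCoeff_lseriesSummable K C hs).smul _)
  simpa [Finset.sum_apply] using hA n

end Fermat.Agent.S14L
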