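import Mathlib
import Fermat.Agent.S14L.Defs
import Fermat.Agent.S14L.LatSeriesB

/-! S14 analytic package AN-BDD: the `L`-series of a nontrivial ideal class character is
bounded on `(1,2]`.  Counting route (helper2 / helper3): lattice points in a cone with a
power-saving error term (`Lat*`, `NLO*`), ideals of bounded norm in a class (`LatIdeal`),
Abel summation (`LatSeries`, `LatSeriesB`). -/

set_option autoImplicit false

open NumberField
open scoped nonZeroDivisors

namespace Fermat.Agent.S14L

theorem classL_isBounded (K : Type*) [Field K] [NumberField K]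
    (χ : ClassGroup (𝓞 K) →* ℂˣ) (hχ : χ ≠ 1) :
    ∃ B : ℝ, ∀ s : ℝ, 1 < s → s ≤ 2 →
      ‖∑' I : (Ideal (𝓞 K))⁰, (χ (ClassGroup.mk0 I) : ℂ) *
        (((Ideal.absNorm (I : Ideal (𝓞 K)) : ℝ) ^ (-s) : ℝ) : ℂ)‖ ≤ B :=
  latS_classL_isBounded K χ hχ

end Fermat.Agent.S14L
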