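import Mathlib

set_option autoImplicit false
set_option linter.unusedSectionVars false

open IsDedekindDomain Filter Topology

namespace Fermat.Agent.S14L.Euler

variable {R : Type*} [CommRing R]

/-- `f` restricted to ideals not divisible by any prime of `S`. -/
noncomputable def sieve (f : Ideal R → ℂ) (S : Finset (HeightOneSpectrum R)) (I : Ideal R) : ℂ :=
  open Classical in if ∀ 𝔭 ∈ S, ¬ (𝔭.asIdeal ∣ I) then f I else 0

lemma sieve_empty (f : Ideal R → ℂ) : sieve f ∅ = f := by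
  funext I; simp [sieve]

lemma norm_sieve_le (f : Ideal R → ℂ) (S : Finset (HeightOneSpectrum R)) (I : Ideal R) :
    ‖sieve f S I‖ ≤ ‖f I‖ := by
  unfold sieve; split_ifs <;> simp

lemma summable_sieve {f : Ideal R → ℂ} (hf : Summable fun I ↦ ‖f I‖)
    (S : Finset (HeightOneSpectrum R)) : Summable (sieve f S) :=
  Summable.of_norm_bounded hf (norm_sieve_le f S)

variable [IsDedekindDomain R]

lemma heightOne_dvd_iff {𝔭 𝔮 : HeightOneSpectrum R} : 𝔮.asIdeal ∣ 𝔭.asIdeal ↔ 𝔮 = 𝔭 := by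
  constructor
  · intro h
    have hle : 𝔭.asIdeal ≤ 𝔮.asIdeal := Ideal.dvd_iff_le.mp h
    have := 𝔭.isMaximal.eq_of_le 𝔮.isPrime.ne_top hle
    exact (HeightOneSpectrum.ext this).symm
  · rintro rfl; exact dvd_rfl

lemma sieve_insert_mul {f : Ideal R → ℂ} (hmul : ∀ I J, f (I * J) = f I * f J)
    (S : Finset (HeightOneSpectrum R)) {𝔭 : HeightOneSpectrum R} (h𝔭 : 𝔭 ∉ S) (I : Ideal R) :
    sieve f S (𝔭.asIdeal * I) = f 𝔭.asIdeal * sieve f S I := by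
  classical
  unfold sieve
  have : (∀ 𝔮 ∈ S, ¬ (𝔮.asIdeal ∣ 𝔭.asIdeal * I)) ↔ (∀ 𝔮 ∈ S, ¬ (𝔮.asIdeal ∣ I)) := by
    refine forall₂_congr fun 𝔮 h𝔮 ↦ not_congr ?_
    rw [𝔮.prime.dvd_mul, heightOne_dvd_iff]
    constructor
    · rintro (rfl | h)
      · exact absurd h𝔮 h𝔭
      · exact h
    · exact Or.inr
  by_cases h : ∀ 𝔮 ∈ S, ¬ (𝔮.asIdeal ∣ I)
  · rw [if_pos h, if_pos (this.mpr h), hmul]
  · rw [if_neg h, if_neg (fun h' ↦ h (this.mp h')), mul_zero]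

open scoped Classical in
lemma tsum_sieve_insert {f : Ideal R → ℂ} (hmul : ∀ I J, f (I * J) = f I * f J)
    (hf : Summable fun I ↦ ‖f I‖)
    (S : Finset (HeightOneSpectrum R)) {𝔭 : HeightOneSpectrum R} (h𝔭 : 𝔭 ∉ S) :
    ∑' I, sieve f (insert 𝔭 S) I = (1 - f 𝔭.asIdeal) * ∑' I, sieve f S I := by
  classical
  have hS := summable_sieve hf S
  have hinj : Function.Injective (fun I : Ideal R ↦ 𝔭.asIdeal * I) :=
    mul_right_injective₀ 𝔭.ne_bot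
  -- sum over multiples of `𝔭`
  have h1 : ∑' I, sieve f S (𝔭.asIdeal * I) = f 𝔭.asIdeal * ∑' I, sieve f S I := by
    simp_rw [sieve_insert_mul hmul S h𝔭]
    exact tsum_mul_left
  have h2 : ∑' I, sieve f S (𝔭.asIdeal * I)
      = ∑' I, (if 𝔭.asIdeal ∣ I then sieve f S I else 0) := by
    have := hinj.tsum_eq (f := fun I ↦ (if 𝔭.asIdeal ∣ I then sieve f S I else 0)) ?_
    · rw [← this]
      refine tsum_congr fun I ↦ ?_
      simp
    · intro I hI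
      simp only [Function.mem_support, ne_eq, ite_eq_right_iff, not_forall] at hI
      obtain ⟨⟨J, rfl⟩, -⟩ := hI
      exact ⟨J, rfl⟩
  have h3 : ∀ I, sieve f (insert 𝔭 S) I
      = sieve f S I - (if 𝔭.asIdeal ∣ I then sieve f S I else 0) := by
    intro I
    by_cases hd : 𝔭.asIdeal ∣ I
    · simp [sieve, hd]
    · simp [sieve, hd]
  have hS' : Summable fun I ↦ (if 𝔭.asIdeal ∣ I then sieve f S I else 0) := by
    refine Summable.of_norm_bounded hf fun I ↦ ?_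
    split_ifs
    · exact norm_sieve_le f S I
    · simp
  simp_rw [h3]
  rw [hS.tsum_sub hS', ← h2, h1]
  ring

lemma tsum_sieve {f : Ideal R → ℂ} (hmul : ∀ I J, f (I * J) = f I * f J)
    (hf : Summable fun I ↦ ‖f I‖) (S : Finset (HeightOneSpectrum R)) :
    ∑' I, sieve f S I = (∏ 𝔭 ∈ S, (1 - f 𝔭.asIdeal)) * ∑' I, f I := by
  classical
  induction S using Finset.induction_on with
  | empty => simp [sieve_empty]
  | insert 𝔭 S h𝔭 ih =>
    rw [tsum_sieve_insert hmul hf S h𝔭, ih, Finset.prod_insert h𝔭]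
    ring

lemma not_heightOne_dvd_top (𝔭 : HeightOneSpectrum R) : ¬ (𝔭.asIdeal ∣ (⊤ : Ideal R)) := by
  rw [Ideal.dvd_iff_le, top_le_iff]
  exact 𝔭.isPrime.ne_top

lemma exists_heightOne_dvd {I : Ideal R} (h0 : I ≠ ⊥) (h1 : I ≠ ⊤) :
    ∃ 𝔭 : HeightOneSpectrum R, 𝔭.asIdeal ∣ I := by
  obtain ⟨M, hM, hIM⟩ := Ideal.exists_le_maximal I h1
  have hMbot : M ≠ ⊥ := fun h ↦ h0 (le_bot_iff.mp (h ▸ hIM))
  exact ⟨⟨M, hM.isPrime, hMbot⟩, Ideal.dvd_iff_le.mpr hIM⟩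

/-- **Euler product, sieve form**: the sifted sums tend to `f ⊤`. -/
theorem tendsto_tsum_sieve {f : Ideal R → ℂ} (hbot : f ⊥ = 0)
    (hf : Summable fun I ↦ ‖f I‖) :
    Tendsto (fun S : Finset (HeightOneSpectrum R) ↦ ∑' I, sieve f S I) atTop (𝓝 (f ⊤)) := by
  classical
  have key : Tendsto (fun S : Finset (HeightOneSpectrum R) ↦ ∑' I, sieve f S I) atTop
      (𝓝 (∑' I : Ideal R, if I = ⊤ then f ⊤ else 0)) := by
    refine tendsto_tsum_of_dominated_convergence (bound := fun I ↦ ‖f I‖) hf ?_ ?_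
    · intro I
      by_cases h1 : I = ⊤
      · subst h1
        rw [if_pos rfl]
        refine tendsto_const_nhds.congr fun S ↦ ?_
        simp [sieve, not_heightOne_dvd_top]
      · rw [if_neg h1]
        by_cases h0 : I = ⊥
        · subst h0
          refine tendsto_const_nhds.congr fun S ↦ ?_
          unfold sieve; split_ifs <;> simp [hbot]
        · obtain ⟨𝔭, h𝔭⟩ := exists_heightOne_dvd h0 h1
          refine tendsto_const_nhds.congr' ?_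
          filter_upwards [eventually_ge_atTop ({𝔭} : Finset (HeightOneSpectrum R))] with S hS
          have : 𝔭 ∈ S := hS (Finset.mem_singleton_self 𝔭)
          unfold sieve
          rw [if_neg]
          exact fun h ↦ h 𝔭 this h𝔭
    · exact Eventually.of_forall fun S I ↦ norm_sieve_le f S I
  simpa using key

/-- **Euler product**: partial products of `(1 - f 𝔭)` times the full sum tend to `1`. -/
theorem tendsto_prod_mul_tsum {f : Ideal R → ℂ} (hmul : ∀ I J, f (I * J) = f I * f J)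
    (htop : f ⊤ = 1) (hbot : f ⊥ = 0) (hf : Summable fun I ↦ ‖f I‖) :
    Tendsto (fun S : Finset (HeightOneSpectrum R) ↦ (∏ 𝔭 ∈ S, (1 - f 𝔭.asIdeal)) * ∑' I, f I)
      atTop (𝓝 1) := by
  have := tendsto_tsum_sieve hbot hf
  rw [htop] at this
  exact this.congr fun S ↦ tsum_sieve hmul hf S

lemma norm_one_sub_le_exp (z : ℂ) : ‖1 - z‖ ≤ Real.exp (-z.re + ‖z‖ ^ 2) := by
  have h1 : ‖1 - z‖ ^ 2 = 1 - 2 * z.re + ‖z‖ ^ 2 := by
    rw [Complex.sq_norm, Complex.sq_norm, Complex.normSq_apply, Complex.normSq_apply]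
    simp only [Complex.sub_re, Complex.one_re, Complex.sub_im, Complex.one_im]
    ring
  have h2 : ‖1 - z‖ ^ 2 ≤ Real.exp (-z.re + ‖z‖ ^ 2) ^ 2 := by
    rw [h1, ← Real.exp_nat_mul]
    have := Real.add_one_le_exp (-2 * z.re + ‖z‖ ^ 2)
    have h3 : Real.exp (-2 * z.re + ‖z‖ ^ 2) ≤ Real.exp (((2 : ℕ) : ℝ) * (-z.re + ‖z‖ ^ 2)) := by
      apply Real.exp_le_exp.mpr
      push_cast
      nlinarith [sq_nonneg ‖z‖]
    linarith
  exact (abs_le_of_sq_le_sq' h2 (Real.exp_pos _).le).2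

lemma exp_le_one_sub {x : ℝ} (h1 : x ≤ 1 / 2) :
    Real.exp (-(x + 2 * x ^ 2)) ≤ 1 - x := by
  have h := Real.add_one_le_exp (x + 2 * x ^ 2)
  have hpos : 0 < Real.exp (x + 2 * x ^ 2) := Real.exp_pos _
  rw [Real.exp_neg, inv_le_comm₀ hpos (by linarith), ← one_div, div_le_iff₀ (by linarith)]
  nlinarith [mul_nonneg (sq_nonneg x) (by linarith : (0 : ℝ) ≤ 1 - 2 * x)]

omit [IsDedekindDomain R] in
lemma summable_norm_prime {f : Ideal R → ℂ} (hf : Summable fun I ↦ ‖f I‖) :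
    Summable fun 𝔭 : HeightOneSpectrum R ↦ ‖f 𝔭.asIdeal‖ :=
  hf.comp_injective (fun _ _ h ↦ HeightOneSpectrum.ext h)

lemma summable_norm_sq_prime {f : Ideal R → ℂ} (hf : Summable fun I ↦ ‖f I‖)
    (hle : ∀ 𝔭 : HeightOneSpectrum R, ‖f 𝔭.asIdeal‖ ≤ 1) :
    Summable fun 𝔭 : HeightOneSpectrum R ↦ ‖f 𝔭.asIdeal‖ ^ 2 :=
  Summable.of_nonneg_of_le (fun _ ↦ sq_nonneg _)
    (fun 𝔭 ↦ by nlinarith [hle 𝔭, norm_nonneg (f 𝔭.asIdeal)]) (summable_norm_prime hf)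

lemma summable_re_prime {f : Ideal R → ℂ} (hf : Summable fun I ↦ ‖f I‖) :
    Summable fun 𝔭 : HeightOneSpectrum R ↦ (f 𝔭.asIdeal).re :=
  Summable.of_norm_bounded (summable_norm_prime hf) fun 𝔭 ↦ by
    simpa using Complex.abs_re_le_norm (f 𝔭.asIdeal)

/-- Lower bound for the norm of an Euler product. -/
theorem exp_le_norm_tsum {f : Ideal R → ℂ} (hmul : ∀ I J, f (I * J) = f I * f J)
    (htop : f ⊤ = 1) (hbot : f ⊥ = 0) (hf : Summable fun I ↦ ‖f I‖)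
    (hle : ∀ 𝔭 : HeightOneSpectrum R, ‖f 𝔭.asIdeal‖ ≤ 1) :
    Real.exp (∑' 𝔭 : HeightOneSpectrum R, ((f 𝔭.asIdeal).re - ‖f 𝔭.asIdeal‖ ^ 2))
      ≤ ‖∑' I, f I‖ := by
  set L := ∑' I, f I
  set a : HeightOneSpectrum R → ℝ := fun 𝔭 ↦ -(f 𝔭.asIdeal).re + ‖f 𝔭.asIdeal‖ ^ 2 with ha
  have hasum : Summable a := (summable_re_prime hf).neg.add (summable_norm_sq_prime hf hle)
  have h1 : Tendsto (fun S : Finset (HeightOneSpectrum R) ↦
      ‖(∏ 𝔭 ∈ S, (1 - f 𝔭.asIdeal)) * L‖) atTop (𝓝 1) := by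
    simpa using (tendsto_prod_mul_tsum hmul htop hbot hf).norm
  have h2 : Tendsto (fun S : Finset (HeightOneSpectrum R) ↦ Real.exp (∑ 𝔭 ∈ S, a 𝔭) * ‖L‖) atTop
      (𝓝 (Real.exp (∑' 𝔭, a 𝔭) * ‖L‖)) :=
    ((Real.continuous_exp.tendsto _).comp hasum.hasSum).mul_const _
  have h3 : ∀ S : Finset (HeightOneSpectrum R),
      ‖(∏ 𝔭 ∈ S, (1 - f 𝔭.asIdeal)) * L‖ ≤ Real.exp (∑ 𝔭 ∈ S, a 𝔭) * ‖L‖ := by
    intro S
    rw [norm_mul, norm_prod, Real.exp_sum]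
    exact mul_le_mul_of_nonneg_right
      (Finset.prod_le_prod (fun _ _ ↦ norm_nonneg _) fun 𝔭 _ ↦ norm_one_sub_le_exp _)
      (norm_nonneg _)
  have h4 : 1 ≤ Real.exp (∑' 𝔭, a 𝔭) * ‖L‖ := le_of_tendsto_of_tendsto' h1 h2 h3
  have h5 : (∑' 𝔭 : HeightOneSpectrum R, ((f 𝔭.asIdeal).re - ‖f 𝔭.asIdeal‖ ^ 2))
      = -∑' 𝔭, a 𝔭 := by
    rw [← tsum_neg]
    exact tsum_congr fun 𝔭 ↦ by simp only [ha]; ring
  rw [h5, Real.exp_neg, inv_le_iff_one_le_mul₀' (Real.exp_pos _)]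
  exact h4

/-- Upper bound for the norm of an Euler product. -/
theorem norm_tsum_le_exp {f : Ideal R → ℂ} (hmul : ∀ I J, f (I * J) = f I * f J)
    (htop : f ⊤ = 1) (hbot : f ⊥ = 0) (hf : Summable fun I ↦ ‖f I‖)
    (hle : ∀ 𝔭 : HeightOneSpectrum R, ‖f 𝔭.asIdeal‖ ≤ 1 / 2) :
    ‖∑' I, f I‖ ≤
      Real.exp (∑' 𝔭 : HeightOneSpectrum R, (‖f 𝔭.asIdeal‖ + 2 * ‖f 𝔭.asIdeal‖ ^ 2)) := by
  set L := ∑' I, f I
  set b : HeightOneSpectrum R → ℝ := fun 𝔭 ↦ ‖f 𝔭.asIdeal‖ + 2 * ‖f 𝔭.asIdeal‖ ^ 2 with hb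
  have hle' : ∀ 𝔭 : HeightOneSpectrum R, ‖f 𝔭.asIdeal‖ ≤ 1 := fun 𝔭 ↦ (hle 𝔭).trans (by norm_num)
  have hbsum : Summable b :=
    (summable_norm_prime hf).add ((summable_norm_sq_prime hf hle').mul_left 2)
  have h1 : Tendsto (fun S : Finset (HeightOneSpectrum R) ↦
      ‖(∏ 𝔭 ∈ S, (1 - f 𝔭.asIdeal)) * L‖) atTop (𝓝 1) := by
    simpa using (tendsto_prod_mul_tsum hmul htop hbot hf).norm
  have h2 : Tendsto (fun S : Finset (HeightOneSpectrum R) ↦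
      Real.exp (-∑ 𝔭 ∈ S, b 𝔭) * ‖L‖) atTop (𝓝 (Real.exp (-∑' 𝔭, b 𝔭) * ‖L‖)) := by
    have h := ((Real.continuous_exp.tendsto _).comp hbsum.hasSum.neg).mul_const ‖L‖
    refine h.congr fun S ↦ ?_
    simp [Finset.sum_neg_distrib]
  have h3 : ∀ S : Finset (HeightOneSpectrum R),
      Real.exp (-∑ 𝔭 ∈ S, b 𝔭) * ‖L‖ ≤ ‖(∏ 𝔭 ∈ S, (1 - f 𝔭.asIdeal)) * L‖ := by
    intro S
    rw [norm_mul, norm_prod, ← Finset.sum_neg_distrib, Real.exp_sum]
    refine mul_le_mul_of_nonneg_right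
      (Finset.prod_le_prod (fun _ _ ↦ (Real.exp_pos _).le) fun 𝔭 _ ↦ ?_) (norm_nonneg _)
    refine (exp_le_one_sub (hle 𝔭)).trans ?_
    have := norm_sub_norm_le (1 : ℂ) (f 𝔭.asIdeal)
    simpa using this
  have h4 : Real.exp (-∑' 𝔭, b 𝔭) * ‖L‖ ≤ 1 := le_of_tendsto_of_tendsto' h2 h1 h3
  rw [Real.exp_neg, inv_mul_le_iff₀ (Real.exp_pos _), mul_one] at h4
  exact h4

end Fermat.Agent.S14L.Euler
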