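import Mathlib
import Fermat.Agent.S14L.EulerSieve

set_option autoImplicit false

open IsDedekindDomain Filter Topology NumberField Ideal

namespace Fermat.Agent.S14L.Euler

variable (K : Type*) [Field K] [NumberField K]

/-- number of integral ideals of norm `n`. -/
noncomputable def idealCount (n : ℕ) : ℕ := Nat.card {I : Ideal (𝓞 K) // absNorm I = n}

lemma lseriesSummable_idealCount {s : ℂ} (hs : 1 < s.re) :
    LSeriesSummable (fun n ↦ (idealCount K n : ℂ)) s := by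
  have hlim : Tendsto (fun n : ℕ ↦ (∑ k ∈ Finset.Icc 1 n, (idealCount K k : ℝ)) / (n : ℝ)) atTop
      (𝓝 (dedekindZeta_residue K)) := by
    refine ((Ideal.tendsto_norm_le_div_atTop₀ K).comp tendsto_natCast_atTop_atTop).congr fun n ↦ ?_
    simp only [Function.comp_apply, Nat.cast_le, ← Nat.cast_sum]
    congr
    rw [← add_left_inj 1, ← card_norm_le_eq_card_norm_le_add_one,
      show Finset.Icc 1 n = Finset.Ioc 0 n from Finset.Icc_succ_left_eq_Ioc _ _,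
      show 1 = Nat.card {I : Ideal (𝓞 K) // absNorm I = 0} by simp [Ideal.absNorm_eq_zero_iff],
      show (∑ x ∈ Finset.Ioc 0 n, idealCount K x) + Nat.card {I : Ideal (𝓞 K) // absNorm I = 0}
        = (∑ x ∈ Finset.Ioc 0 n, Nat.card {I : Ideal (𝓞 K) // absNorm I = x})
          + Nat.card {I : Ideal (𝓞 K) // absNorm I = 0} from rfl,
      Finset.sum_Ioc_add_eq_sum_Icc (n.zero_le),
      ← Finset.card_preimage_eq_sum_card_image_eq (fun k _ ↦ finite_setOfPred_absNorm_eq k)]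
    simp [Set.coe_eq_subtype]
  have hO : (fun n : ℕ ↦ ∑ k ∈ Finset.Icc 1 n, (idealCount K k : ℝ)) =O[atTop]
      fun n ↦ (n : ℝ) ^ (1 : ℝ) := by
    simp_rw [Real.rpow_one]
    refine Asymptotics.isBigO_of_div_tendsto_nhds ?_ _ hlim
    filter_upwards [eventually_ne_atTop 0] with n hn h
    exact absurd (by exact_mod_cast h) hn
  exact LSeriesSummable_of_sum_norm_bigO_and_nonneg hO (fun _ ↦ Nat.cast_nonneg _) zero_le_one hs

instance finite_fiber (n : ℕ) : Finite {I : Ideal (𝓞 K) // absNorm I = n} :=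
  (finite_setOfPred_absNorm_eq n).to_subtype

lemma summable_absNorm_rpow {s : ℝ} (hs : 1 < s) :
    Summable (fun I : Ideal (𝓞 K) ↦ (absNorm I : ℝ) ^ (-s)) := by
  rw [← (Equiv.sigmaFiberEquiv (absNorm : Ideal (𝓞 K) → ℕ)).summable_iff]
  refine (summable_sigma_of_nonneg (fun _ ↦ by
    simp only [Function.comp_apply]; exact Real.rpow_nonneg (Nat.cast_nonneg _) _)).mpr ?_
  refine ⟨fun n ↦ Summable.of_finite, ?_⟩
  have h := (lseriesSummable_idealCount K (s := (s : ℂ)) (by simpa using hs)).norm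
  refine h.congr fun n ↦ ?_
  simp only [Function.comp_apply, Equiv.sigmaFiberEquiv_apply]
  rw [tsum_congr (fun y : {I : Ideal (𝓞 K) // absNorm I = n} ↦
    show ((absNorm (y : Ideal (𝓞 K)) : ℕ) : ℝ) ^ (-s) = (n : ℝ) ^ (-s) by rw [y.2]),
    tsum_const, LSeries.norm_term_eq]
  by_cases hn : n = 0
  · subst hn
    simp [Real.zero_rpow (neg_ne_zero.mpr (zero_lt_one.trans hs).ne')]
  · rw [if_neg hn, Complex.ofReal_re, Real.rpow_neg (Nat.cast_nonneg n), nsmul_eq_mul,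
      div_eq_mul_inv]
    simp [idealCount]

/-- the Dedekind zeta function as a sum over ideals (real argument). -/
noncomputable def idealZeta (s : ℝ) : ℝ := ∑' I : Ideal (𝓞 K), (absNorm I : ℝ) ^ (-s)

lemma idealZeta_eq {s : ℝ} (hs : 1 < s) : ((idealZeta K s : ℝ) : ℂ) = dedekindZeta K s := by
  have hsum := summable_absNorm_rpow K hs
  have h1 := ((Equiv.sigmaFiberEquiv (absNorm : Ideal (𝓞 K) → ℕ)).summable_iff.mpr hsum).tsum_sigma'
      (fun n ↦ Summable.of_finite)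
  have h2 := (Equiv.sigmaFiberEquiv (absNorm : Ideal (𝓞 K) → ℕ)).tsum_eq
    (fun I : Ideal (𝓞 K) ↦ (absNorm I : ℝ) ^ (-s))
  unfold idealZeta dedekindZeta LSeries
  rw [← h2]
  simp only [Function.comp_apply, Equiv.sigmaFiberEquiv_apply] at h1 ⊢
  rw [h1, Complex.ofReal_tsum]
  refine tsum_congr fun n ↦ ?_
  rw [tsum_congr (fun y : {I : Ideal (𝓞 K) // absNorm I = n} ↦
    show ((absNorm (y : Ideal (𝓞 K)) : ℕ) : ℝ) ^ (-s) = (n : ℝ) ^ (-s) by rw [y.2]),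
    tsum_const, LSeries.term]
  by_cases hn : n = 0
  · subst hn
    simp [Real.zero_rpow (neg_ne_zero.mpr (zero_lt_one.trans hs).ne')]
  · rw [if_neg hn, nsmul_eq_mul, Real.rpow_neg (Nat.cast_nonneg n), div_eq_mul_inv]
    push_cast
    rw [Complex.ofReal_cpow (Nat.cast_nonneg n)]
    simp

/-- the twisted term `χ(I) N(I)^{-s}`. -/
noncomputable def lterm (χ : Ideal (𝓞 K) → ℂ) (s : ℝ) (I : Ideal (𝓞 K)) : ℂ :=
  χ I * (((absNorm I : ℝ) ^ (-s) : ℝ) : ℂ)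

variable {K}

lemma lterm_mul {χ : Ideal (𝓞 K) → ℂ}
    (hχ : ∀ I J : Ideal (𝓞 K), I ≠ ⊥ → J ≠ ⊥ → χ (I * J) = χ I * χ J) {s : ℝ} (hs : 0 < s)
    (I J : Ideal (𝓞 K)) : lterm K χ s (I * J) = lterm K χ s I * lterm K χ s J := by
  unfold lterm
  by_cases hI : I = ⊥
  · subst hI
    simp [Real.zero_rpow (neg_ne_zero.mpr hs.ne')]
  by_cases hJ : J = ⊥
  · subst hJ
    simp [Real.zero_rpow (neg_ne_zero.mpr hs.ne')]
  rw [hχ I J hI hJ, map_mul, Nat.cast_mul, Real.mul_rpow (Nat.cast_nonneg _) (Nat.cast_nonneg _)]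
  push_cast
  ring

lemma lterm_top {χ : Ideal (𝓞 K) → ℂ} (hχ1 : χ ⊤ = 1) (s : ℝ) : lterm K χ s ⊤ = 1 := by
  simp [lterm, hχ1]

lemma lterm_bot (χ : Ideal (𝓞 K) → ℂ) {s : ℝ} (hs : 0 < s) : lterm K χ s ⊥ = 0 := by
  simp [lterm, Real.zero_rpow (neg_ne_zero.mpr hs.ne')]

lemma norm_lterm_le {χ : Ideal (𝓞 K) → ℂ} (hχn : ∀ I, ‖χ I‖ ≤ 1) (s : ℝ) (I : Ideal (𝓞 K)) :
    ‖lterm K χ s I‖ ≤ (absNorm I : ℝ) ^ (-s) := by
  unfold lterm
  rw [norm_mul, Complex.norm_real, Real.norm_of_nonneg (Real.rpow_nonneg (Nat.cast_nonneg _) _)]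
  exact mul_le_of_le_one_left (Real.rpow_nonneg (Nat.cast_nonneg _) _) (hχn I)

lemma summable_norm_lterm {χ : Ideal (𝓞 K) → ℂ} (hχn : ∀ I, ‖χ I‖ ≤ 1) {s : ℝ} (hs : 1 < s) :
    Summable fun I ↦ ‖lterm K χ s I‖ :=
  Summable.of_nonneg_of_le (fun _ ↦ norm_nonneg _) (norm_lterm_le hχn s)
    (summable_absNorm_rpow K hs)

lemma two_le_absNorm (𝔭 : HeightOneSpectrum (𝓞 K)) : 2 ≤ absNorm 𝔭.asIdeal := by
  have h0 : absNorm 𝔭.asIdeal ≠ 0 := by
    rw [Ne, absNorm_eq_zero_iff]; exact 𝔭.ne_bot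
  have h1 : absNorm 𝔭.asIdeal ≠ 1 := by
    rw [Ne, absNorm_eq_one_iff]; exact 𝔭.isPrime.ne_top
  omega

lemma absNorm_rpow_le_half (𝔭 : HeightOneSpectrum (𝓞 K)) {s : ℝ} (hs : 1 ≤ s) :
    (absNorm 𝔭.asIdeal : ℝ) ^ (-s) ≤ 1 / 2 := by
  have h2 : (2 : ℝ) ≤ absNorm 𝔭.asIdeal := by exact_mod_cast two_le_absNorm 𝔭
  calc (absNorm 𝔭.asIdeal : ℝ) ^ (-s) ≤ (absNorm 𝔭.asIdeal : ℝ) ^ (-1 : ℝ) :=
        Real.rpow_le_rpow_of_exponent_le (by linarith) (by linarith)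
    _ = ((absNorm 𝔭.asIdeal : ℝ))⁻¹ := Real.rpow_neg_one _
    _ ≤ 1 / 2 := by rw [one_div]; exact inv_anti₀ (by norm_num) h2

variable (K) in
/-- the constant `∑_𝔭 N𝔭^{-2}`. -/
noncomputable def primeSqSum : ℝ :=
  ∑' 𝔭 : HeightOneSpectrum (𝓞 K), (absNorm 𝔭.asIdeal : ℝ) ^ (-2 : ℝ)

lemma summable_prime_rpow {s : ℝ} (hs : 1 < s) :
    Summable fun 𝔭 : HeightOneSpectrum (𝓞 K) ↦ (absNorm 𝔭.asIdeal : ℝ) ^ (-s) :=
  (summable_absNorm_rpow K hs).comp_injective (fun _ _ h ↦ HeightOneSpectrum.ext h)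

lemma primeSqSum_nonneg : 0 ≤ primeSqSum K :=
  tsum_nonneg fun _ ↦ Real.rpow_nonneg (Nat.cast_nonneg _) _

lemma lterm_prime_norm_sq_le {χ : Ideal (𝓞 K) → ℂ} (hχn : ∀ I, ‖χ I‖ ≤ 1) {s : ℝ} (hs : 1 ≤ s)
    (𝔭 : HeightOneSpectrum (𝓞 K)) :
    ‖lterm K χ s 𝔭.asIdeal‖ ^ 2 ≤ (absNorm 𝔭.asIdeal : ℝ) ^ (-2 : ℝ) := by
  have h2 : (2 : ℝ) ≤ absNorm 𝔭.asIdeal := by exact_mod_cast two_le_absNorm 𝔭
  have h1 : ‖lterm K χ s 𝔭.asIdeal‖ ≤ (absNorm 𝔭.asIdeal : ℝ) ^ (-1 : ℝ) :=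
    (norm_lterm_le hχn s _).trans
      (Real.rpow_le_rpow_of_exponent_le (by linarith) (by linarith))
  calc ‖lterm K χ s 𝔭.asIdeal‖ ^ 2 ≤ ((absNorm 𝔭.asIdeal : ℝ) ^ (-1 : ℝ)) ^ 2 :=
        pow_le_pow_left₀ (norm_nonneg _) h1 2
    _ = (absNorm 𝔭.asIdeal : ℝ) ^ (-2 : ℝ) := by
        rw [← Real.rpow_natCast, ← Real.rpow_mul (Nat.cast_nonneg _)]
        norm_num

/-- **Lower bound for `|L(s,χ)|`** through its Euler product. -/
theorem exp_le_norm_lseries {χ : Ideal (𝓞 K) → ℂ}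
    (hχ : ∀ I J : Ideal (𝓞 K), I ≠ ⊥ → J ≠ ⊥ → χ (I * J) = χ I * χ J) (hχ1 : χ ⊤ = 1)
    (hχn : ∀ I, ‖χ I‖ ≤ 1) {s : ℝ} (hs : 1 < s) :
    Real.exp ((∑' 𝔭 : HeightOneSpectrum (𝓞 K),
        (χ 𝔭.asIdeal).re * (absNorm 𝔭.asIdeal : ℝ) ^ (-s)) - primeSqSum K)
      ≤ ‖∑' I : Ideal (𝓞 K), lterm K χ s I‖ := by
  have hs0 : 0 < s := zero_lt_one.trans hs
  have hsum := summable_norm_lterm hχn hs
  have hle : ∀ 𝔭 : HeightOneSpectrum (𝓞 K), ‖lterm K χ s 𝔭.asIdeal‖ ≤ 1 := fun 𝔭 ↦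
    ((norm_lterm_le hχn s _).trans (absNorm_rpow_le_half 𝔭 hs.le)).trans (by norm_num)
  refine le_trans (Real.exp_le_exp.mpr ?_)
    (exp_le_norm_tsum (lterm_mul hχ hs0) (lterm_top hχ1 s) (lterm_bot χ hs0) hsum hle)
  have hre : ∀ 𝔭 : HeightOneSpectrum (𝓞 K), (lterm K χ s 𝔭.asIdeal).re
      = (χ 𝔭.asIdeal).re * (absNorm 𝔭.asIdeal : ℝ) ^ (-s) := fun 𝔭 ↦ by
    simp [lterm]
  have hsre : Summable fun 𝔭 : HeightOneSpectrum (𝓞 K) ↦
      (χ 𝔭.asIdeal).re * (absNorm 𝔭.asIdeal : ℝ) ^ (-s) :=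
    (summable_re_prime hsum).congr hre
  have hsq : Summable fun 𝔭 : HeightOneSpectrum (𝓞 K) ↦ (absNorm 𝔭.asIdeal : ℝ) ^ (-2 : ℝ) :=
    summable_prime_rpow (by norm_num)
  rw [primeSqSum, ← hsre.tsum_sub hsq]
  refine (hsre.sub hsq).tsum_le_tsum (fun 𝔭 ↦ ?_)
    ((summable_re_prime hsum).sub (summable_norm_sq_prime hsum hle))
  rw [hre]
  exact sub_le_sub_left (lterm_prime_norm_sq_le hχn hs.le 𝔭) _

lemma tsum_lterm_one {s : ℝ} :
    ∑' I : Ideal (𝓞 K), lterm K (fun _ ↦ 1) s I = ((idealZeta K s : ℝ) : ℂ) := by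
  unfold idealZeta lterm
  rw [Complex.ofReal_tsum]
  exact tsum_congr fun I ↦ by simp

variable (K) in
lemma idealZeta_pos {s : ℝ} (hs : 1 < s) : 0 < idealZeta K s := by
  have hsum := summable_absNorm_rpow K hs
  have h1 : (absNorm (⊤ : Ideal (𝓞 K)) : ℝ) ^ (-s) ≤ idealZeta K s :=
    hsum.le_tsum ⊤ fun _ _ ↦ Real.rpow_nonneg (Nat.cast_nonneg _) _
  rw [absNorm_top, Nat.cast_one, Real.one_rpow] at h1
  linarith

/-- **Euler product bounds for `log ζ_K(s)`**. -/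
theorem primeZeta_le_log_idealZeta {s : ℝ} (hs : 1 < s) :
    (∑' 𝔭 : HeightOneSpectrum (𝓞 K), (absNorm 𝔭.asIdeal : ℝ) ^ (-s)) - primeSqSum K
      ≤ Real.log (idealZeta K s) := by
  have h := exp_le_norm_lseries (K := K) (χ := fun _ ↦ 1) (fun _ _ _ _ ↦ by simp) rfl
    (fun _ ↦ by simp) hs
  rw [tsum_lterm_one, Complex.norm_real, Real.norm_of_nonneg (idealZeta_pos K hs).le] at h
  simpa using (Real.le_log_iff_exp_le (idealZeta_pos K hs)).mpr h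

theorem log_idealZeta_le_primeZeta {s : ℝ} (hs : 1 < s) :
    Real.log (idealZeta K s)
      ≤ (∑' 𝔭 : HeightOneSpectrum (𝓞 K), (absNorm 𝔭.asIdeal : ℝ) ^ (-s)) + 2 * primeSqSum K := by
  have hs0 : 0 < s := zero_lt_one.trans hs
  have hχn : ∀ I : Ideal (𝓞 K), ‖(fun _ : Ideal (𝓞 K) ↦ (1 : ℂ)) I‖ ≤ 1 := fun _ ↦ by simp
  have hsum := summable_norm_lterm hχn hs
  have hnorm : ∀ 𝔭 : HeightOneSpectrum (𝓞 K),
      ‖lterm K (fun _ ↦ 1) s 𝔭.asIdeal‖ = (absNorm 𝔭.asIdeal : ℝ) ^ (-s) := fun 𝔭 ↦ by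
    simp only [lterm, one_mul, Complex.norm_real]
    exact Real.norm_of_nonneg (Real.rpow_nonneg (Nat.cast_nonneg _) _)
  have hle : ∀ 𝔭 : HeightOneSpectrum (𝓞 K), ‖lterm K (fun _ ↦ 1) s 𝔭.asIdeal‖ ≤ 1 / 2 :=
    fun 𝔭 ↦ (hnorm 𝔭).le.trans (absNorm_rpow_le_half 𝔭 hs.le)
  have h := norm_tsum_le_exp (lterm_mul (χ := fun _ ↦ 1) (fun _ _ _ _ ↦ by simp) hs0)
    (lterm_top rfl s) (lterm_bot _ hs0) hsum hle
  rw [tsum_lterm_one, Complex.norm_real, Real.norm_of_nonneg (idealZeta_pos K hs).le] at h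
  refine ((Real.log_le_iff_le_exp (idealZeta_pos K hs)).mpr h).trans ?_
  have hs1 := summable_prime_rpow (K := K) hs
  have hsq : Summable fun 𝔭 : HeightOneSpectrum (𝓞 K) ↦ (absNorm 𝔭.asIdeal : ℝ) ^ (-2 : ℝ) :=
    summable_prime_rpow (by norm_num)
  rw [primeSqSum, ← tsum_mul_left, ← hs1.tsum_add (hsq.mul_left 2)]
  refine Summable.tsum_le_tsum (fun 𝔭 ↦ ?_) ?_ (hs1.add (hsq.mul_left 2))
  · rw [hnorm]
    have := lterm_prime_norm_sq_le hχn hs.le 𝔭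
    rw [hnorm] at this
    linarith
  · exact (summable_norm_prime hsum).add
      ((summable_norm_sq_prime hsum fun 𝔭 ↦ (hle 𝔭).trans (by norm_num)).mul_left 2)

variable (K) in
/-- `(s-1) ζ_K(s) → residue` in real terms. -/
lemma tendsto_sub_one_mul_idealZeta :
    Tendsto (fun s : ℝ ↦ (s - 1) * idealZeta K s) (𝓝[>] 1) (𝓝 (dedekindZeta_residue K)) := by
  have h := tendsto_sub_one_mul_dedekindZeta_nhdsGT K
  have h' : Tendsto (fun s : ℝ ↦ (((s - 1) * idealZeta K s : ℝ) : ℂ)) (𝓝[>] 1)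
      (𝓝 ((dedekindZeta_residue K : ℝ) : ℂ)) := by
    refine h.congr' ?_
    filter_upwards [self_mem_nhdsWithin] with s hs
    rw [← idealZeta_eq K hs]
    push_cast
    ring
  exact Complex.continuous_re.continuousAt.tendsto.comp h' |>.congr fun s ↦ by simp

variable (K) in
/-- **Prime ideal zeta sum**: `∑_𝔭 N𝔭^{-s} = log (1/(s-1)) + O(1)` as `s → 1⁺`. -/
theorem primeZeta_sub_log_bounded :
    ∃ C : ℝ, ∀ᶠ s : ℝ in 𝓝[>] 1,
      |(∑' 𝔭 : HeightOneSpectrum (𝓞 K), (absNorm 𝔭.asIdeal : ℝ) ^ (-s))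
        - Real.log (1 / (s - 1))| ≤ C := by
  set κ := dedekindZeta_residue K with hκ
  have hκpos : 0 < κ := dedekindZeta_residue_pos K
  have hlog : Tendsto (fun s : ℝ ↦ Real.log ((s - 1) * idealZeta K s)) (𝓝[>] 1)
      (𝓝 (Real.log κ)) :=
    (Real.continuousAt_log hκpos.ne').tendsto.comp (tendsto_sub_one_mul_idealZeta K)
  refine ⟨|Real.log κ| + 1 + 2 * primeSqSum K, ?_⟩
  have h1 : ∀ᶠ s : ℝ in 𝓝[>] 1, |Real.log ((s - 1) * idealZeta K s) - Real.log κ| < 1 := by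
    have := (tendsto_order.mp (tendsto_iff_norm_sub_tendsto_zero.mp hlog)).2 1 one_pos
    simpa [Real.norm_eq_abs] using this
  filter_upwards [h1, self_mem_nhdsWithin] with s hs1 hs
  have hs' : (1 : ℝ) < s := hs
  have hz := idealZeta_pos K hs'
  have hsplit : Real.log ((s - 1) * idealZeta K s)
      = Real.log (idealZeta K s) - Real.log (1 / (s - 1)) := by
    rw [Real.log_mul (by linarith) hz.ne', one_div, Real.log_inv]
    ring
  have hlo := primeZeta_le_log_idealZeta (K := K) hs'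
  have hhi := log_idealZeta_le_primeZeta (K := K) hs'
  have hB := primeSqSum_nonneg (K := K)
  rw [hsplit] at hs1
  have habs := abs_lt.mp hs1
  have hk := abs_nonneg (Real.log κ)
  have hk1 := le_abs_self (Real.log κ)
  have hk2 := neg_abs_le (Real.log κ)
  rw [abs_le]
  constructor <;> linarith

open scoped nonZeroDivisors in
variable (K) in
lemma tsum_nonzero_eq_idealZeta {s : ℝ} (hs : 0 < s) :
    ∑' I : (Ideal (𝓞 K))⁰, (absNorm (I : Ideal (𝓞 K)) : ℝ) ^ (-s) = idealZeta K s := by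
  refine tsum_subtype_eq_of_support_subset (f := fun I : Ideal (𝓞 K) ↦ (absNorm I : ℝ) ^ (-s))
    (s := ((Ideal (𝓞 K))⁰ : Set (Ideal (𝓞 K)))) ?_
  intro I hI
  rw [SetLike.mem_coe, mem_nonZeroDivisors_iff_ne_zero]
  rintro rfl
  exact hI (by simp [Real.zero_rpow (neg_ne_zero.mpr hs.ne')])

variable (K) in
lemma idealZeta_anti {a b : ℝ} (ha : 1 < a) (hab : a ≤ b) : idealZeta K b ≤ idealZeta K a := by
  refine (summable_absNorm_rpow K (ha.trans_le hab)).tsum_le_tsum (fun I ↦ ?_)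
    (summable_absNorm_rpow K ha)
  by_cases hI : I = ⊥
  · subst hI
    simp [Real.zero_rpow (neg_ne_zero.mpr (zero_lt_one.trans ha).ne'),
      Real.zero_rpow (neg_ne_zero.mpr (zero_lt_one.trans (ha.trans_le hab)).ne')]
  · have h1 : (1 : ℝ) ≤ absNorm I := by
      have : absNorm I ≠ 0 := fun h ↦ hI (absNorm_eq_zero_iff.mp h)
      exact_mod_cast Nat.one_le_iff_ne_zero.mpr this
    exact Real.rpow_le_rpow_of_exponent_le h1 (by linarith)

variable (K) in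
/-- two-sided bound at the pole, uniformly on `(1,2]`. -/
theorem exists_idealZeta_bounds :
    ∃ c C : ℝ, 0 < c ∧ 0 < C ∧ ∀ s : ℝ, 1 < s → s ≤ 2 →
      c / (s - 1) ≤ idealZeta K s ∧ idealZeta K s ≤ C / (s - 1) := by
  set κ := dedekindZeta_residue K with hκ
  have hκpos : 0 < κ := dedekindZeta_residue_pos K
  have hev : ∀ᶠ s : ℝ in 𝓝[>] 1, κ / 2 < (s - 1) * idealZeta K s ∧
      (s - 1) * idealZeta K s < 2 * κ :=
    ((tendsto_order.mp (tendsto_sub_one_mul_idealZeta K)).1 _ (by linarith)).and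
      ((tendsto_order.mp (tendsto_sub_one_mul_idealZeta K)).2 _ (by linarith))
  obtain ⟨u, hu1, hu⟩ := (mem_nhdsGT_iff_exists_Ioo_subset).mp hev
  have hu1' : (1 : ℝ) < u := hu1
  set u₀ := (1 + u) / 2 with hu₀
  have hu₀1 : 1 < u₀ := by rw [hu₀]; linarith
  have hu₀u : u₀ < u := by rw [hu₀]; linarith
  have hz₀ := (hu ⟨hu₀1, hu₀u⟩).2
  refine ⟨min (κ / 2) (u - 1), max (2 * κ) (2 * κ / (u₀ - 1)), ?_, ?_, ?_⟩
  · exact lt_min (by linarith) (by linarith)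
  · exact lt_max_of_lt_left (by linarith)
  · intro s hs1 hs2
    have hs0 : 0 < s - 1 := by linarith
    rw [div_le_iff₀ hs0, le_div_iff₀ hs0, mul_comm (idealZeta K s)]
    by_cases hsu : s < u
    · have := hu ⟨hs1, hsu⟩
      exact ⟨(min_le_left _ _).trans this.1.le, this.2.le.trans (le_max_left _ _)⟩
    · push Not at hsu
      constructor
      · have h1 : 1 ≤ idealZeta K s := by
          have hsum := summable_absNorm_rpow K hs1
          have h1 : (absNorm (⊤ : Ideal (𝓞 K)) : ℝ) ^ (-s) ≤ idealZeta K s :=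
            hsum.le_tsum ⊤ fun _ _ ↦ Real.rpow_nonneg (Nat.cast_nonneg _) _
          rwa [absNorm_top, Nat.cast_one, Real.one_rpow] at h1
        calc min (κ / 2) (u - 1) ≤ u - 1 := min_le_right _ _
          _ ≤ (s - 1) * 1 := by linarith
          _ ≤ (s - 1) * idealZeta K s := mul_le_mul_of_nonneg_left h1 hs0.le
      · have h2 : idealZeta K s ≤ idealZeta K u₀ := idealZeta_anti K hu₀1 (hu₀u.le.trans hsu)
        have h3 : idealZeta K u₀ ≤ 2 * κ / (u₀ - 1) := by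
          rw [le_div_iff₀ (by linarith), mul_comm]; exact hz₀.le
        have h4 : 0 ≤ idealZeta K s := (idealZeta_pos K hs1).le
        calc (s - 1) * idealZeta K s ≤ 1 * idealZeta K s :=
              mul_le_mul_of_nonneg_right (by linarith) h4
          _ ≤ 2 * κ / (u₀ - 1) := by linarith
          _ ≤ _ := le_max_right _ _

end Fermat.Agent.S14L.Euler
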