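import Mathlib
import Fermat.Agent.S14L.EulerZeta

set_option autoImplicit false

open IsDedekindDomain Filter Topology NumberField Ideal

namespace Fermat.Agent.S14L.Euler

variable {K : Type*} [Field K] [NumberField K]

/-- at most `[K:ℚ]` primes of `𝓞 K` contain a given rational prime. -/
lemma card_primes_over_le {q : ℕ} (hq : q.Prime) (T : Finset (HeightOneSpectrum (𝓞 K)))
    (hT : ∀ v ∈ T, (q : 𝓞 K) ∈ v.asIdeal) : T.card ≤ Module.finrank ℤ (𝓞 K) := by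
  classical
  have hinj : Function.Injective (fun v : HeightOneSpectrum (𝓞 K) ↦ v.asIdeal) :=
    fun _ _ h ↦ HeightOneSpectrum.ext h
  set s : Finset (Ideal (𝓞 K)) := T.image (fun v ↦ v.asIdeal) with hs
  have hcard : s.card = T.card := Finset.card_image_of_injective T hinj
  have hdvd : ∏ I ∈ s, I ∣ Ideal.span {(q : 𝓞 K)} := by
    refine Finset.prod_primes_dvd _ (fun I hI ↦ ?_) (fun I hI ↦ ?_)
    · obtain ⟨v, -, rfl⟩ := Finset.mem_image.mp hI
      exact v.prime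
    · obtain ⟨v, hv, rfl⟩ := Finset.mem_image.mp hI
      exact Ideal.dvd_span_singleton.mpr (hT v hv)
  have h1 : absNorm (∏ I ∈ s, I) ∣ q ^ Module.finrank ℤ (𝓞 K) := by
    rw [← absNorm_span_natCast]
    exact absNorm_dvd_absNorm_of_le (Ideal.le_of_dvd hdvd)
  have h2 : q ^ s.card ∣ absNorm (∏ I ∈ s, I) := by
    rw [map_prod, ← Finset.prod_const]
    refine Finset.prod_dvd_prod_of_dvd _ _ fun I hI ↦ ?_
    obtain ⟨v, hv, rfl⟩ := Finset.mem_image.mp hI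
    have h3 : absNorm v.asIdeal ∣ q ^ Module.finrank ℤ (𝓞 K) := by
      rw [← absNorm_span_natCast]
      exact absNorm_dvd_absNorm_of_le
        ((Ideal.span_singleton_le_iff_mem _).mpr (hT v hv))
    obtain ⟨k, -, hk⟩ := (Nat.dvd_prime_pow hq).mp h3
    rw [hk]
    have hk0 : k ≠ 0 := by
      rintro rfl
      rw [pow_zero, absNorm_eq_one_iff] at hk
      exact v.isPrime.ne_top hk
    exact dvd_pow_self q hk0
  rw [← hcard]
  exact (Nat.pow_dvd_pow_iff_le_right hq.one_lt).mp (h2.trans h1)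

/-- a prime ideal whose norm is not prime lies over a rational prime `q` with `q² ≤ N`. -/
lemma exists_prime_sq_le (v : HeightOneSpectrum (𝓞 K)) (hv : ¬ (absNorm v.asIdeal).Prime) :
    ∃ q : ℕ, q.Prime ∧ (q : 𝓞 K) ∈ v.asIdeal ∧ q ^ 2 ≤ absNorm v.asIdeal := by
  have := v.isMaximal
  obtain ⟨q, n, hn, hmem, hq, hN⟩ := Ideal.exists_prime_and_absNorm_eq_pow v.asIdeal
  refine ⟨q, hq, hmem, ?_⟩
  have hn1 : n ≠ 1 := by
    rintro rfl
    rw [pow_one] at hN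
    exact hv (hN ▸ hq)
  rw [hN]
  exact Nat.pow_le_pow_right hq.pos (by omega)

variable (K) in
/-- primes with non-prime norm contribute a bounded amount to `∑ N v^{-s}`, `s ≥ 1`. -/
theorem higher_degree_sum_bound :
    ∃ C : ℝ, ∀ s : ℝ, 1 ≤ s → ∀ T : Finset (HeightOneSpectrum (𝓞 K)),
      (∀ v ∈ T, ¬ (absNorm v.asIdeal).Prime) →
      ∑ v ∈ T, (absNorm v.asIdeal : ℝ) ^ (-s) ≤ C := by
  classical
  have hsum : Summable fun m : ℕ ↦ (m : ℝ) ^ (-2 : ℝ) := Real.summable_nat_rpow.mpr (by norm_num)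
  refine ⟨(Module.finrank ℤ (𝓞 K) : ℝ) * ∑' m : ℕ, (m : ℝ) ^ (-2 : ℝ), fun s hs T hT ↦ ?_⟩
  -- choose the rational prime below each `v ∈ T`
  have hex : ∀ v : HeightOneSpectrum (𝓞 K), ∃ q : ℕ, v ∈ T →
      q.Prime ∧ (q : 𝓞 K) ∈ v.asIdeal ∧ q ^ 2 ≤ absNorm v.asIdeal := by
    intro v
    by_cases hv : v ∈ T
    · obtain ⟨q, h⟩ := exists_prime_sq_le v (hT v hv)
      exact ⟨q, fun _ ↦ h⟩
    · exact ⟨0, fun h ↦ absurd h hv⟩
  choose qf hqf using hex
  have h1 : ∀ v ∈ T, (absNorm v.asIdeal : ℝ) ^ (-s) ≤ (qf v : ℝ) ^ (-2 : ℝ) := by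
    intro v hv
    obtain ⟨hq, -, hle⟩ := hqf v hv
    have hq0 : (0 : ℝ) < qf v := by exact_mod_cast hq.pos
    have hN1 : (1 : ℝ) ≤ absNorm v.asIdeal := by
      have := two_le_absNorm v
      exact_mod_cast (by omega : 1 ≤ absNorm v.asIdeal)
    calc (absNorm v.asIdeal : ℝ) ^ (-s) ≤ (absNorm v.asIdeal : ℝ) ^ (-1 : ℝ) :=
          Real.rpow_le_rpow_of_exponent_le hN1 (by linarith)
      _ = ((absNorm v.asIdeal : ℝ))⁻¹ := Real.rpow_neg_one _
      _ ≤ (((qf v : ℝ)) ^ 2)⁻¹ := by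
          apply inv_anti₀ (by positivity)
          exact_mod_cast hle
      _ = (qf v : ℝ) ^ (-2 : ℝ) := by
          rw [Real.rpow_neg hq0.le, ← Real.rpow_natCast]
          norm_num
  refine (Finset.sum_le_sum h1).trans ?_
  rw [← Finset.sum_fiberwise_of_maps_to (g := qf) (t := T.image qf)
    (fun v hv ↦ Finset.mem_image_of_mem qf hv)]
  have h2 : ∀ q ∈ T.image qf, ∑ v ∈ T with qf v = q, (qf v : ℝ) ^ (-2 : ℝ)
      ≤ (Module.finrank ℤ (𝓞 K) : ℝ) * (q : ℝ) ^ (-2 : ℝ) := by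
    intro q hq
    obtain ⟨v₀, hv₀, rfl⟩ := Finset.mem_image.mp hq
    rw [Finset.sum_congr rfl (fun v hv ↦ by rw [(Finset.mem_filter.mp hv).2]),
      Finset.sum_const, nsmul_eq_mul]
    refine mul_le_mul_of_nonneg_right ?_ (Real.rpow_nonneg (Nat.cast_nonneg _) _)
    have := card_primes_over_le (hqf v₀ hv₀).1 (T.filter (fun v ↦ qf v = qf v₀))
      (fun v hv ↦ by
        have hv' := Finset.mem_filter.mp hv
        rw [← hv'.2]
        exact (hqf v hv'.1).2.1)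
    exact_mod_cast this
  refine (Finset.sum_le_sum h2).trans ?_
  rw [← Finset.mul_sum]
  exact mul_le_mul_of_nonneg_left
    (hsum.sum_le_tsum _ fun _ _ ↦ Real.rpow_nonneg (Nat.cast_nonneg _) _) (Nat.cast_nonneg _)

variable (K) in
/-- finite sums of `N v^{-s}` over primes are at most `log (1/(s-1)) + C` on `(1,2]`. -/
theorem prime_sum_bound :
    ∃ C : ℝ, ∀ s : ℝ, 1 < s → s ≤ 2 → ∀ T : Finset (HeightOneSpectrum (𝓞 K)),
      ∑ v ∈ T, (absNorm v.asIdeal : ℝ) ^ (-s) ≤ Real.log (1 / (s - 1)) + C := by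
  obtain ⟨c, C, -, hC, h⟩ := exists_idealZeta_bounds K
  refine ⟨Real.log C + primeSqSum K, fun s hs1 hs2 T ↦ ?_⟩
  have hs0 : 0 < s - 1 := by linarith
  have h1 : ∑ v ∈ T, (absNorm v.asIdeal : ℝ) ^ (-s)
      ≤ ∑' v : HeightOneSpectrum (𝓞 K), (absNorm v.asIdeal : ℝ) ^ (-s) :=
    (summable_prime_rpow hs1).sum_le_tsum _ fun _ _ ↦ Real.rpow_nonneg (Nat.cast_nonneg _) _
  have h2 := primeZeta_le_log_idealZeta (K := K) hs1
  have h3 : Real.log (idealZeta K s) ≤ Real.log (C / (s - 1)) :=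
    Real.log_le_log (idealZeta_pos K hs1) (h s hs1 hs2).2
  have h4 : Real.log (C / (s - 1)) = Real.log C + Real.log (1 / (s - 1)) := by
    rw [Real.log_div hC.ne' hs0.ne', one_div, Real.log_inv]
    ring
  linarith

end Fermat.Agent.S14L.Euler
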