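import Mathlib
import Fermat.Agent.S14L.Defs
import Fermat.Agent.S14L.EulerPrime

/-! S14 analytic package AN-PS (owner: helper5): sums over prime ideals. -/

set_option autoImplicit false

open NumberField IsDedekindDomain
open scoped nonZeroDivisors

namespace Fermat.Agent.S14L

/-- `Σ_{v ∈ T} N(v)^{-s} ≤ log(1/(s-1)) + C` for every finite set of primes, `s ∈ (1,2]`. -/
theorem prime_sum_le (K : Type*) [Field K] [NumberField K] :
    ∃ C : ℝ, ∀ s : ℝ, 1 < s → s ≤ 2 → ∀ T : Finset (HeightOneSpectrum (𝓞 K)),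
      ∑ v ∈ T, idN K s v.asIdeal ≤ Real.log (1 / (s - 1)) + C := by
  exact Euler.prime_sum_bound K

/-- primes whose absolute norm is not a rational prime (residue degree `≥ 2`) contribute a
bounded amount. -/
theorem higher_degree_sum_le (K : Type*) [Field K] [NumberField K] :
    ∃ C : ℝ, ∀ s : ℝ, 1 < s → s ≤ 2 → ∀ T : Finset (HeightOneSpectrum (𝓞 K)),
      (∀ v ∈ T, ¬ (Ideal.absNorm v.asIdeal).Prime) →
      ∑ v ∈ T, idN K s v.asIdeal ≤ C := by
  obtain ⟨C, hC⟩ := Euler.higher_degree_sum_bound K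
  exact ⟨C, fun s hs1 _ T hT ↦ hC s hs1.le T hT⟩

end Fermat.Agent.S14L
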