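import Mathlib
import Fermat.Agent.S14L.Defs
import Fermat.Agent.S14L.EulerZeta

/-! S14 analytic package AN-SUM (owner: helper5): convergence and the pole of the ideal zeta
function. -/

set_option autoImplicit false

open NumberField
open scoped nonZeroDivisors

namespace Fermat.Agent.S14L

theorem summable_idN (K : Type*) [Field K] [NumberField K] (s : ℝ) (hs : 1 < s) :
    Summable (fun I : (Ideal (𝓞 K))⁰ => idN K s (I : Ideal (𝓞 K))) := by
  exact (Euler.summable_absNorm_rpow K hs).comp_injective Subtype.val_injective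

/-- lower bound at the pole: `c/(s-1) ≤ ζ_K(s)` on `(1,2]`. -/
theorem zeta_lower (K : Type*) [Field K] [NumberField K] :
    ∃ c : ℝ, 0 < c ∧ ∀ s : ℝ, 1 < s → s ≤ 2 →
      c / (s - 1) ≤ ∑' I : (Ideal (𝓞 K))⁰, idN K s (I : Ideal (𝓞 K)) := by
  obtain ⟨c, C, hc, -, h⟩ := Euler.exists_idealZeta_bounds K
  refine ⟨c, hc, fun s hs1 hs2 ↦ ?_⟩
  have := (h s hs1 hs2).1
  rwa [← Euler.tsum_nonzero_eq_idealZeta K (zero_lt_one.trans hs1)] at this

/-- upper bound at the pole: `ζ_K(s) ≤ C/(s-1)` on `(1,2]`. -/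
theorem zeta_upper (K : Type*) [Field K] [NumberField K] :
    ∃ C : ℝ, ∀ s : ℝ, 1 < s → s ≤ 2 →
      ∑' I : (Ideal (𝓞 K))⁰, idN K s (I : Ideal (𝓞 K)) ≤ C / (s - 1) := by
  obtain ⟨c, C, -, -, h⟩ := Euler.exists_idealZeta_bounds K
  refine ⟨C, fun s hs1 hs2 ↦ ?_⟩
  have := (h s hs1 hs2).2
  rwa [← Euler.tsum_nonzero_eq_idealZeta K (zero_lt_one.trans hs1)] at this

end Fermat.Agent.S14L
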