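import Mathlib
import Fermat.Agent.S14L.EulerZeta

set_option autoImplicit false

open IsDedekindDomain Filter Topology NumberField Ideal
open scoped nonZeroDivisors

namespace Fermat.Agent.S14L.Euler

variable {K : Type*} [Field K] [NumberField K]

/-- extension of a class group character to all ideals (value `0` at `⊥`). -/
noncomputable def idealChar (χ : ClassGroup (𝓞 K) →* ℂˣ) (I : Ideal (𝓞 K)) : ℂ :=
  open Classical in
  if h : I ∈ (Ideal (𝓞 K))⁰ then ((χ (ClassGroup.mk0 ⟨I, h⟩) : ℂˣ) : ℂ) else 0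

lemma idealChar_of_mem (χ : ClassGroup (𝓞 K) →* ℂˣ) {I : Ideal (𝓞 K)}
    (h : I ∈ (Ideal (𝓞 K))⁰) : idealChar χ I = ((χ (ClassGroup.mk0 ⟨I, h⟩) : ℂˣ) : ℂ) := by
  simp [idealChar, h]

lemma idealChar_coe (χ : ClassGroup (𝓞 K) →* ℂˣ) (I : (Ideal (𝓞 K))⁰) :
    idealChar χ (I : Ideal (𝓞 K)) = ((χ (ClassGroup.mk0 I) : ℂˣ) : ℂ) :=
  idealChar_of_mem χ I.2

lemma idealChar_mul (χ : ClassGroup (𝓞 K) →* ℂˣ) (I J : Ideal (𝓞 K)) (hI : I ≠ ⊥) (hJ : J ≠ ⊥) :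
    idealChar χ (I * J) = idealChar χ I * idealChar χ J := by
  have hI' : I ∈ (Ideal (𝓞 K))⁰ := mem_nonZeroDivisors_of_ne_zero hI
  have hJ' : J ∈ (Ideal (𝓞 K))⁰ := mem_nonZeroDivisors_of_ne_zero hJ
  have hIJ : I * J ∈ (Ideal (𝓞 K))⁰ := mul_mem hI' hJ'
  rw [idealChar_of_mem χ hI', idealChar_of_mem χ hJ', idealChar_of_mem χ hIJ, ← Units.val_mul,
    ← map_mul, ← map_mul]
  rfl

lemma idealChar_top (χ : ClassGroup (𝓞 K) →* ℂˣ) : idealChar χ ⊤ = 1 := by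
  have h1 : (⊤ : Ideal (𝓞 K)) ∈ (Ideal (𝓞 K))⁰ := by
    rw [← Ideal.one_eq_top]; exact one_mem _
  rw [idealChar_of_mem χ h1]
  have : (⟨⊤, h1⟩ : (Ideal (𝓞 K))⁰) = 1 := Subtype.ext Ideal.one_eq_top.symm
  rw [this, map_one, map_one, Units.val_one]

lemma norm_char_eq_one (χ : ClassGroup (𝓞 K) →* ℂˣ) (c : ClassGroup (𝓞 K)) :
    ‖((χ c : ℂˣ) : ℂ)‖ = 1 := by
  have h : ((χ c : ℂˣ) : ℂ) ^ Fintype.card (ClassGroup (𝓞 K)) = 1 := by
    rw [← Units.val_pow_eq_pow_val, ← map_pow, pow_card_eq_one, map_one, Units.val_one]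
  exact Complex.norm_eq_one_of_pow_eq_one h Fintype.card_ne_zero

lemma norm_idealChar_le (χ : ClassGroup (𝓞 K) →* ℂˣ) (I : Ideal (𝓞 K)) : ‖idealChar χ I‖ ≤ 1 := by
  unfold idealChar
  split_ifs with h
  · exact (norm_char_eq_one χ _).le
  · simp

instance finite_fiber₀ (n : ℕ) :
    Finite {I : (Ideal (𝓞 K))⁰ // absNorm (I : Ideal (𝓞 K)) = n} :=
  ((finite_setOfPred_absNorm_le₀ (S := 𝓞 K) n).subset fun _ h ↦ le_of_eq h).to_subtype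

/-- Dirichlet coefficients of `L(s, χ)`. -/
noncomputable def lcoeff (χ : ClassGroup (𝓞 K) →* ℂˣ) (n : ℕ) : ℂ :=
  ∑' I : {I : (Ideal (𝓞 K))⁰ // absNorm (I : Ideal (𝓞 K)) = n},
    ((χ (ClassGroup.mk0 I.1) : ℂˣ) : ℂ)

/-- the `L`-series of a class group character, as a sum over ideals. -/
noncomputable def lfun (χ : ClassGroup (𝓞 K) →* ℂˣ) (s : ℝ) : ℂ :=
  ∑' I : Ideal (𝓞 K), lterm K (idealChar χ) s I

lemma support_lterm_subset (χ : ClassGroup (𝓞 K) →* ℂˣ) {s : ℝ} (hs : 0 < s) :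
    Function.support (lterm K (idealChar χ) s) ⊆ ((Ideal (𝓞 K))⁰ : Set (Ideal (𝓞 K))) := by
  intro I hI
  rw [SetLike.mem_coe, mem_nonZeroDivisors_iff_ne_zero]
  rintro rfl
  exact hI (lterm_bot _ hs)

lemma summable_lterm₀ (χ : ClassGroup (𝓞 K) →* ℂˣ) {s : ℝ} (hs : 1 < s) :
    Summable fun I : (Ideal (𝓞 K))⁰ ↦ lterm K (idealChar χ) s (I : Ideal (𝓞 K)) :=
  ((summable_norm_lterm (norm_idealChar_le χ) hs).of_norm).comp_injective Subtype.val_injective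

lemma lfun_eq_tsum₀ (χ : ClassGroup (𝓞 K) →* ℂˣ) {s : ℝ} (hs : 0 < s) :
    lfun χ s = ∑' I : (Ideal (𝓞 K))⁰, lterm K (idealChar χ) s (I : Ideal (𝓞 K)) :=
  (tsum_subtype_eq_of_support_subset (support_lterm_subset χ hs)).symm

lemma fiber_tsum (χ : ClassGroup (𝓞 K) →* ℂˣ) (s : ℝ) (n : ℕ) :
    ∑' I : {I : (Ideal (𝓞 K))⁰ // absNorm (I : Ideal (𝓞 K)) = n},
      lterm K (idealChar χ) s ((I : (Ideal (𝓞 K))⁰) : Ideal (𝓞 K))
      = lcoeff χ n * (((n : ℝ) ^ (-s) : ℝ) : ℂ) := by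
  unfold lcoeff lterm
  rw [← tsum_mul_right]
  refine tsum_congr fun I ↦ ?_
  rw [idealChar_coe, I.2]

lemma lseriesTerm_lcoeff (χ : ClassGroup (𝓞 K) →* ℂˣ) {s : ℝ} (hs : 0 < s) (n : ℕ) :
    LSeries.term (lcoeff χ) s n = lcoeff χ n * (((n : ℝ) ^ (-s) : ℝ) : ℂ) := by
  rw [LSeries.term]
  by_cases hn : n = 0
  · subst hn
    simp [Real.zero_rpow (neg_ne_zero.mpr hs.ne')]
  · rw [if_neg hn, Real.rpow_neg (Nat.cast_nonneg n), div_eq_mul_inv]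
    push_cast
    rw [Complex.ofReal_cpow (Nat.cast_nonneg n)]
    simp

lemma summable_sigma_lterm (χ : ClassGroup (𝓞 K) →* ℂˣ) {s : ℝ} (hs : 1 < s) :
    Summable fun p : (Σ n : ℕ, {I : (Ideal (𝓞 K))⁰ // absNorm (I : Ideal (𝓞 K)) = n}) ↦
      lterm K (idealChar χ) s ((p.2 : (Ideal (𝓞 K))⁰) : Ideal (𝓞 K)) := by
  have h := (Equiv.sigmaFiberEquiv
    (fun I : (Ideal (𝓞 K))⁰ ↦ absNorm (I : Ideal (𝓞 K)))).summable_iff.mpr (summable_lterm₀ χ hs)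
  exact h

lemma lseriesSummable_lcoeff (χ : ClassGroup (𝓞 K) →* ℂˣ) {s : ℝ} (hs : 1 < s) :
    LSeriesSummable (lcoeff χ) s := by
  have h := (summable_sigma_lterm χ hs).sigma
  refine h.congr fun n ↦ ?_
  rw [lseriesTerm_lcoeff χ (zero_lt_one.trans hs), ← fiber_tsum]

/-- `L(s, χ)` is the `L`-series of its coefficients. -/
lemma lfun_eq_LSeries (χ : ClassGroup (𝓞 K) →* ℂˣ) {s : ℝ} (hs : 1 < s) :
    lfun χ s = LSeries (lcoeff χ) s := by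
  have hs0 := zero_lt_one.trans hs
  rw [lfun_eq_tsum₀ χ hs0, LSeries,
    ← (Equiv.sigmaFiberEquiv (fun I : (Ideal (𝓞 K))⁰ ↦ absNorm (I : Ideal (𝓞 K)))).tsum_eq]
  have h := (summable_sigma_lterm χ hs).tsum_sigma' (fun n ↦ Summable.of_finite)
  simp only [Equiv.sigmaFiberEquiv_apply]
  rw [h]
  refine tsum_congr fun n ↦ ?_
  rw [lseriesTerm_lcoeff χ hs0, ← fiber_tsum]

/-- the finite set of nonzero ideals of norm `≤ n`. -/
noncomputable def normLeFinset (K : Type*) [Field K] [NumberField K] (n : ℕ) :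
    Finset (Ideal (𝓞 K))⁰ :=
  (finite_setOfPred_absNorm_le₀ (S := 𝓞 K) n).toFinset

lemma mem_normLeFinset {n : ℕ} {I : (Ideal (𝓞 K))⁰} :
    I ∈ normLeFinset K n ↔ absNorm (I : Ideal (𝓞 K)) ≤ n := by
  simp [normLeFinset]

open scoped Classical in
lemma lcoeff_eq_sum (χ : ClassGroup (𝓞 K) →* ℂˣ) {n k : ℕ} (hk : k ≤ n) :
    lcoeff χ k = ∑ I ∈ (normLeFinset K n).filter (fun I : (Ideal (𝓞 K))⁰ ↦ absNorm (I : Ideal (𝓞 K)) = k),
      ((χ (ClassGroup.mk0 I) : ℂˣ) : ℂ) := by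
  unfold lcoeff
  refine (tsum_subtype {I : (Ideal (𝓞 K))⁰ | absNorm (I : Ideal (𝓞 K)) = k}
    (fun I ↦ ((χ (ClassGroup.mk0 I) : ℂˣ) : ℂ))).trans ?_
  rw [tsum_eq_sum (s := (normLeFinset K n).filter
    (fun I : (Ideal (𝓞 K))⁰ ↦ absNorm (I : Ideal (𝓞 K)) = k))]
  · refine Finset.sum_congr rfl fun I hI ↦ ?_
    rw [Set.indicator_of_mem]
    exact (Finset.mem_filter.mp hI).2
  · intro I hI
    rw [Set.indicator_of_notMem]
    intro h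
    exact hI (Finset.mem_filter.mpr ⟨mem_normLeFinset.mpr (le_of_eq_of_le h hk), h⟩)

open scoped Classical in
/-- partial sums of the coefficients of `L(s,χ)` in terms of the class counting functions. -/
lemma sum_lcoeff_eq (χ : ClassGroup (𝓞 K) →* ℂˣ) (n : ℕ) :
    ∑ k ∈ Finset.Icc 1 n, lcoeff χ k = ∑ c : ClassGroup (𝓞 K),
      (Nat.card {I : (Ideal (𝓞 K))⁰ //
        (absNorm (I : Ideal (𝓞 K)) : ℝ) ≤ (n : ℝ) ∧ ClassGroup.mk0 I = c} : ℂ)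
        * ((χ c : ℂˣ) : ℂ) := by
  have h1 : ∑ k ∈ Finset.Icc 1 n, lcoeff χ k
      = ∑ I ∈ normLeFinset K n, ((χ (ClassGroup.mk0 I) : ℂˣ) : ℂ) := by
    rw [← Finset.sum_fiberwise_of_maps_to (s := normLeFinset K n) (t := Finset.Icc 1 n)
      (g := fun I : (Ideal (𝓞 K))⁰ ↦ absNorm (I : Ideal (𝓞 K)))]
    · exact Finset.sum_congr rfl fun k hk ↦ lcoeff_eq_sum χ (Finset.mem_Icc.mp hk).2
    · intro I hI
      exact Finset.mem_Icc.mpr ⟨Nat.one_le_iff_ne_zero.mpr (absNorm_ne_zero_of_nonZeroDivisors I),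
        mem_normLeFinset.mp hI⟩
  rw [h1, ← Finset.sum_fiberwise (normLeFinset K n) (fun I ↦ ClassGroup.mk0 I)]
  refine Finset.sum_congr rfl fun c _ ↦ ?_
  rw [Nat.subtype_card ((normLeFinset K n).filter (fun I ↦ ClassGroup.mk0 I = c))
    (fun I ↦ by rw [Finset.mem_filter, mem_normLeFinset, Nat.cast_le])]
  rw [Finset.sum_congr rfl (fun I hI ↦ by rw [(Finset.mem_filter.mp hI).2]),
    Finset.sum_const, nsmul_eq_mul]

end Fermat.Agent.S14L.Euler
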