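import Mathlib
import Fermat.Agent.S14L.EulerChar

set_option autoImplicit false

open IsDedekindDomain Filter Topology NumberField Ideal
open scoped nonZeroDivisors

namespace Fermat.Agent.S14L.Euler

variable {K : Type*} [Field K] [NumberField K]

lemma lfun_eq_classSum (χ : ClassGroup (𝓞 K) →* ℂˣ) {s : ℝ} (hs : 0 < s) :
    lfun χ s = ∑' I : (Ideal (𝓞 K))⁰, ((χ (ClassGroup.mk0 I) : ℂˣ) : ℂ) *
      (((absNorm (I : Ideal (𝓞 K)) : ℝ) ^ (-s) : ℝ) : ℂ) := by
  rw [lfun_eq_tsum₀ χ hs]
  refine tsum_congr fun I ↦ ?_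
  rw [lterm, idealChar_coe]

lemma re_idealChar_ge (χ : ClassGroup (𝓞 K) →* ℂˣ) (I : Ideal (𝓞 K)) :
    -1 ≤ (idealChar χ I).re := by
  have h1 := Complex.abs_re_le_norm (idealChar χ I)
  have h2 := norm_idealChar_le χ I
  have h3 := neg_abs_le (idealChar χ I).re
  linarith

/-- **Analytic core**: a class character whose `L`-function is bounded on `(1,2]` cannot be
trivial on all primes outside a set of upper Dirichlet density `< 1/2`. -/
theorem no_biased (χ : ClassGroup (𝓞 K) →* ℂˣ) {θ : ℝ} (hθ : θ < 1 / 2)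
    (S : Set (HeightOneSpectrum (𝓞 K))) {B : ℝ}
    (hB : ∀ s : ℝ, 1 < s → s ≤ 2 → ‖lfun χ s‖ ≤ B)
    (hS : ∃ C : ℝ, ∀ s : ℝ, 1 < s → s ≤ 2 → ∀ T : Finset (HeightOneSpectrum (𝓞 K)),
      (↑T ⊆ S) → ∑ v ∈ T, (absNorm v.asIdeal : ℝ) ^ (-s) ≤ θ * Real.log (1 / (s - 1)) + C)
    (hχS : ∀ v : HeightOneSpectrum (𝓞 K), v ∉ S →
      χ (ClassGroup.mk0 ⟨v.asIdeal, mem_nonZeroDivisors_of_ne_zero v.ne_bot⟩) = 1) : False := by
  classical
  obtain ⟨C, hC⟩ := hS
  obtain ⟨c, C₂, hc, -, hz⟩ := exists_idealZeta_bounds K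
  -- the key inequality for every `s ∈ (1,2]`
  have key : ∀ s : ℝ, 1 < s → s ≤ 2 →
      (1 - 2 * θ) * Real.log (1 / (s - 1)) + Real.log c - 3 * primeSqSum K - 2 * C
        ≤ Real.log B := by
    intro s hs1 hs2
    have hs0 : 0 < s - 1 := by linarith
    set f : HeightOneSpectrum (𝓞 K) → ℝ := fun v ↦ (absNorm v.asIdeal : ℝ) ^ (-s) with hf
    have hfn : ∀ v, 0 ≤ f v := fun v ↦ Real.rpow_nonneg (Nat.cast_nonneg _) _
    have hfs : Summable f := summable_prime_rpow hs1
    have hlow := exp_le_norm_lseries (K := K) (χ := idealChar χ) (idealChar_mul χ)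
      (idealChar_top χ) (norm_idealChar_le χ) hs1
    have hexp : Real.exp ((∑' v : HeightOneSpectrum (𝓞 K),
        (idealChar χ v.asIdeal).re * f v) - primeSqSum K) ≤ B :=
      hlow.trans (hB s hs1 hs2)
    have hBpos : 0 < B := (Real.exp_pos _).trans_le hexp
    have h1 : (∑' v : HeightOneSpectrum (𝓞 K), (idealChar χ v.asIdeal).re * f v)
        - primeSqSum K ≤ Real.log B := (Real.le_log_iff_exp_le hBpos).mpr hexp
    -- termwise lower bound
    have hind : Summable (S.indicator f) := hfs.indicator S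
    have hre : Summable fun v : HeightOneSpectrum (𝓞 K) ↦ (idealChar χ v.asIdeal).re * f v := by
      refine Summable.of_norm_bounded hfs fun v ↦ ?_
      rw [norm_mul, Real.norm_of_nonneg (hfn v)]
      refine mul_le_of_le_one_left (hfn v) ?_
      exact (Complex.abs_re_le_norm _).trans (norm_idealChar_le χ _)
    have hterm : ∀ v : HeightOneSpectrum (𝓞 K),
        f v - 2 * S.indicator f v ≤ (idealChar χ v.asIdeal).re * f v := by
      intro v
      by_cases hv : v ∈ S
      · rw [Set.indicator_of_mem hv]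
        have := re_idealChar_ge χ v.asIdeal
        nlinarith [hfn v]
      · rw [Set.indicator_of_notMem hv,
          idealChar_of_mem χ (mem_nonZeroDivisors_of_ne_zero v.ne_bot), hχS v hv]
        simp
    have h2 : (∑' v, f v) - 2 * ∑' v, S.indicator f v
        ≤ ∑' v : HeightOneSpectrum (𝓞 K), (idealChar χ v.asIdeal).re * f v := by
      rw [← tsum_mul_left, ← hfs.tsum_sub (hind.mul_left 2)]
      exact (hfs.sub (hind.mul_left 2)).tsum_le_tsum hterm hre
    -- the sum over `S`
    have h3 : ∑' v, S.indicator f v ≤ θ * Real.log (1 / (s - 1)) + C := by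
      rw [← tsum_subtype S f]
      refine (hfs.subtype S).tsum_le_of_sum_le fun F ↦ ?_
      have := hC s hs1 hs2 (F.map (Function.Embedding.subtype _)) (by
        intro v hv
        obtain ⟨w, -, rfl⟩ := Finset.mem_map.mp (Finset.mem_coe.mp hv)
        exact w.2)
      rwa [Finset.sum_map] at this
    -- the full sum
    have h4 : Real.log (idealZeta K s) ≤ (∑' v, f v) + 2 * primeSqSum K :=
      log_idealZeta_le_primeZeta (K := K) hs1
    have h5 : Real.log (c / (s - 1)) ≤ Real.log (idealZeta K s) :=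
      Real.log_le_log (div_pos hc hs0) (hz s hs1 hs2).1
    have h6 : Real.log (c / (s - 1)) = Real.log c + Real.log (1 / (s - 1)) := by
      rw [Real.log_div hc.ne' hs0.ne', one_div, Real.log_inv]
      ring
    nlinarith [h1, h2, h3, h4, h5, h6]
  -- choose `s` close to `1`
  have hpos : 0 < 1 - 2 * θ := by linarith
  set M := Real.log B - Real.log c + 3 * primeSqSum K + 2 * C with hM
  set L₀ := max 0 (M / (1 - 2 * θ)) + 1 with hL₀
  have hL₀pos : 0 < L₀ := by
    have := le_max_left 0 (M / (1 - 2 * θ))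
    linarith
  have hL₀M : M < (1 - 2 * θ) * L₀ := by
    have h1 := le_max_right 0 (M / (1 - 2 * θ))
    have h2 : M / (1 - 2 * θ) < L₀ := by linarith
    rwa [div_lt_iff₀ hpos, mul_comm] at h2
  have he1 : Real.exp (-L₀) < 1 := by
    have := Real.exp_lt_exp.mpr (by linarith : -L₀ < 0)
    simpa using this
  have he0 : 0 < Real.exp (-L₀) := Real.exp_pos _
  have hk := key (1 + Real.exp (-L₀)) (by linarith) (by linarith)
  have hlog : Real.log (1 / (1 + Real.exp (-L₀) - 1)) = L₀ := by
    rw [add_sub_cancel_left, one_div, Real.log_inv, Real.log_exp, neg_neg]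
  rw [hlog] at hk
  linarith

end Fermat.Agent.S14L.Euler
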