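import Mathlib
import Fermat.Agent.S14L.Defs
import Fermat.Agent.S14L.AnSum
import Fermat.Agent.S14L.AnBdd
import Fermat.Agent.S14L.AnPrime
import Fermat.Agent.S14L.EulerFinal

/-! S14 analytic package AN-FIN (owner: helper5): a nontrivial ideal class character cannot be
trivial on all primes outside a set of (upper Dirichlet) density `< 1/3`. -/

set_option autoImplicit false

open NumberField IsDedekindDomain
open scoped nonZeroDivisors

namespace Fermat.Agent.S14L

theorem no_biased_character (K : Type*) [Field K] [NumberField K]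
    (χ : ClassGroup (𝓞 K) →* ℂˣ) (hχ : χ ≠ 1) (θ : ℝ) (hθ : θ < 1 / 3)
    (S : Set (HeightOneSpectrum (𝓞 K)))
    (hS : ∃ C : ℝ, ∀ s : ℝ, 1 < s → s ≤ 2 → ∀ T : Finset (HeightOneSpectrum (𝓞 K)),
      (↑T ⊆ S) → ∑ v ∈ T, idN K s v.asIdeal ≤ θ * Real.log (1 / (s - 1)) + C)
    (hχS : ∀ v : HeightOneSpectrum (𝓞 K), v ∉ S →
      χ (ClassGroup.mk0 ⟨v.asIdeal, mem_nonZeroDivisors_of_ne_zero v.ne_bot⟩) = 1) : False := by
  obtain ⟨B, hB⟩ := classL_isBounded K χ hχ
  refine Euler.no_biased χ (by linarith : θ < 1 / 2) S (B := B) (fun s hs1 hs2 ↦ ?_) hS hχS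
  rw [Euler.lfun_eq_classSum χ (zero_lt_one.trans hs1)]
  exact hB s hs1 hs2

end Fermat.Agent.S14L
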