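import Mathlib

/-!
# S14 package C, leaf Cls3: an abstract lemma on finite abelian groups with operators

If every character of `A` killed by `p` and of "type `k²`" is trivial, then an element of
order dividing `p` on which the operators act through `k²` is trivial.
-/

set_option autoImplicit false

namespace Fermat.Agent.S14L

theorem clsa_pow_congr {M : Type*} [Monoid M] {y : M} {p a b : ℕ} (hy : y ^ p = 1)
    (h : (a : ZMod p) = (b : ZMod p)) : y ^ a = y ^ b := by
  have h1 : a % orderOf y = b % orderOf y :=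
    ((ZMod.natCast_eq_natCast_iff a b p).mp h).of_dvd (orderOf_dvd_of_pow_eq_one hy)
  rw [← pow_mod_orderOf y a, ← pow_mod_orderOf y b, h1]

/-- Characters of a finite abelian group killed by `p` detect `p`-th powers. -/
theorem clsa_exists_pow_of_chars {A : Type*} [CommGroup A] [Finite A] (p : ℕ) (x : A)
    (hx : ∀ φ : A →* ℂˣ, (∀ a, φ a ^ p = 1) → φ x = 1) : ∃ f : A, x = f ^ p := by
  by_contra hcon
  set P : Subgroup A := (powMonoidHom p : A →* A).range with hP
  have hxP : (QuotientGroup.mk' P x) ≠ 1 := by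
    intro h1
    rw [QuotientGroup.mk'_apply, QuotientGroup.eq_one_iff] at h1
    obtain ⟨f, hf⟩ := h1
    exact hcon ⟨f, hf.symm⟩
  have : NeZero (Monoid.exponent (A ⧸ P)) := ⟨Monoid.exponent_ne_zero_of_finite⟩
  obtain ⟨φ', hφ'⟩ := CommGroup.exists_apply_ne_one_of_hasEnoughRootsOfUnity (A ⧸ P) ℂ hxP
  refine hφ' (hx (φ'.comp (QuotientGroup.mk' P)) fun a => ?_)
  rw [← map_pow]
  have : (QuotientGroup.mk' P) (a ^ p) = 1 := by
    rw [QuotientGroup.mk'_apply, QuotientGroup.eq_one_iff]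
    exact ⟨a, rfl⟩
  rw [MonoidHom.comp_apply, this, map_one]

theorem cls_abstract {A : Type*} [CommGroup A] [Finite A] {G : Type*} [Group G] [Finite G]
    (p : ℕ) [Fact p.Prime] (hG : ¬ p ∣ Nat.card G)
    (T : G → (A →* A)) (hT : ∀ σ τ a, T (σ * τ) a = T σ (T τ a))
    (k : G → ℕ) (hk : ∀ σ, ¬ p ∣ k σ) (hkmul : ∀ σ τ, k (σ * τ) ≡ k σ * k τ [MOD p])
    (H : ∀ χ : A →* ℂˣ, (∀ a, χ a ^ p = 1) → (∀ σ a, χ (T σ a) = χ a ^ (k σ ^ 2)) → χ = 1)
    (c : A) (hcp : c ^ p = 1) (hc : ∀ σ, T σ c = c ^ (k σ ^ 2)) : c = 1 := by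
  cases nonempty_fintype G
  classical
  have hp : p.Prime := Fact.out
  set m : G → ℕ := fun σ => (((k σ : ZMod p) ^ 2)⁻¹).val with hmdef
  have hkz : ∀ σ, (k σ : ZMod p) ≠ 0 := fun σ h => hk σ ((ZMod.natCast_eq_zero_iff _ _).mp h)
  have hm : ∀ σ, ((m σ : ℕ) : ZMod p) = ((k σ : ZMod p) ^ 2)⁻¹ := fun σ =>
    ZMod.natCast_zmod_val _
  have hkmul' : ∀ σ τ, (k (σ * τ) : ZMod p) = (k σ : ZMod p) * (k τ : ZMod p) := fun σ τ => by
    have := (ZMod.natCast_eq_natCast_iff _ _ p).mpr (hkmul σ τ)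
    simpa using this
  set e : A →* A := ∏ σ, (powMonoidHom (m σ)).comp (T σ) with hedef
  have he : ∀ a, e a = ∏ σ, T σ a ^ m σ := fun a => by
    rw [hedef, MonoidHom.finsetProd_apply]
    rfl
  -- (A) characters killed by `p` vanish on the image of `e`
  have hA : ∀ φ : A →* ℂˣ, (∀ a, φ a ^ p = 1) → ∀ a, φ (e a) = 1 := by
    intro φ hφ a
    have h1 : φ.comp e = 1 := by
      refine H _ (fun a => hφ _) (fun τ a => ?_)
      rw [MonoidHom.comp_apply, MonoidHom.comp_apply, he, he, map_prod, map_prod,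
        ← Finset.prod_pow]
      refine Fintype.prod_equiv (Equiv.mulRight τ) _ _ (fun σ => ?_)
      rw [Equiv.coe_mulRight, ← hT, map_pow, map_pow, ← pow_mul]
      refine clsa_pow_congr (hφ _) ?_
      push_cast
      rw [hm, hm, hkmul']
      have h2 := hkz σ
      have h3 := hkz τ
      field_simp
    have := DFunLike.congr_fun h1 a
    simpa using this
  -- (B) the image of `e` consists of `p`-th powers
  have hB : ∀ a, ∃ f : A, e a = f ^ p := fun a =>
    clsa_exists_pow_of_chars p (e a) (fun φ hφ => hA φ hφ a)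
  -- (C) `e c = c ^ |G|`
  have hC : e c = c ^ Fintype.card G := by
    rw [he]
    have : ∀ σ ∈ (Finset.univ : Finset G), T σ c ^ m σ = c := by
      intro σ _
      rw [hc, ← pow_mul]
      conv_rhs => rw [← pow_one c]
      refine clsa_pow_congr hcp ?_
      push_cast
      rw [hm]
      have h2 := hkz σ
      field_simp
    rw [Finset.prod_congr rfl this, Finset.prod_const, Finset.card_univ]
  have hN : ((Fintype.card G : ℕ) : ZMod p) ≠ 0 := by
    intro h
    apply hG
    rw [Nat.card_eq_fintype_card]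
    exact (ZMod.natCast_eq_zero_iff _ _).mp h
  -- (D) `c` is a `p ^ n`-th power for all `n`
  have hD : ∀ n : ℕ, ∃ d : A, c = d ^ (p ^ n) := by
    intro n
    induction n with
    | zero => exact ⟨c, by simp⟩
    | succ n ih =>
      obtain ⟨d, hd⟩ := ih
      obtain ⟨f, hf⟩ := hB d
      have h1 : c ^ Fintype.card G = f ^ (p ^ (n + 1)) := by
        rw [← hC]
        conv_lhs => rw [hd]
        rw [map_pow, hf, ← pow_mul, pow_succ']
      set u : ℕ := (((Fintype.card G : ℕ) : ZMod p)⁻¹).val with hu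
      have hu' : ((u : ℕ) : ZMod p) = ((Fintype.card G : ℕ) : ZMod p)⁻¹ :=
        ZMod.natCast_zmod_val _
      refine ⟨f ^ u, ?_⟩
      rw [← pow_mul, mul_comm, pow_mul, ← h1, ← pow_mul]
      conv_lhs => rw [← pow_one c]
      refine clsa_pow_congr hcp ?_
      push_cast
      rw [hu']
      field_simp
  -- (E) conclusion
  obtain ⟨a, r, hr, har⟩ := Nat.exists_eq_pow_mul_and_not_dvd (Nat.card_pos (α := A)).ne' p
    hp.ne_one
  obtain ⟨d, hd⟩ := hD a
  have h1 : c ^ r = 1 := by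
    rw [hd, ← pow_mul, ← har]
    exact pow_card_eq_one'
  have h2 : orderOf c ∣ Nat.gcd r p :=
    Nat.dvd_gcd (orderOf_dvd_of_pow_eq_one h1) (orderOf_dvd_of_pow_eq_one hcp)
  have h3 : Nat.gcd r p = 1 := ((Nat.Prime.coprime_iff_not_dvd hp).mpr hr).symm
  rw [h3, Nat.dvd_one] at h2
  exact orderOf_eq_one_iff.mp h2

end Fermat.Agent.S14L
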