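import Mathlib

/-!
# S14 package C, leaf Cls2: the Galois action on the ideal class group
-/

set_option autoImplicit false

open NumberField
open scoped nonZeroDivisors

namespace Fermat.Agent.S14L

/-- Transport of nonzero ideals along a ring automorphism. -/
noncomputable def clsact_S {R : Type*} [CommRing R] [IsDedekindDomain R] (f : R ≃+* R) :
    (Ideal R)⁰ →* (Ideal R)⁰ where
  toFun I := ⟨Ideal.map f (I : Ideal R), by
    rw [mem_nonZeroDivisors_iff_ne_zero, Ne, Ideal.zero_eq_bot,
      Ideal.map_eq_bot_iff_of_injective f.injective]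
    exact mem_nonZeroDivisors_iff_ne_zero.mp I.2⟩
  map_one' := Subtype.ext (by simp [Ideal.one_eq_top, Ideal.map_top])
  map_mul' I J := Subtype.ext (by simp [Ideal.map_mul])

theorem clsact_S_coe {R : Type*} [CommRing R] [IsDedekindDomain R] (f : R ≃+* R)
    (I : (Ideal R)⁰) : ((clsact_S f I : (Ideal R)⁰) : Ideal R) = Ideal.map f (I : Ideal R) := rfl

theorem clsact_compat {R : Type*} [CommRing R] [IsDedekindDomain R] (f : R ≃+* R)
    {I J : (Ideal R)⁰} (h : ClassGroup.mk0 I = ClassGroup.mk0 J) :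
    ClassGroup.mk0 (clsact_S f I) = ClassGroup.mk0 (clsact_S f J) := by
  rw [ClassGroup.mk0_eq_mk0_iff] at h ⊢
  obtain ⟨x, y, hx, hy, hxy⟩ := h
  refine ⟨f x, f y, (map_ne_zero_iff f f.injective).mpr hx,
    (map_ne_zero_iff f f.injective).mpr hy, ?_⟩
  have := congrArg (Ideal.map f) hxy
  rw [Ideal.map_mul, Ideal.map_mul, Ideal.map_span, Ideal.map_span, Set.image_singleton,
    Set.image_singleton] at this
  exact this

/-- The induced map on the class group. -/
noncomputable def clsact_T {R : Type*} [CommRing R] [IsDedekindDomain R] (f : R ≃+* R) :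
    ClassGroup R →* ClassGroup R where
  toFun c := ClassGroup.mk0 (clsact_S f (Function.surjInv ClassGroup.mk0_surjective c))
  map_one' := by
    have h : ClassGroup.mk0 (Function.surjInv ClassGroup.mk0_surjective (1 : ClassGroup R))
        = ClassGroup.mk0 (1 : (Ideal R)⁰) := by
      rw [Function.surjInv_eq ClassGroup.mk0_surjective, map_one]
    rw [clsact_compat f h, map_one, map_one]
  map_mul' c d := by
    have h : ClassGroup.mk0 (Function.surjInv ClassGroup.mk0_surjective (c * d))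
        = ClassGroup.mk0 (Function.surjInv ClassGroup.mk0_surjective c *
            Function.surjInv ClassGroup.mk0_surjective d) := by
      simp only [map_mul, Function.surjInv_eq ClassGroup.mk0_surjective]
    rw [clsact_compat f h, map_mul, map_mul]

theorem clsact_T_mk0 {R : Type*} [CommRing R] [IsDedekindDomain R] (f : R ≃+* R)
    (I : (Ideal R)⁰) : clsact_T f (ClassGroup.mk0 I) = ClassGroup.mk0 (clsact_S f I) :=
  clsact_compat f (Function.surjInv_eq ClassGroup.mk0_surjective _)

/-- The Galois group acts on the class group compatibly with `ClassGroup.mk0` and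
`Ideal.map`. -/
theorem cls_exists_action (K : Type) [Field K] [NumberField K] :
    ∃ T : (K ≃ₐ[ℚ] K) → (ClassGroup (𝓞 K) →* ClassGroup (𝓞 K)),
      (∀ (σ : K ≃ₐ[ℚ] K) (I J : (Ideal (𝓞 K))⁰),
        (J : Ideal (𝓞 K)) =
          Ideal.map (RingOfIntegers.mapRingEquiv (σ : K ≃+* K)) (I : Ideal (𝓞 K)) →
        T σ (ClassGroup.mk0 I) = ClassGroup.mk0 J) ∧
      (∀ (σ τ : K ≃ₐ[ℚ] K) (c : ClassGroup (𝓞 K)), T (σ * τ) c = T σ (T τ c)) := by
  refine ⟨fun σ => clsact_T (RingOfIntegers.mapRingEquiv (σ : K ≃+* K)), ?_, ?_⟩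
  · intro σ I J hJ
    rw [clsact_T_mk0]
    congr 1
    exact Subtype.ext hJ.symm
  · intro σ τ c
    obtain ⟨I, rfl⟩ := ClassGroup.mk0_surjective c
    rw [clsact_T_mk0, clsact_T_mk0, clsact_T_mk0]
    congr 1
    refine Subtype.ext ?_
    rw [clsact_S_coe, clsact_S_coe, clsact_S_coe]
    show Ideal.map ((RingOfIntegers.mapRingEquiv ((σ * τ : K ≃ₐ[ℚ] K) : K ≃+* K) : 𝓞 K →+* 𝓞 K))
        (I : Ideal (𝓞 K))
      = Ideal.map ((RingOfIntegers.mapRingEquiv (σ : K ≃+* K) : 𝓞 K →+* 𝓞 K))
          (Ideal.map ((RingOfIntegers.mapRingEquiv (τ : K ≃+* K) : 𝓞 K →+* 𝓞 K))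
            (I : Ideal (𝓞 K)))
    rw [Ideal.map_map]
    congr 1

end Fermat.Agent.S14L
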