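import Mathlib

/-! S14 package KD, leaf: the Kummer generator is an algebraic integer. -/

set_option autoImplicit false

open NumberField

namespace Fermat.Agent.S14L

/-- the Kummer generator is an algebraic integer -/
theorem kd_theta_int (p : ℕ) [Fact p.Prime] (K L : Type) [Field K] [NumberField K]
    [Field L] [NumberField L] [Algebra K L] (d : 𝓞 K) (θ : L)
    (hθ : θ ^ p = algebraMap K L (d : K)) :
    ∃ θ' : 𝓞 L, (θ' : L) = θ ∧ θ' ^ p = algebraMap (𝓞 K) (𝓞 L) d := by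
  have hp : 0 < p := (Fact.out : p.Prime).pos
  have hd : IsIntegral ℤ (algebraMap K L (d : K)) :=
    (NumberField.RingOfIntegers.isIntegral_coe d).algebraMap
  have hθint : IsIntegral ℤ θ := IsIntegral.of_pow hp (hθ ▸ hd)
  have hmem : θ ∈ integralClosure ℤ L := hθint
  obtain ⟨θ', hθ'⟩ : ∃ θ' : 𝓞 L, algebraMap (𝓞 L) L θ' = θ := ⟨⟨θ, hmem⟩, rfl⟩
  refine ⟨θ', hθ', ?_⟩
  apply NumberField.RingOfIntegers.coe_injective
  rw [map_pow, hθ', hθ, ← IsScalarTower.algebraMap_apply (𝓞 K) (𝓞 L) L]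
  exact (IsScalarTower.algebraMap_apply (𝓞 K) K L d).symm

end Fermat.Agent.S14L
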