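import Mathlib

/-! S14 package KD, leaf: a prime with trivial decomposition group has residue degree one. -/

set_option autoImplicit false

open NumberField
open scoped Pointwise

namespace Fermat.Agent.S14L

/-- a prime above `v` with trivial decomposition group has residue degree one: its absolute
norm is that of `v`. -/
theorem kd_absNorm_eq (K L : Type) [Field K] [NumberField K]
    [Field L] [NumberField L] [Algebra K L] [IsGalois K L]
    (v : Ideal (𝓞 K)) [v.IsPrime] (hv : v ≠ ⊥)
    (P : Ideal (𝓞 L)) [P.IsPrime] [P.LiesOver v]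
    (hstab : ∀ σ : Gal(L/K), σ • P = P → σ = 1) :
    Ideal.absNorm P = Ideal.absNorm v := by
  classical
  have hvmax : v.IsMaximal := Ideal.IsPrime.isMaximal inferInstance hv
  have hPne : P ≠ ⊥ := Ideal.ne_bot_of_liesOver_of_ne_bot hv P
  have hPmax : P.IsMaximal := Ideal.IsPrime.isMaximal inferInstance hPne
  have hstab' : MulAction.stabilizer Gal(L/K) P = ⊥ := by
    rw [Subgroup.eq_bot_iff_forall]
    intro σ hσ
    exact hstab σ (MulAction.mem_stabilizer_iff.mp hσ)
  have horb : MulAction.orbit Gal(L/K) P = v.primesOver (𝓞 L) :=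
    Algebra.IsInvariant.orbit_eq_primesOver (𝓞 K) (𝓞 L) Gal(L/K) v P
  have hcard : (v.primesOver (𝓞 L)).ncard = Nat.card Gal(L/K) := by
    rw [← horb, ← MulAction.index_stabilizer, hstab', Subgroup.index_bot]
  have hfund := Ideal.ncard_primesOver_mul_ramificationIdxIn_mul_inertiaDegIn v (𝓞 L) Gal(L/K)
  rw [hcard] at hfund
  have hpos : 0 < Nat.card Gal(L/K) := Nat.card_pos
  have hef : v.ramificationIdxIn (𝓞 L) * v.inertiaDegIn (𝓞 L) = 1 :=
    Nat.eq_of_mul_eq_mul_left hpos (by rw [hfund, mul_one])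
  have hf : v.inertiaDegIn (𝓞 L) = 1 := Nat.eq_one_of_mul_eq_one_left hef
  have hf' : P.inertiaDeg (𝓞 K) = 1 := by
    rw [← Ideal.inertiaDegIn_eq_inertiaDeg v P Gal(L/K)]
    exact hf
  have h1 := Ideal.absNorm_eq_pow_inertiaDeg'_of_liesOver P v inferInstance hv
  rw [Ideal.inertiaDeg'_eq_inertiaDeg, hf', pow_one] at h1
  exact h1

end Fermat.Agent.S14L
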