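import Mathlib
import Fermat.Agent.S14L.KdNorm

/-! S14 package KD, leaf: the orbit of a prime with trivial decomposition group. -/

set_option autoImplicit false

open NumberField IsDedekindDomain
open scoped Pointwise

namespace Fermat.Agent.S14L

/-- a prime `v` above which some prime has trivial decomposition group has `p = [L : K]` primes
above it, all of the same absolute norm as `v`. -/
theorem kd_exists_finset_of_stab (p : ℕ) (K L : Type) [Field K] [NumberField K]
    [Field L] [NumberField L] [Algebra K L] [IsGalois K L] (hrank : Module.finrank K L = p)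
    (v : HeightOneSpectrum (𝓞 K))
    (P : Ideal (𝓞 L)) [P.IsPrime] [P.LiesOver v.asIdeal]
    (hstab : ∀ σ : Gal(L/K), σ • P = P → σ = 1) :
    ∃ S : Finset (HeightOneSpectrum (𝓞 L)), S.card = p ∧
      ∀ w ∈ S, w.asIdeal.under (𝓞 K) = v.asIdeal ∧
        Ideal.absNorm w.asIdeal = Ideal.absNorm v.asIdeal := by
  classical
  have : Fintype Gal(L/K) := Fintype.ofFinite _
  have : v.asIdeal.IsPrime := v.isPrime
  have hbot : ∀ σ : Gal(L/K), σ • P ≠ ⊥ := fun σ =>
    Ideal.ne_bot_of_liesOver_of_ne_bot v.ne_bot (σ • P)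
  have hf : Function.Injective
      (fun σ : Gal(L/K) => (⟨σ • P, inferInstance, hbot σ⟩ : HeightOneSpectrum (𝓞 L))) := by
    intro σ τ h
    have h1 : σ • P = τ • P := congrArg HeightOneSpectrum.asIdeal h
    have h2 : (τ⁻¹ * σ) • P = P := by rw [mul_smul, h1, inv_smul_smul]
    exact (inv_mul_eq_one.mp (hstab _ h2)).symm
  refine ⟨Finset.univ.image
    (fun σ : Gal(L/K) => (⟨σ • P, inferInstance, hbot σ⟩ : HeightOneSpectrum (𝓞 L))), ?_, ?_⟩
  · rw [Finset.card_image_of_injective _ hf, Finset.card_univ, ← Nat.card_eq_fintype_card,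
      IsGalois.card_aut_eq_finrank, hrank]
  · intro w hw
    obtain ⟨σ, -, rfl⟩ := Finset.mem_image.mp hw
    refine ⟨((σ • P).over_def v.asIdeal).symm, ?_⟩
    refine kd_absNorm_eq K L v.asIdeal v.ne_bot (σ • P) ?_
    intro τ hτ
    have h2 : (σ⁻¹ * τ * σ) • P = P := by
      rw [mul_smul, mul_smul, hτ, inv_smul_smul]
    have h3 : σ⁻¹ * τ * σ = 1 := hstab _ h2
    have h4 : τ = σ * (σ⁻¹ * τ * σ) * σ⁻¹ := by group
    rw [h4, h3, mul_one, mul_inv_cancel]

end Fermat.Agent.S14L
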