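import Mathlib

/-! S14 package KD, leaf: the factorisation of `θ ^ p - y ^ p` modulo a prime ideal. -/

set_option autoImplicit false

namespace Fermat.Agent.S14L

/-- If a prime ideal `P` contains `θ ^ p - y ^ p`, it contains `θ - ζ ^ i * y` for some `i < p`. -/
theorem kd_exists_index (p : ℕ) [Fact p.Prime] {B : Type*} [CommRing B] [IsDomain B]
    (ζ : B) (hζ : IsPrimitiveRoot ζ p) (y θ : B) (P : Ideal B) [P.IsPrime]
    (h : θ ^ p - y ^ p ∈ P) : ∃ i, i < p ∧ θ - ζ ^ i * y ∈ P := by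
  have hp : p.Prime := Fact.out
  have : NeZero p := ⟨hp.ne_zero⟩
  rw [hζ.pow_sub_pow_eq_prod_sub_mul θ y hp.pos] at h
  obtain ⟨ξ, hξ, hmem⟩ := (Ideal.IsPrime.prod_mem_iff (p := P)).mp h
  rw [Polynomial.mem_nthRootsFinset hp.pos] at hξ
  obtain ⟨i, hi, rfl⟩ := hζ.eq_pow_of_pow_eq_one hξ
  exact ⟨i, hi, hmem⟩

end Fermat.Agent.S14L
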