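import Mathlib

/-! S14 package KD, leaf: a nontrivial `p`-th root of unity is not `≡ 1` modulo a prime not
containing `p`. -/

set_option autoImplicit false

namespace Fermat.Agent.S14L

/-- If `ζ ^ k ≡ 1` modulo an ideal `v` for some `0 < k < p`, with `ζ` a primitive `p`-th root of
unity, then `p ∈ v`. -/
theorem kd_p_mem_of_pow_sub_one_mem (p : ℕ) [Fact p.Prime] {R : Type*} [CommRing R] [IsDomain R]
    (ζ : R) (hζ : IsPrimitiveRoot ζ p) (v : Ideal R) (k : ℕ) (hk0 : 0 < k) (hkp : k < p)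
    (h : ζ ^ k - 1 ∈ v) : (p : R) ∈ v := by
  have hp : p.Prime := Fact.out
  have hcop : Nat.Coprime k p := by
    rw [Nat.coprime_comm]
    exact (Nat.Prime.coprime_iff_not_dvd hp).2 (Nat.not_dvd_of_pos_of_lt hk0 hkp)
  have hξ : IsPrimitiveRoot (ζ ^ k) p := hζ.pow_of_coprime k hcop
  have hsum : ∑ i ∈ Finset.range p, (ζ ^ k) ^ i = 0 := hξ.geom_sum_eq_zero hp.one_lt
  have hmem : ∀ i : ℕ, (ζ ^ k) ^ i - 1 ∈ v := by
    intro i
    have hdvd : ζ ^ k - 1 ∣ (ζ ^ k) ^ i - 1 := by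
      have h1 := sub_dvd_pow_sub_pow (ζ ^ k) 1 i
      rwa [one_pow] at h1
    exact Ideal.mem_of_dvd v hdvd h
  have hsum2 : ∑ i ∈ Finset.range p, ((ζ ^ k) ^ i - 1) ∈ v := Ideal.sum_mem v fun i _ => hmem i
  have heq : ∑ i ∈ Finset.range p, ((ζ ^ k) ^ i - 1) = -(p : R) := by
    rw [Finset.sum_sub_distrib, hsum, Finset.sum_const, Finset.card_range, nsmul_eq_mul, mul_one,
      zero_sub]
  rw [heq] at hsum2
  exact (Ideal.neg_mem_iff v).1 hsum2

end Fermat.Agent.S14L
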