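import Mathlib

/-! S14 package KD, leaf: fixed elements in a Galois extension of prime degree. -/

set_option autoImplicit false

namespace Fermat.Agent.S14L

/-- In a Galois extension of prime degree `p`, an element fixed by one nontrivial automorphism
lies in the base field. -/
theorem kd_mem_range_of_fixed (p : ℕ) [Fact p.Prime] (K L : Type) [Field K] [Field L]
    [Algebra K L] [FiniteDimensional K L] [IsGalois K L] (hrank : Module.finrank K L = p)
    (σ : Gal(L/K)) (hσ : σ ≠ 1) (x : L) (hx : σ x = x) : ∃ a : K, algebraMap K L a = x := by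
  have hcard : Nat.card Gal(L/K) = p := by
    rw [IsGalois.card_aut_eq_finrank, hrank]
  have htop : Subgroup.zpowers σ = ⊤ := zpowers_eq_top_of_prime_card hcard hσ
  have hfix : ∀ τ : Gal(L/K), τ x = x := by
    intro τ
    have hτ : τ ∈ Subgroup.zpowers σ := by
      rw [htop]
      exact Subgroup.mem_top τ
    have hle : Subgroup.zpowers σ ≤ MulAction.stabilizer Gal(L/K) x := by
      rw [Subgroup.zpowers_le]
      exact MulAction.mem_stabilizer_iff.mpr hx
    exact MulAction.mem_stabilizer_iff.mp (hle hτ)
  exact (IsGalois.mem_range_algebraMap_iff_fixed x).mpr hfix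

end Fermat.Agent.S14L
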