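import Mathlib
import Fermat.Agent.S14L.KdFixed

/-! S14 package KD, leaf: a nontrivial automorphism of a Kummer extension of prime degree
moves the Kummer generator by a nontrivial root of unity. -/

set_option autoImplicit false

namespace Fermat.Agent.S14L

/-- A nontrivial automorphism of `L = K(d^{1/p})` sends `θ = d^{1/p}` to `ζ ^ k * θ` with
`0 < k < p`. -/
theorem kd_smul_theta (p : ℕ) [Fact p.Prime] (K L : Type) [Field K] [Field L]
    [Algebra K L] [FiniteDimensional K L] [IsGalois K L] (hrank : Module.finrank K L = p)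
    (ζ : K) (hζ : IsPrimitiveRoot ζ p) (d : K) (hd : ¬ ∃ x : K, x ^ p = d)
    (θ : L) (hθ : θ ^ p = algebraMap K L d) (σ : Gal(L/K)) (hσ : σ ≠ 1) :
    ∃ k, 0 < k ∧ k < p ∧ σ θ = algebraMap K L (ζ ^ k) * θ := by
  have hp : p.Prime := Fact.out
  have : NeZero p := ⟨hp.ne_zero⟩
  have hθ0 : θ ≠ 0 := by
    rintro rfl
    apply hd
    refine ⟨0, ?_⟩
    rw [zero_pow hp.ne_zero] at hθ ⊢
    exact ((map_eq_zero_iff _ (algebraMap K L).injective).1 hθ.symm).symm
  have hσθ : (σ θ) ^ p = θ ^ p := by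
    rw [← map_pow, hθ, AlgEquiv.commutes]
  have hζL : IsPrimitiveRoot (algebraMap K L ζ) p :=
    hζ.map_of_injective (algebraMap K L).injective
  have hquot : (σ θ / θ) ^ p = 1 := by
    rw [div_pow, hσθ, div_self (pow_ne_zero p hθ0)]
  obtain ⟨k, hkp, hk⟩ := hζL.eq_pow_of_pow_eq_one hquot
  have hσk : σ θ = algebraMap K L (ζ ^ k) * θ := by
    rw [map_pow, hk, div_mul_cancel₀ _ hθ0]
  refine ⟨k, ?_, hkp, hσk⟩
  rcases Nat.eq_zero_or_pos k with rfl | hkpos
  · exfalso
    rw [pow_zero, map_one, one_mul] at hσk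
    obtain ⟨a, ha⟩ := kd_mem_range_of_fixed p K L hrank σ hσ θ hσk
    apply hd
    refine ⟨a, ?_⟩
    apply (algebraMap K L).injective
    rw [map_pow, ha, hθ]
  · exact hkpos

end Fermat.Agent.S14L
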