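import Mathlib
import Fermat.Agent.S14L.KdSmul

/-! S14 package KD, leaf: the action of a nontrivial automorphism on the integral Kummer
generator. -/

set_option autoImplicit false

open NumberField

namespace Fermat.Agent.S14L

/-- the action of a nontrivial automorphism on the integral Kummer generator -/
theorem kd_smul_theta_int (p : ℕ) [Fact p.Prime] (K L : Type) [Field K] [NumberField K]
    [Field L] [NumberField L] [Algebra K L] [IsGalois K L] (hrank : Module.finrank K L = p)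
    (ζ : 𝓞 K) (hζ : IsPrimitiveRoot ζ p) (d : 𝓞 K) (hd : ¬ ∃ x : K, x ^ p = (d : K))
    (θ : 𝓞 L) (hθ : θ ^ p = algebraMap (𝓞 K) (𝓞 L) d) (σ : Gal(L/K)) (hσ : σ ≠ 1) :
    ∃ k, 0 < k ∧ k < p ∧ σ • θ = algebraMap (𝓞 K) (𝓞 L) (ζ ^ k) * θ := by
  have hζK : IsPrimitiveRoot (algebraMap (𝓞 K) K ζ) p :=
    hζ.map_of_injective (FaithfulSMul.algebraMap_injective (𝓞 K) K)
  have htower : ∀ x : 𝓞 K, algebraMap (𝓞 L) L (algebraMap (𝓞 K) (𝓞 L) x)
      = algebraMap K L (algebraMap (𝓞 K) K x) := by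
    intro x
    rw [← IsScalarTower.algebraMap_apply (𝓞 K) (𝓞 L) L, IsScalarTower.algebraMap_apply (𝓞 K) K L]
  have hθL : (algebraMap (𝓞 L) L θ) ^ p = algebraMap K L (algebraMap (𝓞 K) K d) := by
    rw [← map_pow, hθ, htower]
  obtain ⟨k, hk0, hkp, hk⟩ := kd_smul_theta p K L hrank (algebraMap (𝓞 K) K ζ) hζK
    (algebraMap (𝓞 K) K d) hd (algebraMap (𝓞 L) L θ) hθL σ hσ
  refine ⟨k, hk0, hkp, ?_⟩
  apply FaithfulSMul.algebraMap_injective (𝓞 L) L
  have hsmul : algebraMap (𝓞 L) L (σ • θ) = σ (algebraMap (𝓞 L) L θ) := rfl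
  rw [hsmul, hk, map_mul, htower, map_pow (algebraMap (𝓞 K) K) ζ k]

end Fermat.Agent.S14L
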