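import Mathlib
import Fermat.Agent.S14L.KdPMem
import Fermat.Agent.S14L.KdIndex
import Fermat.Agent.S14L.KdSmulInt

/-! S14 package KD, leaf: the decomposition group of a prime above `v` is trivial when `d` is a
`p`-th power residue at `v` and `p, d ∉ v`. -/

set_option autoImplicit false

open NumberField
open scoped Pointwise

namespace Fermat.Agent.S14L

/-- an automorphism over `K` fixes the image of `𝓞 K` in `𝓞 L` -/
private theorem kd_stab_aux_smul_algebraMap (K L : Type) [Field K] [NumberField K]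
    [Field L] [NumberField L] [Algebra K L] (σ : Gal(L/K)) (x : 𝓞 K) :
    σ • algebraMap (𝓞 K) (𝓞 L) x = algebraMap (𝓞 K) (𝓞 L) x := by
  apply NumberField.RingOfIntegers.coe_injective
  change ((σ • algebraMap (𝓞 K) (𝓞 L) x : 𝓞 L) : L) = ((algebraMap (𝓞 K) (𝓞 L) x : 𝓞 L) : L)
  have h1 : ((σ • algebraMap (𝓞 K) (𝓞 L) x : 𝓞 L) : L)
      = σ • ((algebraMap (𝓞 K) (𝓞 L) x : 𝓞 L) : L) := rfl
  have h2 : ((algebraMap (𝓞 K) (𝓞 L) x : 𝓞 L) : L) = algebraMap K L (x : K) := rfl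
  rw [h1, h2, AlgEquiv.smul_def, AlgEquiv.commutes]

/-- the decomposition group of a prime above `v` is trivial -/
theorem kd_stabilizer_eq_one (p : ℕ) [Fact p.Prime] (K L : Type) [Field K] [NumberField K]
    [Field L] [NumberField L] [Algebra K L] [IsGalois K L] (hrank : Module.finrank K L = p)
    (ζ : 𝓞 K) (hζ : IsPrimitiveRoot ζ p) (d : 𝓞 K) (hd : ¬ ∃ x : K, x ^ p = (d : K))
    (θ : 𝓞 L) (hθ : θ ^ p = algebraMap (𝓞 K) (𝓞 L) d)
    (v : Ideal (𝓞 K)) [v.IsPrime] (hpv : (p : 𝓞 K) ∉ v) (hdv : d ∉ v)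
    (y : 𝓞 K) (hy : d - y ^ p ∈ v)
    (P : Ideal (𝓞 L)) [P.IsPrime] [P.LiesOver v] (σ : Gal(L/K)) (hσ : σ • P = P) : σ = 1 := by
  by_contra hσ1
  obtain ⟨k, hk0, hkp, hk⟩ := kd_smul_theta_int p K L hrank ζ hζ d hd θ hθ σ hσ1
  have hinj : Function.Injective (algebraMap (𝓞 K) (𝓞 L)) :=
    FaithfulSMul.algebraMap_injective (𝓞 K) (𝓞 L)
  have hζL : IsPrimitiveRoot (algebraMap (𝓞 K) (𝓞 L) ζ) p := hζ.map_of_injective hinj
  -- `θ ^ p - y ^ p ∈ P`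
  have h1 : θ ^ p - (algebraMap (𝓞 K) (𝓞 L) y) ^ p ∈ P := by
    have e : θ ^ p - (algebraMap (𝓞 K) (𝓞 L) y) ^ p = algebraMap (𝓞 K) (𝓞 L) (d - y ^ p) := by
      rw [hθ, map_sub, map_pow]
    rw [e]
    exact (Ideal.mem_of_liesOver P v (d - y ^ p)).1 hy
  obtain ⟨i, hip, hi⟩ := kd_exists_index p (algebraMap (𝓞 K) (𝓞 L) ζ) hζL
    (algebraMap (𝓞 K) (𝓞 L) y) θ P h1
  -- apply `σ`
  have h2 : σ • (θ - (algebraMap (𝓞 K) (𝓞 L) ζ) ^ i * algebraMap (𝓞 K) (𝓞 L) y) ∈ σ • P :=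
    Ideal.smul_mem_pointwise_smul σ _ P hi
  rw [hσ] at h2
  have h3 : σ • (θ - (algebraMap (𝓞 K) (𝓞 L) ζ) ^ i * algebraMap (𝓞 K) (𝓞 L) y)
      = algebraMap (𝓞 K) (𝓞 L) (ζ ^ k) * θ
        - (algebraMap (𝓞 K) (𝓞 L) ζ) ^ i * algebraMap (𝓞 K) (𝓞 L) y := by
    rw [smul_sub, hk, smul_mul', smul_pow', kd_stab_aux_smul_algebraMap,
      kd_stab_aux_smul_algebraMap]
  rw [h3] at h2
  have h4 : algebraMap (𝓞 K) (𝓞 L) (ζ ^ i * y * (ζ ^ k - 1)) ∈ P := by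
    have e : algebraMap (𝓞 K) (𝓞 L) (ζ ^ i * y * (ζ ^ k - 1))
        = (algebraMap (𝓞 K) (𝓞 L) (ζ ^ k) * θ
            - (algebraMap (𝓞 K) (𝓞 L) ζ) ^ i * algebraMap (𝓞 K) (𝓞 L) y)
          - algebraMap (𝓞 K) (𝓞 L) (ζ ^ k)
            * (θ - (algebraMap (𝓞 K) (𝓞 L) ζ) ^ i * algebraMap (𝓞 K) (𝓞 L) y) := by
      simp only [map_mul, map_sub, map_pow, map_one]
      ring
    rw [e]
    exact P.sub_mem h2 (P.mul_mem_left _ hi)
  have h5 : ζ ^ i * y * (ζ ^ k - 1) ∈ v := (Ideal.mem_of_liesOver P v _).2 h4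
  have hvp : v.IsPrime := inferInstance
  rcases hvp.mem_or_mem h5 with h6 | h6
  · rcases hvp.mem_or_mem h6 with h7 | h7
    · have h8 : (1 : 𝓞 K) ∈ v := by
        have e : (1 : 𝓞 K) = ζ ^ i * ζ ^ (p - i) := by
          rw [← pow_add, Nat.add_sub_cancel' hip.le, hζ.pow_eq_one]
        rw [e]
        exact v.mul_mem_right _ h7
      exact hvp.ne_top ((Ideal.eq_top_iff_one v).2 h8)
    · apply hdv
      have e : d = (d - y ^ p) + y ^ p := by ring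
      rw [e]
      exact v.add_mem hy (Ideal.pow_mem_of_mem v h7 p (Fact.out : p.Prime).pos)
  · exact hpv (kd_p_mem_of_pow_sub_one_mem p ζ hζ v k hk0 hkp h6)

end Fermat.Agent.S14L
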