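import Mathlib
import Fermat.Agent.S14L.KdInt
import Fermat.Agent.S14L.KdStab
import Fermat.Agent.S14L.KdOrbit

/-! S14 package KD, leaf: primes `v` of `K` at which `d` is a `p`-th power residue (and with
`p, d ∉ v`) split completely in `L = K(d^{1/p})`. -/

set_option autoImplicit false

open NumberField IsDedekindDomain
open scoped Pointwise

namespace Fermat.Agent.S14L

/-- the `p` primes above a completely split prime -/
theorem kd_exists_finset (p : ℕ) [Fact p.Prime] (K L : Type) [Field K] [NumberField K]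
    [Field L] [NumberField L] [Algebra K L] [IsGalois K L] (hrank : Module.finrank K L = p)
    (ζ : K) (hζ : IsPrimitiveRoot ζ p) (d : 𝓞 K) (hd : ¬ ∃ x : K, x ^ p = (d : K))
    (θ : L) (hθ : θ ^ p = algebraMap K L (d : K))
    (v : HeightOneSpectrum (𝓞 K)) (hpv : (p : 𝓞 K) ∉ v.asIdeal) (hdv : d ∉ v.asIdeal)
    (y : 𝓞 K) (hy : d - y ^ p ∈ v.asIdeal) :
    ∃ S : Finset (HeightOneSpectrum (𝓞 L)), S.card = p ∧
      ∀ w ∈ S, w.asIdeal.under (𝓞 K) = v.asIdeal ∧
        Ideal.absNorm w.asIdeal = Ideal.absNorm v.asIdeal := by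
  have hp : p.Prime := Fact.out
  have : NeZero p := ⟨hp.ne_zero⟩
  obtain ⟨θ', _, hθ'⟩ := kd_theta_int p K L d θ hθ
  have hζ' : IsPrimitiveRoot hζ.toInteger p := hζ.toInteger_isPrimitiveRoot
  have : v.asIdeal.IsPrime := v.isPrime
  obtain ⟨⟨P, hP1, hP2⟩⟩ := (inferInstance : Nonempty (v.asIdeal.primesOver (𝓞 L)))
  have : P.IsPrime := hP1
  have : P.LiesOver v.asIdeal := hP2
  exact kd_exists_finset_of_stab p K L hrank v P
    (fun σ hσ => kd_stabilizer_eq_one p K L hrank hζ.toInteger hζ' d hd θ' hθ' v.asIdeal hpv hdv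
      y hy P σ hσ)

end Fermat.Agent.S14L
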