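import Mathlib
import Fermat.Agent.S14L.Defs

/-! S14 package KD, leaf: summing `N(w)^{-s}` over the primes above completely split
primes. -/

set_option autoImplicit false

open NumberField IsDedekindDomain

namespace Fermat.Agent.S14L

theorem kd_sum_eq (p : ℕ) (K L : Type) [Field K] [NumberField K] [Field L] [NumberField L]
    [Algebra K L] (s : ℝ) (T : Finset (HeightOneSpectrum (𝓞 K)))
    (h : ∀ v ∈ T, ∃ S : Finset (HeightOneSpectrum (𝓞 L)), S.card = p ∧
      ∀ w ∈ S, w.asIdeal.under (𝓞 K) = v.asIdeal ∧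
        Ideal.absNorm w.asIdeal = Ideal.absNorm v.asIdeal) :
    ∃ T' : Finset (HeightOneSpectrum (𝓞 L)),
      (p : ℝ) * ∑ v ∈ T, idN K s v.asIdeal = ∑ w ∈ T', idN L s w.asIdeal := by
  classical
  -- choose, for every `v ∈ T`, the finite set of primes above it
  let g : HeightOneSpectrum (𝓞 K) → Finset (HeightOneSpectrum (𝓞 L)) :=
    fun v => if hv : v ∈ T then (h v hv).choose else ∅
  have hg : ∀ v ∈ T, (g v).card = p ∧ ∀ w ∈ g v, w.asIdeal.under (𝓞 K) = v.asIdeal ∧
      Ideal.absNorm w.asIdeal = Ideal.absNorm v.asIdeal := by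
    intro v hv
    have hgv : g v = (h v hv).choose := dif_pos hv
    rw [hgv]
    exact (h v hv).choose_spec
  refine ⟨T.biUnion g, ?_⟩
  -- the chosen sets are pairwise disjoint: a common prime lies over both `v` and `v'`
  have hdisj : (T : Set (HeightOneSpectrum (𝓞 K))).PairwiseDisjoint g := by
    intro v hv v' hv' hne
    rw [Function.onFun, Finset.disjoint_left]
    intro w hw hw'
    apply hne
    apply HeightOneSpectrum.ext
    rw [← ((hg v hv).2 w hw).1, ← ((hg v' hv').2 w hw').1]
  rw [Finset.sum_biUnion hdisj, Finset.mul_sum]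
  refine Finset.sum_congr rfl fun v hv => ?_
  have hin : ∀ w ∈ g v, idN L s w.asIdeal = idN K s v.asIdeal := by
    intro w hw
    unfold idN
    rw [((hg v hv).2 w hw).2]
  rw [Finset.sum_congr rfl hin, Finset.sum_const, (hg v hv).1, nsmul_eq_mul]

end Fermat.Agent.S14L
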