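import Mathlib
import Fermat.Agent.S14L.Defs
import Fermat.Agent.S14L.AnPrime
import Fermat.Agent.S14L.KdSplit
import Fermat.Agent.S14L.KdSum

/-! S14 package KD (owner: helper7): degree-one primes at which `d` is a `p`-th power residue
split completely in `K(d^{1/p})`, hence have upper Dirichlet density `≤ 1/p`. -/

set_option autoImplicit false

open NumberField IsDedekindDomain
open scoped nonZeroDivisors

namespace Fermat.Agent.S14L

/-- the density bound, for an abstract Kummer extension `L = K(θ)`, `θ ^ p = d`. -/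
theorem kd_of_kummer (p : ℕ) [Fact p.Prime] (K L : Type) [Field K] [NumberField K]
    [Field L] [NumberField L] [Algebra K L] [IsGalois K L]
    (hrank : Module.finrank K L = p)
    (ζ : K) (hζ : IsPrimitiveRoot ζ p) (d : 𝓞 K) (hd : ¬ ∃ x : K, x ^ p = (d : K))
    (θ : L) (hθ : θ ^ p = algebraMap K L (d : K)) :
    ∃ C : ℝ, ∀ s : ℝ, 1 < s → s ≤ 2 → ∀ T : Finset (HeightOneSpectrum (𝓞 K)),
      (∀ v ∈ T, (Ideal.absNorm v.asIdeal).Prime ∧ (p : 𝓞 K) ∉ v.asIdeal ∧ d ∉ v.asIdeal ∧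
        ∃ y : 𝓞 K, d - y ^ p ∈ v.asIdeal) →
      ∑ v ∈ T, idN K s v.asIdeal ≤ (1 / (p : ℝ)) * Real.log (1 / (s - 1)) + C := by
  obtain ⟨C', hC'⟩ := prime_sum_le L
  refine ⟨C' / p, fun s hs1 hs2 T hT => ?_⟩
  have hp0 : (0 : ℝ) < p := by exact_mod_cast (Fact.out : p.Prime).pos
  obtain ⟨T', hT'⟩ := kd_sum_eq p K L s T (fun v hv => by
    obtain ⟨_, hpv, hdv, y, hy⟩ := hT v hv
    exact kd_exists_finset p K L hrank ζ hζ d hd θ hθ v hpv hdv y hy)
  have h1 := hC' s hs1 hs2 T'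
  rw [← hT'] at h1
  have h2 : ∑ v ∈ T, idN K s v.asIdeal ≤ (Real.log (1 / (s - 1)) + C') / p := by
    rw [le_div_iff₀ hp0]
    linarith
  calc ∑ v ∈ T, idN K s v.asIdeal ≤ (Real.log (1 / (s - 1)) + C') / p := h2
    _ = (1 / (p : ℝ)) * Real.log (1 / (s - 1)) + C' / p := by ring

open Polynomial in
theorem residue_prime_sum_le (p : ℕ) [Fact p.Prime] (K : Type) [Field K] [NumberField K]
    (ζ : K) (hζ : IsPrimitiveRoot ζ p) (d : 𝓞 K) (hd : ¬ ∃ x : K, x ^ p = (d : K)) :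
    ∃ C : ℝ, ∀ s : ℝ, 1 < s → s ≤ 2 → ∀ T : Finset (HeightOneSpectrum (𝓞 K)),
      (∀ v ∈ T, (Ideal.absNorm v.asIdeal).Prime ∧ (p : 𝓞 K) ∉ v.asIdeal ∧ d ∉ v.asIdeal ∧
        ∃ y : 𝓞 K, d - y ^ p ∈ v.asIdeal) →
      ∑ v ∈ T, idN K s v.asIdeal ≤ (1 / (p : ℝ)) * Real.log (1 / (s - 1)) + C := by
  have hirr : Irreducible (X ^ p - C (d : K)) :=
    X_pow_sub_C_irreducible_of_prime Fact.out (fun b hb => hd ⟨b, hb⟩)
  haveI : Fact (Irreducible (X ^ p - C (d : K))) := ⟨hirr⟩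
  haveI : Module.Finite K (AdjoinRoot (X ^ p - C (d : K))) :=
    (AdjoinRoot.powerBasis hirr.ne_zero).finite
  haveI : NumberField (AdjoinRoot (X ^ p - C (d : K))) :=
    NumberField.of_module_finite K (AdjoinRoot (X ^ p - C (d : K)))
  have hprim : (primitiveRoots p K).Nonempty :=
    ⟨ζ, (mem_primitiveRoots (Fact.out : p.Prime).pos).mpr hζ⟩
  haveI : IsSplittingField K (AdjoinRoot (X ^ p - C (d : K))) (X ^ p - C (d : K)) :=
    isSplittingField_AdjoinRoot_X_pow_sub_C hprim hirr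
  haveI : IsGalois K (AdjoinRoot (X ^ p - C (d : K))) :=
    isGalois_of_isSplittingField_X_pow_sub_C hprim hirr _
  have hrank : Module.finrank K (AdjoinRoot (X ^ p - C (d : K))) = p :=
    finrank_of_isSplittingField_X_pow_sub_C hprim hirr _
  have hθ : (AdjoinRoot.root (X ^ p - C (d : K))) ^ p
      = algebraMap K (AdjoinRoot (X ^ p - C (d : K))) (d : K) := by
    have := AdjoinRoot.eval₂_root (X ^ p - C (d : K))
    simp only [eval₂_sub, eval₂_pow, eval₂_X, eval₂_C] at this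
    rw [sub_eq_zero] at this
    exact this
  exact kd_of_kummer p K (AdjoinRoot (X ^ p - C (d : K))) hrank ζ hζ d hd _ hθ

end Fermat.Agent.S14L
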