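import Mathlib

/-!
# Thaine relation: shared interface (F-side output, K-side input)

For `K = ℚ(ζ_p)` and a prime `l ≡ 1 (mod p)`, Thaine's construction produces
`β = N_{F/K} γ` (`F = K(ζ_l)`, `γ` from Hilbert 90 applied to the unit `ζ - ζ_l`) whose
prime factorisation is an `(l-1)`-th power away from `l`, and whose exponents at the primes
above `l` are controlled by the residue of `ζ - 1`.
-/

set_option autoImplicit false

open NumberField IsDedekindDomain

namespace Fermat.Agent.S14L

/-- F-side output: Thaine's element `β = N_{F/K} γ` (case `a = 1`). -/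
def ThnRelation (l : ℕ) (K : Type) [Field K] [NumberField K] (ζ : 𝓞 K) : Prop :=
  ∃ (g : ℤ) (β : 𝓞 K), β ≠ 0 ∧
    (∀ w : HeightOneSpectrum (𝓞 K), (l : 𝓞 K) ∉ w.asIdeal →
      (l - 1) ∣ multiplicity w.asIdeal (Ideal.span {β})) ∧
    (∀ w : HeightOneSpectrum (𝓞 K), (l : 𝓞 K) ∈ w.asIdeal →
      (ζ - 1) * (g : 𝓞 K) ^ (multiplicity w.asIdeal (Ideal.span {β})) - 1 ∈ w.asIdeal)

end Fermat.Agent.S14L
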