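import Mathlib

/-!
# Thaine relation, F-side: basic facts on `F = K(ζ_l)` for `K = ℚ(ζ_p)`, `p ≠ l` primes
-/

set_option autoImplicit false

open Polynomial NumberField

namespace Fermat.Agent.S14L

section
variable (p l : ℕ) [hp : Fact p.Prime] [hl : Fact l.Prime]
  (K : Type) [Field K] [NumberField K] [IsCyclotomicExtension {p} ℚ K]

/-- `K(ζ_l)` is the `p * l`-th cyclotomic field. -/
theorem thnF_cyc (hne : p ≠ l) (F : Type) [Field F] [CharZero F] [Algebra K F]
    [IsCyclotomicExtension {l} K F] : IsCyclotomicExtension {p * l} ℚ F := by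
  have h1 : IsCyclotomicExtension ({p} ∪ {l}) ℚ F :=
    IsCyclotomicExtension.trans (S := {p}) (T := {l}) ℚ K F
      (algebraMap K F).injective
  obtain ⟨ζp, hζp⟩ := h1.exists_isPrimitiveRoot (n := p) (by simp) hp.out.ne_zero
  obtain ⟨ζl, hζl⟩ := h1.exists_isPrimitiveRoot (n := l) (by simp) hl.out.ne_zero
  have hcop : Nat.Coprime p l := (Nat.coprime_primes hp.out hl.out).2 hne
  have hprim : IsPrimitiveRoot (ζp * ζl) (p * l) := by
    have := IsPrimitiveRoot.orderOf (ζp * ζl)
    have h2 : orderOf (ζp * ζl) = p * l := by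
      rw [(Commute.all ζp ζl).orderOf_mul_eq_mul_orderOf_of_coprime]
      · rw [← hζp.eq_orderOf, ← hζl.eq_orderOf]
      · rw [← hζp.eq_orderOf, ← hζl.eq_orderOf]; exact hcop
    rwa [h2] at this
  have h2 : IsCyclotomicExtension (({p} ∪ {l}) ∪ {p * l}) ℚ F :=
    IsCyclotomicExtension.union_of_isPrimitiveRoot _ _ _ hprim
  have e : (({p} ∪ {l}) ∪ {p * l} : Set ℕ) = (({p * l} ∪ {p}) ∪ {l} : Set ℕ) := by
    ext x; simp only [Set.mem_union, Set.mem_singleton_iff]; tauto
  rw [e] at h2
  have h3 : IsCyclotomicExtension ({p * l} ∪ {p}) ℚ F :=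
    (IsCyclotomicExtension.iff_union_of_dvd (n := l) ℚ F
      ⟨p * l, by simp, mul_ne_zero hp.out.ne_zero hl.out.ne_zero, dvd_mul_left _ _⟩).2 h2
  exact (IsCyclotomicExtension.iff_union_of_dvd (n := p) ℚ F
      ⟨p * l, by simp, mul_ne_zero hp.out.ne_zero hl.out.ne_zero, dvd_mul_right _ _⟩).2 h3

theorem thnF_finrank (hne : p ≠ l) (F : Type) [Field F] [CharZero F] [Algebra K F]
    [IsCyclotomicExtension {l} K F] : Module.finrank K F = l - 1 := by
  have hF := thnF_cyc p l K hne F
  have h1 : Module.finrank ℚ F = (p * l).totient := IsCyclotomicExtension.Rat.finrank (p * l) F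
  have h2 : Module.finrank ℚ K = p.totient := IsCyclotomicExtension.Rat.finrank p K
  have hcop : Nat.Coprime p l := (Nat.coprime_primes hp.out hl.out).2 hne
  have h3 := Module.finrank_mul_finrank ℚ K F
  rw [h1, h2, Nat.totient_mul hcop, Nat.totient_prime hp.out, Nat.totient_prime hl.out] at h3
  have hp1 : 0 < p - 1 := by have := hp.out.two_le; omega
  exact Nat.eq_of_mul_eq_mul_left hp1 h3

theorem thnF_irr (hne : p ≠ l) : Irreducible (cyclotomic l K) := by
  let F := CyclotomicField l K
  have hfr : Module.finrank K F = l - 1 := thnF_finrank p l K hne F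
  have hζ := IsCyclotomicExtension.zeta_spec l K F
  set ζ := IsCyclotomicExtension.zeta l K F with hζdef
  have hint : IsIntegral K ζ := (IsCyclotomicExtension.integral {l} K F).isIntegral ζ
  have hdvd : minpoly K ζ ∣ cyclotomic l K := by
    apply minpoly.dvd
    rw [aeval_def, eval₂_eq_eval_map, map_cyclotomic]
    exact hζ.isRoot_cyclotomic hl.out.pos
  have hdeg : (minpoly K ζ).natDegree = l - 1 := by
    rw [(hζ.powerBasis K).finrank, IsPrimitiveRoot.powerBasis_dim] at hfr
    exact hfr
  have heq : cyclotomic l K = minpoly K ζ := by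
    refine Polynomial.eq_of_monic_of_dvd_of_natDegree_le (minpoly.monic hint)
      (cyclotomic.monic l K) hdvd ?_
    rw [hdeg, natDegree_cyclotomic, Nat.totient_prime hl.out]
  rw [heq]
  exact minpoly.irreducible hint

end

end Fermat.Agent.S14L
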