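import Mathlib
import Fermat.Agent.S14L.ThaineFCyc

/-!
# Thaine relation, F-side, leaf S: `𝓞 F = 𝓞 K + (μ - 1) 𝓞 F`
-/

set_option autoImplicit false

open Polynomial NumberField

namespace Fermat.Agent.S14L

section
variable {p l : ℕ} [hp : Fact p.Prime] [hl : Fact l.Prime]
  {K : Type} [Field K] [NumberField K] [IsCyclotomicExtension {p} ℚ K]
  {F : Type} [Field F] [NumberField F] [Algebra K F] [IsCyclotomicExtension {l} K F]

omit [NumberField K] [IsCyclotomicExtension {p} ℚ K] [NumberField F]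
  [IsCyclotomicExtension {l} K F] in
/-- `θ = ζ μ` is a primitive `p l`-th root of unity in `𝓞 F`. -/
theorem thnFS_isPrimitiveRoot_mul (hne : p ≠ l)
    (ζ : 𝓞 K) (hζ : IsPrimitiveRoot ζ p) (μ : 𝓞 F) (hμ : IsPrimitiveRoot μ l) :
    IsPrimitiveRoot (algebraMap (𝓞 K) (𝓞 F) ζ * μ) (p * l) := by
  have hcop : Nat.Coprime p l := (Nat.coprime_primes hp.out hl.out).2 hne
  have hζ' : IsPrimitiveRoot (algebraMap (𝓞 K) (𝓞 F) ζ) p :=
    hζ.map_of_injective (FaithfulSMul.algebraMap_injective (𝓞 K) (𝓞 F))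
  have := IsPrimitiveRoot.orderOf (algebraMap (𝓞 K) (𝓞 F) ζ * μ)
  have h2 : orderOf (algebraMap (𝓞 K) (𝓞 F) ζ * μ) = p * l := by
    rw [(Commute.all _ μ).orderOf_mul_eq_mul_orderOf_of_coprime]
    · rw [← hζ'.eq_orderOf, ← hμ.eq_orderOf]
    · rw [← hζ'.eq_orderOf, ← hμ.eq_orderOf]; exact hcop
  rwa [h2] at this

/-- `𝓞 F` is generated over `ℤ` by `θ = ζ μ`. -/
theorem thnFS_adjoin_eq_top (hne : p ≠ l)
    (ζ : 𝓞 K) (hζ : IsPrimitiveRoot ζ p) (μ : 𝓞 F) (hμ : IsPrimitiveRoot μ l) :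
    Algebra.adjoin ℤ {algebraMap (𝓞 K) (𝓞 F) ζ * μ} = ⊤ := by
  have hF : IsCyclotomicExtension {p * l} ℚ F := thnF_cyc p l K hne F
  have hnz : NeZero (p * l) := ⟨mul_ne_zero hp.out.ne_zero hl.out.ne_zero⟩
  have hθ := thnFS_isPrimitiveRoot_mul hne ζ hζ μ hμ
  have hθF : IsPrimitiveRoot ((algebraMap (𝓞 K) (𝓞 F) ζ * μ : 𝓞 F) : F) (p * l) :=
    hθ.map_of_injective (FaithfulSMul.algebraMap_injective (𝓞 F) F)
  have h := IsCyclotomicExtension.Rat.adjoin_singleton_eq_top hθF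
  rwa [IsPrimitiveRoot.toInteger_coe] at h

/-- Every integer of `F = K(μ)` is congruent modulo `μ - 1` to an integer of `K`. -/
theorem thnF_exists_add_mul (hne : p ≠ l)
    (ζ : 𝓞 K) (hζ : IsPrimitiveRoot ζ p) (μ : 𝓞 F) (hμ : IsPrimitiveRoot μ l) (b : 𝓞 F) :
    ∃ (a : 𝓞 K) (c : 𝓞 F), b = algebraMap (𝓞 K) (𝓞 F) a + (μ - 1) * c := by
  have hb : b ∈ Algebra.adjoin ℤ {algebraMap (𝓞 K) (𝓞 F) ζ * μ} := by
    rw [thnFS_adjoin_eq_top hne ζ hζ μ hμ]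
    exact Algebra.mem_top
  induction hb using Algebra.adjoin_induction with
  | mem x hx =>
    rw [Set.mem_singleton_iff] at hx
    exact ⟨ζ, algebraMap (𝓞 K) (𝓞 F) ζ, by rw [hx]; ring⟩
  | algebraMap r =>
    exact ⟨(r : 𝓞 K), 0, by rw [mul_zero, add_zero, eq_intCast, map_intCast]⟩
  | add x y _ _ hx hy =>
    obtain ⟨a, c, rfl⟩ := hx
    obtain ⟨a', c', rfl⟩ := hy
    exact ⟨a + a', c + c', by rw [map_add]; ring⟩
  | mul x y _ _ hx hy =>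
    obtain ⟨a, c, rfl⟩ := hx
    obtain ⟨a', c', rfl⟩ := hy
    exact ⟨a * a', algebraMap (𝓞 K) (𝓞 F) a * c' + algebraMap (𝓞 K) (𝓞 F) a' * c
      + (μ - 1) * c * c', by rw [map_mul]; ring⟩

end

end Fermat.Agent.S14L
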