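import Mathlib
import Fermat.Agent.S14L.ThaineFStruct

/-!
# Thaine relation, F-side, leaf C: the congruence at the primes above `l`
-/

set_option autoImplicit false

open Polynomial NumberField

namespace Fermat.Agent.S14L

section thnFC_general

/-- (a) an `l`-th root of unity is `1` modulo a prime ideal containing the prime `l`. -/
theorem thnFC_sub_one_mem {B : Type*} [CommRing B] {l : ℕ} (hl : l.Prime) (μ : B)
    (hμ : μ ^ l = 1) (W : Ideal B) [hW : W.IsPrime] (hlW : (l : B) ∈ W) : μ - 1 ∈ W := by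
  obtain ⟨r, hr⟩ := exists_add_pow_prime_eq hl (μ - 1) 1
  rw [sub_add_cancel, hμ, one_pow] at hr
  have h : (μ - 1) ^ l = -((l : B) * ((μ - 1) * 1 * r)) := by
    linear_combination -hr
  refine hW.mem_of_pow_mem l ?_
  rw [h]
  exact W.neg_mem (W.mul_mem_right _ hlW)

variable {A B : Type*} [CommRing A] [CommRing B] [Algebra A B]

/-- (b) `t (μ - 1)` is a multiple of `μ - 1`. -/
theorem thnFC_map_sub_one (t : B →ₐ[A] B) (μ : B) (g : ℕ) (ht : t μ = μ ^ g) :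
    t (μ - 1) = (∑ i ∈ Finset.range g, μ ^ i) * (μ - 1) := by
  rw [map_sub, map_one, ht, geom_sum_mul]

/-- (b) `t (μ - 1) ≡ g (μ - 1)` modulo `(μ - 1) ^ 2`. -/
theorem thnFC_map_sub_one_sub (t : B →ₐ[A] B) (μ : B) (g : ℕ) (ht : t μ = μ ^ g) :
    ∃ r : B, t (μ - 1) - (g : B) * (μ - 1) = (μ - 1) ^ 2 * r := by
  refine ⟨∑ j ∈ Finset.range g, ∑ i ∈ Finset.range j, μ ^ i, ?_⟩
  rw [thnFC_map_sub_one t μ g ht]
  have h1 : ∀ j : ℕ, μ ^ j = (∑ i ∈ Finset.range j, μ ^ i) * (μ - 1) + 1 := fun j => by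
    rw [geom_sum_mul]; ring
  have h2 : ∑ j ∈ Finset.range g, μ ^ j
      = (∑ j ∈ Finset.range g, ∑ i ∈ Finset.range j, μ ^ i) * (μ - 1) + g := by
    rw [Finset.sum_mul]
    conv_lhs => rw [Finset.sum_congr rfl (fun j _ => h1 j)]
    rw [Finset.sum_add_distrib, Finset.sum_const, Finset.card_range, nsmul_eq_mul, mul_one]
  rw [h2]; ring

/-- (c) `t y ≡ y` modulo `μ - 1`. -/
theorem thnFC_map_sub_self (t : B →ₐ[A] B) (μ : B) (g : ℕ) (ht : t μ = μ ^ g)
    (hdec : ∀ y : B, ∃ (a : A) (c : B), y = algebraMap A B a + (μ - 1) * c) (y : B) :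
    ∃ r : B, t y - y = (μ - 1) * r := by
  obtain ⟨a, c, rfl⟩ := hdec y
  refine ⟨(∑ i ∈ Finset.range g, μ ^ i) * t c - c, ?_⟩
  rw [map_add, map_mul, AlgHom.commutes, thnFC_map_sub_one t μ g ht]
  ring

/-- (d) `t b ≡ g b` modulo `W ^ 2` for `b ∈ W`. -/
theorem thnFC_map_sub_mul_mem_sq (t : B →ₐ[A] B) (μ : B) (g : ℕ) (ht : t μ = μ ^ g)
    (hdec : ∀ y : B, ∃ (a : A) (c : B), y = algebraMap A B a + (μ - 1) * c)
    (W : Ideal B) (w : Ideal A) (hWw : ∀ a : A, algebraMap A B a ∈ W → a ∈ w)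
    (hram : w.map (algebraMap A B) ≤ W ^ 2) (hlam : μ - 1 ∈ W) (b : B) (hb : b ∈ W) :
    t b - (g : B) * b ∈ W ^ 2 := by
  obtain ⟨a, c, rfl⟩ := hdec b
  have ha : algebraMap A B a ∈ W ^ 2 := by
    apply hram
    apply Ideal.mem_map_of_mem
    apply hWw
    have := W.sub_mem hb (W.mul_mem_right c hlam)
    rwa [add_sub_cancel_right] at this
  obtain ⟨r, hr⟩ := thnFC_map_sub_one_sub t μ g ht
  obtain ⟨s, hs⟩ := thnFC_map_sub_self t μ g ht hdec c
  have hsq : (μ - 1) ^ 2 ∈ W ^ 2 := Ideal.pow_mem_pow hlam 2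
  have key : t (algebraMap A B a + (μ - 1) * c) - (g : B) * (algebraMap A B a + (μ - 1) * c)
      = (1 - (g : B)) * algebraMap A B a
        + (μ - 1) ^ 2 * ((∑ i ∈ Finset.range g, μ ^ i) * s + r * c) := by
    rw [map_add, map_mul, AlgHom.commutes]
    have h1 : t (μ - 1) = (g : B) * (μ - 1) + (μ - 1) ^ 2 * r := by rw [← hr]; ring
    have h2 : t c = c + (μ - 1) * s := by rw [← hs]; ring
    have h3 := thnFC_map_sub_one t μ g ht
    rw [h2]
    linear_combination c * h1 + ((μ - 1) * s) * h3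
  rw [key]
  exact (W ^ 2).add_mem ((W ^ 2).mul_mem_left _ ha) ((W ^ 2).mul_mem_right _ hsq)

/-- (e) `t y ≡ g ^ n y` modulo `W ^ (n + 1)` for `y ∈ W ^ n`. -/
theorem thnFC_map_sub_pow_mul_mem (t : B →ₐ[A] B) (g : ℕ) (W : Ideal B)
    (h0 : ∀ y : B, t y - y ∈ W) (h1 : ∀ b ∈ W, t b - (g : B) * b ∈ W ^ 2) :
    ∀ (n : ℕ) (y : B), y ∈ W ^ n → t y - (g : B) ^ n * y ∈ W ^ (n + 1)
  | 0, y, _ => by simpa using h0 y
  | n + 1, y, hy => by
    rw [pow_succ] at hy
    refine Submodule.mul_induction_on hy ?_ ?_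
    · intro a ha b hb
      have e : t (a * b) - (g : B) ^ (n + 1) * (a * b)
          = (t a - (g : B) ^ n * a) * t b + (g : B) ^ n * a * (t b - (g : B) * b) := by
        rw [map_mul]; ring
      rw [e]
      have htb : t b ∈ W := by
        have := W.add_mem (h0 b) hb
        rwa [sub_add_cancel] at this
      refine Ideal.add_mem _ ?_ ?_
      · rw [pow_succ W (n + 1)]
        exact Ideal.mul_mem_mul (thnFC_map_sub_pow_mul_mem t g W h0 h1 n a ha) htb
      · have h : W ^ (n + 1 + 1) = W ^ n * W ^ 2 := by rw [← pow_add]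
        rw [h]
        exact Ideal.mul_mem_mul (Ideal.mul_mem_left _ _ ha) (h1 b hb)
    · intro x y hx hy
      have e : t (x + y) - (g : B) ^ (n + 1) * (x + y)
          = (t x - (g : B) ^ (n + 1) * x) + (t y - (g : B) ^ (n + 1) * y) := by
        rw [map_add]; ring
      rw [e]
      exact Ideal.add_mem _ hx hy

/-- (f) the abstract congruence. -/
theorem thnFC_congr_aux [IsDedekindDomain B] (t : B →ₐ[A] B) (μ : B) (g : ℕ)
    (ht : t μ = μ ^ g)
    (hdec : ∀ y : B, ∃ (a : A) (c : B), y = algebraMap A B a + (μ - 1) * c)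
    (ζ : A) (ε : B) (hε : ε ≠ 0) (hrel : (algebraMap A B ζ - μ) * t ε = ε)
    (W : Ideal B) [hW : W.IsPrime] (hlam : μ - 1 ∈ W)
    (w : Ideal A) (hWw : ∀ a : A, algebraMap A B a ∈ W → a ∈ w)
    (hram : w.map (algebraMap A B) ≤ W ^ 2) :
    (ζ - 1) * (g : A) ^ (multiplicity W (Ideal.span {ε})) - 1 ∈ w := by
  have h0 : ∀ y : B, t y - y ∈ W := fun y => by
    obtain ⟨r, hr⟩ := thnFC_map_sub_self t μ g ht hdec y
    rw [hr]; exact W.mul_mem_right _ hlam
  have h1 : ∀ b ∈ W, t b - (g : B) * b ∈ W ^ 2 :=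
    thnFC_map_sub_mul_mem_sq t μ g ht hdec W w hWw hram hlam
  set v := multiplicity W (Ideal.span {ε}) with hv
  have hεv : ε ∈ W ^ v := Ideal.dvd_span_singleton.mp (pow_multiplicity_dvd W (Ideal.span {ε}))
  have hεv' : ε ∉ W ^ (v + 1) := by
    intro h
    have hfin : FiniteMultiplicity W (Ideal.span {ε}) :=
      FiniteMultiplicity.of_not_isUnit (by rw [Ideal.isUnit_iff]; exact hW.ne_top)
        (by rwa [Ne, Ideal.zero_eq_bot, Ideal.span_singleton_eq_bot])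
    exact hfin.not_pow_dvd_of_multiplicity_lt (Nat.lt_succ_self _)
      (Ideal.dvd_span_singleton.mpr h)
  have h2 := thnFC_map_sub_pow_mul_mem t g W h0 h1 v ε hεv
  have h3 : (1 - (algebraMap A B ζ - μ) * (g : B) ^ v) * ε ∈ W ^ (v + 1) := by
    have e : (1 - (algebraMap A B ζ - μ) * (g : B) ^ v) * ε
        = (algebraMap A B ζ - μ) * (t ε - (g : B) ^ v * ε) := by
      linear_combination -hrel
    rw [e]; exact Ideal.mul_mem_left _ _ h2
  rcases Ideal.IsPrime.mul_mem_pow W h3 with h4 | h4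
  · apply hWw
    have e : algebraMap A B ((ζ - 1) * (g : A) ^ v - 1)
        = -(1 - (algebraMap A B ζ - μ) * (g : B) ^ v) + (μ - 1) * (g : B) ^ v := by
      simp only [map_sub, map_mul, map_pow, map_one, map_natCast]
      ring
    rw [e]
    exact W.add_mem (W.neg_mem h4) (W.mul_mem_right _ hlam)
  · exact absurd h4 hεv'

end thnFC_general

section
variable {p l : ℕ} [hp : Fact p.Prime] [hl : Fact l.Prime]
  {K : Type} [Field K] [NumberField K] [IsCyclotomicExtension {p} ℚ K]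
  {F : Type} [Field F] [NumberField F] [Algebra K F] [IsCyclotomicExtension {l} K F]

/-- If `t μ = μ ^ g` and `(ζ - μ) * t ε = ε`, then `(ζ - 1) * g ^ v ≡ 1` modulo a (ramified) prime
`W` above `l`, where `v` is the `W`-adic valuation of `ε`. -/
theorem thnF_congr (hne : p ≠ l)
    (ζ : 𝓞 K) (hζ : IsPrimitiveRoot ζ p) (μ : 𝓞 F) (hμ : IsPrimitiveRoot μ l)
    (t : 𝓞 F →ₐ[𝓞 K] 𝓞 F) (g : ℕ) (ht : t μ = μ ^ g)
    (ε : 𝓞 F) (hε : ε ≠ 0) (hrel : (algebraMap (𝓞 K) (𝓞 F) ζ - μ) * t ε = ε)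
    (W : Ideal (𝓞 F)) [W.IsPrime] (hW : W ≠ ⊥) (hlW : (l : 𝓞 F) ∈ W)
    (w : Ideal (𝓞 K)) [W.LiesOver w]
    (hram : w.map (algebraMap (𝓞 K) (𝓞 F)) ≤ W ^ 2) :
    (ζ - 1) * (g : 𝓞 K) ^ (multiplicity W (Ideal.span {ε})) - 1 ∈ w := by
  have _ := hW
  exact thnFC_congr_aux t μ g ht (thnF_exists_add_mul hne ζ hζ μ hμ) ζ ε hε hrel W
    (thnFC_sub_one_mem hl.out μ hμ.pow_eq_one W hlW) w
    (fun a ha => (Ideal.mem_of_liesOver W w a).mpr ha) hram

end

end Fermat.Agent.S14L
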