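import Mathlib
import Fermat.Agent.S14L.ThaineFCyc

/-!
# Thaine relation, F-side, leaf D: the ideal of `N_{F/K} ε` for `ε` with `x * τ ε = ε`, `x` a unit
-/

set_option autoImplicit false

open Polynomial NumberField

namespace Fermat.Agent.S14L

section
variable {p l : ℕ} [hp : Fact p.Prime] [hl : Fact l.Prime]
  {K : Type} [Field K] [NumberField K] [IsCyclotomicExtension {p} ℚ K]
  {F : Type} [Field F] [NumberField F] [Algebra K F] [IsCyclotomicExtension {l} K F]

/-- If `τ` generates `Gal(F/K)` and `x * τ ε = ε` with `x` a unit, then all the conjugates of `ε`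
are associated to `ε`, so `N_{F/K} ε` generates `(ε)^(l-1)` in `𝓞 F`. -/
theorem thnF_map_span_norm (hne : p ≠ l) (τ : F ≃ₐ[K] F)
    (hτ : ∀ σ : F ≃ₐ[K] F, σ ∈ Subgroup.zpowers τ) (x ε : 𝓞 F) (hx : IsUnit x)
    (hrel : x * galRestrict (𝓞 K) K F (𝓞 F) τ ε = ε) :
    Ideal.map (algebraMap (𝓞 K) (𝓞 F)) (Ideal.span {RingOfIntegers.norm K ε}) =
      Ideal.span {ε} ^ (l - 1) := by
  have hgal : IsGalois K F := IsCyclotomicExtension.isGalois {l} K F
  -- (1) all conjugates of `ε` are associated to `ε`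
  let S : Subgroup (F ≃ₐ[K] F) :=
    { carrier := {σ | Associated (galRestrict (𝓞 K) K F (𝓞 F) σ ε) ε}
      one_mem' := by
        show Associated (galRestrict (𝓞 K) K F (𝓞 F) 1 ε) ε
        rw [map_one, AlgEquiv.one_apply]
      mul_mem' := by
        intro a b ha hb
        show Associated (galRestrict (𝓞 K) K F (𝓞 F) (a * b) ε) ε
        rw [map_mul, AlgEquiv.mul_apply]
        exact (Associated.map (galRestrict (𝓞 K) K F (𝓞 F) a) hb).trans ha
      inv_mem' := by
        intro a ha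
        show Associated (galRestrict (𝓞 K) K F (𝓞 F) a⁻¹ ε) ε
        have h1 := Associated.map (galRestrict (𝓞 K) K F (𝓞 F) a⁻¹) ha
        rw [← AlgEquiv.mul_apply, ← map_mul, inv_mul_cancel, map_one, AlgEquiv.one_apply] at h1
        exact h1.symm }
  have hτS : τ ∈ S := by
    show Associated (galRestrict (𝓞 K) K F (𝓞 F) τ ε) ε
    refine ⟨hx.unit, ?_⟩
    rw [IsUnit.unit_spec, mul_comm]
    exact hrel
  have hassoc : ∀ σ : F ≃ₐ[K] F, Associated (galRestrict (𝓞 K) K F (𝓞 F) σ ε) ε :=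
    fun σ => (Subgroup.zpowers_le.mpr hτS) (hτ σ)
  -- (2) the norm is the product of the conjugates
  have hnorm : algebraMap (𝓞 K) (𝓞 F) (RingOfIntegers.norm K ε)
      = ∏ σ : F ≃ₐ[K] F, galRestrict (𝓞 K) K F (𝓞 F) σ ε := by
    apply FaithfulSMul.algebraMap_injective (𝓞 F) F
    rw [map_prod]
    simp_rw [algebraMap_galRestrict_apply]
    rw [← Algebra.norm_eq_prod_automorphisms K]
    rfl
  -- (3) conclusion
  rw [Ideal.map_span, Set.image_singleton, hnorm, ← Ideal.prod_span_singleton]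
  have h3 : ∀ σ : F ≃ₐ[K] F, Ideal.span {galRestrict (𝓞 K) K F (𝓞 F) σ ε} = Ideal.span {ε} :=
    fun σ => Ideal.span_singleton_eq_span_singleton.mpr (hassoc σ)
  simp_rw [h3]
  rw [Finset.prod_const, Finset.card_univ, ← Nat.card_eq_fintype_card,
    IsGalois.card_aut_eq_finrank K F, thnF_finrank p l K hne F]

end

end Fermat.Agent.S14L
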