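import Mathlib
import Fermat.Agent.S14L.ThaineFCyc

/-!
# Thaine relation, F-side, leaf N: `N_{F/K}(ζ - ζ_l) = 1`
-/

set_option autoImplicit false

open Polynomial NumberField

namespace Fermat.Agent.S14L

section
variable {p l : ℕ} [hp : Fact p.Prime] [hl : Fact l.Prime]
  {K : Type} [Field K] [NumberField K] [IsCyclotomicExtension {p} ℚ K]
  {F : Type} [Field F] [NumberField F] [Algebra K F] [IsCyclotomicExtension {l} K F]

omit [NumberField K] [IsCyclotomicExtension {p} ℚ K] in
/-- `Φ_l(ζ) = 1` for `ζ` a primitive `p`-th root of unity, `p ∣ l - 1`. -/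
theorem thnFN_eval_cyclotomic (hl1 : p ∣ l - 1) (ζ : K) (hζ : IsPrimitiveRoot ζ p) :
    eval ζ (cyclotomic l K) = 1 := by
  have h1 : eval ζ (cyclotomic l K) * (ζ - 1) = ζ ^ l - 1 := by
    have h := congrArg (eval ζ) (cyclotomic_prime_mul_X_sub_one K l)
    simpa using h
  have h2 : ζ ^ l = ζ := by
    obtain ⟨k, hk⟩ := hl1
    have hl2 : l = p * k + 1 := by have := hl.out.two_le; omega
    rw [hl2, pow_succ, pow_mul, hζ.pow_eq_one, one_pow, one_mul]
  have h3 : ζ - 1 ≠ 0 := sub_ne_zero.mpr (hζ.ne_one hp.out.one_lt)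
  rw [h2] at h1
  exact mul_right_cancel₀ h3 (by rw [h1, one_mul])

/-- `N_{F/K}(ζ - μ) = Φ_l(ζ) = 1` for `ζ` a primitive `p`-th root of unity of `K`, `μ` a primitive
`l`-th root of unity of `F = K(μ)`, `p ∣ l - 1`. -/
theorem thnF_norm_eq_one (hne : p ≠ l) (hl1 : p ∣ l - 1)
    (ζ : K) (hζ : IsPrimitiveRoot ζ p) (μ : F) (hμ : IsPrimitiveRoot μ l) :
    Algebra.norm K (algebraMap K F ζ - μ) = 1 := by
  have hirr : Irreducible (cyclotomic l K) := thnF_irr p l K hne
  have hev : eval ζ (cyclotomic l K) = 1 := thnFN_eval_cyclotomic hl1 ζ hζ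
  have hl0 : NeZero l := ⟨hl.out.ne_zero⟩
  let E := AlgebraicClosure F
  apply (algebraMap K E).injective
  rw [Algebra.norm_eq_prod_embeddings, map_one]
  have hμE : IsPrimitiveRoot (algebraMap F E μ) l :=
    hμ.map_of_injective (algebraMap F E).injective
  have Hprod : (Finset.univ.prod fun σ : F →ₐ[K] E => σ (algebraMap K F ζ - μ)) =
      eval (algebraMap K E ζ) (cyclotomic' l E) := by
    rw [cyclotomic', eval_prod, ← @Finset.prod_attach E E, ← Finset.univ_eq_attach]
    refine Fintype.prod_equiv (hμ.embeddingsEquivPrimitiveRoots E hirr) _ _ fun σ => ?_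
    simp
  rw [Hprod, cyclotomic', ← cyclotomic_eq_prod_X_sub_primitiveRoots hμE,
    ← map_cyclotomic l (algebraMap K E), eval_map_apply, hev, map_one]

end

end Fermat.Agent.S14L
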