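import Mathlib
import Fermat.Agent.S14L.ThaineFCyc

/-!
# Thaine relation, F-side, leaf R: ramification of `F = K(ζ_l)` over `K = ℚ(ζ_p)`
-/

set_option autoImplicit false

open Polynomial NumberField

namespace Fermat.Agent.S14L

section
variable {p l : ℕ} [hp : Fact p.Prime] [hl : Fact l.Prime]
  {K : Type} [Field K] [NumberField K] [IsCyclotomicExtension {p} ℚ K]
  {F : Type} [Field F] [NumberField F] [Algebra K F] [IsCyclotomicExtension {l} K F]

/-- Both cases at once: with `q` the rational prime below `W`, one has `l ∈ W ↔ q = l`, and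
the ramification index of `W` over `𝓞 K` is read off from the tower `ℤ ⊆ 𝓞 K ⊆ 𝓞 F`. -/
theorem thnFR_ramificationIdx (hne : p ≠ l)
    (W : Ideal (𝓞 F)) [W.IsPrime] (hW : W ≠ ⊥) :
    ((l : 𝓞 F) ∉ W → W.ramificationIdx (𝓞 K) = 1) ∧
      ((l : 𝓞 F) ∈ W → W.ramificationIdx (𝓞 K) = l - 1) := by
  have : NeZero W := ⟨hW⟩
  set q := Ideal.absNorm (Ideal.under ℤ W) with hqdef
  have hq : q.Prime := Nat.absNorm_under_prime W
  have : Fact q.Prime := ⟨hq⟩
  have hWq : W.LiesOver (Ideal.span {(q : ℤ)}) := Int.liesOver_span_absNorm W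
  have hmem : (l : 𝓞 F) ∈ W ↔ q = l := by
    rw [← Int.cast_natCast, Int.cast_mem_ideal_iff, Int.natCast_dvd_natCast,
      Nat.prime_dvd_prime_iff_eq hq hl.out]
  have hF : IsCyclotomicExtension {p * l} ℚ F := thnF_cyc p l K hne F
  have : NeZero p := ⟨hp.out.ne_zero⟩
  have : NeZero (p * l) := ⟨mul_ne_zero hp.out.ne_zero hl.out.ne_zero⟩
  let w : Ideal (𝓞 K) := W.under (𝓞 K)
  have : w.IsPrime := Ideal.IsPrime.under _ W
  have : W.LiesOver w := Ideal.over_under W
  have hwq : w.LiesOver (Ideal.span {(q : ℤ)}) := Ideal.LiesOver.tower_bot W w _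
  have htower : W.ramificationIdx ℤ = w.ramificationIdx ℤ * W.ramificationIdx (𝓞 K) :=
    Ideal.ramificationIdx_tower (R := ℤ) w W
  have hp1 : 0 < p - 1 := by have := hp.out.two_le; omega
  constructor
  · intro hlW
    have hql : q ≠ l := fun h => hlW (hmem.2 h)
    by_cases hqp : q = p
    · -- `q = p`: both `W` and `w` have ramification index `p - 1` over `ℤ`
      have h1 : W.ramificationIdx ℤ = q ^ 0 * (q - 1) :=
        IsCyclotomicExtension.Rat.ramificationIdx_eq (p * l) F W
          (by rw [hqp, zero_add, pow_one])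
          (by rw [Nat.prime_dvd_prime_iff_eq hq hl.out]; exact hql)
      have h2 : w.ramificationIdx ℤ = q - 1 := by
        subst hqp
        exact IsCyclotomicExtension.Rat.ramificationIdx_eq_of_prime q K w
      rw [h1, h2, pow_zero, one_mul, hqp] at htower
      exact (Nat.eq_of_mul_eq_mul_left hp1 (by rw [mul_one]; exact htower)).symm
    · -- `q ∤ p * l`: `W` is unramified over `ℤ`
      have hndvd : ¬ q ∣ p * l := by
        rw [hq.dvd_mul, Nat.prime_dvd_prime_iff_eq hq hp.out,
          Nat.prime_dvd_prime_iff_eq hq hl.out]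
        tauto
      have h1 : W.ramificationIdx ℤ = 1 :=
        IsCyclotomicExtension.Rat.ramificationIdx_eq_of_not_dvd q F W hndvd
      rw [h1] at htower
      exact Nat.eq_one_of_mul_eq_one_left htower.symm
  · intro hlW
    have hql : q = l := hmem.1 hlW
    have hlp : ¬ q ∣ p := by
      rw [Nat.prime_dvd_prime_iff_eq hq hp.out, hql]
      exact fun h => hne h.symm
    have h1 : W.ramificationIdx ℤ = q ^ 0 * (q - 1) :=
      IsCyclotomicExtension.Rat.ramificationIdx_eq (p * l) F W
        (by rw [hql, zero_add, pow_one, mul_comm]) hlp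
    have h2 : w.ramificationIdx ℤ = 1 :=
      IsCyclotomicExtension.Rat.ramificationIdx_eq_of_not_dvd q K w hlp
    rw [h1, h2, pow_zero, one_mul, one_mul, hql] at htower
    exact htower.symm

/-- `F / K` is unramified at the primes not above `l`. -/
theorem thnF_ramificationIdx_of_not_mem (hne : p ≠ l)
    (W : Ideal (𝓞 F)) [W.IsPrime] (hW : W ≠ ⊥) (hlW : (l : 𝓞 F) ∉ W) :
    W.ramificationIdx (𝓞 K) = 1 := by
  exact (thnFR_ramificationIdx hne W hW).1 hlW

/-- `F / K` is totally ramified at the primes above `l`. -/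
theorem thnF_ramificationIdx_of_mem (hne : p ≠ l)
    (W : Ideal (𝓞 F)) [W.IsPrime] (hW : W ≠ ⊥) (hlW : (l : 𝓞 F) ∈ W) :
    W.ramificationIdx (𝓞 K) = l - 1 := by
  exact (thnFR_ramificationIdx hne W hW).2 hlW

end

end Fermat.Agent.S14L
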