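import Mathlib
import Fermat.Agent.S14L.ThaineDefs
import Fermat.Agent.S14L.ThaineFCyc
import Fermat.Agent.S14L.ThaineFNorm
import Fermat.Agent.S14L.ThaineFRam
import Fermat.Agent.S14L.ThaineFGal
import Fermat.Agent.S14L.ThaineFCongr

/-!
# Thaine relation, F-side: assembly

`K = ℚ(ζ_p)`, `F = K(ζ_l)` with `l ≡ 1 (mod p)`. The unit `x = ζ - ζ_l` of `F` has relative norm
`1`; Hilbert 90 gives `ε` with `x * τ ε = ε` (`τ` a generator of `Gal(F/K)`); `β = N_{F/K} ε`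
satisfies the Thaine relation.
-/

set_option autoImplicit false

open Polynomial NumberField IsDedekindDomain

namespace Fermat.Agent.S14L

section
variable {p l : ℕ} [hp : Fact p.Prime] [hl : Fact l.Prime]
  {K : Type} [Field K] [NumberField K] [IsCyclotomicExtension {p} ℚ K]

/-- The Galois group of `F = K(ζ_l)` over `K = ℚ(ζ_p)` is cyclic. -/
theorem thnF_exists_gen (hne : p ≠ l)
    (F : Type) [Field F] [NumberField F] [Algebra K F] [IsCyclotomicExtension {l} K F] :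
    ∃ τ : F ≃ₐ[K] F, ∀ σ : F ≃ₐ[K] F, σ ∈ Subgroup.zpowers τ := by
  have hirr := thnF_irr p l K hne
  let e := IsCyclotomicExtension.autEquivPow F hirr
  have : IsCyclic (F ≃ₐ[K] F) := isCyclic_of_surjective e.symm e.symm.surjective
  exact IsCyclic.exists_generator

/-- Hilbert 90 for the unit `ζ - μ`. -/
theorem thnF_exists_eps (hne : p ≠ l) (hl1 : p ∣ l - 1)
    (F : Type) [Field F] [NumberField F] [Algebra K F] [IsCyclotomicExtension {l} K F]
    (ζ : 𝓞 K) (hζ : IsPrimitiveRoot ζ p) (μ : 𝓞 F) (hμ : IsPrimitiveRoot μ l)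
    (τ : F ≃ₐ[K] F) (hτ : ∀ σ : F ≃ₐ[K] F, σ ∈ Subgroup.zpowers τ) :
    IsUnit (algebraMap (𝓞 K) (𝓞 F) ζ - μ) ∧ ∃ ε : 𝓞 F, ε ≠ 0 ∧
      (algebraMap (𝓞 K) (𝓞 F) ζ - μ) * galRestrict (𝓞 K) K F (𝓞 F) τ ε = ε := by
  have hgal : IsGalois K F := IsCyclotomicExtension.isGalois {l} K F
  have hcyc : IsCyclic (F ≃ₐ[K] F) := ⟨τ, hτ⟩
  have hζK : IsPrimitiveRoot (ζ : K) p := hζ.map_of_injective RingOfIntegers.coe_injective
  have hμF : IsPrimitiveRoot (μ : F) l := hμ.map_of_injective RingOfIntegers.coe_injective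
  have hnorm : Algebra.norm K (algebraMap (𝓞 F) F (algebraMap (𝓞 K) (𝓞 F) ζ - μ)) = 1 := by
    have h := thnF_norm_eq_one hne hl1 (ζ : K) hζK (μ : F) hμF
    rw [map_sub, ← IsScalarTower.algebraMap_apply (𝓞 K) (𝓞 F) F,
      IsScalarTower.algebraMap_apply (𝓞 K) K F]
    exact h
  refine ⟨?_, groupCohomology.exists_mul_galRestrict_of_norm_eq_one (A := 𝓞 K) (B := 𝓞 F) hτ hnorm⟩
  rw [← RingOfIntegers.isUnit_norm K]
  have h1 : RingOfIntegers.norm K (algebraMap (𝓞 K) (𝓞 F) ζ - μ) = 1 := by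
    apply RingOfIntegers.ext
    rw [RingOfIntegers.coe_norm]
    simpa using hnorm
  rw [h1]
  exact isUnit_one

/-- Multiplicity bookkeeping: if `β 𝓞 F = (ε)^n` then `n * v_W(ε) = e(W|w) * v_w(β)`. -/
theorem thnF_mul_multiplicity
    (F : Type) [Field F] [NumberField F] [Algebra K F]
    (β : 𝓞 K) (ε : 𝓞 F) (hβ0 : β ≠ 0) (hε0 : ε ≠ 0) (n : ℕ)
    (hmap : Ideal.map (algebraMap (𝓞 K) (𝓞 F)) (Ideal.span {β}) = Ideal.span {ε} ^ n)
    (w : Ideal (𝓞 K)) [w.IsPrime] (hw : w ≠ ⊥) (W : Ideal (𝓞 F)) [W.IsPrime] (hW : W ≠ ⊥)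
    [W.LiesOver w] :
    n * multiplicity W (Ideal.span {ε}) =
      W.ramificationIdx (𝓞 K) * multiplicity w (Ideal.span {β}) := by
  have hWp : Prime W := Ideal.prime_of_isPrime hW inferInstance
  have hwp : Prime w := Ideal.prime_of_isPrime hw inferInstance
  have hβ' : Ideal.span {β} ≠ ⊥ := by simpa using hβ0
  have hε' : Ideal.span {ε} ≠ ⊥ := by simpa using hε0
  have h1 := Ideal.IsDedekindDomain.emultiplicity_map_eq_ramificationIdx'_mul
    (I := Ideal.span {β}) (v := w) (w := W) hβ' hwp.irreducible hWp.irreducible hW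
  rw [hmap, emultiplicity_pow hWp, Ideal.ramificationIdx'_eq_ramificationIdx w W hw] at h1
  have f1 : FiniteMultiplicity W (Ideal.span {ε}) := FiniteMultiplicity.of_prime_left hWp hε'
  have f2 : FiniteMultiplicity w (Ideal.span {β}) := FiniteMultiplicity.of_prime_left hwp hβ'
  rw [f1.emultiplicity_eq_multiplicity, f2.emultiplicity_eq_multiplicity] at h1
  exact_mod_cast h1

/-- The Thaine relation, proved through any model `F` of `K(ζ_l)`. -/
theorem thnF_relation_of_field (hne : p ≠ l) (hl1 : p ∣ l - 1)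
    (F : Type) [Field F] [NumberField F] [Algebra K F] [IsCyclotomicExtension {l} K F]
    (ζ : 𝓞 K) (hζ : IsPrimitiveRoot ζ p) : ThnRelation l K ζ := by
  have hgal : IsGalois K F := IsCyclotomicExtension.isGalois {l} K F
  obtain ⟨τ, hτ⟩ := thnF_exists_gen (K := K) hne F
  have hμF := IsCyclotomicExtension.zeta_spec l K F
  obtain ⟨μ, hμ⟩ : ∃ μ : 𝓞 F, IsPrimitiveRoot μ l := ⟨_, hμF.toInteger_isPrimitiveRoot⟩
  obtain ⟨hx, ε, hε0, hrel⟩ := thnF_exists_eps hne hl1 F ζ hζ μ hμ τ hτ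
  have hpow : (galRestrict (𝓞 K) K F (𝓞 F) τ μ) ^ l = 1 := by
    rw [← map_pow, hμ.pow_eq_one, map_one]
  obtain ⟨g, -, hg⟩ := hμ.eq_pow_of_pow_eq_one hpow
  have hβ0 : RingOfIntegers.norm K ε ≠ 0 := by
    intro h
    apply hε0
    have h1 : Algebra.norm K (ε : F) = 0 := by
      rw [← RingOfIntegers.coe_norm, h]; simp
    rw [Algebra.norm_eq_zero_iff] at h1
    exact RingOfIntegers.ext (by simpa using h1)
  have hmap := thnF_map_span_norm hne τ hτ _ ε hx hrel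
  have hl2 : 2 ≤ l - 1 := by
    have h1 : 0 < l - 1 := by have := hl.out.two_le; omega
    exact le_trans hp.out.two_le (Nat.le_of_dvd h1 hl1)
  have key : ∀ w : HeightOneSpectrum (𝓞 K), ∃ (W : Ideal (𝓞 F)) (_ : W.IsPrime)
      (_ : W.LiesOver w.asIdeal), W ≠ ⊥ ∧ ((l : 𝓞 F) ∈ W ↔ (l : 𝓞 K) ∈ w.asIdeal) ∧
      (l - 1) * multiplicity W (Ideal.span {ε}) =
        W.ramificationIdx (𝓞 K) * multiplicity w.asIdeal (Ideal.span {RingOfIntegers.norm K ε}) := by
    intro w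
    have : w.asIdeal.IsMaximal := w.isMaximal
    obtain ⟨W, hWmax, hWover⟩ :=
      Ideal.exists_maximal_ideal_liesOver_of_isIntegral (S := 𝓞 F) w.asIdeal
    have hWprime : W.IsPrime := hWmax.isPrime
    have hW0 : W ≠ ⊥ := Ideal.ne_bot_of_liesOver_of_ne_bot w.ne_bot W
    refine ⟨W, hWprime, hWover, hW0, ?_, ?_⟩
    · rw [Ideal.over_def W w.asIdeal, Ideal.under_def, Ideal.mem_comap, map_natCast]
    · exact thnF_mul_multiplicity F _ ε hβ0 hε0 (l - 1) hmap w.asIdeal w.ne_bot W hW0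
  refine ⟨(g : ℤ), RingOfIntegers.norm K ε, hβ0, ?_, ?_⟩
  · intro w hlw
    obtain ⟨W, hWprime, hWover, hW0, hmem, hmul⟩ := key w
    have he := thnF_ramificationIdx_of_not_mem (K := K) hne W hW0 (fun h => hlw (hmem.1 h))
    rw [he, one_mul] at hmul
    exact Dvd.intro _ hmul
  · intro w hlw
    obtain ⟨W, hWprime, hWover, hW0, hmem, hmul⟩ := key w
    have hlW : (l : 𝓞 F) ∈ W := hmem.2 hlw
    have he := thnF_ramificationIdx_of_mem (K := K) hne W hW0 hlW
    rw [he] at hmul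
    have hmeq : multiplicity W (Ideal.span {ε}) =
        multiplicity w.asIdeal (Ideal.span {RingOfIntegers.norm K ε}) :=
      Nat.eq_of_mul_eq_mul_left (by omega) hmul
    have hram : w.asIdeal.map (algebraMap (𝓞 K) (𝓞 F)) ≤ W ^ 2 := by
      have hle : w.asIdeal.map (algebraMap (𝓞 K) (𝓞 F)) ≤ W ^ (w.asIdeal.ramificationIdx' W) :=
        Ideal.le_pow_ramificationIdx'
      rw [Ideal.ramificationIdx'_eq_ramificationIdx w.asIdeal W w.ne_bot, he] at hle
      exact hle.trans (Ideal.pow_le_pow_right hl2)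
    have hc := thnF_congr hne ζ hζ μ hμ
      ((galRestrict (𝓞 K) K F (𝓞 F) τ : 𝓞 F ≃ₐ[𝓞 K] 𝓞 F) : 𝓞 F →ₐ[𝓞 K] 𝓞 F) g hg.symm
      ε hε0 hrel W hW0 hlW w.asIdeal hram
    rw [hmeq] at hc
    rw [Int.cast_natCast]
    exact hc

end

/-- **Thaine relation (F-side).** For primes `p ≠ l` with `p ∣ l - 1`, `K = ℚ(ζ_p)` and `ζ` a
primitive `p`-th root of unity in `𝓞 K`, there are `g` and `β = N_{F/K} ε` as in `ThnRelation`. -/
theorem thn_relation_holds {p l : ℕ} [Fact p.Prime] [Fact l.Prime] (hpl : p ≠ l) (hl1 : p ∣ l - 1)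
    (K : Type) [Field K] [NumberField K] [IsCyclotomicExtension {p} ℚ K]
    (ζ : 𝓞 K) (hζ : IsPrimitiveRoot ζ p) : ThnRelation l K ζ :=
  thnF_relation_of_field hpl hl1 (CyclotomicField l K) ζ hζ

end Fermat.Agent.S14L
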