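import Mathlib
import Fermat.Agent.S14L.ThaineDefs

/-!
# Thaine relation, K-side bookkeeping

From `ThnRelation l K ζ` (F-side output) we deduce: for a degree-one prime `𝔩` of `K = ℚ(ζ_p)`
above `l ≠ p`, if `δ' = ∏_b (ζ^b - 1)^{e b}` (`e b * b^2 ≡ 1 mod p`) is not a `p`-th power
modulo `𝔩`, then every "class character of type `ω²` killed by `p`" is trivial on `𝔩`.
-/

set_option autoImplicit false

open NumberField IsDedekindDomain IsCyclotomicExtension.Rat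
open scoped Pointwise

namespace Fermat.Agent.S14L

theorem thnK_phi_multiset {R M : Type*} [CommRing R] [IsDomain R] [CommMonoid M]
    (φ : Ideal R → M)
    (hmul : ∀ I J : Ideal R, I ≠ ⊥ → J ≠ ⊥ → φ (I * J) = φ I * φ J) (h1 : φ 1 = 1)
    (s : Multiset (Ideal R)) (hs : ∀ P ∈ s, P ≠ ⊥) : φ s.prod = (s.map φ).prod := by
  induction s using Multiset.induction_on with
  | empty => simpa using h1
  | cons P s ih =>
    have hs' : ∀ Q ∈ s, Q ≠ ⊥ := fun Q hQ => hs Q (Multiset.mem_cons_of_mem hQ)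
    have hP : P ≠ ⊥ := hs P (Multiset.mem_cons_self P s)
    have hprod : s.prod ≠ ⊥ := by
      rw [← Ideal.zero_eq_bot]
      apply Multiset.prod_ne_zero
      intro h0
      exact hs' 0 h0 rfl
    rw [Multiset.prod_cons, hmul P s.prod hP hprod, ih hs', Multiset.map_cons, Multiset.prod_cons]

theorem thnK_count_eq {R : Type*} [CommRing R] [IsDedekindDomain R] {I : Ideal R} (hI : I ≠ ⊥)
    (P : Ideal R) [hP : P.IsPrime] (hP0 : P ≠ ⊥) :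
    (UniqueFactorizationMonoid.normalizedFactors I).count P = multiplicity P I := by
  have hirr : Irreducible P := (Ideal.prime_of_isPrime hP0 hP).irreducible
  have h := UniqueFactorizationMonoid.emultiplicity_eq_count_normalizedFactors hirr hI
  rw [normalize_eq] at h
  exact (multiplicity_eq_of_emultiplicity_eq_some h).symm

theorem thnK_pow_congr {F : Type*} [Field F] {p : ℕ} {x : F} (hx : x ≠ 0) {a b : ℕ}
    (hab : a ≡ b [MOD p]) : ∃ y : F, y ≠ 0 ∧ x ^ a = x ^ b * y ^ p := by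
  have hdvd : (p : ℤ) ∣ (a : ℤ) - b := (Nat.modEq_iff_dvd.mp hab.symm)
  obtain ⟨k, hk⟩ := hdvd
  refine ⟨x ^ k, zpow_ne_zero k hx, ?_⟩
  have : (a : ℤ) = b + k * p := by linarith
  rw [← zpow_natCast x a, this, zpow_add₀ hx, zpow_mul, zpow_natCast, zpow_natCast]

section basics

variable {l : ℕ} [hl : Fact l.Prime] {K : Type} [Field K] [NumberField K]

omit [NumberField K] in
/-- a prime ideal containing the rational prime `l` lies over `l`. -/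
theorem thnK_liesOver (P : Ideal (𝓞 K)) [hP : P.IsPrime] (hlP : (l : 𝓞 K) ∈ P) :
    P.LiesOver (Ideal.span {(l : ℤ)}) := by
  constructor
  have hmax : (Ideal.span {(l : ℤ)}).IsMaximal := by
    have : (Ideal.span {(l : ℤ)}).IsPrime := by
      rw [Ideal.span_singleton_prime (by exact_mod_cast hl.out.ne_zero)]
      exact Nat.prime_iff_prime_int.mp hl.out
    exact this.isMaximal (by simpa using hl.out.ne_zero)
  refine hmax.eq_of_le ?_ ?_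
  · intro h
    have h1 : (1 : ℤ) ∈ P.under ℤ := by rw [h]; trivial
    rw [Ideal.under_def, Ideal.mem_comap, map_one] at h1
    exact hP.ne_top ((Ideal.eq_top_iff_one _).mpr h1)
  · rw [Ideal.span_singleton_le_iff_mem, Ideal.under_def, Ideal.mem_comap]
    simpa using hlP

theorem thnK_exists_smul (𝔩 : Ideal (𝓞 K)) [𝔩.IsPrime] (hl𝔩 : (l : 𝓞 K) ∈ 𝔩) [IsGalois ℚ K]
    (P : Ideal (𝓞 K)) [P.IsPrime] (hlP : (l : 𝓞 K) ∈ P) :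
    ∃ σ : K ≃ₐ[ℚ] K, σ • 𝔩 = P := by
  have := thnK_liesOver 𝔩 hl𝔩
  have := thnK_liesOver P hlP
  exact Ideal.exists_smul_eq_of_isGaloisGroup (Ideal.span ({(l : ℤ)} : Set ℤ)) 𝔩 P (K ≃ₐ[ℚ] K)

theorem thnK_ne_top (𝔩 : Ideal (𝓞 K)) (h𝔩 : Ideal.absNorm 𝔩 = l) : 𝔩 ≠ ⊤ := by
  rintro rfl
  rw [Ideal.absNorm_top] at h𝔩
  exact hl.out.one_lt.ne h𝔩

theorem thnK_ne_bot (𝔩 : Ideal (𝓞 K)) (h𝔩 : Ideal.absNorm 𝔩 = l) : 𝔩 ≠ ⊥ := by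
  rintro rfl
  rw [Ideal.absNorm_bot] at h𝔩
  exact hl.out.ne_zero h𝔩.symm

omit hl in
theorem thnK_l_mem (𝔩 : Ideal (𝓞 K)) (h𝔩 : Ideal.absNorm 𝔩 = l) : (l : 𝓞 K) ∈ 𝔩 := by
  have := Ideal.absNorm_mem 𝔩
  rwa [h𝔩] at this

theorem thnK_exists_int (𝔩 : Ideal (𝓞 K)) (h𝔩 : Ideal.absNorm 𝔩 = l) (x : 𝓞 K) :
    ∃ n : ℤ, x - (n : 𝓞 K) ∈ 𝔩 := by
  have hcard : Nat.card (𝓞 K ⧸ 𝔩) = l := by
    rw [← h𝔩, Ideal.absNorm_apply, Submodule.cardQuot_apply]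
  have h1 : (Ideal.Quotient.mk 𝔩 (1 : 𝓞 K)) ≠ 0 := by
    intro h
    rw [Ideal.Quotient.eq_zero_iff_mem] at h
    exact thnK_ne_top 𝔩 h𝔩 ((Ideal.eq_top_iff_one _).mpr h)
  have := mem_zmultiples_of_prime_card hcard h1 (g' := Ideal.Quotient.mk 𝔩 x)
  obtain ⟨n, hn⟩ := AddSubgroup.mem_zmultiples_iff.mp this
  refine ⟨n, ?_⟩
  rw [← Ideal.Quotient.eq_zero_iff_mem, map_sub, ← hn]
  simp

end basics

section gal

variable {p l : ℕ} [hp : Fact p.Prime] [hl : Fact l.Prime] {K : Type} [Field K] [NumberField K]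
  [IsCyclotomicExtension {p} ℚ K]

/-- exponent of `σ` on `p`-th roots of unity -/
noncomputable def thnK_n (p : ℕ) [Fact p.Prime] (K : Type) [Field K] [NumberField K]
    [IsCyclotomicExtension {p} ℚ K] (σ : K ≃ₐ[ℚ] K) : ℕ :=
  (galEquivZMod p K σ).val.val

theorem thnK_smul_zeta (σ : K ≃ₐ[ℚ] K) {ζ : 𝓞 K} (hζ : ζ ^ p = 1) :
    σ • ζ = ζ ^ thnK_n p K σ :=
  galEquivZMod_smul_of_pow_eq p K σ hζ

omit [IsCyclotomicExtension {p} ℚ K] in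
theorem thnK_smul_int (σ : K ≃ₐ[ℚ] K) (n : ℤ) : σ • (n : 𝓞 K) = (n : 𝓞 K) :=
  map_intCast (MulSemiringAction.toRingHom (K ≃ₐ[ℚ] K) (𝓞 K) σ) n

theorem thnK_n_lt (σ : K ≃ₐ[ℚ] K) : thnK_n p K σ < p := ZMod.val_lt _

theorem thnK_n_pos (σ : K ≃ₐ[ℚ] K) : 0 < thnK_n p K σ := by
  rw [thnK_n, Nat.pos_iff_ne_zero, Ne, ZMod.val_eq_zero]
  exact (galEquivZMod p K σ).ne_zero

theorem thnK_n_not_dvd (σ : K ≃ₐ[ℚ] K) : ¬ p ∣ thnK_n p K σ := fun h =>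
  absurd (Nat.le_of_dvd (thnK_n_pos σ) h) (not_le.mpr (thnK_n_lt σ))

theorem thnK_n_mul_inv (σ : K ≃ₐ[ℚ] K) : thnK_n p K σ * thnK_n p K σ⁻¹ ≡ 1 [MOD p] := by
  rw [← ZMod.natCast_eq_natCast_iff]
  push_cast
  rw [thnK_n, thnK_n, ZMod.natCast_zmod_val, ZMod.natCast_zmod_val, ← Units.val_mul, ← map_mul,
    mul_inv_cancel, map_one, Units.val_one]

theorem thnK_n_eq_one_iff (σ : K ≃ₐ[ℚ] K) : thnK_n p K σ = 1 ↔ σ = 1 := by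
  constructor
  · intro h
    apply (galEquivZMod p K).injective
    rw [map_one]
    apply Units.ext
    apply ZMod.val_injective
    rw [Units.val_one, ZMod.val_one]
    exact h
  · rintro rfl
    rw [thnK_n, map_one, Units.val_one, ZMod.val_one]

omit [NumberField K] [IsCyclotomicExtension {p} ℚ K] in
/-- `ζ^k - 1 ∉ 𝔩` for `p ∤ k`, when `𝔩` is a prime not containing `p`. -/
theorem thnK_zeta_pow_sub_one_notMem {ζ : 𝓞 K} (hζ : IsPrimitiveRoot ζ p) (𝔩 : Ideal (𝓞 K))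
    (hp𝔩 : (p : 𝓞 K) ∉ 𝔩) (k : ℕ) (hk : ¬ p ∣ k) : ζ ^ k - 1 ∉ 𝔩 := by
  intro hmem
  apply hp𝔩
  have hprim : IsPrimitiveRoot (ζ ^ k) p :=
    hζ.pow_of_coprime k ((Nat.coprime_comm.mp ((Nat.Prime.coprime_iff_not_dvd hp.out).mpr hk)))
  obtain ⟨m, hm⟩ : ∃ m, p = m + 1 := ⟨p - 1, (Nat.succ_pred_eq_of_pos hp.out.pos).symm⟩
  rw [hm] at hprim
  have hprod := hprim.prod_one_sub_pow_eq_order
  have hm0 : 0 < m := by
    have := hp.out.one_lt; omega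
  have : (p : 𝓞 K) = ∏ k' ∈ Finset.range m, (1 - (ζ ^ k) ^ (k' + 1)) := by
    rw [hprod, hm]; push_cast; ring
  rw [this]
  refine Ideal.prod_mem 𝔩 (Finset.mem_range.mpr hm0) ?_
  have : (1 : 𝓞 K) - (ζ ^ k) ^ (0 + 1) = -(ζ ^ k - 1) := by ring
  rw [this]
  exact 𝔩.neg_mem hmem

omit [IsCyclotomicExtension {p} ℚ K] in
theorem thnK_p_notMem (hpl : p ≠ l) (𝔩 : Ideal (𝓞 K)) (h𝔩 : Ideal.absNorm 𝔩 = l) :
    (p : 𝓞 K) ∉ 𝔩 := by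
  intro hmem
  have hcop : IsCoprime (p : ℤ) (l : ℤ) :=
    Nat.isCoprime_iff_coprime.mpr ((Nat.coprime_primes hp.out hl.out).mpr hpl)
  obtain ⟨a, b, hab⟩ := hcop
  have h1 : (1 : 𝓞 K) ∈ 𝔩 := by
    have : (1 : 𝓞 K) = (a : 𝓞 K) * (p : 𝓞 K) + (b : 𝓞 K) * (l : 𝓞 K) := by
      have := congrArg (Int.cast : ℤ → 𝓞 K) hab
      push_cast at this
      exact this.symm
    rw [this]
    exact 𝔩.add_mem (𝔩.mul_mem_left _ hmem) (𝔩.mul_mem_left _ (thnK_l_mem 𝔩 h𝔩))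
  exact thnK_ne_top 𝔩 h𝔩 ((Ideal.eq_top_iff_one _).mpr h1)

/-- the decomposition group of a degree-one prime above `l ≠ p` is trivial. -/
theorem thnK_stabilizer (hpl : p ≠ l) {ζ : 𝓞 K} (hζ : IsPrimitiveRoot ζ p) (𝔩 : Ideal (𝓞 K))
    [h𝔩p : 𝔩.IsPrime] (h𝔩 : Ideal.absNorm 𝔩 = l) (σ : K ≃ₐ[ℚ] K) (hσ : σ • 𝔩 = 𝔩) : σ = 1 := by
  obtain ⟨n, hn⟩ := thnK_exists_int 𝔩 h𝔩 ζ
  have h1 : σ • (ζ - (n : 𝓞 K)) ∈ σ • 𝔩 := Ideal.smul_mem_pointwise_smul_iff.mpr hn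
  rw [hσ, smul_sub, thnK_smul_zeta σ hζ.pow_eq_one, thnK_smul_int] at h1
  have h2 : ζ ^ thnK_n p K σ - ζ ∈ 𝔩 := by
    have := 𝔩.sub_mem h1 hn
    convert this using 1
    ring
  have hpos := thnK_n_pos (p := p) (K := K) σ
  have h3 : ζ ^ thnK_n p K σ - ζ = ζ * (ζ ^ (thnK_n p K σ - 1) - 1) := by
    rw [mul_sub, ← pow_succ', Nat.sub_add_cancel hpos, mul_one]
  rw [h3] at h2
  have hζunit : IsUnit ζ := hζ.isUnit hp.out.ne_zero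
  have h4 : ζ ^ (thnK_n p K σ - 1) - 1 ∈ 𝔩 := by
    rcases h𝔩p.mem_or_mem h2 with h | h
    · exact absurd (𝔩.eq_top_of_isUnit_mem h hζunit) (thnK_ne_top 𝔩 h𝔩)
    · exact h
  have h5 : p ∣ thnK_n p K σ - 1 := by
    by_contra hnd
    exact thnK_zeta_pow_sub_one_notMem hζ 𝔩 (thnK_p_notMem hpl 𝔩 h𝔩) _ hnd h4
  have hlt := thnK_n_lt (p := p) (K := K) σ
  have h6 : thnK_n p K σ - 1 = 0 :=
    Nat.eq_zero_of_dvd_of_lt h5 (Nat.lt_of_le_of_lt (Nat.sub_le _ _) hlt)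
  exact (thnK_n_eq_one_iff σ).mp (Nat.le_antisymm (Nat.sub_eq_zero_iff_le.mp h6) hpos)

theorem thnK_n_injective : Function.Injective (thnK_n p K) := by
  intro σ τ h
  apply (galEquivZMod p K).injective
  apply Units.ext
  exact ZMod.val_injective p h

theorem thnK_n_surj (b : ℕ) (hb : b ∈ Finset.Ioo 0 p) : ∃ σ : K ≃ₐ[ℚ] K, thnK_n p K σ = b := by
  rw [Finset.mem_Ioo] at hb
  have hb0 : ((b : ℕ) : ZMod p) ≠ 0 := by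
    rw [Ne, ZMod.natCast_eq_zero_iff]
    exact fun h => absurd (Nat.le_of_dvd hb.1 h) (not_le.mpr hb.2)
  refine ⟨(galEquivZMod p K).symm (Units.mk0 _ hb0), ?_⟩
  rw [thnK_n, MulEquiv.apply_symm_apply, Units.val_mk0, ZMod.val_natCast_of_lt hb.2]

omit hp [IsCyclotomicExtension {p} ℚ K] in
theorem thnK_smul_ne_bot (𝔩 : Ideal (𝓞 K)) (h0 : 𝔩 ≠ ⊥) (σ : K ≃ₐ[ℚ] K) : σ • 𝔩 ≠ ⊥ := by
  intro h
  apply h0
  have := congrArg (fun J => σ⁻¹ • J) h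
  simpa using this

omit hp hl [IsCyclotomicExtension {p} ℚ K] in
theorem thnK_l_mem_smul (𝔩 : Ideal (𝓞 K)) (hl𝔩 : (l : 𝓞 K) ∈ 𝔩) (σ : K ≃ₐ[ℚ] K) :
    (l : 𝓞 K) ∈ σ • 𝔩 := by
  have h : σ • ((l : ℤ) : 𝓞 K) = ((l : ℤ) : 𝓞 K) := thnK_smul_int σ l
  have h2 := Ideal.smul_mem_pointwise_smul σ ((l : ℤ) : 𝓞 K) 𝔩 (by simpa using hl𝔩)
  rw [h] at h2
  simpa using h2

omit [IsCyclotomicExtension {p} ℚ K] in
theorem thnK_dvd_sub_one (hpl : p ≠ l) {ζ : 𝓞 K} (hζ : IsPrimitiveRoot ζ p)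
    (𝔩 : Ideal (𝓞 K)) [h𝔩p : 𝔩.IsPrime] (h𝔩 : Ideal.absNorm 𝔩 = l) : p ∣ l - 1 := by
  classical
  have hmax : 𝔩.IsMaximal := h𝔩p.isMaximal (thnK_ne_bot 𝔩 h𝔩)
  let _ := Ideal.Quotient.field 𝔩
  have hcard : Nat.card (𝓞 K ⧸ 𝔩) = l := by
    rw [← h𝔩, Ideal.absNorm_apply, Submodule.cardQuot_apply]
  have : Finite (𝓞 K ⧸ 𝔩) := Nat.finite_of_card_ne_zero (hcard ▸ hl.out.ne_zero)
  let _ := Fintype.ofFinite (𝓞 K ⧸ 𝔩)
  have hcard' : Fintype.card (𝓞 K ⧸ 𝔩) = l := by rw [← Nat.card_eq_fintype_card, hcard]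
  set z := Ideal.Quotient.mk 𝔩 ζ with hz
  have hzp : z ^ p = 1 := by rw [hz, ← map_pow, hζ.pow_eq_one, map_one]
  have hz1 : z ≠ 1 := by
    intro h
    have h1 : ζ ^ 1 - 1 ∈ 𝔩 := by
      rw [pow_one, ← Ideal.Quotient.eq_zero_iff_mem, map_sub, map_one, ← hz, h, sub_self]
    refine thnK_zeta_pow_sub_one_notMem hζ 𝔩 (thnK_p_notMem hpl 𝔩 h𝔩) 1 ?_ h1
    intro hd
    exact hp.out.one_lt.ne' (Nat.dvd_one.mp hd)
  have hord : orderOf z = p := orderOf_eq_prime hzp hz1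
  have hz0 : z ≠ 0 := by
    intro h
    rw [h, zero_pow hp.out.ne_zero] at hzp
    exact zero_ne_one hzp
  have := FiniteField.pow_card_sub_one_eq_one z hz0
  rw [hcard'] at this
  rw [← hord]
  exact orderOf_dvd_of_pow_eq_one this

/-- transport of the Thaine congruence from `σ • 𝔩` to `𝔩`. -/
theorem thnK_cong {ζ : 𝓞 K} (hζ : IsPrimitiveRoot ζ p) (𝔩 : Ideal (𝓞 K)) (g : ℤ) (c : ℕ)
    (σ : K ≃ₐ[ℚ] K) (h : (ζ - 1) * (g : 𝓞 K) ^ c - 1 ∈ σ • 𝔩) :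
    (ζ ^ thnK_n p K σ⁻¹ - 1) * (g : 𝓞 K) ^ c - 1 ∈ 𝔩 := by
  rw [Ideal.mem_pointwise_smul_iff_inv_smul_mem] at h
  rw [smul_sub, smul_mul', smul_sub, smul_pow', smul_one, thnK_smul_zeta _ hζ.pow_eq_one,
    thnK_smul_int] at h
  exact h

/-- the key non-divisibility: if the Thaine congruences hold with exponents `c σ` and `δ'` is not
a `p`-th power modulo `𝔩`, then `p ∤ ∑ σ, n(σ)² c(σ)`. -/
theorem thnK_not_dvd (𝔩 : Ideal (𝓞 K)) [h𝔩p : 𝔩.IsPrime] (h𝔩 : Ideal.absNorm 𝔩 = l) {ζ : 𝓞 K}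
    (e : ℕ → ℕ) (he : ∀ b ∈ Finset.Ioo 0 p, e b * b ^ 2 ≡ 1 [MOD p])
    (hδ : ¬ ∃ y : 𝓞 K, (∏ b ∈ Finset.Ioo 0 p, (ζ ^ b - 1) ^ e b) - y ^ p ∈ 𝔩)
    (g : ℤ) (c : (K ≃ₐ[ℚ] K) → ℕ)
    (hc : ∀ σ : K ≃ₐ[ℚ] K, (ζ ^ thnK_n p K σ⁻¹ - 1) * (g : 𝓞 K) ^ c σ - 1 ∈ 𝔩) :
    ¬ p ∣ ∑ σ : K ≃ₐ[ℚ] K, thnK_n p K σ ^ 2 * c σ := by
  classical
  rintro ⟨t, ht⟩
  apply hδ
  have hmax : 𝔩.IsMaximal := h𝔩p.isMaximal (thnK_ne_bot 𝔩 h𝔩)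
  let _ := Ideal.Quotient.field 𝔩
  set q := Ideal.Quotient.mk 𝔩 with hq
  set A : (K ≃ₐ[ℚ] K) → 𝓞 K ⧸ 𝔩 := fun σ => q (ζ ^ thnK_n p K σ⁻¹ - 1) with hA
  set G : 𝓞 K ⧸ 𝔩 := q (g : 𝓞 K) with hG
  have hAG : ∀ σ, A σ * G ^ c σ = 1 := by
    intro σ
    have := hc σ
    rw [← Ideal.Quotient.eq_zero_iff_mem, map_sub, map_mul, map_pow, map_one, sub_eq_zero] at this
    exact this
  have hA0 : ∀ σ, A σ ≠ 0 := by
    intro σ h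
    have := hAG σ
    rw [h, zero_mul] at this
    exact zero_ne_one this
  -- compare exponents
  have hexp : ∀ σ : K ≃ₐ[ℚ] K, thnK_n p K σ ^ 2 ≡ e (thnK_n p K σ⁻¹) [MOD p] := by
    intro σ
    have hb : thnK_n p K σ⁻¹ ∈ Finset.Ioo 0 p := Finset.mem_Ioo.mpr ⟨thnK_n_pos _, thnK_n_lt _⟩
    have h1 := he _ hb
    have h2 : (thnK_n p K σ * thnK_n p K σ⁻¹) ^ 2 ≡ 1 [MOD p] := by
      simpa using (thnK_n_mul_inv σ).pow 2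
    calc thnK_n p K σ ^ 2 = thnK_n p K σ ^ 2 * 1 := (mul_one _).symm
      _ ≡ thnK_n p K σ ^ 2 * (e (thnK_n p K σ⁻¹) * thnK_n p K σ⁻¹ ^ 2) [MOD p] :=
        Nat.ModEq.mul_left _ h1.symm
      _ = e (thnK_n p K σ⁻¹) * (thnK_n p K σ * thnK_n p K σ⁻¹) ^ 2 := by ring
      _ ≡ e (thnK_n p K σ⁻¹) * 1 [MOD p] := Nat.ModEq.mul_left _ h2
      _ = e (thnK_n p K σ⁻¹) := mul_one _
  choose Y hY0 hY using fun σ => thnK_pow_congr (p := p) (hA0 σ) (hexp σ)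
  -- the product
  have hprod : (∏ σ : K ≃ₐ[ℚ] K, A σ ^ (thnK_n p K σ ^ 2)) *
      G ^ (∑ σ : K ≃ₐ[ℚ] K, thnK_n p K σ ^ 2 * c σ) = 1 := by
    have : ∏ σ : K ≃ₐ[ℚ] K, (A σ * G ^ c σ) ^ (thnK_n p K σ ^ 2) = 1 := by
      apply Finset.prod_eq_one
      intro σ _
      rw [hAG σ, one_pow]
    rw [← this, ← Finset.prod_pow_eq_pow_sum, ← Finset.prod_mul_distrib]
    apply Finset.prod_congr rfl
    intro σ _
    rw [mul_pow, ← pow_mul, mul_comm (c σ)]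
  have hreindex : ∏ σ : K ≃ₐ[ℚ] K, A σ ^ e (thnK_n p K σ⁻¹) =
      q (∏ b ∈ Finset.Ioo 0 p, (ζ ^ b - 1) ^ e b) := by
    rw [map_prod]
    refine Finset.prod_nbij (fun σ => thnK_n p K σ⁻¹) ?_ ?_ ?_ ?_
    · intro σ _
      exact Finset.mem_Ioo.mpr ⟨thnK_n_pos _, thnK_n_lt _⟩
    · intro σ _ τ _ h
      exact inv_injective (thnK_n_injective h)
    · intro b hb
      obtain ⟨σ, hσ⟩ := thnK_n_surj (K := K) b hb
      exact ⟨σ⁻¹, Finset.mem_coe.mpr (Finset.mem_univ _), by simpa using hσ⟩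
    · intro σ _
      simp only [hA, map_pow]
  have hsplit : ∏ σ : K ≃ₐ[ℚ] K, A σ ^ (thnK_n p K σ ^ 2) =
      q (∏ b ∈ Finset.Ioo 0 p, (ζ ^ b - 1) ^ e b) * (∏ σ : K ≃ₐ[ℚ] K, Y σ) ^ p := by
    rw [← hreindex, ← Finset.prod_pow, ← Finset.prod_mul_distrib]
    exact Finset.prod_congr rfl fun σ _ => hY σ
  rw [hsplit, ht, pow_mul', mul_assoc, ← mul_pow] at hprod
  set Z := (∏ σ : K ≃ₐ[ℚ] K, Y σ) * G ^ t with hZ
  obtain ⟨y, hy⟩ := Ideal.Quotient.mk_surjective (Z⁻¹)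
  refine ⟨y, ?_⟩
  rw [← Ideal.Quotient.eq_zero_iff_mem, map_sub, map_pow, hy, sub_eq_zero, inv_pow]
  exact eq_inv_of_mul_eq_one_left hprod

/-- `φ` of an ideal whose prime factorisation is an `(l-1)`-th power away from `l`. -/
theorem thnK_phi_span (hpl : p ≠ l) {ζ : 𝓞 K} (hζ : IsPrimitiveRoot ζ p)
    (𝔩 : Ideal (𝓞 K)) [h𝔩p : 𝔩.IsPrime] (h𝔩 : Ideal.absNorm 𝔩 = l)
    {M : Type*} [CommGroup M] (φ : Ideal (𝓞 K) → M)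
    (hmul : ∀ I J : Ideal (𝓞 K), I ≠ ⊥ → J ≠ ⊥ → φ (I * J) = φ I * φ J) (h1 : φ 1 = 1)
    (hpow : ∀ I : Ideal (𝓞 K), I ≠ ⊥ → φ I ^ p = 1)
    (hgal : ∀ (σ : K ≃ₐ[ℚ] K) (I : Ideal (𝓞 K)), I ≠ ⊥ → φ (σ • I) = φ I ^ (thnK_n p K σ ^ 2))
    (I : Ideal (𝓞 K)) (hI : I ≠ ⊥)
    (hoff : ∀ w : HeightOneSpectrum (𝓞 K), (l : 𝓞 K) ∉ w.asIdeal →
      (l - 1) ∣ multiplicity w.asIdeal I) :
    φ I = φ 𝔩 ^ (∑ σ : K ≃ₐ[ℚ] K, thnK_n p K σ ^ 2 * multiplicity (σ • 𝔩) I) := by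
  classical
  have hgalois : IsGalois ℚ K := IsCyclotomicExtension.isGalois {p} ℚ K
  have h𝔩0 : 𝔩 ≠ ⊥ := thnK_ne_bot 𝔩 h𝔩
  have hl𝔩 : (l : 𝓞 K) ∈ 𝔩 := thnK_l_mem 𝔩 h𝔩
  have hpl1 : p ∣ l - 1 := thnK_dvd_sub_one hpl hζ 𝔩 h𝔩
  set s := UniqueFactorizationMonoid.normalizedFactors I with hs
  have hsprime : ∀ P ∈ s, Prime P :=
    fun P hP => UniqueFactorizationMonoid.prime_of_normalized_factor P hP
  have hsne : ∀ P ∈ s, P ≠ ⊥ := fun P hP => (hsprime P hP).ne_zero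
  have hsprod : s.prod = I := Ideal.prod_normalizedFactors_eq_self hI
  have e1 : φ I = ∏ P ∈ s.toFinset, φ P ^ s.count P := by
    rw [← hsprod, thnK_phi_multiset φ hmul h1 s hsne, Finset.prod_multiset_map_count]
  set B : Finset (Ideal (𝓞 K)) := Finset.univ.image (fun σ : K ≃ₐ[ℚ] K => σ • 𝔩) with hB
  have e2 : ∏ P ∈ s.toFinset, φ P ^ s.count P = ∏ P ∈ s.toFinset ∪ B, φ P ^ s.count P := by
    apply Finset.prod_subset Finset.subset_union_left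
    intro P _ hP
    rw [Multiset.mem_toFinset] at hP
    rw [Multiset.count_eq_zero_of_notMem hP, pow_zero]
  have e3 : ∏ P ∈ B, φ P ^ s.count P = ∏ P ∈ s.toFinset ∪ B, φ P ^ s.count P := by
    apply Finset.prod_subset Finset.subset_union_right
    intro P hP hPB
    have hPs : P ∈ s := by
      rcases Finset.mem_union.mp hP with h | h
      · exact Multiset.mem_toFinset.mp h
      · exact absurd h hPB
    have hPprime : P.IsPrime := Ideal.isPrime_of_prime (hsprime P hPs)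
    have hP0 : P ≠ ⊥ := hsne P hPs
    have hlP : (l : 𝓞 K) ∉ P := by
      intro hlP
      obtain ⟨σ, hσ⟩ := thnK_exists_smul 𝔩 hl𝔩 P hlP
      exact hPB (Finset.mem_image.mpr ⟨σ, Finset.mem_univ _, hσ⟩)
    have hdvd := hoff ⟨P, hPprime, hP0⟩ hlP
    rw [← thnK_count_eq hI P hP0] at hdvd
    obtain ⟨k, hk⟩ := dvd_trans hpl1 hdvd
    rw [hk, pow_mul, hpow P hP0, one_pow]
  have hinj : Function.Injective (fun σ : K ≃ₐ[ℚ] K => σ • 𝔩) := by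
    intro σ τ h
    have h2 : (τ⁻¹ * σ) • 𝔩 = 𝔩 := by
      rw [mul_smul]
      have := congrArg (fun J => τ⁻¹ • J) h
      simpa using this
    have := thnK_stabilizer hpl hζ 𝔩 h𝔩 _ h2
    exact (inv_mul_eq_one.mp this).symm
  rw [e1, e2, ← e3, hB, Finset.prod_image (fun σ _ τ _ h => hinj h), ← Finset.prod_pow_eq_pow_sum]
  apply Finset.prod_congr rfl
  intro σ _
  rw [hgal σ 𝔩 h𝔩0, ← pow_mul, thnK_count_eq hI (σ • 𝔩) (thnK_smul_ne_bot 𝔩 h𝔩0 σ)]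

/-- **Thaine, K-side**: a function `φ` on ideals which is multiplicative, trivial on principal
ideals, killed by `p` and of type `ω²` is trivial on every degree-one prime `𝔩` above `l ≠ p`
modulo which `δ' = ∏_b (ζ^b - 1)^{e b}` is not a `p`-th power. -/
theorem thnK_main (hpl : p ≠ l) {ζ : 𝓞 K} (hζ : IsPrimitiveRoot ζ p) (H : ThnRelation l K ζ)
    (𝔩 : Ideal (𝓞 K)) [h𝔩p : 𝔩.IsPrime] (h𝔩 : Ideal.absNorm 𝔩 = l)
    (e : ℕ → ℕ) (he : ∀ b ∈ Finset.Ioo 0 p, e b * b ^ 2 ≡ 1 [MOD p])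
    (hδ : ¬ ∃ y : 𝓞 K, (∏ b ∈ Finset.Ioo 0 p, (ζ ^ b - 1) ^ e b) - y ^ p ∈ 𝔩)
    {M : Type*} [CommGroup M] (φ : Ideal (𝓞 K) → M)
    (hmul : ∀ I J : Ideal (𝓞 K), I ≠ ⊥ → J ≠ ⊥ → φ (I * J) = φ I * φ J)
    (hprinc : ∀ x : 𝓞 K, x ≠ 0 → φ (Ideal.span {x}) = 1)
    (hpow : ∀ I : Ideal (𝓞 K), I ≠ ⊥ → φ I ^ p = 1)
    (hgal : ∀ (σ : K ≃ₐ[ℚ] K) (I : Ideal (𝓞 K)), I ≠ ⊥ →
      φ (σ • I) = φ I ^ (thnK_n p K σ ^ 2)) :
    φ 𝔩 = 1 := by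
  obtain ⟨g, β, hβ, hoff, hon⟩ := H
  have h𝔩0 : 𝔩 ≠ ⊥ := thnK_ne_bot 𝔩 h𝔩
  have hl𝔩 : (l : 𝓞 K) ∈ 𝔩 := thnK_l_mem 𝔩 h𝔩
  have hI : Ideal.span {β} ≠ ⊥ := by simpa using hβ
  have h1 : φ 1 = 1 := by
    have := hprinc 1 one_ne_zero
    rwa [Ideal.span_singleton_one, ← Ideal.one_eq_top] at this
  have e1 := thnK_phi_span hpl hζ 𝔩 h𝔩 φ hmul h1 hpow hgal _ hI hoff
  rw [hprinc β hβ] at e1
  have hnd := thnK_not_dvd 𝔩 h𝔩 e he hδ g (fun σ => multiplicity (σ • 𝔩) (Ideal.span {β}))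
    (fun σ => thnK_cong hζ 𝔩 g _ σ
      (hon ⟨σ • 𝔩, inferInstance, thnK_smul_ne_bot 𝔩 h𝔩0 σ⟩ (thnK_l_mem_smul 𝔩 hl𝔩 σ)))
  have hcop : Nat.Coprime (∑ σ : K ≃ₐ[ℚ] K,
      thnK_n p K σ ^ 2 * multiplicity (σ • 𝔩) (Ideal.span {β})) p :=
    Nat.Coprime.symm ((Nat.Prime.coprime_iff_not_dvd hp.out).mpr hnd)
  have := pow_gcd_eq_one.mpr ⟨e1.symm, hpow 𝔩 h𝔩0⟩
  rwa [hcop.gcd_eq_one, pow_one] at this

end gal

end Fermat.Agent.S14L
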