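import Mathlib
import Fermat.Agent.S14L.Defs
import Fermat.Agent.S14L.ThaineK

/-!
# Thaine relation: glue lemmas for the consumer form

Exponents `b ^ (p - 3)`, the comparison of `∏ (ζ^b - 1)^{b^{p-3}}` with the cyclotomic unit
`delta`, and the identification of the pointwise Galois action on ideals with `Ideal.map`.
-/

set_option autoImplicit false

open NumberField IsDedekindDomain IsCyclotomicExtension.Rat
open scoped Pointwise nonZeroDivisors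

namespace Fermat.Agent.S14L

section wrap

variable {p : ℕ} [hp : Fact p.Prime]

theorem thnK_he (hp5 : 5 ≤ p) : ∀ b ∈ Finset.Ioo 0 p, b ^ (p - 3) * b ^ 2 ≡ 1 [MOD p] := by
  intro b hb
  rw [Finset.mem_Ioo] at hb
  have hcop : Nat.Coprime b p := by
    rw [Nat.coprime_comm, Nat.Prime.coprime_iff_not_dvd hp.out]
    exact fun h => absurd (Nat.le_of_dvd hb.1 h) (not_le.mpr hb.2)
  have := Nat.ModEq.pow_totient hcop
  rw [Nat.totient_prime hp.out] at this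
  rw [← pow_add]
  have h2 : p - 3 + 2 = p - 1 := by omega
  rw [h2]
  exact this

theorem thnK_sum_pow (hp5 : 5 ≤ p) : p ∣ ∑ b ∈ Finset.Ioo 0 p, b ^ (p - 3) := by
  classical
  rw [← ZMod.natCast_eq_zero_iff]
  push_cast
  have hbij : (∑ v ∈ Finset.Ioo 0 p, (v : ZMod p) ^ (p - 3)) =
      ∑ u : (ZMod p)ˣ, (u : ZMod p) ^ (p - 3) := by
    refine Finset.sum_bij'
      (fun v hv ↦ Units.mk0 (v : ZMod p) (mt (ZMod.natCast_eq_zero_iff v p).mp (by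
        rw [Finset.mem_Ioo] at hv
        exact fun h => absurd (Nat.le_of_dvd hv.1 h) (not_le.mpr hv.2))))
      (fun u _ ↦ (u : ZMod p).val)
      (fun _ _ ↦ Finset.mem_univ _)
      (fun u _ ↦ ?_)
      (fun v hv ↦ ?_)
      (fun u _ ↦ Units.ext (ZMod.natCast_zmod_val _))
      (fun _ _ ↦ rfl)
    · rw [Finset.mem_Ioo]
      exact ⟨Nat.pos_of_ne_zero (by rw [Ne, ZMod.val_eq_zero]; exact u.ne_zero), ZMod.val_lt _⟩
    · rw [Finset.mem_Ioo] at hv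
      simp [ZMod.val_cast_of_lt hv.2]
  rw [hbij, FiniteField.sum_pow_units, ZMod.card, if_neg]
  intro hdvd
  have := Nat.le_of_dvd (by omega) hdvd
  omega

omit hp in
theorem thnK_delta_rel {R : Type*} [CommRing R] (z : R) (e : ℕ → ℕ) (s : Finset ℕ) :
    ∏ b ∈ s, (z ^ b - 1) ^ e b =
      (z - 1) ^ (∑ b ∈ s, e b) * ∏ b ∈ s, (∑ i ∈ Finset.range b, z ^ i) ^ e b := by
  rw [← Finset.prod_pow_eq_pow_sum, ← Finset.prod_mul_distrib]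
  apply Finset.prod_congr rfl
  intro b _
  rw [← mul_pow, mul_comm, geom_sum_mul]

/-- non-residuosity of `delta` transfers to `δ' = ∏ (z^b - 1)^{b^{p-3}}`. -/
theorem thnK_hdelta (hp5 : 5 ≤ p) {R : Type*} [CommRing R] (z : R) (𝔩 : Ideal R)
    [h𝔩 : 𝔩.IsMaximal] (hz : z - 1 ∉ 𝔩)
    (hδ : ¬ ∃ y : R,
      (∏ a ∈ Finset.Ioo 0 p, (∑ i ∈ Finset.range a, z ^ i) ^ (a ^ (p - 3))) - y ^ p ∈ 𝔩) :
    ¬ ∃ y : R, (∏ b ∈ Finset.Ioo 0 p, (z ^ b - 1) ^ (b ^ (p - 3))) - y ^ p ∈ 𝔩 := by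
  rintro ⟨y, hy⟩
  apply hδ
  obtain ⟨t, ht⟩ := thnK_sum_pow hp5 (p := p)
  let _ := Ideal.Quotient.field 𝔩
  rw [thnK_delta_rel, ht, pow_mul', ← Ideal.Quotient.eq_zero_iff_mem, map_sub, map_mul, map_pow,
    map_pow, map_pow, sub_eq_zero] at hy
  have hu : Ideal.Quotient.mk 𝔩 (z - 1) ^ t ≠ 0 := by
    apply pow_ne_zero
    rwa [Ne, Ideal.Quotient.eq_zero_iff_mem]
  obtain ⟨y', hy'⟩ := Ideal.Quotient.mk_surjective
    (Ideal.Quotient.mk 𝔩 y * (Ideal.Quotient.mk 𝔩 (z - 1) ^ t)⁻¹)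
  refine ⟨y', ?_⟩
  rw [← Ideal.Quotient.eq_zero_iff_mem, map_sub, map_pow, hy', sub_eq_zero, mul_pow, ← hy, inv_pow]
  field_simp

end wrap

section galmap

variable {K : Type} [Field K] [NumberField K]

theorem thnK_smul_eq_map (σ : K ≃ₐ[ℚ] K) (I : Ideal (𝓞 K)) :
    σ • I = Ideal.map (RingOfIntegers.mapRingEquiv (σ : K ≃+* K)) I := by
  rw [Ideal.pointwise_smul_def]
  congr 1

end galmap

/-- Consumer form of the Thaine relation, modulo the F-side input `ThnRelation`. -/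
theorem thnK_consumer (p : ℕ) [Fact p.Prime] (hp5 : 5 ≤ p) (K : Type) [Field K] [NumberField K]
    [IsCyclotomicExtension {p} ℚ K] (ζ : K) (hζ : IsPrimitiveRoot ζ p)
    (χ : ClassGroup (𝓞 K) →* ℂˣ) (hχp : ∀ c, χ c ^ p = 1)
    (hχσ : ∀ (σ : K ≃ₐ[ℚ] K) (k : ℕ), σ ζ = ζ ^ k → ∀ I J : (Ideal (𝓞 K))⁰,
      (J : Ideal (𝓞 K)) = Ideal.map (RingOfIntegers.mapRingEquiv (σ : K ≃+* K)) (I : Ideal (𝓞 K)) →
      χ (ClassGroup.mk0 J) = χ (ClassGroup.mk0 I) ^ (k ^ 2))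
    (𝔩 : (Ideal (𝓞 K))⁰) (h𝔩 : (𝔩 : Ideal (𝓞 K)).IsPrime)
    (hN : (Ideal.absNorm (𝔩 : Ideal (𝓞 K))).Prime)
    (hℓp : Ideal.absNorm (𝔩 : Ideal (𝓞 K)) ≠ p)
    (hδ : ¬ ∃ y : 𝓞 K, delta p K ζ hζ - y ^ p ∈ (𝔩 : Ideal (𝓞 K)))
    (H : ThnRelation (Ideal.absNorm (𝔩 : Ideal (𝓞 K))) K (zInt p K ζ hζ)) :
    χ (ClassGroup.mk0 𝔩) = 1 := by
  classical
  have hp0 : NeZero p := ⟨(Fact.out : p.Prime).ne_zero⟩
  have hlF : Fact (Ideal.absNorm (𝔩 : Ideal (𝓞 K))).Prime := ⟨hN⟩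
  have hzprim : IsPrimitiveRoot (zInt p K ζ hζ) p := hζ.toInteger_isPrimitiveRoot
  have hpl : p ≠ Ideal.absNorm (𝔩 : Ideal (𝓞 K)) := fun h => hℓp h.symm
  have h𝔩0 : (𝔩 : Ideal (𝓞 K)) ≠ ⊥ := thnK_ne_bot _ rfl
  have hmax : (𝔩 : Ideal (𝓞 K)).IsMaximal := h𝔩.isMaximal h𝔩0
  -- the function on ideals attached to `χ`
  let φ : Ideal (𝓞 K) → ℂˣ := fun I =>
    if h : I ≠ ⊥ then χ (ClassGroup.mk0 ⟨I, mem_nonZeroDivisors_iff_ne_zero.mpr h⟩) else 1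
  have hφ : ∀ (I : Ideal (𝓞 K)) (h : I ≠ ⊥),
      φ I = χ (ClassGroup.mk0 ⟨I, mem_nonZeroDivisors_iff_ne_zero.mpr h⟩) := by
    intro I h
    simp only [φ, dif_pos h]
  have hmul : ∀ I J : Ideal (𝓞 K), I ≠ ⊥ → J ≠ ⊥ → φ (I * J) = φ I * φ J := by
    intro I J hI hJ
    have hIJ : I * J ≠ ⊥ := mul_ne_zero hI hJ
    rw [hφ _ hIJ, hφ _ hI, hφ _ hJ, ← map_mul, ← map_mul]
    rfl
  have hprinc : ∀ x : 𝓞 K, x ≠ 0 → φ (Ideal.span {x}) = 1 := by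
    intro x hx
    have hI : Ideal.span {x} ≠ ⊥ := by simpa using hx
    rw [hφ _ hI]
    have : ClassGroup.mk0 ⟨Ideal.span {x}, mem_nonZeroDivisors_iff_ne_zero.mpr hI⟩ = 1 := by
      rw [ClassGroup.mk0_eq_one_iff]
      exact ⟨⟨x, rfl⟩⟩
    rw [this, map_one]
  have hpow : ∀ I : Ideal (𝓞 K), I ≠ ⊥ → φ I ^ p = 1 := by
    intro I hI
    rw [hφ _ hI]
    exact hχp _
  have hgal : ∀ (σ : K ≃ₐ[ℚ] K) (I : Ideal (𝓞 K)), I ≠ ⊥ →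
      φ (σ • I) = φ I ^ (thnK_n p K σ ^ 2) := by
    intro σ I hI
    have hσI : σ • I ≠ ⊥ := thnK_smul_ne_bot I hI σ
    rw [hφ _ hσI, hφ _ hI]
    refine hχσ σ (thnK_n p K σ)
      (IsCyclotomicExtension.Rat.galEquivZMod_apply_of_pow_eq p K σ hζ.pow_eq_one) _ _ ?_
    exact thnK_smul_eq_map σ I
  have hz1 : zInt p K ζ hζ - 1 ∉ (𝔩 : Ideal (𝓞 K)) := by
    have := thnK_zeta_pow_sub_one_notMem hzprim (𝔩 : Ideal (𝓞 K))
      (thnK_p_notMem hpl (𝔩 : Ideal (𝓞 K)) rfl) 1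
      (fun hd => (Fact.out : p.Prime).one_lt.ne' (Nat.dvd_one.mp hd))
    rwa [pow_one] at this
  have hδ' := thnK_hdelta hp5 (zInt p K ζ hζ) (𝔩 : Ideal (𝓞 K)) hz1 hδ
  have key := thnK_main hpl hzprim H (𝔩 : Ideal (𝓞 K)) rfl (fun b => b ^ (p - 3))
    (thnK_he hp5) hδ' φ hmul hprinc hpow hgal
  rw [hφ _ h𝔩0] at key
  exact key

end Fermat.Agent.S14L
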