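import Mathlib
import Fermat.Agent.S14L.Defs
import Fermat.Agent.S14L.ThaineK
import Fermat.Agent.S14L.ThaineW
import Fermat.Agent.S14L.ThaineF

/-! S14 package T (owners: helper1 K-side, helper9 F-side): Thaine's relation for the cyclotomic
unit `delta`, in consumer form. -/

set_option autoImplicit false

open NumberField IsDedekindDomain
open scoped nonZeroDivisors

namespace Fermat.Agent.S14L

/-- If `χ` is a class character killed by `p` and of type `ω²`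
(`χ(σ I) = χ(I)^{k²}` when `σ ζ = ζ^k`), then `χ` is trivial on every degree-one prime `𝔩 ∤ p`
modulo which `delta` is not a `p`-th power. -/
theorem thaine (p : ℕ) [Fact p.Prime] (hp5 : 5 ≤ p) (K : Type) [Field K] [NumberField K]
    [IsCyclotomicExtension {p} ℚ K] (ζ : K) (hζ : IsPrimitiveRoot ζ p)
    (χ : ClassGroup (𝓞 K) →* ℂˣ) (hχp : ∀ c, χ c ^ p = 1)
    (hχσ : ∀ (σ : K ≃ₐ[ℚ] K) (k : ℕ), σ ζ = ζ ^ k → ∀ I J : (Ideal (𝓞 K))⁰,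
      (J : Ideal (𝓞 K)) = Ideal.map (RingOfIntegers.mapRingEquiv (σ : K ≃+* K)) (I : Ideal (𝓞 K)) →
      χ (ClassGroup.mk0 J) = χ (ClassGroup.mk0 I) ^ (k ^ 2))
    (𝔩 : (Ideal (𝓞 K))⁰) (h𝔩 : (𝔩 : Ideal (𝓞 K)).IsPrime)
    (hN : (Ideal.absNorm (𝔩 : Ideal (𝓞 K))).Prime)
    (hℓp : Ideal.absNorm (𝔩 : Ideal (𝓞 K)) ≠ p)
    (hδ : ¬ ∃ y : 𝓞 K, delta p K ζ hζ - y ^ p ∈ (𝔩 : Ideal (𝓞 K))) :
    χ (ClassGroup.mk0 𝔩) = 1 := by
  have hp0 : NeZero p := ⟨(Fact.out : p.Prime).ne_zero⟩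
  have hlF : Fact (Ideal.absNorm (𝔩 : Ideal (𝓞 K))).Prime := ⟨hN⟩
  have hzprim : IsPrimitiveRoot (zInt p K ζ hζ) p := hζ.toInteger_isPrimitiveRoot
  have hpl : p ≠ Ideal.absNorm (𝔩 : Ideal (𝓞 K)) := fun h => hℓp h.symm
  have hl1 : p ∣ Ideal.absNorm (𝔩 : Ideal (𝓞 K)) - 1 :=
    thnK_dvd_sub_one hpl hzprim (𝔩 : Ideal (𝓞 K)) rfl
  exact thnK_consumer p hp5 K ζ hζ χ hχp hχσ 𝔩 h𝔩 hN hℓp hδ
    (thn_relation_holds hpl hl1 K (zInt p K ζ hζ) hzprim)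

end Fermat.Agent.S14L
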