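import Mathlib
import Fermat.Agent.S14L.Defs

/-!
# S14 / package U, leaf C: the cyclotomic unit `delta` is of type `ω²` (eigen property)
-/

set_option autoImplicit false

open NumberField

namespace Fermat.Agent.S14L.UnitsDelta

section Rel

variable {K : Type} [Field K]

/-- equality up to a nonzero `p`-th power -/
def s14uR (p : ℕ) (x y : K) : Prop := ∃ γ : K, γ ≠ 0 ∧ x = y * γ ^ p

theorem s14uR_refl (p : ℕ) (x : K) : s14uR p x x := ⟨1, one_ne_zero, by simp⟩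

theorem s14uR_of_eq (p : ℕ) {x y : K} (h : x = y) : s14uR p x y := h ▸ s14uR_refl p x

theorem s14uR_symm {p : ℕ} {x y : K} (h : s14uR p x y) : s14uR p y x := by
  obtain ⟨γ, hγ, rfl⟩ := h
  exact ⟨γ⁻¹, inv_ne_zero hγ, by rw [inv_pow, mul_assoc, mul_inv_cancel₀ (pow_ne_zero _ hγ),
    mul_one]⟩

theorem s14uR_trans {p : ℕ} {x y z : K} (h : s14uR p x y) (h' : s14uR p y z) : s14uR p x z := by
  obtain ⟨γ, hγ, rfl⟩ := h
  obtain ⟨γ', hγ', rfl⟩ := h'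
  exact ⟨γ' * γ, mul_ne_zero hγ' hγ, by rw [mul_pow, mul_assoc]⟩

theorem s14uR_mul {p : ℕ} {x y x' y' : K} (h : s14uR p x y) (h' : s14uR p x' y') :
    s14uR p (x * x') (y * y') := by
  obtain ⟨γ, hγ, rfl⟩ := h
  obtain ⟨γ', hγ', rfl⟩ := h'
  exact ⟨γ * γ', mul_ne_zero hγ hγ', by rw [mul_pow]; ring⟩

theorem s14uR_inv {p : ℕ} {x y : K} (h : s14uR p x y) : s14uR p x⁻¹ y⁻¹ := by
  obtain ⟨γ, hγ, rfl⟩ := h
  exact ⟨γ⁻¹, inv_ne_zero hγ, by rw [mul_inv, inv_pow]⟩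

theorem s14uR_prod {p : ℕ} {ι : Type*} (s : Finset ι) (f g : ι → K)
    (h : ∀ a ∈ s, s14uR p (f a) (g a)) : s14uR p (∏ a ∈ s, f a) (∏ a ∈ s, g a) := by
  classical
  induction s using Finset.induction_on with
  | empty => simpa using s14uR_refl p (1 : K)
  | insert a s ha ih =>
    rw [Finset.prod_insert ha, Finset.prod_insert ha]
    exact s14uR_mul (h a (Finset.mem_insert_self a s))
      (ih fun b hb => h b (Finset.mem_insert_of_mem hb))

theorem s14uR_pow_of_le {p : ℕ} {x : K} (hx : x ≠ 0) {m n : ℕ} (hmn : n ≤ m)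
    (h : m ≡ n [MOD p]) : s14uR p (x ^ m) (x ^ n) := by
  obtain ⟨t, ht⟩ := (Nat.modEq_iff_dvd' hmn).mp h.symm
  refine ⟨x ^ t, pow_ne_zero _ hx, ?_⟩
  rw [← pow_mul, ← pow_add, mul_comm t p, ← ht, Nat.add_sub_cancel' hmn]

theorem s14uR_pow_congr {p : ℕ} {x : K} (hx : x ≠ 0) {m n : ℕ}
    (h : m ≡ n [MOD p]) : s14uR p (x ^ m) (x ^ n) := by
  rcases le_total n m with hmn | hmn
  · exact s14uR_pow_of_le hx hmn h
  · exact s14uR_symm (s14uR_pow_of_le hx hmn h.symm)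

theorem s14uR_pow_dvd {p : ℕ} {x : K} (hx : x ≠ 0) {m : ℕ} (h : p ∣ m) :
    s14uR p (x ^ m) 1 := by
  have := s14uR_pow_congr (p := p) hx (m := m) (n := 0) ((Nat.modEq_zero_iff_dvd).mpr h)
  simpa using this

end Rel

section Arith

variable (p : ℕ) [Fact p.Prime]

/-- `∑_{0<a<p} a^(p-3) ≡ 0 mod p` for `p ≥ 5` -/
theorem s14u_dvd_sum (hp5 : 5 ≤ p) : p ∣ ∑ a ∈ Finset.Ioo 0 p, a ^ (p - 3) := by
  rw [← ZMod.natCast_eq_zero_iff]
  push_cast
  have h1 : ∑ a ∈ Finset.Ioo 0 p, ((a : ZMod p)) ^ (p - 3)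
      = ∑ a ∈ Finset.range p, ((a : ZMod p)) ^ (p - 3) := by
    refine Finset.sum_subset (fun a ha => ?_) (fun a ha ha' => ?_)
    · rw [Finset.mem_Ioo] at ha
      exact Finset.mem_range.mpr ha.2
    · rw [Finset.mem_range] at ha
      rw [Finset.mem_Ioo, not_and_or] at ha'
      have h0 : a = 0 := by omega
      subst h0
      rw [Nat.cast_zero, zero_pow (by omega)]
  have h2 : ∑ a ∈ Finset.range p, ((a : ZMod p)) ^ (p - 3) = ∑ x : ZMod p, x ^ (p - 3) := by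
    refine Finset.sum_nbij' (fun a => (a : ZMod p)) (fun x => x.val) (fun _ _ => Finset.mem_univ _)
      (fun x _ => Finset.mem_range.mpr (ZMod.val_lt x)) (fun a ha => ?_) (fun x _ => ?_)
      (fun _ _ => rfl)
    · exact ZMod.val_cast_of_lt (Finset.mem_range.mp ha)
    · exact ZMod.natCast_zmod_val x
  rw [h1, h2]
  apply FiniteField.sum_pow_lt_card_sub_one
  rw [ZMod.card]
  omega

/-- the exponent congruence -/
theorem s14u_exp_congr (hp5 : 5 ≤ p) (k : ℕ) (hk : ¬ p ∣ k) (a : ℕ) :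
    a ^ (p - 3) ≡ k ^ 2 * ((k * a) % p) ^ (p - 3) [MOD p] := by
  rw [← ZMod.natCast_eq_natCast_iff]
  push_cast
  rw [ZMod.natCast_mod]
  push_cast
  have hk0 : (k : ZMod p) ≠ 0 := by
    rwa [Ne, ZMod.natCast_eq_zero_iff]
  have h1 : (k : ZMod p) ^ (p - 1) = 1 := ZMod.pow_card_sub_one_eq_one hk0
  have h2 : (k : ZMod p) ^ 2 * ((k : ZMod p) * a) ^ (p - 3)
      = (k : ZMod p) ^ (p - 1) * (a : ZMod p) ^ (p - 3) := by
    rw [mul_pow, ← mul_assoc, ← pow_add]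
    congr 2
    omega
  rw [h2, h1, one_mul]

/-- multiplication by `k` permutes the nonzero residues -/
theorem s14u_image_mul (k : ℕ) (hk : ¬ p ∣ k) :
    (Finset.Ioo 0 p).image (fun a => (k * a) % p) = Finset.Ioo 0 p ∧
    Set.InjOn (fun a => (k * a) % p) (Finset.Ioo 0 p : Set ℕ) := by
  have hp : p.Prime := Fact.out
  have hinj : Set.InjOn (fun a => (k * a) % p) (Finset.Ioo 0 p : Set ℕ) := by
    intro a ha b hb hab
    rw [Finset.mem_coe, Finset.mem_Ioo] at ha hb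
    have h1 : k * a ≡ k * b [MOD p] := hab
    have hcop : Nat.gcd p k = 1 := (Nat.Prime.coprime_iff_not_dvd hp).mpr hk
    have h2 : a ≡ b [MOD p] := Nat.ModEq.cancel_left_of_coprime hcop h1
    exact Nat.ModEq.eq_of_lt_of_lt h2 ha.2 hb.2
  refine ⟨Finset.eq_of_subset_of_card_le (fun b hb => ?_) ?_, hinj⟩
  · obtain ⟨a, ha, rfl⟩ := Finset.mem_image.mp hb
    rw [Finset.mem_Ioo] at ha ⊢
    refine ⟨Nat.pos_of_ne_zero fun h0 => ?_, Nat.mod_lt _ hp.pos⟩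
    have h3 : p ∣ k * a := Nat.dvd_of_mod_eq_zero h0
    rcases (Nat.Prime.dvd_mul hp).mp h3 with h | h
    · exact hk h
    · exact absurd (Nat.le_of_dvd ha.1 h) (not_le.mpr ha.2)
  · rw [Finset.card_image_of_injOn hinj]

end Arith

/-- `σ(delta) = delta^(k²) · γ^p` when `σ ζ = ζ^k` -/
theorem s14u_delta_eigen (p : ℕ) [Fact p.Prime] (hp5 : 5 ≤ p) (K : Type) [Field K] [NumberField K]
    [IsCyclotomicExtension {p} ℚ K] (ζ : K) (hζ : IsPrimitiveRoot ζ p)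
    (σ : K ≃ₐ[ℚ] K) (k : ℕ) (hk : σ ζ = ζ ^ k) :
    ∃ γ : K, σ ((delta p K ζ hζ : 𝓞 K) : K) = ((delta p K ζ hζ : 𝓞 K) : K) ^ (k ^ 2) * γ ^ p := by
  have hp : p.Prime := Fact.out
  have hζ1 : ζ - 1 ≠ 0 := sub_ne_zero.mpr (hζ.ne_one hp.one_lt)
  -- `p ∤ k`
  have hpk : ¬ p ∣ k := by
    intro h
    have h1 : ζ ^ k = 1 := (hζ.pow_eq_one_iff_dvd k).mpr h
    rw [h1] at hk
    have h2 : σ ζ = σ 1 := by rw [hk, map_one]
    exact hζ.ne_one hp.one_lt (σ.injective h2)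
  set W : ℕ → K := fun n => ∑ i ∈ Finset.range n, ζ ^ i with hW
  have hWmul : ∀ n, W n * (ζ - 1) = ζ ^ n - 1 := fun n => geom_sum_mul ζ n
  have hWmod : ∀ n, W (n % p) = W n := by
    intro n
    apply mul_right_cancel₀ hζ1
    rw [hWmul, hWmul]
    conv_rhs => rw [← Nat.mod_add_div n p, pow_add, pow_mul, hζ.pow_eq_one, one_pow, mul_one]
  have hWne : ∀ n, ¬ p ∣ n → W n ≠ 0 := by
    intro n hn h0
    have h1 := hWmul n
    rw [h0, zero_mul] at h1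
    exact hn ((hζ.pow_eq_one_iff_dvd n).mp (sub_eq_zero.mp h1.symm))
  have hWk : W k ≠ 0 := hWne k hpk
  -- the Galois conjugates of the factors
  have hconj : ∀ a, ∑ i ∈ Finset.range a, (ζ ^ k) ^ i = W ((k * a) % p) / W k := by
    intro a
    rw [eq_div_iff hWk, hWmod]
    apply mul_right_cancel₀ hζ1
    rw [hWmul (k * a), mul_assoc, hWmul k, geom_sum_mul, pow_mul]
  have hδ : ((delta p K ζ hζ : 𝓞 K) : K) = ∏ a ∈ Finset.Ioo 0 p, W a ^ (a ^ (p - 3)) := by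
    simp only [delta, zInt, map_prod, map_pow, map_sum]
    rfl
  have hσδ : σ ((delta p K ζ hζ : 𝓞 K) : K)
      = (∏ a ∈ Finset.Ioo 0 p, W ((k * a) % p) ^ (a ^ (p - 3)))
        * (W k ^ (∑ a ∈ Finset.Ioo 0 p, a ^ (p - 3)))⁻¹ := by
    rw [hδ, map_prod, ← Finset.prod_pow_eq_pow_sum, ← Finset.prod_inv_distrib,
      ← Finset.prod_mul_distrib]
    refine Finset.prod_congr rfl fun a _ => ?_
    rw [map_pow, hW, map_sum]
    simp only [map_pow, hk]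
    rw [hconj, div_pow, div_eq_mul_inv]
  obtain ⟨himg, hinj⟩ := s14u_image_mul p k hpk
  have hδk : ((delta p K ζ hζ : 𝓞 K) : K) ^ (k ^ 2)
      = ∏ a ∈ Finset.Ioo 0 p, W ((k * a) % p) ^ (k ^ 2 * ((k * a) % p) ^ (p - 3)) := by
    rw [hδ, ← Finset.prod_pow]
    conv_lhs => rw [← himg]
    rw [Finset.prod_image hinj]
    refine Finset.prod_congr rfl fun a _ => ?_
    exact (pow_mul' _ _ _).symm
  have hR : s14uR p (σ ((delta p K ζ hζ : 𝓞 K) : K))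
      (((delta p K ζ hζ : 𝓞 K) : K) ^ (k ^ 2) * 1⁻¹) := by
    rw [hσδ, hδk]
    refine s14uR_mul (s14uR_prod _ _ _ fun a ha => ?_)
      (s14uR_inv (s14uR_pow_dvd hWk (s14u_dvd_sum p hp5)))
    refine s14uR_pow_congr (hWne _ fun h => ?_) (s14u_exp_congr p hp5 k hpk a)
    have h1 : (k * a) % p ∈ Finset.Ioo 0 p := by
      rw [← himg]; exact Finset.mem_image_of_mem _ ha
    rw [Finset.mem_Ioo] at h1
    exact absurd (Nat.le_of_dvd h1.1 h) (not_le.mpr h1.2)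
  obtain ⟨γ, -, hγ⟩ := hR
  exact ⟨γ, by rw [hγ, inv_one, mul_one]⟩

end Fermat.Agent.S14L.UnitsDelta
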