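import Mathlib
import Fermat.Agent.S14L.Defs

/-!
# S14 / package U, leaf C: the cyclotomic element `delta` is a unit
-/

set_option autoImplicit false

open NumberField

namespace Fermat.Agent.S14L.UnitsDelta

/-- each factor `1 + ζ + ⋯ + ζ^(a-1)` (`0 < a < p`) is a unit, hence so is `delta` -/
theorem s14u_delta_isUnit (p : ℕ) [Fact p.Prime] (K : Type) [Field K] [NumberField K]
    [IsCyclotomicExtension {p} ℚ K] (ζ : K) (hζ : IsPrimitiveRoot ζ p) :
    IsUnit (delta p K ζ hζ) := by
  have hp : p.Prime := Fact.out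
  have hne : NeZero p := ⟨hp.ne_zero⟩
  have hz : IsPrimitiveRoot (zInt p K ζ hζ) p := hζ.toInteger_isPrimitiveRoot
  unfold delta
  rw [IsUnit.prod_iff]
  intro a ha
  rw [Finset.mem_Ioo] at ha
  exact (hz.geom_sum_isUnit hp.two_le
    (Nat.coprime_of_lt_prime ha.1.ne' ha.2 hp).symm).pow _

end Fermat.Agent.S14L.UnitsDelta
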