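import Mathlib
import Fermat.Agent.S14L.Defs

/-!
# S14 / package U: a generator of the Galois group of `ℚ(ζ_p)`
-/

set_option autoImplicit false

open NumberField

namespace Fermat.Agent.S14L.UnitsBasic

/-- a generator of the Galois group -/
theorem s14u_generator (p : ℕ) [Fact p.Prime] (hp3 : 3 ≤ p) (K : Type) [Field K] [NumberField K]
    [IsCyclotomicExtension {p} ℚ K] (ζ : K) (hζ : IsPrimitiveRoot ζ p) :
    ∃ (σ : K ≃ₐ[ℚ] K) (k : ℕ), (∀ τ : K ≃ₐ[ℚ] K, τ ∈ Subgroup.zpowers σ) ∧ σ ζ = ζ ^ k ∧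
      orderOf ((k : ZMod p) ^ 2) = (p - 1) / 2 := by
  have hpp : p.Prime := Fact.out
  have : NeZero p := ⟨hpp.ne_zero⟩
  obtain ⟨g, hg⟩ := IsCyclic.exists_generator (α := (ZMod p)ˣ)
  let e : (K ≃ₐ[ℚ] K) ≃* (ZMod p)ˣ := IsCyclotomicExtension.Rat.galEquivZMod p K
  refine ⟨e.symm g, (g : ZMod p).val, ?_, ?_, ?_⟩
  · intro τ
    obtain ⟨n, hn⟩ := Subgroup.mem_zpowers_iff.mp (hg (e τ))
    refine Subgroup.mem_zpowers_iff.mpr ⟨n, ?_⟩
    rw [← map_zpow, hn, MulEquiv.symm_apply_apply]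
  · have h := IsCyclotomicExtension.Rat.galEquivZMod_apply_of_pow_eq p K (e.symm g) hζ.pow_eq_one
    rw [h]
    congr 2
    exact congrArg Units.val (e.apply_symm_apply g)
  · rw [ZMod.natCast_zmod_val, ← Units.val_pow_eq_pow_val, orderOf_units,
      orderOf_pow' g two_ne_zero, orderOf_eq_card_of_forall_mem_zpowers hg, Nat.card_eq_fintype_card,
      ZMod.card_units p]
    have hodd : p % 2 = 1 := by
      rcases hpp.eq_two_or_odd with h | h
      · omega
      · exact h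
    have hgcd : Nat.gcd (p - 1) 2 = 2 := Nat.gcd_eq_right (by omega)
    rw [hgcd]

end Fermat.Agent.S14L.UnitsBasic
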