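import Mathlib

/-!
# S14 / package U, leaf L2: logarithms on `F_p[ε₁, ε₂]/(ε₁², ε₂²)`

`D = DualNumber (DualNumber (ZMod p))` contains `t = ε₁ + ε₂` with `t² = 2 ε₁ ε₂`, `t³ = 0`, so
`F_p[t]/(t³)` embeds in `D` (`p ≥ 5`).  For a unit `x = x₀₀ + x₀₁ ε₁ + x₁₀ ε₂ + x₁₁ ε₁ε₂` of `D`
the maps `x ↦ x₀₁/x₀₀` and `x ↦ x₁₁/x₀₀ - x₀₁ x₁₀/x₀₀²` are homomorphisms `Dˣ → (F_p, +)`.
-/

set_option autoImplicit false

namespace Fermat.Agent.S14L.UnitsLog

/-- `t = ε₁ + ε₂` -/
noncomputable def s14uT (p : ℕ) : DualNumber (DualNumber (ZMod p)) :=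
  TrivSqZeroExt.inl (DualNumber.eps : DualNumber (ZMod p)) +
    (DualNumber.eps : DualNumber (DualNumber (ZMod p)))

theorem s14uT_pow_three (p : ℕ) : s14uT p ^ 3 = 0 := by
  have h1 : (DualNumber.eps : DualNumber (DualNumber (ZMod p))) * DualNumber.eps = 0 :=
    DualNumber.eps_mul_eps
  have h2 : (TrivSqZeroExt.inl (DualNumber.eps : DualNumber (ZMod p)) :
      DualNumber (DualNumber (ZMod p))) * TrivSqZeroExt.inl DualNumber.eps = 0 := by
    rw [← TrivSqZeroExt.inl_mul, DualNumber.eps_mul_eps, TrivSqZeroExt.inl_zero]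
  unfold s14uT
  linear_combination
    ((TrivSqZeroExt.inl (DualNumber.eps : DualNumber (ZMod p)) :
      DualNumber (DualNumber (ZMod p))) + 3 * DualNumber.eps) * h2 +
    (3 * (TrivSqZeroExt.inl (DualNumber.eps : DualNumber (ZMod p)) :
      DualNumber (DualNumber (ZMod p))) + DualNumber.eps) * h1

section coords

variable {p : ℕ}

theorem s14u_ff_mul (x y : DualNumber (DualNumber (ZMod p))) :
    (x * y).fst.fst = x.fst.fst * y.fst.fst := rfl

theorem s14u_fs_mul (x y : DualNumber (DualNumber (ZMod p))) :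
    (x * y).fst.snd = x.fst.fst * y.fst.snd + x.fst.snd * y.fst.fst := by
  rw [TrivSqZeroExt.fst_mul, TrivSqZeroExt.snd_mul]
  simp [mul_comm]

theorem s14u_sf_mul (x y : DualNumber (DualNumber (ZMod p))) :
    (x * y).snd.fst = x.fst.fst * y.snd.fst + x.snd.fst * y.fst.fst := by
  rw [TrivSqZeroExt.snd_mul]
  simp [mul_comm]

theorem s14u_ss_mul (x y : DualNumber (DualNumber (ZMod p))) :
    (x * y).snd.snd = x.fst.fst * y.snd.snd + x.fst.snd * y.snd.fst + x.snd.fst * y.fst.snd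
      + x.snd.snd * y.fst.fst := by
  rw [TrivSqZeroExt.snd_mul]
  simp [TrivSqZeroExt.snd_mul, mul_comm]
  ring

theorem s14u_coords_one_add_T :
    (1 + s14uT p).fst.fst = 1 ∧ (1 + s14uT p).fst.snd = 1 ∧ (1 + s14uT p).snd.fst = 1 ∧
      (1 + s14uT p).snd.snd = 0 := by
  unfold s14uT
  simp

theorem s14u_coords_pow (i : ℕ) :
    ((1 + s14uT p) ^ i).fst.fst = 1 ∧ ((1 + s14uT p) ^ i).fst.snd = (i : ZMod p) ∧
      ((1 + s14uT p) ^ i).snd.fst = (i : ZMod p) ∧
      ((1 + s14uT p) ^ i).snd.snd = (i : ZMod p) * ((i : ZMod p) - 1) := by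
  obtain ⟨a0, a1, a2, a3⟩ := s14u_coords_one_add_T (p := p)
  induction i with
  | zero => simp
  | succ i ih =>
    obtain ⟨b0, b1, b2, b3⟩ := ih
    rw [pow_succ]
    refine ⟨?_, ?_, ?_, ?_⟩
    · rw [s14u_ff_mul, a0, b0, mul_one]
    · rw [s14u_fs_mul, a0, a1, b0, b1]; push_cast; ring
    · rw [s14u_sf_mul, a0, a2, b0, b2]; push_cast; ring
    · rw [s14u_ss_mul, a0, a1, a2, a3, b0, b1, b2, b3]; push_cast; ring

theorem s14u_coords_sum (a : ℕ) :
    (∑ i ∈ Finset.range a, (1 + s14uT p) ^ i).fst.fst = (a : ZMod p) ∧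
    2 * (∑ i ∈ Finset.range a, (1 + s14uT p) ^ i).fst.snd = (a : ZMod p) * ((a : ZMod p) - 1) ∧
    2 * (∑ i ∈ Finset.range a, (1 + s14uT p) ^ i).snd.fst = (a : ZMod p) * ((a : ZMod p) - 1) ∧
    3 * (∑ i ∈ Finset.range a, (1 + s14uT p) ^ i).snd.snd =
      (a : ZMod p) * ((a : ZMod p) - 1) * ((a : ZMod p) - 2) := by
  induction a with
  | zero => simp
  | succ a ih =>
    obtain ⟨b0, b1, b2, b3⟩ := ih
    obtain ⟨c0, c1, c2, c3⟩ := s14u_coords_pow (p := p) a
    rw [Finset.sum_range_succ]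
    simp only [TrivSqZeroExt.fst_add, TrivSqZeroExt.snd_add, mul_add, b0, b1, b2, b3, c0, c1,
      c2, c3]
    refine ⟨?_, ?_, ?_, ?_⟩ <;> push_cast <;> ring

end coords

section logs

variable {p : ℕ} [Fact p.Prime]

/-- first logarithm -/
noncomputable def s14uL1 (x : DualNumber (DualNumber (ZMod p))) : ZMod p :=
  x.fst.snd / x.fst.fst

/-- third logarithm -/
noncomputable def s14uL3 (x : DualNumber (DualNumber (ZMod p))) : ZMod p :=
  x.snd.snd / x.fst.fst - x.fst.snd * x.snd.fst / x.fst.fst ^ 2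

theorem s14uL1_mul {x y : DualNumber (DualNumber (ZMod p))} (hx : x.fst.fst ≠ 0)
    (hy : y.fst.fst ≠ 0) : s14uL1 (x * y) = s14uL1 x + s14uL1 y := by
  unfold s14uL1
  rw [s14u_ff_mul, s14u_fs_mul]
  field_simp
  ring

theorem s14uL3_mul {x y : DualNumber (DualNumber (ZMod p))} (hx : x.fst.fst ≠ 0)
    (hy : y.fst.fst ≠ 0) : s14uL3 (x * y) = s14uL3 x + s14uL3 y := by
  unfold s14uL3
  rw [s14u_ff_mul, s14u_fs_mul, s14u_sf_mul, s14u_ss_mul]
  field_simp
  ring

theorem s14uL1_one : s14uL1 (1 : DualNumber (DualNumber (ZMod p))) = 0 := by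
  simp [s14uL1]

theorem s14uL3_one : s14uL3 (1 : DualNumber (DualNumber (ZMod p))) = 0 := by
  simp [s14uL3]

theorem s14u_ff_unit (x : (DualNumber (DualNumber (ZMod p)))ˣ) :
    (x : DualNumber (DualNumber (ZMod p))).fst.fst ≠ 0 := by
  intro h
  have h1 := congrArg (fun z : DualNumber (DualNumber (ZMod p)) => z.fst.fst) x.mul_inv
  simp only [s14u_ff_mul, h, zero_mul] at h1
  exact zero_ne_one h1

theorem s14u_ff_pow (x : DualNumber (DualNumber (ZMod p))) (n : ℕ) :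
    (x ^ n).fst.fst = x.fst.fst ^ n := rfl

theorem s14uL_pow {x : DualNumber (DualNumber (ZMod p))} (hx : x.fst.fst ≠ 0) (n : ℕ) :
    s14uL1 (x ^ n) = (n : ZMod p) * s14uL1 x ∧ s14uL3 (x ^ n) = (n : ZMod p) * s14uL3 x := by
  induction n with
  | zero => simp [s14uL1_one, s14uL3_one]
  | succ n ih =>
    have hn : (x ^ n).fst.fst ≠ 0 := by rw [s14u_ff_pow]; exact pow_ne_zero n hx
    rw [pow_succ, s14uL1_mul hn hx, s14uL3_mul hn hx, ih.1, ih.2]
    push_cast
    constructor <;> ring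

theorem s14uL_prod {ι : Type*} (s : Finset ι) (f : ι → DualNumber (DualNumber (ZMod p)))
    (hf : ∀ a ∈ s, (f a).fst.fst ≠ 0) :
    (∏ a ∈ s, f a).fst.fst ≠ 0 ∧ s14uL1 (∏ a ∈ s, f a) = ∑ a ∈ s, s14uL1 (f a) ∧
      s14uL3 (∏ a ∈ s, f a) = ∑ a ∈ s, s14uL3 (f a) := by
  classical
  induction s using Finset.induction_on with
  | empty => simp [s14uL1_one, s14uL3_one]
  | insert a s ha ih =>
    have h1 := hf a (Finset.mem_insert_self a s)
    obtain ⟨i0, i1, i3⟩ := ih fun b hb => hf b (Finset.mem_insert_of_mem hb)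
    rw [Finset.prod_insert ha, Finset.sum_insert ha, Finset.sum_insert ha, s14uL1_mul h1 i0,
      s14uL3_mul h1 i0, i1, i3, s14u_ff_mul]
    exact ⟨mul_ne_zero h1 i0, rfl, rfl⟩

/-- the first logarithm as a homomorphism -/
noncomputable def s14uL1Hom : Additive (DualNumber (DualNumber (ZMod p)))ˣ →+ ZMod p where
  toFun x := s14uL1 ((Additive.toMul x : (DualNumber (DualNumber (ZMod p)))ˣ) :
    DualNumber (DualNumber (ZMod p)))
  map_zero' := s14uL1_one
  map_add' _ _ := s14uL1_mul (s14u_ff_unit _) (s14u_ff_unit _)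

/-- the third logarithm as a homomorphism -/
noncomputable def s14uL3Hom : Additive (DualNumber (DualNumber (ZMod p)))ˣ →+ ZMod p where
  toFun x := s14uL3 ((Additive.toMul x : (DualNumber (DualNumber (ZMod p)))ˣ) :
    DualNumber (DualNumber (ZMod p)))
  map_zero' := s14uL3_one
  map_add' _ _ := s14uL3_mul (s14u_ff_unit _) (s14u_ff_unit _)

end logs

section sums

variable {p : ℕ} [Fact p.Prime]

theorem s14u_natCast_ne_zero {a : ℕ} (ha : a ∈ Finset.Ioo 0 p) : (a : ZMod p) ≠ 0 := by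
  rw [Finset.mem_Ioo] at ha
  rw [Ne, ZMod.natCast_eq_zero_iff]
  exact fun h => absurd (Nat.le_of_dvd ha.1 h) (not_le.mpr ha.2)

/-- power sums over `0 < a < p` vanish for exponents `0 < k < p - 1` -/
theorem s14u_powsum_zero (k : ℕ) (hk0 : 0 < k) (hk : k < p - 1) :
    ∑ a ∈ Finset.Ioo 0 p, (a : ZMod p) ^ k = 0 := by
  have hp : 0 < p := (Fact.out : p.Prime).pos
  have h1 : ∑ a ∈ Finset.Ioo 0 p, (a : ZMod p) ^ k = ∑ a ∈ Finset.range p, (a : ZMod p) ^ k := by
    refine Finset.sum_subset (fun a ha => ?_) (fun a ha ha' => ?_)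
    · rw [Finset.mem_Ioo] at ha
      exact Finset.mem_range.mpr ha.2
    · rw [Finset.mem_range] at ha
      rw [Finset.mem_Ioo, not_and] at ha'
      have : a = 0 := by
        by_contra h0
        exact ha' (Nat.pos_of_ne_zero h0) ha
      rw [this, Nat.cast_zero, zero_pow hk0.ne']
  have h2 : ∑ a ∈ Finset.range p, (a : ZMod p) ^ k = ∑ x : ZMod p, x ^ k := by
    refine Finset.sum_nbij' (fun a => (a : ZMod p)) (fun x => x.val) ?_ ?_ ?_ ?_ ?_
    · intro a _; exact Finset.mem_univ _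
    · intro x _; exact Finset.mem_range.mpr (ZMod.val_lt x)
    · intro a ha; exact ZMod.val_cast_of_lt (Finset.mem_range.mp ha)
    · intro x _; exact ZMod.natCast_zmod_val x
    · intro a _; rfl
  rw [h1, h2]
  exact FiniteField.sum_pow_lt_card_sub_one (ZMod p) k (by rwa [ZMod.card])

theorem s14u_powsum_top : ∑ a ∈ Finset.Ioo 0 p, (a : ZMod p) ^ (p - 1) = -1 := by
  have hp : 1 ≤ p := (Fact.out : p.Prime).one_le
  rw [Finset.sum_congr rfl fun a ha => ZMod.pow_card_sub_one_eq_one (s14u_natCast_ne_zero ha)]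
  rw [Finset.sum_const, Nat.card_Ioo, nsmul_eq_mul, mul_one]
  have : p - 0 - 1 = p - 1 := by omega
  rw [this, Nat.cast_sub hp, ZMod.natCast_self]
  simp

end sums

theorem s14u_log (p : ℕ) [Fact p.Prime] (hp5 : 5 ≤ p) :
    ∃ (L₁ L₃ : Additive (DualNumber (DualNumber (ZMod p)))ˣ →+ ZMod p),
      (∀ x : (DualNumber (DualNumber (ZMod p)))ˣ,
        (x : DualNumber (DualNumber (ZMod p))) = 1 + s14uT p → L₁ (Additive.ofMul x) = 1) ∧
      (∀ x : (DualNumber (DualNumber (ZMod p)))ˣ,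
        (x : DualNumber (DualNumber (ZMod p))) =
          ∏ a ∈ Finset.Ioo 0 p, (∑ i ∈ Finset.range a, (1 + s14uT p) ^ i) ^ (a ^ (p - 3)) →
        L₁ (Additive.ofMul x) = 0 ∧ L₃ (Additive.ofMul x) ≠ 0) := by
  have hpp : p.Prime := Fact.out
  have h2 : (2 : ZMod p) ≠ 0 := by
    have : ((2 : ℕ) : ZMod p) ≠ 0 := by
      rw [Ne, ZMod.natCast_eq_zero_iff]
      exact fun h => absurd (Nat.le_of_dvd (by norm_num) h) (by omega)
    exact_mod_cast this
  have h3 : (3 : ZMod p) ≠ 0 := by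
    have : ((3 : ℕ) : ZMod p) ≠ 0 := by
      rw [Ne, ZMod.natCast_eq_zero_iff]
      exact fun h => absurd (Nat.le_of_dvd (by norm_num) h) (by omega)
    exact_mod_cast this
  refine ⟨s14uL1Hom, s14uL3Hom, ?_, ?_⟩
  · intro x hx
    obtain ⟨a0, a1, -, -⟩ := s14u_coords_one_add_T (p := p)
    show s14uL1 (x : DualNumber (DualNumber (ZMod p))) = 1
    rw [hx, s14uL1, a0, a1, div_one]
  · intro x hx
    show s14uL1 (x : DualNumber (DualNumber (ZMod p))) = 0 ∧
      s14uL3 (x : DualNumber (DualNumber (ZMod p))) ≠ 0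
    rw [hx]
    -- the factors
    have hu : ∀ a ∈ Finset.Ioo 0 p,
        (∑ i ∈ Finset.range a, (1 + s14uT p) ^ i).fst.fst ≠ 0 := by
      intro a ha
      rw [(s14u_coords_sum (p := p) a).1]
      exact s14u_natCast_ne_zero ha
    have hf : ∀ a ∈ Finset.Ioo 0 p,
        ((∑ i ∈ Finset.range a, (1 + s14uT p) ^ i) ^ (a ^ (p - 3))).fst.fst ≠ 0 := by
      intro a ha
      rw [s14u_ff_pow]
      exact pow_ne_zero _ (hu a ha)
    obtain ⟨-, e1, e3⟩ := s14uL_prod (Finset.Ioo 0 p)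
      (fun a => (∑ i ∈ Finset.range a, (1 + s14uT p) ^ i) ^ (a ^ (p - 3))) hf
    rw [e1, e3]
    have hL1 : ∀ a ∈ Finset.Ioo 0 p,
        s14uL1 ((∑ i ∈ Finset.range a, (1 + s14uT p) ^ i) ^ (a ^ (p - 3))) =
          ((a : ZMod p) ^ (p - 2) - (a : ZMod p) ^ (p - 3)) / 2 := by
      intro a ha
      have ha0 := s14u_natCast_ne_zero ha
      obtain ⟨c0, c1, c2, c3⟩ := s14u_coords_sum (p := p) a
      rw [(s14uL_pow (hu a ha) _).1, s14uL1, c0]
      have e : p - 2 = (p - 3) + 1 := by omega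
      have hs : (∑ i ∈ Finset.range a, (1 + s14uT p) ^ i).fst.snd
          = (a : ZMod p) * ((a : ZMod p) - 1) / 2 := by
        rw [eq_div_iff h2]; linear_combination c1
      rw [e, pow_succ, hs]
      push_cast
      field_simp
    have hL3 : ∀ a ∈ Finset.Ioo 0 p,
        s14uL3 ((∑ i ∈ Finset.range a, (1 + s14uT p) ^ i) ^ (a ^ (p - 3))) =
          ((a : ZMod p) ^ (p - 1) - 6 * (a : ZMod p) ^ (p - 2) + 5 * (a : ZMod p) ^ (p - 3))
            / 12 := by
      intro a ha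
      have ha0 := s14u_natCast_ne_zero ha
      obtain ⟨c0, c1, c2, c3⟩ := s14u_coords_sum (p := p) a
      rw [(s14uL_pow (hu a ha) _).2, s14uL3, c0]
      have e : p - 2 = (p - 3) + 1 := by omega
      have e' : p - 1 = (p - 3) + 2 := by omega
      have hs : (∑ i ∈ Finset.range a, (1 + s14uT p) ^ i).fst.snd
          = (a : ZMod p) * ((a : ZMod p) - 1) / 2 := by
        rw [eq_div_iff h2]; linear_combination c1
      have hs' : (∑ i ∈ Finset.range a, (1 + s14uT p) ^ i).snd.fst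
          = (a : ZMod p) * ((a : ZMod p) - 1) / 2 := by
        rw [eq_div_iff h2]; linear_combination c2
      have hq : (∑ i ∈ Finset.range a, (1 + s14uT p) ^ i).snd.snd
          = (a : ZMod p) * ((a : ZMod p) - 1) * ((a : ZMod p) - 2) / 3 := by
        rw [eq_div_iff h3]; linear_combination c3
      have h12 : (12 : ZMod p) = 2 * 2 * 3 := by norm_num
      rw [e, e', pow_succ, pow_add, hs, hs', hq, h12]
      push_cast
      field_simp
      ring
    rw [Finset.sum_congr rfl hL1, Finset.sum_congr rfl hL3, ← Finset.sum_div, ← Finset.sum_div,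
      Finset.sum_sub_distrib, Finset.sum_add_distrib, Finset.sum_sub_distrib,
      ← Finset.mul_sum, ← Finset.mul_sum,
      s14u_powsum_zero (p - 2) (by omega) (by omega),
      s14u_powsum_zero (p - 3) (by omega) (by omega), s14u_powsum_top]
    constructor
    · simp
    · have h12 : (12 : ZMod p) = 2 * 2 * 3 := by norm_num
      rw [h12]
      simp [h2, h3]

end Fermat.Agent.S14L.UnitsLog
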