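import Mathlib
import Fermat.Agent.S14L.Defs
import Fermat.Agent.S14L.UnitsLog

/-!
# S14 / package U, leaf L1: the ring homomorphism `𝓞 K → F_p[t]/(t³) ⊆ D`, `ζ ↦ 1 + t`
-/

set_option autoImplicit false

open NumberField

namespace Fermat.Agent.S14L.UnitsRho

open Fermat.Agent.S14L.UnitsLog

/-- `1 + t` is a root of the `p`-th cyclotomic polynomial in `D` -/
theorem s14u_aeval_cyclotomic (p : ℕ) [Fact p.Prime] (hp5 : 5 ≤ p) :
    Polynomial.aeval (1 + s14uT p) (Polynomial.cyclotomic p ℤ) = 0 := by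
  have h1 : Polynomial.cyclotomic p (ZMod p) = (Polynomial.X - 1) ^ (p - 1) := by
    have h := Polynomial.cyclotomic_mul_prime_pow_eq (ZMod p) (p := p) (m := 1)
      (fun h => (Fact.out : p.Prime).one_lt.ne' (Nat.dvd_one.mp h)) Nat.one_pos
    simpa [Polynomial.cyclotomic_one] using h
  have h2 : Polynomial.aeval (1 + s14uT p) (Polynomial.cyclotomic p ℤ)
      = Polynomial.aeval (1 + s14uT p) (Polynomial.cyclotomic p (ZMod p)) := by
    rw [← Polynomial.map_cyclotomic_int p (ZMod p), Polynomial.aeval_def, Polynomial.aeval_def,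
      Polynomial.eval₂_map]
    congr 1
  rw [h2, h1]
  have h3 : p - 1 = 3 + (p - 4) := by omega
  simp only [map_pow, map_sub, Polynomial.aeval_X, map_one, add_sub_cancel_left]
  rw [h3, pow_add, s14uT_pow_three, zero_mul]

theorem s14u_rho (p : ℕ) [Fact p.Prime] (hp5 : 5 ≤ p) (K : Type) [Field K] [NumberField K]
    [IsCyclotomicExtension {p} ℚ K] (ζ : K) (hζ : IsPrimitiveRoot ζ p) :
    ∃ ρ : 𝓞 K →+* DualNumber (DualNumber (ZMod p)), ρ (zInt p K ζ hζ) = 1 + s14uT p := by
  have : NeZero p := ⟨(Fact.out : p.Prime).ne_zero⟩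
  have hmin : minpoly ℤ hζ.integralPowerBasis.gen = Polynomial.cyclotomic p ℤ := by
    rw [hζ.integralPowerBasis_gen, ← RingOfIntegers.minpoly_coe]
    exact (Polynomial.cyclotomic_eq_minpoly hζ (NeZero.pos p)).symm
  have hy : Polynomial.aeval (1 + s14uT p) (minpoly ℤ hζ.integralPowerBasis.gen) = 0 := by
    rw [hmin]
    exact s14u_aeval_cyclotomic p hp5
  refine ⟨(hζ.integralPowerBasis.lift (1 + s14uT p) hy : 𝓞 K →+* _), ?_⟩
  have h := hζ.integralPowerBasis.lift_gen (1 + s14uT p) hy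
  rw [hζ.integralPowerBasis_gen] at h
  exact h

end Fermat.Agent.S14L.UnitsRho
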