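import Mathlib
import Fermat.Agent.S14L.Defs
import Fermat.Agent.S14L.UnitsLog
import Fermat.Agent.S14L.UnitsRho

/-!
# S14 / package U, leaf L: local logarithms modulo `(ζ - 1)³`

Two additive characters of the unit group of `𝓞 K` (`K = ℚ(ζ_p)`, `p ≥ 5`) that factor through
`(𝓞 K / (ζ - 1)³)ˣ`, vanish on units which are `p`-th powers modulo `(ζ - 1)³`, and separate
`ζ` and the cyclotomic unit `delta`.
-/

set_option autoImplicit false

open NumberField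

namespace Fermat.Agent.S14L.UnitsLocal

open Fermat.Agent.S14L.UnitsLog Fermat.Agent.S14L.UnitsRho

theorem s14u_local (p : ℕ) [Fact p.Prime] (hp5 : 5 ≤ p) (K : Type) [Field K] [NumberField K]
    [IsCyclotomicExtension {p} ℚ K] (ζ : K) (hζ : IsPrimitiveRoot ζ p) :
    ∃ (l₁ l₃ : Additive (𝓞 K)ˣ →+ ZMod p),
      (∀ x : (𝓞 K)ˣ, (∃ w : 𝓞 K, (x : 𝓞 K) - w ^ p ∈ ppIdeal p K ζ hζ ^ 3) →
        l₁ (Additive.ofMul x) = 0 ∧ l₃ (Additive.ofMul x) = 0) ∧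
      (∀ x : (𝓞 K)ˣ, (x : 𝓞 K) = zInt p K ζ hζ → l₁ (Additive.ofMul x) = 1) ∧
      (∀ x : (𝓞 K)ˣ, (x : 𝓞 K) = delta p K ζ hζ →
        l₁ (Additive.ofMul x) = 0 ∧ l₃ (Additive.ofMul x) ≠ 0) := by
  obtain ⟨ρ, hρ⟩ := s14u_rho p hp5 K ζ hζ
  obtain ⟨L₁, L₃, hL1, hLδ⟩ := s14u_log p hp5
  have hp0 : p ≠ 0 := (Fact.out : p.Prime).ne_zero
  have hker : ∀ y ∈ ppIdeal p K ζ hζ ^ 3, ρ y = 0 := by
    intro y hy
    rw [ppIdeal, Ideal.span_singleton_pow, Ideal.mem_span_singleton'] at hy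
    obtain ⟨c, rfl⟩ := hy
    rw [map_mul, map_pow, map_sub, map_one, hρ, add_sub_cancel_left, s14uT_pow_three, mul_zero]
  have hpow : ∀ (L : Additive (DualNumber (DualNumber (ZMod p)))ˣ →+ ZMod p) (x : (𝓞 K)ˣ),
      (∃ w : 𝓞 K, (x : 𝓞 K) - w ^ p ∈ ppIdeal p K ζ hζ ^ 3) →
      L (Additive.ofMul (Units.map (ρ : 𝓞 K →* DualNumber (DualNumber (ZMod p))) x)) = 0 := by
    rintro L x ⟨w, hw⟩
    have h1 : ρ (x : 𝓞 K) = ρ w ^ p := by
      have h0 := hker _ hw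
      rw [map_sub, map_pow, sub_eq_zero] at h0
      exact h0
    have hu : IsUnit (ρ w) := by
      have h2 : IsUnit (ρ (x : 𝓞 K)) := x.isUnit.map ρ
      rw [h1] at h2
      exact (isUnit_pow_iff hp0).mp h2
    obtain ⟨W, hW⟩ := hu
    have h3 : Units.map (ρ : 𝓞 K →* DualNumber (DualNumber (ZMod p))) x = W ^ p := by
      apply Units.ext
      rw [Units.coe_map, Units.val_pow_eq_pow_val, hW]
      exact h1
    rw [h3, ofMul_pow, map_nsmul, nsmul_eq_mul, CharP.cast_eq_zero, zero_mul]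
  refine ⟨L₁.comp (MonoidHom.toAdditive
      (Units.map (ρ : 𝓞 K →* DualNumber (DualNumber (ZMod p))))),
    L₃.comp (MonoidHom.toAdditive
      (Units.map (ρ : 𝓞 K →* DualNumber (DualNumber (ZMod p))))), ?_, ?_, ?_⟩
  · intro x hx
    exact ⟨hpow L₁ x hx, hpow L₃ x hx⟩
  · intro x hx
    refine hL1 (Units.map (ρ : 𝓞 K →* DualNumber (DualNumber (ZMod p))) x) ?_
    rw [Units.coe_map]
    show ρ (x : 𝓞 K) = 1 + s14uT p
    rw [hx, hρ]
  · intro x hx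
    refine hLδ (Units.map (ρ : 𝓞 K →* DualNumber (DualNumber (ZMod p))) x) ?_
    rw [Units.coe_map]
    show ρ (x : 𝓞 K) = _
    rw [hx, delta, map_prod]
    refine Finset.prod_congr rfl fun a _ => ?_
    rw [map_pow, map_sum]
    congr 1
    refine Finset.sum_congr rfl fun i _ => ?_
    rw [map_pow, hρ]

end Fermat.Agent.S14L.UnitsLocal
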