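import Mathlib
import Fermat.Agent.S14L.Defs

/-!
# S14 / package U: the number of infinite places of `ℚ(ζ_p)`
-/

set_option autoImplicit false

open NumberField

namespace Fermat.Agent.S14L.UnitsBasic

/-- the number of infinite places -/
theorem s14u_card_places (p : ℕ) [Fact p.Prime] (hp3 : 3 ≤ p) (K : Type) [Field K] [NumberField K]
    [IsCyclotomicExtension {p} ℚ K] :
    Fintype.card (InfinitePlace K) = (p - 1) / 2 := by
  have : NeZero p := ⟨(Fact.out : p.Prime).ne_zero⟩
  rw [InfinitePlace.card_eq_nrRealPlaces_add_nrComplexPlaces,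
    IsCyclotomicExtension.Rat.nrRealPlaces_eq_zero (n := p) K (by omega), zero_add,
    IsCyclotomicExtension.Rat.nrComplexPlaces_eq_totient_div_two p,
    Nat.totient_prime (Fact.out : p.Prime)]

end Fermat.Agent.S14L.UnitsBasic
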