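import Mathlib

/-!
# S14 / L4 (units): an abstract multiplicity-one lemma

`M` a free `ℤ`-module of rank `n - 1` with an endomorphism `σ` killed by `1 + x + ⋯ + x^(n-1)`,
containing a vector `u` with `u, σ u, …, σ^(n-2) u` independent.  For a prime `p` and an
integer `γ` of exact order `n` modulo `p`, the `γ`-eigenspace of `σ` on `M / p M` is at most
one-dimensional.
-/

set_option autoImplicit false

namespace Fermat.Agent.S14L.UnitsEigen

open Polynomial

section Reduction

variable {M : Type*} [AddCommGroup M] [Module.Free ℤ M] [Module.Finite ℤ M]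
variable (p : ℕ)

/-- reduction of coordinates modulo `p` -/
noncomputable def s14uRed (m : M) : Module.Free.ChooseBasisIndex ℤ M → ZMod p :=
  fun i => ((Module.Free.chooseBasis ℤ M).repr m i : ZMod p)

theorem s14uRed_add (m m' : M) : s14uRed p (m + m') = s14uRed p m + s14uRed p m' := by
  funext i
  simp [s14uRed]

theorem s14uRed_zsmul (c : ℤ) (m : M) : s14uRed p (c • m) = (c : ZMod p) • s14uRed p m := by
  funext i
  simp [s14uRed]

theorem s14uRed_sub (m m' : M) : s14uRed p (m - m') = s14uRed p m - s14uRed p m' := by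
  funext i
  simp [s14uRed]

theorem s14uRed_eq_zero_iff (m : M) : s14uRed p m = 0 ↔ ∃ z : M, m = (p : ℤ) • z := by
  constructor
  · intro h
    have h1 : ∀ i, ((p : ℤ)) ∣ (Module.Free.chooseBasis ℤ M).repr m i := by
      intro i
      have := congrFun h i
      simp only [s14uRed, Pi.zero_apply] at this
      exact (ZMod.intCast_zmod_eq_zero_iff_dvd _ _).mp this
    choose c hc using h1
    refine ⟨∑ i, c i • (Module.Free.chooseBasis ℤ M) i, ?_⟩
    conv_lhs => rw [← (Module.Free.chooseBasis ℤ M).sum_repr m]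
    rw [Finset.smul_sum]
    refine Finset.sum_congr rfl fun i _ => ?_
    rw [hc i, mul_smul]
  · rintro ⟨z, rfl⟩
    funext i
    simp [s14uRed]

theorem s14uRed_apply_end (σ : M →ₗ[ℤ] M) (m : M) :
    s14uRed p (σ m) =
      Matrix.toLin' ((LinearMap.toMatrix (Module.Free.chooseBasis ℤ M)
        (Module.Free.chooseBasis ℤ M) σ).map (Int.cast : ℤ → ZMod p)) (s14uRed p m) := by
  funext i
  have h := congrFun (LinearMap.toMatrix_mulVec_repr (Module.Free.chooseBasis ℤ M)
    (Module.Free.chooseBasis ℤ M) σ m) i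
  simp only [s14uRed, Matrix.toLin'_apply, Matrix.mulVec, dotProduct, Matrix.map_apply]
  rw [← h]
  simp [Matrix.mulVec, dotProduct]

end Reduction

section Exists

variable {M : Type*} [AddCommGroup M] [Module.Free ℤ M] [Module.Finite ℤ M]

theorem s14u_geom_natDegree (n : ℕ) (hn : 1 ≤ n) :
    (∑ i ∈ Finset.range n, (X : ℤ[X]) ^ i).natDegree = n - 1 := by
  obtain ⟨k, rfl⟩ : ∃ k, n = k + 1 := ⟨n - 1, by omega⟩
  rw [Finset.sum_range_succ, add_comm]
  have hlt : (∑ i ∈ Finset.range k, (X : ℤ[X]) ^ i).degree < ((X : ℤ[X]) ^ k).degree := by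
    rw [degree_X_pow]
    refine (degree_sum_le _ _).trans_lt ?_
    refine (Finset.sup_lt_iff (WithBot.bot_lt_coe k)).mpr ?_
    intro i hi
    rw [degree_X_pow]
    exact WithBot.coe_lt_coe.mpr (Finset.mem_range.mp hi)
  rw [natDegree_add_eq_left_of_degree_lt hlt, natDegree_X_pow]
  simp

/-- iterated divisibility -/
theorem s14u_iter (p : ℕ) (σ : M →ₗ[ℤ] M) (lam L : ℤ) (hp0 : p ≠ 0)
    (hL : (p : ℤ) ∣ L - lam)
    (H : ∀ m : M, (∃ z : M, σ m - lam • m = (p : ℤ) • z) → ∃ z : M, m = (p : ℤ) • z)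
    (j : ℕ) : ∀ m : M, (∃ z : M, σ m - L • m = ((p : ℤ) ^ j) • z) → ∃ z : M, m = ((p : ℤ) ^ j) • z := by
  induction j with
  | zero => intro m _; exact ⟨m, by simp⟩
  | succ j ih =>
    rintro m ⟨z, hz⟩
    obtain ⟨c, hc⟩ := hL
    obtain ⟨m₁, rfl⟩ := H m ⟨(p : ℤ) ^ j • z + c • m, by
      have : σ m - lam • m = (σ m - L • m) + (L - lam) • m := by
        rw [sub_smul]; abel
      rw [this, hz, hc, smul_add, pow_succ, mul_smul, mul_smul]
      rw [smul_comm ((p : ℤ) ^ j) (p : ℤ) z]⟩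
    have h1 : (p : ℤ) • (σ m₁ - L • m₁) = (p : ℤ) • ((p : ℤ) ^ j • z) := by
      rw [smul_sub, ← map_smul, smul_comm (p : ℤ) L m₁, hz, pow_succ, mul_comm, mul_smul]
    have hp' : (p : ℤ) ≠ 0 := by exact_mod_cast hp0
    have h2 : σ m₁ - L • m₁ = (p : ℤ) ^ j • z := smul_right_injective M hp' h1
    obtain ⟨z', rfl⟩ := ih m₁ ⟨z, h2⟩
    exact ⟨z', by rw [pow_succ, mul_comm, mul_smul]⟩

/-- Step A: every root of `1 + x + ⋯ + x^(n-1)` modulo `p` is an eigenvalue of `σ` on `M / pM`. -/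
theorem s14u_exists_eigen (p : ℕ) [hp : Fact p.Prime] (n : ℕ) (hn : 2 ≤ n)
    (σ : M →ₗ[ℤ] M) (hσ : ∀ m : M, ∑ i ∈ Finset.range n, (σ ^ i) m = 0)
    (hrank : Module.finrank ℤ M = n - 1)
    (u : M) (hu : LinearIndependent ℤ (fun i : Fin (n - 1) => (σ ^ (i : ℕ)) u))
    (lam : ℤ) (hl1 : (p : ℤ) ∣ lam ^ n - 1) (hl2 : ¬ (p : ℤ) ∣ lam - 1) :
    ∃ m : M, (¬ ∃ z : M, m = (p : ℤ) • z) ∧ ∃ z : M, σ m - lam • m = (p : ℤ) • z := by
  by_contra Hc
  have H : ∀ m : M, (∃ z : M, σ m - lam • m = (p : ℤ) • z) → ∃ z : M, m = (p : ℤ) • z := by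
    intro m hm
    by_contra hm'
    exact Hc ⟨m, hm', hm⟩
  have hp0 : p ≠ 0 := hp.out.ne_zero
  -- the finite-index sublattice
  set M₀ : Submodule ℤ M := Submodule.span ℤ (Set.range fun i : Fin (n - 1) => (σ ^ (i : ℕ)) u)
    with hM₀
  have hfr : Module.finrank ℤ M₀ = Module.finrank ℤ M := by
    rw [hM₀, finrank_span_eq_card hu, hrank, Fintype.card_fin]
  have : Finite (M ⧸ M₀) := Submodule.finiteQuotientOfFreeOfRankEq M₀ hfr
  set I : ℕ := Nat.card (M ⧸ M₀) with hI
  have hIpos : 0 < I := Nat.card_pos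
  have hIm : ∀ m : M, (I : ℤ) • m ∈ M₀ := by
    intro m
    rw [← Submodule.Quotient.mk_eq_zero, Submodule.Quotient.mk_smul]
    have h := card_nsmul_eq_zero' (G := M ⧸ M₀) (x := Submodule.Quotient.mk m)
    rw [← hI] at h
    rw [natCast_zsmul]
    exact h
  -- the Teichmüller approximation
  set L : ℤ := lam ^ p ^ I with hLdef
  have hL1 : (p : ℤ) ∣ L - lam := by
    have h : ((lam ^ p ^ I : ℤ) : ZMod p) = (lam : ZMod p) := by
      push_cast
      exact ZMod.pow_card_pow (lam : ZMod p)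
    have h2 : (((L - lam : ℤ)) : ZMod p) = 0 := by
      rw [hLdef]; push_cast; push_cast at h; rw [h, sub_self]
    exact (ZMod.intCast_zmod_eq_zero_iff_dvd _ _).mp h2
  have hL2 : (p : ℤ) ^ (I + 1) ∣ L ^ n - 1 := by
    have h := dvd_sub_pow_of_dvd_sub (R := ℤ) (p := p) (a := lam ^ n) (b := 1) hl1 I
    rw [one_pow, ← pow_mul, mul_comm, pow_mul] at h
    exact h
  have hL3 : ¬ (p : ℤ) ∣ L - 1 := by
    intro h
    apply hl2
    have : lam - 1 = (L - 1) - (L - lam) := by ring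
    rw [this]
    exact dvd_sub h hL1
  have hΦ : (p : ℤ) ^ (I + 1) ∣ ∑ i ∈ Finset.range n, L ^ i := by
    have h := geom_sum_mul L n
    rw [← h] at hL2
    have hprime : Prime (p : ℤ) := Nat.prime_iff_prime_int.mp hp.out
    have hcop : IsCoprime ((p : ℤ) ^ (I + 1)) (L - 1) :=
      IsCoprime.pow_left ((Prime.coprime_iff_not_dvd hprime).mpr hL3)
    exact hcop.dvd_of_dvd_mul_right hL2
  obtain ⟨c', hc'⟩ := hΦ
  have Hit := s14u_iter p σ lam L hp0 hL1 H (I + 1)
  -- the polynomial division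
  set P : ℤ[X] := ∑ i ∈ Finset.range n, (X : ℤ[X]) ^ i with hP
  have hPmonic : P.Monic := monic_geom_sum_X (by omega)
  have hPdeg : P.natDegree = n - 1 := s14u_geom_natDegree n (by omega)
  have hPeval : P.eval L = ∑ i ∈ Finset.range n, L ^ i := by
    rw [hP, eval_finsetSum]
    simp
  obtain ⟨Q, hQ⟩ := X_sub_C_dvd_sub_C_eval (a := L) (p := P)
  have hsubmonic : (P - C (P.eval L)).Monic := by
    refine hPmonic.sub_of_left ?_
    refine (degree_C_le).trans_lt ?_
    rw [degree_eq_natDegree hPmonic.ne_zero, hPdeg]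
    exact_mod_cast (by omega : 0 < n - 1)
  have hQmonic : Q.Monic := by
    rw [hQ] at hsubmonic
    exact (monic_X_sub_C L).of_mul_monic_left hsubmonic
  have hQdeg : Q.natDegree + 1 = n - 1 := by
    have h := congrArg natDegree hQ
    rw [natDegree_sub_C, hPdeg, (monic_X_sub_C L).natDegree_mul hQmonic, natDegree_X_sub_C] at h
    omega
  -- evaluate at σ
  have hev : aeval σ P - (P.eval L) • (1 : Module.End ℤ M) =
      (σ - L • (1 : Module.End ℤ M)) * aeval σ Q := by
    have h := congrArg (aeval σ) hQ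
    rw [map_sub, map_mul, map_sub, aeval_X, aeval_C, aeval_C] at h
    simpa [Algebra.algebraMap_eq_smul_one] using h
  have hPσ : ∀ m : M, (aeval σ P) m = ∑ i ∈ Finset.range n, (σ ^ i) m := by
    intro m
    rw [hP, map_sum]
    simp [LinearMap.sum_apply]
  set v : M := (aeval σ Q) u with hv
  have hv1 : σ v - L • v = (p : ℤ) ^ (I + 1) • (-(c' • u)) := by
    have h := congrArg (fun f : Module.End ℤ M => f u) hev
    simp only [LinearMap.sub_apply, LinearMap.smul_apply, Module.End.one_apply,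
      Module.End.mul_apply] at h
    rw [hPσ, hσ, hPeval, hc', zero_sub] at h
    rw [← h, smul_neg, mul_smul]
  obtain ⟨z, hz⟩ := Hit v ⟨_, hv1⟩
  -- expand v
  have hv2 : v = ∑ i : Fin (n - 1), Q.coeff (i : ℕ) • (σ ^ (i : ℕ)) u := by
    rw [hv, aeval_eq_sum_range, hQdeg, LinearMap.sum_apply, Finset.sum_range]
    rfl
  obtain ⟨d, hd⟩ := (Submodule.mem_span_range_iff_exists_fun ℤ).mp (hIm z)
  have hlin := Fintype.linearIndependent_iff.mp hu
    (fun i => (I : ℤ) * Q.coeff (i : ℕ) - (p : ℤ) ^ (I + 1) * d i) (by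
      simp only [sub_smul, Finset.sum_sub_distrib, mul_smul]
      rw [← Finset.smul_sum, ← Finset.smul_sum, ← hv2, hd, hz, smul_comm, sub_self])
  have hlast := hlin ⟨n - 2, by omega⟩
  have hcoef : Q.coeff (n - 2) = 1 := by
    have : Q.natDegree = n - 2 := by omega
    rw [← this]
    exact hQmonic.coeff_natDegree
  simp only [] at hlast
  rw [hcoef, mul_one, sub_eq_zero] at hlast
  have hdvd : (p : ℤ) ^ (I + 1) ∣ (I : ℤ) := ⟨_, hlast⟩
  have hdvd' : p ^ (I + 1) ∣ I := by exact_mod_cast hdvd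
  have hle := Nat.le_of_dvd hIpos hdvd'
  have hlt : I < p ^ I := Nat.lt_pow_self hp.out.one_lt
  have hle2 : p ^ I ≤ p ^ (I + 1) := Nat.pow_le_pow_right hp.out.pos (Nat.le_succ I)
  omega

end Exists

section Main

variable {M : Type*} [AddCommGroup M] [Module.Free ℤ M] [Module.Finite ℤ M]

/-- **Multiplicity one.**  The `γ`-eigenspace of `σ` on `M / pM` is at most one-dimensional. -/
theorem s14u_eigen_le_one (p : ℕ) [hp : Fact p.Prime] (n : ℕ) (hn : 2 ≤ n)
    (σ : M →ₗ[ℤ] M) (hσ : ∀ m : M, ∑ i ∈ Finset.range n, (σ ^ i) m = 0)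
    (hrank : Module.finrank ℤ M = n - 1)
    (u : M) (hu : LinearIndependent ℤ (fun i : Fin (n - 1) => (σ ^ (i : ℕ)) u))
    (γ : ℤ) (hγ : orderOf (γ : ZMod p) = n)
    (x y : M) (hx : ∃ z : M, σ x - γ • x = (p : ℤ) • z) (hy : ∃ z : M, σ y - γ • y = (p : ℤ) • z)
    (hx0 : ¬ ∃ z : M, x = (p : ℤ) • z) :
    ∃ (j : ℤ) (z : M), y = j • x + (p : ℤ) • z := by
  classical
  set f : Module.End (ZMod p) (Module.Free.ChooseBasisIndex ℤ M → ZMod p) :=
    Matrix.toLin' ((LinearMap.toMatrix (Module.Free.chooseBasis ℤ M)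
        (Module.Free.chooseBasis ℤ M) σ).map (Int.cast : ℤ → ZMod p)) with hf
  have hred : ∀ m : M, s14uRed p (σ m) = f (s14uRed p m) := fun m => s14uRed_apply_end p σ m
  have hdim : Module.finrank (ZMod p) (Module.Free.ChooseBasisIndex ℤ M → ZMod p) = n - 1 := by
    rw [Module.finrank_fintype_fun_eq_card, ← Module.finrank_eq_card_chooseBasisIndex, hrank]
  -- eigen-relations pass to the reduction
  have hpass : ∀ (lam : ℤ) (m : M), (∃ z : M, σ m - lam • m = (p : ℤ) • z) →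
      f (s14uRed p m) = (lam : ZMod p) • s14uRed p m := by
    rintro lam m ⟨z, hz⟩
    have h := congrArg (s14uRed p) hz
    rw [s14uRed_sub, s14uRed_zsmul, s14uRed_zsmul, hred] at h
    simp only [Int.cast_natCast, CharP.cast_eq_zero, zero_smul] at h
    exact sub_eq_zero.mp h
  -- eigenvectors for the other eigenvalues
  have hA : ∀ k : ℕ, 0 < k → k < n → ∃ w : Module.Free.ChooseBasisIndex ℤ M → ZMod p,
      f.HasEigenvector ((γ : ZMod p) ^ k) w := by
    intro k hk0 hkn
    have h1 : (p : ℤ) ∣ (γ ^ k) ^ n - 1 := by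
      rw [← ZMod.intCast_zmod_eq_zero_iff_dvd]
      push_cast
      rw [← pow_mul, mul_comm, pow_mul, ← hγ, pow_orderOf_eq_one, one_pow, sub_self]
    have h2 : ¬ (p : ℤ) ∣ γ ^ k - 1 := by
      rw [← ZMod.intCast_zmod_eq_zero_iff_dvd]
      push_cast
      rw [sub_eq_zero]
      exact pow_ne_one_of_lt_orderOf hk0.ne' (hγ ▸ hkn)
    obtain ⟨m, hm0, hm⟩ := s14u_exists_eigen p n hn σ hσ hrank u hu (γ ^ k) h1 h2
    refine ⟨s14uRed p m, Module.End.hasEigenvector_iff.mpr ⟨?_, ?_⟩⟩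
    · rw [Module.End.mem_eigenspace_iff]
      have := hpass (γ ^ k) m hm
      simpa using this
    · intro h0
      exact hm0 ((s14uRed_eq_zero_iff p m).mp h0)
  choose! ws hws using hA
  set U : Submodule (ZMod p) (Module.Free.ChooseBasisIndex ℤ M → ZMod p) :=
    ⨆ (μ' : ZMod p) (_ : μ' ≠ (γ : ZMod p)), f.eigenspace μ' with hU
  have hdisj : Disjoint (f.eigenspace (γ : ZMod p)) U :=
    (Module.End.eigenspaces_iSupIndep f) (γ : ZMod p)
  -- the family of the other eigenvectors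
  have hinj : Function.Injective (fun i : Fin (n - 2) => (γ : ZMod p) ^ ((i : ℕ) + 2)) := by
    intro i j hij
    have := pow_injOn_Iio_orderOf (x := (γ : ZMod p))
      (show (i : ℕ) + 2 ∈ Set.Iio (orderOf (γ : ZMod p)) by
        rw [hγ]; exact Set.mem_Iio.mpr (by omega))
      (show (j : ℕ) + 2 ∈ Set.Iio (orderOf (γ : ZMod p)) by
        rw [hγ]; exact Set.mem_Iio.mpr (by omega)) hij
    exact Fin.ext (by omega)
  have hli : LinearIndependent (ZMod p) (fun i : Fin (n - 2) => ws ((i : ℕ) + 2)) :=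
    Module.End.eigenvectors_linearIndependent' f _ hinj _
      (fun i => hws ((i : ℕ) + 2) (by omega) (by omega))
  have hspan : Submodule.span (ZMod p) (Set.range fun i : Fin (n - 2) => ws ((i : ℕ) + 2)) ≤ U := by
    rw [Submodule.span_le]
    rintro _ ⟨i, rfl⟩
    have hmem := (Module.End.hasEigenvector_iff.mp
      (hws ((i : ℕ) + 2) (by omega) (by omega))).1
    have hne : (γ : ZMod p) ^ ((i : ℕ) + 2) ≠ (γ : ZMod p) := by
      intro h
      have := pow_injOn_Iio_orderOf (x := (γ : ZMod p))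
        (show (i : ℕ) + 2 ∈ Set.Iio (orderOf (γ : ZMod p)) by
          rw [hγ]; exact Set.mem_Iio.mpr (by omega))
        (show 1 ∈ Set.Iio (orderOf (γ : ZMod p)) by
          rw [hγ]; exact Set.mem_Iio.mpr (by omega)) (by simpa using h)
      omega
    exact (le_iSup₂_of_le (f := fun (μ' : ZMod p) (_ : μ' ≠ (γ : ZMod p)) => f.eigenspace μ')
      ((γ : ZMod p) ^ ((i : ℕ) + 2)) hne le_rfl) hmem
  have hUdim : n - 2 ≤ Module.finrank (ZMod p) U := by
    have h1 := finrank_span_eq_card hli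
    rw [Fintype.card_fin] at h1
    rw [← h1]
    exact Submodule.finrank_mono hspan
  have hsum := Submodule.finrank_add_finrank_le_of_disjoint hdisj
  rw [hdim] at hsum
  have hle1 : Module.finrank (ZMod p) (f.eigenspace (γ : ZMod p)) ≤ 1 := by omega
  -- the two given vectors
  have hxe : s14uRed p x ∈ f.eigenspace (γ : ZMod p) :=
    Module.End.mem_eigenspace_iff.mpr (hpass γ x hx)
  have hye : s14uRed p y ∈ f.eigenspace (γ : ZMod p) :=
    Module.End.mem_eigenspace_iff.mpr (hpass γ y hy)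
  have hx0' : s14uRed p x ≠ 0 := fun h0 => hx0 ((s14uRed_eq_zero_iff p x).mp h0)
  have hxne : (⟨s14uRed p x, hxe⟩ : f.eigenspace (γ : ZMod p)) ≠ 0 := by
    intro h
    exact hx0' (congrArg Subtype.val h)
  have hge1 : 1 ≤ Module.finrank (ZMod p) (f.eigenspace (γ : ZMod p)) := by
    by_contra hlt
    have h0 : Module.finrank (ZMod p) (f.eigenspace (γ : ZMod p)) = 0 := by omega
    have := Module.finrank_zero_iff.mp h0
    exact hxne (Subsingleton.elim _ _)
  obtain ⟨c, hc⟩ := exists_smul_eq_of_finrank_eq_one (le_antisymm hle1 hge1) hxne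
    (⟨s14uRed p y, hye⟩ : f.eigenspace (γ : ZMod p))
  have hc' : c • s14uRed p x = s14uRed p y := congrArg Subtype.val hc
  refine ⟨(c.val : ℤ), ?_⟩
  have hz : s14uRed p (y - (c.val : ℤ) • x) = 0 := by
    rw [s14uRed_sub, s14uRed_zsmul]
    have hcast : (((c.val : ℤ)) : ZMod p) = c := by
      rw [Int.cast_natCast, ZMod.natCast_zmod_val]
    rw [hcast, hc', sub_self]
  obtain ⟨z, hz'⟩ := (s14uRed_eq_zero_iff p _).mp hz
  exact ⟨z, by rw [← hz']; abel⟩

end Main

end Fermat.Agent.S14L.UnitsEigen
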