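import Mathlib
import Fermat.Agent.S14L.UnitsEigen

/-!
# S14 / L4 (units): the archimedean input

For a Galois number field `K/ℚ` with cyclic Galois group generated by `σ`, the unit group modulo
torsion is a module over `ℤ[x]/(1 + x + ⋯ + x^(n-1))` (`n` = number of infinite places) and
contains a unit whose first `n - 1` conjugates are multiplicatively independent.
-/

set_option autoImplicit false

namespace Fermat.Agent.S14L.UnitsArch

open NumberField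

/-- a maximum principle for weakly diagonally dominant matrices with negative off-diagonal. -/
theorem s14u_max_principle (n : ℕ) (B : Fin n → Fin n → ℝ)
    (hneg : ∀ j i, i ≠ j → B j i < 0) (hsum : ∀ j, ∑ i, B j i = 0)
    (r : Fin n → ℝ) (hr : ∀ j, ∑ i, r i * B j i = 0) : ∀ i j, r i = r j := by
  rcases Nat.eq_zero_or_pos n with rfl | hn
  · intro i; exact i.elim0
  have : Nonempty (Fin n) := ⟨⟨0, hn⟩⟩
  obtain ⟨j₀, hj₀⟩ := Finite.exists_max r
  have key : ∀ i, r i = r j₀ := by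
    have h0 : ∑ i, (r j₀ - r i) * B j₀ i = 0 := by
      simp only [sub_mul, Finset.sum_sub_distrib, ← Finset.mul_sum, hsum, hr, mul_zero, sub_zero]
    have hnonpos : ∀ i ∈ Finset.univ, (r j₀ - r i) * B j₀ i ≤ 0 := by
      intro i _
      by_cases hij : i = j₀
      · subst hij; simp
      · exact mul_nonpos_of_nonneg_of_nonpos (sub_nonneg.mpr (hj₀ i)) (hneg j₀ i hij).le
    have hall := (Finset.sum_eq_zero_iff_of_nonpos hnonpos).mp h0
    intro i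
    by_cases hij : i = j₀
    · rw [hij]
    · have := hall i (Finset.mem_univ i)
      rcases mul_eq_zero.mp this with h | h
      · linarith
      · exact absurd h (hneg j₀ i hij).ne
  intro i j
  rw [key i, key j]

variable {K : Type*} [Field K] [NumberField K]

/-- the Galois action on units -/
noncomputable def s14uAct (τ : K ≃ₐ[ℚ] K) : (𝓞 K)ˣ →* (𝓞 K)ˣ :=
  Units.map ((MulSemiringAction.toRingHom (K ≃ₐ[ℚ] K) (𝓞 K) τ : 𝓞 K →+* 𝓞 K) : 𝓞 K →* 𝓞 K)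

theorem s14uAct_coe (τ : K ≃ₐ[ℚ] K) (u : (𝓞 K)ˣ) :
    (((s14uAct τ u : (𝓞 K)ˣ) : 𝓞 K) : K) = τ ((u : 𝓞 K) : K) := rfl

theorem s14uAct_one (u : (𝓞 K)ˣ) : s14uAct (1 : K ≃ₐ[ℚ] K) u = u := by
  apply Units.ext
  apply RingOfIntegers.ext
  rw [s14uAct_coe]
  rfl

theorem s14uAct_mul (τ τ' : K ≃ₐ[ℚ] K) (u : (𝓞 K)ˣ) :
    s14uAct (τ * τ') u = s14uAct τ (s14uAct τ' u) := by
  apply Units.ext
  apply RingOfIntegers.ext
  rw [s14uAct_coe, s14uAct_coe, s14uAct_coe]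
  rfl

theorem s14u_place (τ : K ≃ₐ[ℚ] K) (u : (𝓞 K)ˣ) (w : InfinitePlace K) :
    w (((s14uAct τ u : (𝓞 K)ˣ) : 𝓞 K) : K) = (τ⁻¹ • w) ((u : 𝓞 K) : K) := by
  rw [s14uAct_coe, InfinitePlace.smul_apply]
  rfl

section Places

variable [IsGalois ℚ K]

theorem s14u_orbit_eq_univ (w : InfinitePlace K) :
    MulAction.orbit (K ≃ₐ[ℚ] K) w = Set.univ := by
  ext w'
  simp only [Set.mem_univ, iff_true]
  rw [InfinitePlace.mem_orbit_iff]
  exact Subsingleton.elim _ _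

theorem s14u_pow_card_smul (σ : K ≃ₐ[ℚ] K) (hσ : ∀ τ : K ≃ₐ[ℚ] K, τ ∈ Subgroup.zpowers σ)
    (w : InfinitePlace K) : σ ^ (Fintype.card (InfinitePlace K)) • w = w := by
  have hnormal : (MulAction.stabilizer (K ≃ₐ[ℚ] K) w).Normal := by
    refine ⟨fun a ha g => ?_⟩
    obtain ⟨i, rfl⟩ := Subgroup.mem_zpowers_iff.mp (hσ a)
    obtain ⟨j, rfl⟩ := Subgroup.mem_zpowers_iff.mp (hσ g)
    rw [zpow_mul_comm, mul_inv_cancel_right]
    exact ha
  have hidx : (MulAction.stabilizer (K ≃ₐ[ℚ] K) w).index = Fintype.card (InfinitePlace K) := by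
    rw [MulAction.index_stabilizer, s14u_orbit_eq_univ, Set.ncard_univ, Nat.card_eq_fintype_card]
  have h := Subgroup.pow_index_mem (MulAction.stabilizer (K ≃ₐ[ℚ] K) w) σ
  rw [hidx] at h
  exact MulAction.mem_stabilizer_iff.mp h

theorem s14u_zpow_smul (σ : K ≃ₐ[ℚ] K) (hσ : ∀ τ : K ≃ₐ[ℚ] K, τ ∈ Subgroup.zpowers σ)
    (w : InfinitePlace K) (z : ℤ) :
    σ ^ z • w = σ ^ (z % (Fintype.card (InfinitePlace K) : ℤ)).toNat • w := by
  set n := Fintype.card (InfinitePlace K) with hn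
  have hnpos : 0 < n := Fintype.card_pos
  have h1 : ∀ q : ℤ, (σ ^ n) ^ q • w = w := by
    intro q
    have hmem : σ ^ n ∈ MulAction.stabilizer (K ≃ₐ[ℚ] K) w :=
      MulAction.mem_stabilizer_iff.mpr (s14u_pow_card_smul σ hσ w)
    exact MulAction.mem_stabilizer_iff.mp (Subgroup.zpow_mem _ hmem q)
  have hz : z = (z % (n : ℤ)) + (n : ℤ) * (z / (n : ℤ)) := (Int.emod_add_mul_ediv z n).symm
  have hnn : 0 ≤ z % (n : ℤ) := Int.emod_nonneg z (by exact_mod_cast hnpos.ne')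
  conv_lhs => rw [hz, zpow_add, zpow_mul, zpow_natCast, mul_smul, h1]
  rw [← zpow_natCast σ (z % (n : ℤ)).toNat, Int.toNat_of_nonneg hnn]

theorem s14u_places_bij (σ : K ≃ₐ[ℚ] K) (hσ : ∀ τ : K ≃ₐ[ℚ] K, τ ∈ Subgroup.zpowers σ)
    (w₁ : InfinitePlace K) :
    Function.Bijective (fun k : Fin (Fintype.card (InfinitePlace K)) => σ ^ (k : ℕ) • w₁) := by
  rw [Fintype.bijective_iff_surjective_and_card]
  refine ⟨fun w => ?_, by simp⟩
  have hw : w ∈ MulAction.orbit (K ≃ₐ[ℚ] K) w₁ := by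
    rw [s14u_orbit_eq_univ]; exact Set.mem_univ _
  obtain ⟨τ, rfl⟩ := hw
  obtain ⟨z, rfl⟩ := Subgroup.mem_zpowers_iff.mp (hσ τ)
  have hnpos : 0 < Fintype.card (InfinitePlace K) := Fintype.card_pos
  refine ⟨⟨(z % (Fintype.card (InfinitePlace K) : ℤ)).toNat, ?_⟩, ?_⟩
  · have h1 : z % (Fintype.card (InfinitePlace K) : ℤ) < (Fintype.card (InfinitePlace K) : ℤ) :=
      Int.emod_lt_of_pos z (by exact_mod_cast hnpos)
    have h2 : 0 ≤ z % (Fintype.card (InfinitePlace K) : ℤ) :=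
      Int.emod_nonneg z (by exact_mod_cast hnpos.ne')
    omega
  · exact (s14u_zpow_smul σ hσ w₁ z).symm

theorem s14u_mult_eq (w w' : InfinitePlace K) : w.mult = w'.mult := by
  have hw : w' ∈ MulAction.orbit (K ≃ₐ[ℚ] K) w := by
    rw [s14u_orbit_eq_univ]; exact Set.mem_univ _
  obtain ⟨τ, rfl⟩ := hw
  unfold InfinitePlace.mult
  rw [InfinitePlace.isReal_smul_iff]

/-- the sum of the logarithms of a unit at all places vanishes -/
theorem s14u_sum_log (u : (𝓞 K)ˣ) :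
    ∑ w : InfinitePlace K, Real.log (w ((u : 𝓞 K) : K)) = 0 := by
  have h := NumberField.Units.sum_mult_mul_log u
  obtain ⟨w₀⟩ : Nonempty (InfinitePlace K) := inferInstance
  have h2 : ∑ w : InfinitePlace K, (w.mult : ℝ) * Real.log (w ((u : 𝓞 K) : K)) =
      (w₀.mult : ℝ) * ∑ w : InfinitePlace K, Real.log (w ((u : 𝓞 K) : K)) := by
    rw [Finset.mul_sum]
    refine Finset.sum_congr rfl fun w _ => ?_
    rw [s14u_mult_eq w w₀]
  have h3 : (w₀.mult : ℝ) ≠ 0 := by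
    exact_mod_cast InfinitePlace.mult_ne_zero
  have h4 : (w₀.mult : ℝ) * ∑ w : InfinitePlace K, Real.log (w ((u : 𝓞 K) : K)) = 0 := by
    rw [← h2]; exact h
  exact (mul_eq_zero.mp h4).resolve_left h3

theorem s14u_places_bij' (σ : K ≃ₐ[ℚ] K) (hσ : ∀ τ : K ≃ₐ[ℚ] K, τ ∈ Subgroup.zpowers σ)
    (n : ℕ) (hn : Fintype.card (InfinitePlace K) = n) (w₁ : InfinitePlace K) :
    Function.Bijective (fun k : Fin n => σ ^ (k : ℕ) • w₁) := by
  subst hn
  exact s14u_places_bij σ hσ w₁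

theorem s14u_gen_inv (σ : K ≃ₐ[ℚ] K) (hσ : ∀ τ : K ≃ₐ[ℚ] K, τ ∈ Subgroup.zpowers σ) :
    ∀ τ : K ≃ₐ[ℚ] K, τ ∈ Subgroup.zpowers σ⁻¹ := by
  intro τ
  rw [Subgroup.zpowers_inv]
  exact hσ τ

omit [IsGalois ℚ K] in
theorem s14uAct_prod {ι : Type*} (s : Finset ι) (f : ι → (𝓞 K)ˣ) (w : InfinitePlace K) :
    w (((∏ i ∈ s, f i : (𝓞 K)ˣ) : 𝓞 K) : K) = ∏ i ∈ s, w (((f i : (𝓞 K)ˣ) : 𝓞 K) : K) := by
  classical
  induction s using Finset.induction_on with
  | empty => simp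
  | insert a s ha ih =>
    rw [Finset.prod_insert ha, Finset.prod_insert ha, ← ih]
    simp

/-- the "norm" `∏_{k<n} σ^k u` is a root of unity -/
theorem s14u_prod_mem_torsion (σ : K ≃ₐ[ℚ] K) (hσ : ∀ τ : K ≃ₐ[ℚ] K, τ ∈ Subgroup.zpowers σ)
    (n : ℕ) (hn : Fintype.card (InfinitePlace K) = n) (u : (𝓞 K)ˣ) :
    ∏ k ∈ Finset.range n, s14uAct (σ ^ k) u ∈ NumberField.Units.torsion K := by
  rw [NumberField.Units.mem_torsion]
  intro w
  change w (((∏ k ∈ Finset.range n, s14uAct (σ ^ k) u : (𝓞 K)ˣ) : 𝓞 K) : K) = 1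
  rw [s14uAct_prod]
  have h1 : ∀ k ∈ Finset.range n, w (((s14uAct (σ ^ k) u : (𝓞 K)ˣ) : 𝓞 K) : K) =
      (σ⁻¹ ^ k • w) ((u : 𝓞 K) : K) := by
    intro k _
    rw [s14u_place, inv_pow]
  rw [Finset.prod_congr rfl h1, Finset.prod_range (fun k => (σ⁻¹ ^ k • w) ((u : 𝓞 K) : K))]
  have hbij := s14u_places_bij' σ⁻¹ (s14u_gen_inv σ hσ) n hn w
  rw [hbij.prod_comp (fun w' : InfinitePlace K => w' ((u : 𝓞 K) : K))]
  apply Real.eq_one_of_pos_of_log_eq_zero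
  · exact Finset.prod_pos fun w' _ => NumberField.Units.pos_at_place u w'
  · rw [Real.log_prod (fun w' _ => (NumberField.Units.pos_at_place u w').ne')]
    exact s14u_sum_log u

/-- **Archimedean input**: a unit whose first `n - 1` conjugates are multiplicatively
independent modulo torsion. -/
theorem s14u_arch (σ : K ≃ₐ[ℚ] K) (hσ : ∀ τ : K ≃ₐ[ℚ] K, τ ∈ Subgroup.zpowers σ)
    (m : ℕ) (hn : Fintype.card (InfinitePlace K) = m + 1) :
    ∃ u₀ : (𝓞 K)ˣ, ∀ r : Fin m → ℤ,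
      (∏ i : Fin m, (s14uAct (σ ^ (i : ℕ)) u₀) ^ (r i)) ∈ NumberField.Units.torsion K →
        ∀ i, r i = 0 := by
  obtain ⟨w₁⟩ : Nonempty (InfinitePlace K) := inferInstance
  obtain ⟨u₀, hu₀⟩ := NumberField.Units.dirichletUnitTheorem.exists_unit K w₁
  refine ⟨u₀, fun r hr => ?_⟩
  have hbij := s14u_places_bij' σ hσ (m + 1) hn w₁
  set B : Fin (m + 1) → Fin (m + 1) → ℝ := fun j i =>
    Real.log ((σ ^ (j : ℕ) • w₁) (((s14uAct (σ ^ (i : ℕ)) u₀ : (𝓞 K)ˣ) : 𝓞 K) : K)) with hB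
  have hneg : ∀ j i, i ≠ j → B j i < 0 := by
    intro j i hij
    simp only [hB]
    rw [s14u_place]
    apply hu₀
    intro h
    rw [inv_smul_eq_iff] at h
    exact hij (hbij.injective h).symm
  have hsum : ∀ j, ∑ i, B j i = 0 := by
    intro j
    simp only [hB]
    rw [← Real.log_prod (fun i _ => (NumberField.Units.pos_at_place _ _).ne')]
    rw [Fin.prod_univ_eq_prod_range (fun i =>
      (σ ^ (j : ℕ) • w₁) (((s14uAct (σ ^ i) u₀ : (𝓞 K)ˣ) : 𝓞 K) : K)) (m + 1)]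
    rw [← s14uAct_prod]
    have ht := s14u_prod_mem_torsion σ hσ (m + 1) hn u₀
    rw [NumberField.Units.mem_torsion] at ht
    have := ht (σ ^ (j : ℕ) • w₁)
    rw [show (σ ^ (j : ℕ) • w₁) (((∏ i ∈ Finset.range (m + 1), s14uAct (σ ^ i) u₀ : (𝓞 K)ˣ) : 𝓞 K) : K)
      = 1 from this, Real.log_one]
  set r' : Fin (m + 1) → ℝ := fun i => if h : (i : ℕ) < m then (r ⟨i, h⟩ : ℝ) else 0 with hr'
  have hrB : ∀ j, ∑ i, r' i * B j i = 0 := by
    intro j
    rw [Fin.sum_univ_castSucc]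
    have hlast : r' (Fin.last m) = 0 := by simp [hr']
    rw [hlast, zero_mul, add_zero]
    have hcs : ∀ i : Fin m, r' i.castSucc = (r i : ℝ) := by
      intro i
      simp [hr']
    simp only [hcs, hB, Fin.val_castSucc]
    have hlog : ∀ i : Fin m, (r i : ℝ) *
        Real.log ((σ ^ (j : ℕ) • w₁) (((s14uAct (σ ^ (i : ℕ)) u₀ : (𝓞 K)ˣ) : 𝓞 K) : K)) =
        Real.log ((σ ^ (j : ℕ) • w₁) ((((s14uAct (σ ^ (i : ℕ)) u₀) ^ (r i) : (𝓞 K)ˣ) : 𝓞 K) : K)) := by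
      intro i
      rw [show ((((s14uAct (σ ^ (i : ℕ)) u₀) ^ (r i) : (𝓞 K)ˣ) : 𝓞 K) : K) =
        (((s14uAct (σ ^ (i : ℕ)) u₀ : (𝓞 K)ˣ) : 𝓞 K) : K) ^ (r i) from
        NumberField.Units.coe_zpow _ _, map_zpow₀, Real.log_zpow]
    rw [Finset.sum_congr rfl (fun i _ => hlog i)]
    rw [← Real.log_prod (fun i _ => (NumberField.Units.pos_at_place _ _).ne')]
    rw [← s14uAct_prod]
    rw [NumberField.Units.mem_torsion] at hr
    have := hr (σ ^ (j : ℕ) • w₁)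
    rw [show (σ ^ (j : ℕ) • w₁) (((∏ i : Fin m, (s14uAct (σ ^ (i : ℕ)) u₀) ^ (r i) : (𝓞 K)ˣ) : 𝓞 K) : K)
      = 1 from this, Real.log_one]
  have key := s14u_max_principle (m + 1) B hneg hsum r' hrB
  intro i
  have h1 := key i.castSucc (Fin.last m)
  have h2 : r' i.castSucc = (r i : ℝ) := by simp [hr']
  have h3 : r' (Fin.last m) = 0 := by simp [hr']
  rw [h2, h3] at h1
  exact_mod_cast h1

end Places

end Fermat.Agent.S14L.UnitsArch
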