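import Mathlib
import Fermat.Agent.S14L.UnitsEigen
import Fermat.Agent.S14L.UnitsArch

/-!
# S14 / package U: two units of the same eigen-type are dependent modulo `p`-th powers
-/

set_option autoImplicit false

open NumberField

namespace Fermat.Agent.S14L.UnitsQuot

open Fermat.Agent.S14L.UnitsEigen Fermat.Agent.S14L.UnitsArch

section Wrapper

variable (K : Type*) [Field K] [NumberField K]

/-- the units modulo torsion, written additively -/
def S14uM : Type _ := Additive ((𝓞 K)ˣ ⧸ (NumberField.Units.torsion K))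

noncomputable instance s14uMAddCommGroup : AddCommGroup (S14uM K) :=
  (Additive.addCommGroup : AddCommGroup (Additive ((𝓞 K)ˣ ⧸ (NumberField.Units.torsion K))))

/-- the `ℤ`-module structure on the units modulo torsion (written additively) -/
noncomputable local instance s14uModInst :
    Module ℤ (Additive ((𝓞 K)ˣ ⧸ (NumberField.Units.torsion K))) :=
  AddCommGroup.toIntModule (Additive ((𝓞 K)ˣ ⧸ (NumberField.Units.torsion K)))

instance s14uMFree : Module.Free ℤ (S14uM K) :=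
  (inferInstance : Module.Free ℤ (Additive ((𝓞 K)ˣ ⧸ (NumberField.Units.torsion K))))

instance s14uMFinite : Module.Finite ℤ (S14uM K) :=
  (inferInstance : Module.Finite ℤ (Additive ((𝓞 K)ˣ ⧸ (NumberField.Units.torsion K))))

theorem s14uM_finrank : Module.finrank ℤ (S14uM K) = NumberField.Units.rank K :=
  NumberField.Units.finrank_modTorsion K

end Wrapper

variable {K : Type*} [Field K] [NumberField K]

theorem s14uAct_mem_torsion (τ : K ≃ₐ[ℚ] K) {t : (𝓞 K)ˣ} (ht : t ∈ NumberField.Units.torsion K) :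
    s14uAct τ t ∈ NumberField.Units.torsion K := by
  have h : IsOfFinOrder t := (CommGroup.mem_torsion t).mp ht
  exact (CommGroup.mem_torsion _).mpr ((s14uAct τ).isOfFinOrder h)

/-- the Galois action on units modulo torsion -/
noncomputable def s14uQ (τ : K ≃ₐ[ℚ] K) :
    (𝓞 K)ˣ ⧸ (NumberField.Units.torsion K) →* (𝓞 K)ˣ ⧸ (NumberField.Units.torsion K) :=
  QuotientGroup.map _ _ (s14uAct τ) (fun _ ht => s14uAct_mem_torsion τ ht)

/-- the class of a unit in the additive group of units modulo torsion -/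
noncomputable def s14uCl (u : (𝓞 K)ˣ) : S14uM K :=
  Additive.ofMul (QuotientGroup.mk u)

theorem s14uCl_surj (m : S14uM K) : ∃ u : (𝓞 K)ˣ, s14uCl u = m := by
  obtain ⟨u, hu⟩ := QuotientGroup.mk_surjective (Additive.toMul m)
  exact ⟨u, by unfold s14uCl; rw [hu]; rfl⟩

theorem s14uCl_mul (u v : (𝓞 K)ˣ) : s14uCl (u * v) = s14uCl u + s14uCl v := rfl

theorem s14uCl_one : s14uCl (1 : (𝓞 K)ˣ) = 0 := rfl

theorem s14uCl_pow (u : (𝓞 K)ˣ) (k : ℕ) : s14uCl (u ^ k) = (k : ℤ) • s14uCl u := by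
  induction k with
  | zero => simp [s14uCl_one]
  | succ k ih => rw [pow_succ, s14uCl_mul, ih]; push_cast; rw [add_smul, one_smul]

theorem s14uCl_inv (u : (𝓞 K)ˣ) : s14uCl u⁻¹ = - s14uCl u := rfl

theorem s14uCl_zpow (u : (𝓞 K)ˣ) (z : ℤ) : s14uCl (u ^ z) = z • s14uCl u := by
  obtain ⟨k, rfl | rfl⟩ := z.eq_nat_or_neg
  · rw [zpow_natCast, s14uCl_pow]
  · rw [zpow_neg, zpow_natCast, s14uCl_inv, s14uCl_pow, neg_smul]

theorem s14uCl_eq_zero {u : (𝓞 K)ˣ} : s14uCl u = 0 ↔ u ∈ NumberField.Units.torsion K := by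
  change Additive.ofMul (QuotientGroup.mk u : (𝓞 K)ˣ ⧸ (NumberField.Units.torsion K)) =
    Additive.ofMul 1 ↔ _
  rw [Additive.ofMul.injective.eq_iff]
  exact QuotientGroup.eq_one_iff u

theorem s14uCl_prod {ι : Type*} (s : Finset ι) (f : ι → (𝓞 K)ˣ) :
    s14uCl (∏ i ∈ s, f i) = ∑ i ∈ s, s14uCl (f i) := by
  classical
  induction s using Finset.induction_on with
  | empty => rw [Finset.prod_empty, Finset.sum_empty]; rfl
  | insert a s ha ih => rw [Finset.prod_insert ha, Finset.sum_insert ha, s14uCl_mul, ih]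

/-- the Galois action as an additive endomorphism -/
noncomputable def s14uA (τ : K ≃ₐ[ℚ] K) : S14uM K →+ S14uM K :=
  { toFun := fun m => Additive.ofMul (s14uQ τ (Additive.toMul m))
    map_zero' := by
      change Additive.ofMul (s14uQ τ 1) = Additive.ofMul 1
      rw [map_one]
    map_add' := fun a b => by
      change Additive.ofMul (s14uQ τ (Additive.toMul a * Additive.toMul b)) = _
      rw [map_mul]; rfl }

/-- the Galois action as a `ℤ`-linear endomorphism -/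
noncomputable def s14uL (τ : K ≃ₐ[ℚ] K) : S14uM K →ₗ[ℤ] S14uM K :=
  (s14uA τ).toIntLinearMap

theorem s14uL_cl (τ : K ≃ₐ[ℚ] K) (u : (𝓞 K)ˣ) : s14uL τ (s14uCl u) = s14uCl (s14uAct τ u) := rfl

theorem s14uL_pow_cl (τ : K ≃ₐ[ℚ] K) (i : ℕ) (u : (𝓞 K)ˣ) :
    (s14uL τ ^ i) (s14uCl u) = s14uCl (s14uAct (τ ^ i) u) := by
  induction i with
  | zero => rw [pow_zero, pow_zero, s14uAct_one]; rfl
  | succ i ih =>
    rw [pow_succ', Module.End.mul_apply, ih, s14uL_cl, pow_succ', s14uAct_mul]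

/-- **Dependence of two units of the same eigen-type modulo `p`-th powers and torsion.** -/
theorem s14u_units_dep [IsGalois ℚ K] (σ : K ≃ₐ[ℚ] K)
    (hσ : ∀ τ : K ≃ₐ[ℚ] K, τ ∈ Subgroup.zpowers σ) (p : ℕ) [Fact p.Prime] (n : ℕ)
    (hcard : Fintype.card (InfinitePlace K) = n) (hn : 2 ≤ n) (c : ℕ)
    (hc : orderOf (c : ZMod p) = n) (x y : (𝓞 K)ˣ)
    (hx : ∃ t ∈ NumberField.Units.torsion K, ∃ ε : (𝓞 K)ˣ, s14uAct σ x = x ^ c * t * ε ^ p)
    (hy : ∃ t ∈ NumberField.Units.torsion K, ∃ ε : (𝓞 K)ˣ, s14uAct σ y = y ^ c * t * ε ^ p)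
    (hx0 : ¬ ∃ t ∈ NumberField.Units.torsion K, ∃ ε : (𝓞 K)ˣ, x = t * ε ^ p) :
    ∃ (j : ℕ) (t : (𝓞 K)ˣ) (_ : t ∈ NumberField.Units.torsion K) (ε : (𝓞 K)ˣ),
      y = x ^ j * t * ε ^ p := by
  have hp : p.Prime := Fact.out
  -- the module-theoretic hypotheses
  have hσM : ∀ m : S14uM K, ∑ i ∈ Finset.range n, (s14uL σ ^ i) m = 0 := by
    intro m
    obtain ⟨u, rfl⟩ := s14uCl_surj m
    simp only [s14uL_pow_cl]
    rw [← s14uCl_prod, s14uCl_eq_zero]
    exact s14u_prod_mem_torsion σ hσ n hcard u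
  have hrank : Module.finrank ℤ (S14uM K) = n - 1 := by
    rw [s14uM_finrank, NumberField.Units.rank, hcard]
  obtain ⟨u₀, hu₀⟩ := s14u_arch σ hσ (n - 1) (by rw [hcard]; omega)
  have hli : LinearIndependent ℤ (fun i : Fin (n - 1) => (s14uL σ ^ (i : ℕ)) (s14uCl u₀)) := by
    rw [Fintype.linearIndependent_iff]
    intro g hg
    apply hu₀ g
    rw [← s14uCl_eq_zero, s14uCl_prod]
    rw [← hg]
    refine Finset.sum_congr rfl fun i _ => ?_
    rw [s14uCl_zpow, s14uL_pow_cl]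
  -- translate the eigen-relations
  have htrans : ∀ v : (𝓞 K)ˣ,
      (∃ t ∈ NumberField.Units.torsion K, ∃ ε : (𝓞 K)ˣ, s14uAct σ v = v ^ c * t * ε ^ p) →
      ∃ z : S14uM K, s14uL σ (s14uCl v) - (c : ℤ) • s14uCl v = (p : ℤ) • z := by
    rintro v ⟨t, ht, ε, h⟩
    refine ⟨s14uCl ε, ?_⟩
    rw [s14uL_cl, h, s14uCl_mul, s14uCl_mul, s14uCl_pow, s14uCl_pow, s14uCl_eq_zero.mpr ht]
    abel
  have hx0' : ¬ ∃ z : S14uM K, s14uCl x = (p : ℤ) • z := by
    rintro ⟨z, hz⟩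
    obtain ⟨ε, rfl⟩ := s14uCl_surj z
    apply hx0
    have h1 : s14uCl (x * (ε ^ p)⁻¹) = 0 := by
      rw [s14uCl_mul, s14uCl_inv, s14uCl_pow, hz, add_neg_cancel]
    refine ⟨x * (ε ^ p)⁻¹, s14uCl_eq_zero.mp h1, ε, ?_⟩
    rw [inv_mul_cancel_right]
  have hcz : orderOf (((c : ℤ) : ZMod p)) = n := by
    rw [Int.cast_natCast]; exact hc
  obtain ⟨j, z, hjz⟩ := s14u_eigen_le_one p n hn (s14uL σ) hσM hrank (s14uCl u₀) hli (c : ℤ) hcz
    (s14uCl x) (s14uCl y) (htrans x hx) (htrans y hy) hx0'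
  obtain ⟨ε, rfl⟩ := s14uCl_surj z
  -- make the exponent a natural number
  have hp0 : (p : ℤ) ≠ 0 := by exact_mod_cast hp.ne_zero
  have hjnn : 0 ≤ j % (p : ℤ) := Int.emod_nonneg j hp0
  set j₀ : ℕ := (j % (p : ℤ)).toNat with hj₀
  have hj₀' : (j₀ : ℤ) = j % (p : ℤ) := Int.toNat_of_nonneg hjnn
  have hjdecomp : j = (j₀ : ℤ) + (p : ℤ) * (j / (p : ℤ)) := by
    rw [hj₀']; exact (Int.emod_add_mul_ediv j p).symm
  obtain ⟨q, hq⟩ : ∃ q : ℤ, j = (j₀ : ℤ) + (p : ℤ) * q := ⟨j / (p : ℤ), hjdecomp⟩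
  have h1 : s14uCl (y * (x ^ j₀ * (x ^ q * ε) ^ p)⁻¹) = 0 := by
    rw [s14uCl_mul, s14uCl_inv, s14uCl_mul, s14uCl_pow, s14uCl_pow, s14uCl_mul, s14uCl_zpow,
      hjz, hq, add_smul, mul_smul, smul_add]
    abel
  refine ⟨j₀, y * (x ^ j₀ * (x ^ q * ε) ^ p)⁻¹, s14uCl_eq_zero.mp h1, x ^ q * ε, ?_⟩
  rw [mul_comm (x ^ j₀) (y * (x ^ j₀ * (x ^ q * ε) ^ p)⁻¹), mul_assoc, inv_mul_cancel_right]

end Fermat.Agent.S14L.UnitsQuot
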