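import Mathlib
import Fermat.Agent.S14L.Defs

/-!
# S14 / package U: a `p`-th root of a unit is a unit
-/

set_option autoImplicit false

open NumberField

namespace Fermat.Agent.S14L.UnitsBasic

/-- a `p`-th root in `K` of a unit of `𝓞 K` is a unit of `𝓞 K` -/
theorem s14u_root_unit (p : ℕ) (hp : p ≠ 0) (K : Type) [Field K] [NumberField K]
    (u : (𝓞 K)ˣ) (x : K) (hx : x ^ p = ((u : 𝓞 K) : K)) :
    ∃ ε : (𝓞 K)ˣ, ((ε : 𝓞 K) : K) = x := by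
  have hmul : algebraMap (𝓞 K) K (u : 𝓞 K) * algebraMap (𝓞 K) K ((u⁻¹ : (𝓞 K)ˣ) : 𝓞 K) = 1 := by
    rw [← map_mul, ← Units.val_mul, mul_inv_cancel, Units.val_one, map_one]
  have hx' : x ^ p = algebraMap (𝓞 K) K (u : 𝓞 K) := hx
  have hu0 : algebraMap (𝓞 K) K (u : 𝓞 K) ≠ 0 := left_ne_zero_of_mul_eq_one hmul
  have hx0 : x ≠ 0 := by
    rintro rfl
    rw [zero_pow hp] at hx'
    exact hu0 hx'.symm
  have hxi : IsIntegral ℤ x := by
    apply IsIntegral.of_pow (Nat.pos_of_ne_zero hp)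
    rw [hx']
    exact RingOfIntegers.isIntegral_coe _
  have hxi' : IsIntegral ℤ x⁻¹ := by
    apply IsIntegral.of_pow (Nat.pos_of_ne_zero hp)
    have h : x⁻¹ ^ p = algebraMap (𝓞 K) K ((u⁻¹ : (𝓞 K)ˣ) : 𝓞 K) := by
      rw [inv_pow, hx']
      exact inv_eq_of_mul_eq_one_right hmul
    rw [h]
    exact RingOfIntegers.isIntegral_coe _
  have hy : algebraMap (𝓞 K) K (IsIntegralClosure.mk' (𝓞 K) x hxi) = x :=
    IsIntegralClosure.algebraMap_mk' (𝓞 K) x hxi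
  have hy' : algebraMap (𝓞 K) K (IsIntegralClosure.mk' (𝓞 K) x⁻¹ hxi') = x⁻¹ :=
    IsIntegralClosure.algebraMap_mk' (𝓞 K) x⁻¹ hxi'
  have h1 : IsIntegralClosure.mk' (𝓞 K) x hxi * IsIntegralClosure.mk' (𝓞 K) x⁻¹ hxi' = 1 := by
    apply FaithfulSMul.algebraMap_injective (𝓞 K) K
    rw [map_mul, map_one, hy, hy']
    exact mul_inv_cancel₀ hx0
  exact ⟨Units.mkOfMulEqOne _ _ h1, hy⟩

end Fermat.Agent.S14L.UnitsBasic
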