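import Mathlib
import Fermat.Agent.S14L.Defs

/-!
# S14 / package U: the roots of unity of `ℚ(ζ_p)`
-/

set_option autoImplicit false

open NumberField

namespace Fermat.Agent.S14L.UnitsBasic

/-- the roots of unity of `ℚ(ζ_p)`, `p` odd, are `± ζ^a` -/
theorem s14u_torsion (p : ℕ) [Fact p.Prime] (hp3 : 3 ≤ p) (K : Type) [Field K] [NumberField K]
    [IsCyclotomicExtension {p} ℚ K] (ζ : K) (hζ : IsPrimitiveRoot ζ p)
    (t : (𝓞 K)ˣ) (ht : t ∈ NumberField.Units.torsion K) :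
    ∃ a : ℕ, ((t : 𝓞 K) : K) = ζ ^ a ∨ ((t : 𝓞 K) : K) = -ζ ^ a := by
  have hpp : p.Prime := Fact.out
  have : NeZero p := ⟨hpp.ne_zero⟩
  have hodd : Odd p := hpp.odd_of_ne_two (by omega)
  obtain ⟨n, hnpos, hn⟩ := isOfFinOrder_iff_pow_eq_one.1 ((CommGroup.mem_torsion _).1 ht)
  have hx : IsOfFinOrder (((t : 𝓞 K) : K)) := by
    refine isOfFinOrder_iff_pow_eq_one.2 ⟨n, hnpos, ?_⟩
    have h1 : ((t ^ n : (𝓞 K)ˣ) : 𝓞 K) = 1 := by rw [hn]; rfl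
    have h2 := congrArg (fun y : 𝓞 K => (y : K)) h1
    simpa using h2
  obtain ⟨r, -, hr⟩ := hζ.exists_pow_or_neg_mul_pow_of_isOfFinOrder hodd hx
  exact ⟨r, hr⟩

end Fermat.Agent.S14L.UnitsBasic
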