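import Mathlib
import Fermat.Agent.S14L.Defs
import Fermat.Agent.S14L.UnitsQuot
import Fermat.Agent.S14L.UnitsLocal
import Fermat.Agent.S14L.UnitsDeltaUnit
import Fermat.Agent.S14L.UnitsDeltaEigen
import Fermat.Agent.S14L.UnitsTors
import Fermat.Agent.S14L.UnitsGen
import Fermat.Agent.S14L.UnitsPlaces
import Fermat.Agent.S14L.UnitsRootUnit

/-!
# S14 / package U: assembly lemmas
-/

set_option autoImplicit false

open NumberField

namespace Fermat.Agent.S14L.UnitsAsm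

open Fermat.Agent.S14L.UnitsArch Fermat.Agent.S14L.UnitsQuot Fermat.Agent.S14L.UnitsLocal
  Fermat.Agent.S14L.UnitsDelta Fermat.Agent.S14L.UnitsBasic

/-- an eigen-relation in `K` gives an eigen-relation among units -/
theorem s14u_bridge (p : ℕ) (hp : p ≠ 0) (K : Type) [Field K] [NumberField K]
    (σ : K ≃ₐ[ℚ] K) (c : ℕ) (v : (𝓞 K)ˣ) (γ : K)
    (h : σ ((v : 𝓞 K) : K) = ((v : 𝓞 K) : K) ^ c * γ ^ p) :
    ∃ t ∈ NumberField.Units.torsion K, ∃ ε : (𝓞 K)ˣ, s14uAct σ v = v ^ c * t * ε ^ p := by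
  have hv0 : ((v : 𝓞 K) : K) ≠ 0 := by
    have := NumberField.Units.coe_ne_zero v
    exact this
  have hγ : γ ^ p = (((s14uAct σ v * (v ^ c)⁻¹ : (𝓞 K)ˣ) : 𝓞 K) : K) := by
    have h1 : (((s14uAct σ v * (v ^ c)⁻¹ : (𝓞 K)ˣ) : 𝓞 K) : K) * ((v : 𝓞 K) : K) ^ c =
        σ ((v : 𝓞 K) : K) := by
      rw [← s14uAct_coe]
      have h2 : s14uAct σ v * (v ^ c)⁻¹ * v ^ c = s14uAct σ v := inv_mul_cancel_right _ _
      have h3 := congrArg (fun u : (𝓞 K)ˣ => ((u : 𝓞 K) : K)) h2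
      exact h3
    rw [h] at h1
    have h4 : ((v : 𝓞 K) : K) ^ c ≠ 0 := pow_ne_zero _ hv0
    have h5 : (((s14uAct σ v * (v ^ c)⁻¹ : (𝓞 K)ˣ) : 𝓞 K) : K) * ((v : 𝓞 K) : K) ^ c =
        γ ^ p * ((v : 𝓞 K) : K) ^ c := by rw [h1, mul_comm]
    exact (mul_right_cancel₀ h4 h5).symm
  obtain ⟨ε, hε⟩ := s14u_root_unit p hp K _ γ hγ
  refine ⟨1, one_mem _, ε, ?_⟩
  apply Units.ext
  apply RingOfIntegers.ext
  rw [s14uAct_coe, h, ← hε]
  simp

/-- `-1` is a local `p`-th power -/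
theorem s14u_neg_one_local (p : ℕ) [Fact p.Prime] (hp3 : 3 ≤ p) (K : Type) [Field K]
    [NumberField K] (ζ : K) (hζ : IsPrimitiveRoot ζ p) :
    ∃ w : 𝓞 K, (((-1 : (𝓞 K)ˣ)) : 𝓞 K) - w ^ p ∈ ppIdeal p K ζ hζ ^ 3 := by
  have hp : p.Prime := Fact.out
  have hodd : Odd p := hp.odd_of_ne_two (by omega)
  refine ⟨-1, ?_⟩
  rw [hodd.neg_one_pow]
  simp

/-- a root of unity on which the first local character vanishes is `±1` -/
theorem s14u_tors_local (p : ℕ) [Fact p.Prime] (hp3 : 3 ≤ p) (K : Type) [Field K]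
    [NumberField K] [IsCyclotomicExtension {p} ℚ K] (ζ : K) (hζ : IsPrimitiveRoot ζ p)
    (l₁ : Additive (𝓞 K)ˣ →+ ZMod p)
    (hpow : ∀ x : (𝓞 K)ˣ, (∃ w : 𝓞 K, (x : 𝓞 K) - w ^ p ∈ ppIdeal p K ζ hζ ^ 3) →
      l₁ (Additive.ofMul x) = 0)
    (hz1 : ∀ x : (𝓞 K)ˣ, (x : 𝓞 K) = zInt p K ζ hζ → l₁ (Additive.ofMul x) = 1)
    (t : (𝓞 K)ˣ) (ht : t ∈ NumberField.Units.torsion K) (hl : l₁ (Additive.ofMul t) = 0) :
    t = 1 ∨ t = -1 := by
  have hp : p.Prime := Fact.out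
  have : NeZero p := ⟨hp.ne_zero⟩
  have hz : IsPrimitiveRoot (zInt p K ζ hζ) p := hζ.toInteger_isPrimitiveRoot
  obtain ⟨ζu, hζu⟩ := hz.isUnit hp.ne_zero
  have hζuK : ((ζu : 𝓞 K) : K) = ζ := by
    rw [hζu]; exact hζ.coe_toInteger
  have hζup : ζu ^ p = 1 := by
    apply Units.ext
    rw [Units.val_pow_eq_pow_val, hζu, Units.val_one]
    exact hz.pow_eq_one
  have hl1 : ∀ a : ℕ, l₁ (Additive.ofMul (ζu ^ a)) = (a : ZMod p) := by
    intro a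
    rw [ofMul_pow, map_nsmul, hz1 ζu hζu, nsmul_eq_mul, mul_one]
  have hpowa : ∀ a : ℕ, (a : ZMod p) = 0 → ζu ^ a = 1 := by
    intro a ha
    obtain ⟨b, rfl⟩ := (ZMod.natCast_eq_zero_iff a p).mp ha
    rw [pow_mul, hζup, one_pow]
  obtain ⟨a, ha | ha⟩ := s14u_torsion p hp3 K ζ hζ t ht
  · left
    have ht' : t = ζu ^ a := by
      apply Units.ext
      apply RingOfIntegers.ext
      rw [ha, Units.val_pow_eq_pow_val]
      push_cast
      exact congrArg (· ^ a) hζuK.symm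
    rw [ht', hl1] at hl
    rw [ht', hpowa a hl]
  · right
    have ht' : t = -1 * ζu ^ a := by
      apply Units.ext
      apply RingOfIntegers.ext
      rw [ha, Units.val_mul, Units.val_pow_eq_pow_val]
      push_cast
      have h0 : ζ ^ a = ((ζu : 𝓞 K) : K) ^ a := congrArg (· ^ a) hζuK.symm
      rw [neg_one_mul]
      exact congrArg Neg.neg h0
    rw [ht', ofMul_mul, map_add, hl1, hpow (-1) (s14u_neg_one_local p hp3 K ζ hζ), zero_add] at hl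
    rw [ht', hpowa a hl, mul_one]

end Fermat.Agent.S14L.UnitsAsm
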