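import Mathlib
import Fermat.Agent.S14L.Defs
import Fermat.Agent.S14L.UnitsAsm

/-! S14 package U (owner: helper6): the unit `delta` and the `ω²`-eigenspace of units modulo
`p`-th powers. -/

set_option autoImplicit false

open NumberField IsDedekindDomain
open scoped nonZeroDivisors

namespace Fermat.Agent.S14L

theorem delta_isUnit (p : ℕ) [Fact p.Prime] (K : Type) [Field K] [NumberField K]
    [IsCyclotomicExtension {p} ℚ K] (ζ : K) (hζ : IsPrimitiveRoot ζ p) :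
    IsUnit (delta p K ζ hζ) :=
  UnitsDelta.s14u_delta_isUnit p K ζ hζ

theorem delta_not_pow (p : ℕ) [Fact p.Prime] (hp5 : 5 ≤ p) (K : Type) [Field K] [NumberField K]
    [IsCyclotomicExtension {p} ℚ K] (ζ : K) (hζ : IsPrimitiveRoot ζ p) :
    ¬ ∃ x : K, x ^ p = (delta p K ζ hζ : K) := by
  rintro ⟨x, hx⟩
  have hp : p.Prime := Fact.out
  obtain ⟨δu, hδu⟩ := delta_isUnit p K ζ hζ
  obtain ⟨l₁, l₃, -, -, hδ⟩ := UnitsLocal.s14u_local p hp5 K ζ hζ
  obtain ⟨ε, hε⟩ := UnitsBasic.s14u_root_unit p hp.ne_zero K δu x (by rw [hx, hδu])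
  have hpow : δu = ε ^ p := by
    apply Units.ext
    apply RingOfIntegers.ext
    rw [hδu, ← hx, ← hε, Units.val_pow_eq_pow_val]
    push_cast
    rfl
  apply (hδ δu hδu).2
  rw [hpow, ofMul_pow, map_nsmul, nsmul_eq_mul, CharP.cast_eq_zero (ZMod p) p, zero_mul]

/-- A unit of type `ω²` modulo `p`-th powers which is a `p`-th power modulo `(ζ-1)³` is a
`p`-th power. -/
theorem unit_isPow (p : ℕ) [Fact p.Prime] (hp5 : 5 ≤ p) (K : Type) [Field K] [NumberField K]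
    [IsCyclotomicExtension {p} ℚ K] (ζ : K) (hζ : IsPrimitiveRoot ζ p) (η : (𝓞 K)ˣ)
    (heig : ∀ (σ : K ≃ₐ[ℚ] K) (k : ℕ), σ ζ = ζ ^ k →
      ∃ γ : K, σ ((η : 𝓞 K) : K) = ((η : 𝓞 K) : K) ^ (k ^ 2) * γ ^ p)
    (hloc : ∃ w : 𝓞 K, (η : 𝓞 K) - w ^ p ∈ ppIdeal p K ζ hζ ^ 3) :
    ∃ ε : (𝓞 K)ˣ, η = ε ^ p := by
  have hp : p.Prime := Fact.out
  have hp3 : 3 ≤ p := by omega
  have hodd : Odd p := hp.odd_of_ne_two (by omega)
  have : IsGalois ℚ K := IsCyclotomicExtension.isGalois {p} ℚ K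
  obtain ⟨σ, k, hσgen, hσk, hord⟩ := UnitsBasic.s14u_generator p hp3 K ζ hζ
  have hcard := UnitsBasic.s14u_card_places p hp3 K
  have hn : 2 ≤ (p - 1) / 2 := by omega
  have hc : orderOf (((k ^ 2 : ℕ) : ZMod p)) = (p - 1) / 2 := by
    rw [Nat.cast_pow]; exact hord
  obtain ⟨δu, hδu⟩ := delta_isUnit p K ζ hζ
  obtain ⟨l₁, l₃, hlpow, hl1, hδ⟩ := UnitsLocal.s14u_local p hp5 K ζ hζ
  -- eigen-relations for `delta` and `η`
  obtain ⟨γδ, hγδ⟩ := UnitsDelta.s14u_delta_eigen p hp5 K ζ hζ σ k hσk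
  have hx := UnitsAsm.s14u_bridge p hp.ne_zero K σ (k ^ 2) δu γδ (by rw [hδu]; exact hγδ)
  obtain ⟨γη, hγη⟩ := heig σ k hσk
  have hy := UnitsAsm.s14u_bridge p hp.ne_zero K σ (k ^ 2) η γη hγη
  -- `delta` is not a `p`-th power up to roots of unity
  have hx0 : ¬ ∃ t ∈ NumberField.Units.torsion K, ∃ ε : (𝓞 K)ˣ, δu = t * ε ^ p := by
    rintro ⟨t, ht, ε, h⟩
    have h1 : l₁ (Additive.ofMul t) = 0 := by
      have := (hδ δu hδu).1
      rw [h, ofMul_mul, map_add, ofMul_pow, map_nsmul, nsmul_eq_mul, CharP.cast_eq_zero (ZMod p) p,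
        zero_mul, add_zero] at this
      exact this
    have h3 : l₃ (Additive.ofMul t) = 0 := by
      rcases UnitsAsm.s14u_tors_local p hp3 K ζ hζ l₁ (fun x hx => (hlpow x hx).1) hl1 t ht h1
        with rfl | rfl
      · exact map_zero l₃
      · exact (hlpow (-1) (UnitsAsm.s14u_neg_one_local p hp3 K ζ hζ)).2
    apply (hδ δu hδu).2
    rw [h, ofMul_mul, map_add, ofMul_pow, map_nsmul, nsmul_eq_mul, CharP.cast_eq_zero (ZMod p) p,
      zero_mul, add_zero, h3]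
  obtain ⟨j, t, ht, ε, hη⟩ := UnitsQuot.s14u_units_dep σ hσgen p ((p - 1) / 2) hcard hn (k ^ 2) hc
    δu η hx hy hx0
  -- use the local condition
  obtain ⟨hη1, hη3⟩ := hlpow η hloc
  have hexp : ∀ l : Additive (𝓞 K)ˣ →+ ZMod p, l (Additive.ofMul η) =
      (j : ZMod p) * l (Additive.ofMul δu) + l (Additive.ofMul t) := by
    intro l
    rw [hη, ofMul_mul, ofMul_mul, map_add, map_add, ofMul_pow, ofMul_pow, map_nsmul, map_nsmul,
      nsmul_eq_mul, nsmul_eq_mul, CharP.cast_eq_zero (ZMod p) p, zero_mul, add_zero]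
  have ht1 : l₁ (Additive.ofMul t) = 0 := by
    have h := hexp l₁
    rw [hη1, (hδ δu hδu).1, mul_zero, zero_add] at h
    exact h.symm
  have htpm := UnitsAsm.s14u_tors_local p hp3 K ζ hζ l₁ (fun x hx => (hlpow x hx).1) hl1 t ht ht1
  have ht3 : l₃ (Additive.ofMul t) = 0 := by
    rcases htpm with rfl | rfl
    · exact map_zero l₃
    · exact (hlpow (-1) (UnitsAsm.s14u_neg_one_local p hp3 K ζ hζ)).2
  have htp : t ^ p = t := by
    rcases htpm with rfl | rfl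
    · exact one_pow p
    · exact hodd.neg_one_pow
  have hj : (j : ZMod p) = 0 := by
    have h := hexp l₃
    rw [hη3, ht3, add_zero] at h
    exact (mul_eq_zero.mp h.symm).resolve_right (hδ δu hδu).2
  obtain ⟨j', rfl⟩ := (ZMod.natCast_eq_zero_iff j p).mp hj
  refine ⟨δu ^ j' * t * ε, ?_⟩
  rw [hη, mul_pow, mul_pow, htp, ← pow_mul, mul_comm j' p]

end Fermat.Agent.S14L
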