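import Mathlib
import Fermat.Agent.S14L.Defs
import Fermat.Agent.S14L.AnFinal
import Fermat.Agent.S14L.Kd
import Fermat.Agent.S14L.Thaine
import Fermat.Agent.S14L.Units

/-!
# S14 package C, leaf Cls1: class characters of type `ω²` killed by `p` are trivial
-/

set_option autoImplicit false

open NumberField IsDedekindDomain
open scoped nonZeroDivisors

namespace Fermat.Agent.S14L

/-- there are finitely many primes of given absolute norm -/
theorem clsc_finite_norm_eq (K : Type) [Field K] [NumberField K] (n : ℕ) :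
    {v : HeightOneSpectrum (𝓞 K) | Ideal.absNorm v.asIdeal = n}.Finite := by
  have h := Ideal.finite_setOfPred_absNorm_eq (S := 𝓞 K) n
  refine Set.Finite.of_finite_image (f := fun v : HeightOneSpectrum (𝓞 K) => v.asIdeal)
    (h.subset ?_) ?_
  · rintro _ ⟨v, hv, rfl⟩
    exact hv
  · intro v _ w _ hvw
    exact HeightOneSpectrum.ext hvw

/-- a prime whose norm is a rational prime `≠ p` does not contain `p` -/
theorem clsc_p_notMem (p : ℕ) [Fact p.Prime] (K : Type) [Field K] [NumberField K]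
    (v : HeightOneSpectrum (𝓞 K)) (hN : (Ideal.absNorm v.asIdeal).Prime)
    (hne : Ideal.absNorm v.asIdeal ≠ p) : (p : 𝓞 K) ∉ v.asIdeal := by
  intro hp
  have hℓ : ((Ideal.absNorm v.asIdeal : ℕ) : 𝓞 K) ∈ v.asIdeal := Ideal.absNorm_mem v.asIdeal
  have hcop : Nat.Coprime (Ideal.absNorm v.asIdeal) p :=
    (Nat.coprime_primes hN (Fact.out : p.Prime)).mpr hne
  obtain ⟨a, b, hab⟩ := (Nat.isCoprime_iff_coprime.mpr hcop)
  have h1 : ((a : 𝓞 K)) * ((Ideal.absNorm v.asIdeal : ℕ) : 𝓞 K) + (b : 𝓞 K) * (p : 𝓞 K) = 1 := by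
    have := congrArg (Int.cast : ℤ → 𝓞 K) hab
    push_cast at this
    exact this
  have hmem : (1 : 𝓞 K) ∈ v.asIdeal := by
    rw [← h1]
    exact Ideal.add_mem _ (Ideal.mul_mem_left _ _ hℓ) (Ideal.mul_mem_left _ _ hp)
  exact v.isPrime.ne_top ((Ideal.eq_top_iff_one _).mpr hmem)

theorem clsc_idN_nonneg (K : Type) [Field K] [NumberField K] (s : ℝ) (I : Ideal (𝓞 K)) :
    0 ≤ idN K s I := by
  unfold idN
  exact Real.rpow_nonneg (Nat.cast_nonneg _) _

theorem cls_char_trivial (p : ℕ) [Fact p.Prime] (hp5 : 5 ≤ p) (K : Type) [Field K] [NumberField K]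
    [IsCyclotomicExtension {p} ℚ K] (ζ : K) (hζ : IsPrimitiveRoot ζ p)
    (χ : ClassGroup (𝓞 K) →* ℂˣ) (hχp : ∀ c, χ c ^ p = 1)
    (hχσ : ∀ (σ : K ≃ₐ[ℚ] K) (k : ℕ), σ ζ = ζ ^ k → ∀ I J : (Ideal (𝓞 K))⁰,
      (J : Ideal (𝓞 K)) = Ideal.map (RingOfIntegers.mapRingEquiv (σ : K ≃+* K)) (I : Ideal (𝓞 K)) →
      χ (ClassGroup.mk0 J) = χ (ClassGroup.mk0 I) ^ (k ^ 2)) :
    χ = 1 := by
  classical
  by_contra hχ
  have hp0 : (0 : ℝ) < p := Nat.cast_pos.mpr (Fact.out : p.Prime).pos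
  have hp5' : (5 : ℝ) ≤ p := by exact_mod_cast hp5
  have hθ : (1 / (p : ℝ)) < 1 / 3 := by
    rw [div_lt_div_iff₀ hp0 (by norm_num)]
    linarith
  refine no_biased_character K χ hχ (1 / (p : ℝ)) hθ
    {v : HeightOneSpectrum (𝓞 K) | ¬ ((Ideal.absNorm v.asIdeal).Prime ∧
      Ideal.absNorm v.asIdeal ≠ p ∧ ¬ ∃ y : 𝓞 K, delta p K ζ hζ - y ^ p ∈ v.asIdeal)} ?_ ?_
  · obtain ⟨C₁, hC₁⟩ := higher_degree_sum_le K
    obtain ⟨C₃, hC₃⟩ := residue_prime_sum_le p K ζ hζ (delta p K ζ hζ)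
      (delta_not_pow p hp5 K ζ hζ)
    have hfin := clsc_finite_norm_eq K p
    refine ⟨C₁ + (hfin.toFinset.card : ℝ) + C₃, fun s hs1 hs2 T hT => ?_⟩
    have hsplit1 := Finset.sum_filter_not_add_sum_filter T
      (fun v : HeightOneSpectrum (𝓞 K) => (Ideal.absNorm v.asIdeal).Prime)
      (fun v => idN K s v.asIdeal)
    have hsplit2 := Finset.sum_filter_add_sum_filter_not
      (T.filter (fun v : HeightOneSpectrum (𝓞 K) => (Ideal.absNorm v.asIdeal).Prime))
      (fun v : HeightOneSpectrum (𝓞 K) => Ideal.absNorm v.asIdeal = p)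
      (fun v => idN K s v.asIdeal)
    have hb1 := hC₁ s hs1 hs2
      (T.filter (fun v : HeightOneSpectrum (𝓞 K) => ¬ (Ideal.absNorm v.asIdeal).Prime))
      (fun v hv => (Finset.mem_filter.mp hv).2)
    have hb3 := hC₃ s hs1 hs2
      ((T.filter (fun v : HeightOneSpectrum (𝓞 K) => (Ideal.absNorm v.asIdeal).Prime)).filter
        (fun v : HeightOneSpectrum (𝓞 K) => ¬ Ideal.absNorm v.asIdeal = p))
      (fun v hv => by
        obtain ⟨hv1, hvB⟩ := Finset.mem_filter.mp hv
        obtain ⟨hvT, hvA⟩ := Finset.mem_filter.mp hv1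
        refine ⟨hvA, clsc_p_notMem p K v hvA hvB, ?_, ?_⟩
        · intro hmem
          exact v.isPrime.ne_top
            (Ideal.eq_top_of_isUnit_mem _ hmem (delta_isUnit p K ζ hζ))
        · have hvS := hT hvT
          simp only [Set.mem_ofPred_eq] at hvS
          by_contra hD
          exact hvS ⟨hvA, hvB, hD⟩)
    have hb2 : ∑ v ∈ (T.filter (fun v : HeightOneSpectrum (𝓞 K) =>
        (Ideal.absNorm v.asIdeal).Prime)).filter
        (fun v : HeightOneSpectrum (𝓞 K) => Ideal.absNorm v.asIdeal = p), idN K s v.asIdeal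
        ≤ (hfin.toFinset.card : ℝ) := by
      have hle : ∀ v ∈ (T.filter (fun v : HeightOneSpectrum (𝓞 K) =>
          (Ideal.absNorm v.asIdeal).Prime)).filter
          (fun v : HeightOneSpectrum (𝓞 K) => Ideal.absNorm v.asIdeal = p),
          idN K s v.asIdeal ≤ 1 := by
        intro v hv
        have hvp := (Finset.mem_filter.mp hv).2
        unfold idN
        rw [hvp]
        exact Real.rpow_le_one_of_one_le_of_nonpos (by linarith) (by linarith)
      have h1 := Finset.sum_le_card_nsmul _ _ 1 hle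
      rw [nsmul_eq_mul, mul_one] at h1
      refine h1.trans ?_
      have hsub : (T.filter (fun v : HeightOneSpectrum (𝓞 K) =>
          (Ideal.absNorm v.asIdeal).Prime)).filter
          (fun v : HeightOneSpectrum (𝓞 K) => Ideal.absNorm v.asIdeal = p) ⊆ hfin.toFinset := by
        intro v hv
        rw [Set.Finite.mem_toFinset]
        exact (Finset.mem_filter.mp hv).2
      exact_mod_cast Finset.card_le_card hsub
    rw [← hsplit1, ← hsplit2]
    linarith
  · intro v hv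
    simp only [Set.mem_ofPred_eq, not_not] at hv
    obtain ⟨hN, hℓp, hδ⟩ := hv
    exact thaine p hp5 K ζ hζ χ hχp hχσ ⟨v.asIdeal, mem_nonZeroDivisors_of_ne_zero v.ne_bot⟩
      v.isPrime hN hℓp hδ

end Fermat.Agent.S14L
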