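import Mathlib

/-!
# S14 package C, leaf Cls2b: exponents of the Galois action on a primitive root of unity
-/

set_option autoImplicit false

open NumberField
open scoped nonZeroDivisors

namespace Fermat.Agent.S14L

/-- Powers of a primitive `p`-th root of unity agree iff the exponents are congruent mod `p`. -/
theorem clsexp_pow_eq_pow_iff {K : Type} [Field K] {p : ℕ} (hp : 0 < p) {ζ : K}
    (hζ : IsPrimitiveRoot ζ p) (a b : ℕ) : ζ ^ a = ζ ^ b ↔ a ≡ b [MOD p] := by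
  have hfin : IsOfFinOrder ζ := isOfFinOrder_iff_pow_eq_one.mpr ⟨p, hp, hζ.pow_eq_one⟩
  rw [hfin.pow_eq_pow_iff_modEq, ← hζ.eq_orderOf]

/-- The exponents of the Galois action on a primitive `p`-th root of unity. -/
theorem cls_exists_exponent (p : ℕ) [Fact p.Prime] (K : Type) [Field K] [NumberField K]
    (ζ : K) (hζ : IsPrimitiveRoot ζ p) :
    ∃ k : (K ≃ₐ[ℚ] K) → ℕ, (∀ σ, σ ζ = ζ ^ k σ) ∧ (∀ σ, ¬ p ∣ k σ) ∧
      (∀ σ τ, k (σ * τ) ≡ k σ * k τ [MOD p]) := by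
  have hp : p.Prime := Fact.out
  have : NeZero p := ⟨hp.ne_zero⟩
  have hex : ∀ σ : K ≃ₐ[ℚ] K, ∃ i : ℕ, σ ζ = ζ ^ i := by
    intro σ
    have h1 : (σ ζ) ^ p = 1 := by rw [← map_pow, hζ.pow_eq_one, map_one]
    obtain ⟨i, -, hi⟩ := hζ.eq_pow_of_pow_eq_one h1
    exact ⟨i, hi.symm⟩
  choose k hk using hex
  refine ⟨k, hk, fun σ hdvd => ?_, fun σ τ => ?_⟩
  · obtain ⟨m, hm⟩ := hdvd
    have h1 : σ ζ = 1 := by rw [hk σ, hm, pow_mul, hζ.pow_eq_one, one_pow]
    have h2 : ζ = 1 := by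
      apply σ.injective
      rw [h1, map_one]
    exact hζ.ne_one hp.one_lt h2
  · rw [← clsexp_pow_eq_pow_iff hp.pos hζ, ← hk (σ * τ), AlgEquiv.mul_apply, hk τ, map_pow, hk σ,
      pow_mul]

/-- The order of the Galois group of the `p`-th cyclotomic field is prime to `p`. -/
theorem cls_card_aut (p : ℕ) [Fact p.Prime] (K : Type) [Field K] [NumberField K]
    [IsCyclotomicExtension {p} ℚ K] : ¬ p ∣ Nat.card (K ≃ₐ[ℚ] K) := by
  have hp : p.Prime := Fact.out
  have : NeZero p := ⟨hp.ne_zero⟩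
  have hgal : IsGalois ℚ K := IsCyclotomicExtension.isGalois {p} ℚ K
  rw [IsGalois.card_aut_eq_finrank ℚ K,
    IsCyclotomicExtension.finrank K (Polynomial.cyclotomic.irreducible_rat hp.pos),
    Nat.totient_prime hp]
  exact Nat.not_dvd_of_pos_of_lt (Nat.sub_pos_of_lt hp.one_lt) (Nat.sub_lt hp.pos one_pos)

end Fermat.Agent.S14L
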