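import Mathlib
import Fermat.Agent.S14L.Defs
import Fermat.Agent.S14L.Units

/-!
# S14 package C, leaf Cls5: if the `p`-th root ideal of `(α)` is principal then `α` is a
`p`-th power
-/

set_option autoImplicit false

open NumberField IsDedekindDomain
open scoped nonZeroDivisors

namespace Fermat.Agent.S14L

/-- the ideal `(ζ - 1)` is maximal -/
theorem clsf_ppIdeal_isMaximal (p : ℕ) [Fact p.Prime] (K : Type) [Field K] [NumberField K]
    [IsCyclotomicExtension {p} ℚ K] (ζ : K) (hζ : IsPrimitiveRoot ζ p) :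
    (ppIdeal p K ζ hζ).IsMaximal := by
  have : NeZero p := ⟨(Fact.out : p.Prime).ne_zero⟩
  have hprime : Prime (zInt p K ζ hζ - 1) := hζ.zeta_sub_one_prime'
  have hP : (ppIdeal p K ζ hζ).IsPrime :=
    (Ideal.span_singleton_prime hprime.ne_zero).mpr hprime
  have hne : ppIdeal p K ζ hζ ≠ ⊥ := by
    rw [ppIdeal, Ne, Ideal.span_singleton_eq_bot]
    exact hprime.ne_zero
  exact hP.isMaximal hne

/-- pure ring computation modulo an ideal -/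
theorem clsf_local {R : Type*} [CommRing R] (I : Ideal R) (n : ℕ) (α β₀ η w b : R)
    (h1 : α = β₀ ^ n * η) (h2 : b * β₀ - 1 ∈ I) (h3 : α - w ^ n ∈ I) :
    η - (w * b) ^ n ∈ I := by
  rw [← Ideal.Quotient.eq] at h3 ⊢
  have h2' : Ideal.Quotient.mk I b * Ideal.Quotient.mk I β₀ = 1 := by
    rw [← map_mul, ← map_one (Ideal.Quotient.mk I), Ideal.Quotient.eq]
    exact h2
  rw [map_pow, map_mul, mul_pow, ← map_pow, ← h3, h1, map_mul, map_pow, mul_comm,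
    ← mul_assoc, ← mul_pow, h2', one_pow, one_mul]

theorem cls_final (p : ℕ) [Fact p.Prime] (hp5 : 5 ≤ p) (K : Type) [Field K] [NumberField K]
    [IsCyclotomicExtension {p} ℚ K] (ζ : K) (hζ : IsPrimitiveRoot ζ p) (α : 𝓞 K)
    (hα : Witness p K ζ hζ α) (β₀ : 𝓞 K) (hβ : Ideal.span {α} = Ideal.span {β₀} ^ p) :
    ∃ β : K, (α : K) = β ^ p := by
  have hmax := clsf_ppIdeal_isMaximal p K ζ hζ
  rw [Ideal.span_singleton_pow, Ideal.span_singleton_eq_span_singleton] at hβ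
  obtain ⟨η, hη⟩ := hβ.symm
  -- hη : β₀ ^ p * η = α
  have hβ0 : β₀ ≠ 0 := by
    rintro rfl
    apply hα.ne_zero
    rw [← hη, zero_pow (Fact.out : p.Prime).ne_zero, zero_mul]
  have hβmem : β₀ ∉ ppIdeal p K ζ hζ := by
    intro hmem
    apply hα.not_mem
    rw [← hη]
    exact Ideal.mul_mem_right _ _ (Ideal.pow_mem_of_mem _ hmem p (Fact.out : p.Prime).pos)
  -- coprimality
  have hsup : Ideal.span {β₀} ⊔ ppIdeal p K ζ hζ = ⊤ := by
    obtain ⟨y, i, hi, hyi⟩ := hmax.exists_inv hβmem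
    rw [Ideal.eq_top_iff_one, ← hyi]
    exact Submodule.add_mem_sup (Ideal.mem_span_singleton'.mpr ⟨y, rfl⟩) hi
  have hsup3 : Ideal.span {β₀} ⊔ ppIdeal p K ζ hζ ^ 3 = ⊤ := Ideal.sup_pow_eq_top hsup
  obtain ⟨b, hb⟩ : ∃ b : 𝓞 K, b * β₀ - 1 ∈ ppIdeal p K ζ hζ ^ 3 := by
    have h1 : (1 : 𝓞 K) ∈ Ideal.span {β₀} ⊔ ppIdeal p K ζ hζ ^ 3 := by
      rw [hsup3]; trivial
    obtain ⟨x, hx, y, hy, hxy⟩ := Submodule.mem_sup.mp h1
    obtain ⟨b, rfl⟩ := Ideal.mem_span_singleton'.mp hx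
    refine ⟨b, ?_⟩
    have : b * β₀ - 1 = -y := by rw [← hxy]; ring
    rw [this]
    exact neg_mem hy
  obtain ⟨w, hw⟩ := hα.local_pow
  have hloc : ∃ w : 𝓞 K, (η : 𝓞 K) - w ^ p ∈ ppIdeal p K ζ hζ ^ 3 :=
    ⟨w * b, clsf_local _ p α β₀ η w b hη.symm hb hw⟩
  have hαK : (α : K) = (β₀ : K) ^ p * ((η : 𝓞 K) : K) := by
    rw [← hη]; push_cast; rfl
  have hβ0K : (β₀ : K) ≠ 0 := by
    simpa using hβ0
  have heig : ∀ (σ : K ≃ₐ[ℚ] K) (k : ℕ), σ ζ = ζ ^ k →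
      ∃ γ : K, σ ((η : 𝓞 K) : K) = ((η : 𝓞 K) : K) ^ (k ^ 2) * γ ^ p := by
    intro σ k hk
    obtain ⟨γ, hγ⟩ := hα.eigen σ k hk
    have hσβ : σ (β₀ : K) ≠ 0 := by
      simpa using hβ0K
    refine ⟨(β₀ : K) ^ (k ^ 2) * γ / σ (β₀ : K), ?_⟩
    rw [hαK, map_mul, map_pow] at hγ
    rw [div_pow, mul_div_assoc', eq_div_iff (pow_ne_zero _ hσβ), mul_comm, hγ]
    ring
  obtain ⟨ε, hε⟩ := unit_isPow p hp5 K ζ hζ η heig hloc
  refine ⟨(β₀ : K) * ((ε : 𝓞 K) : K), ?_⟩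
  rw [hαK, hε, mul_pow]
  push_cast
  rfl

end Fermat.Agent.S14L
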