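import Mathlib
import Fermat.Agent.S14L.Defs

/-!
# S14 package C, leaf Cls4: the class of the `p`-th root ideal of `(α)` is of type `ω²`
-/

set_option autoImplicit false

open NumberField IsDedekindDomain
open scoped nonZeroDivisors

namespace Fermat.Agent.S14L

/-- `n`-th roots of ideals in a Dedekind domain are unique. -/
theorem clsi_pow_inj {R : Type*} [CommRing R] [IsDedekindDomain R] {I J : Ideal R} {n : ℕ}
    (hn : n ≠ 0) (h : I ^ n = J ^ n) : I = J := by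
  apply dvd_antisymm
  · exact (UniqueFactorizationMonoid.pow_dvd_pow_iff_dvd hn).mp (h ▸ dvd_rfl)
  · exact (UniqueFactorizationMonoid.pow_dvd_pow_iff_dvd hn).mp (h ▸ dvd_rfl)

theorem cls_class_eigen (p : ℕ) [Fact p.Prime] (K : Type) [Field K] [NumberField K]
    (α : 𝓞 K) (hα0 : α ≠ 0) (𝔞 : (Ideal (𝓞 K))⁰)
    (h𝔞 : Ideal.span {α} = (𝔞 : Ideal (𝓞 K)) ^ p)
    (σ : K ≃ₐ[ℚ] K) (k : ℕ) (γ : K) (hγ : σ (α : K) = (α : K) ^ (k ^ 2) * γ ^ p)
    (𝔟 : (Ideal (𝓞 K))⁰)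
    (h𝔟 : (𝔟 : Ideal (𝓞 K)) =
      Ideal.map (RingOfIntegers.mapRingEquiv (σ : K ≃+* K)) (𝔞 : Ideal (𝓞 K))) :
    ClassGroup.mk0 𝔟 = ClassGroup.mk0 𝔞 ^ (k ^ 2) := by
  have hp : p ≠ 0 := (Fact.out : p.Prime).ne_zero
  have hfα : ((RingOfIntegers.mapRingEquiv (σ : K ≃+* K) α : 𝓞 K) : K) = σ (α : K) := rfl
  have hα0' : (α : K) ≠ 0 := fun h => hα0 (RingOfIntegers.coe_injective (h.trans (map_zero (algebraMap (𝓞 K) K)).symm))
  have hγ0 : γ ≠ 0 := by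
    rintro rfl
    rw [zero_pow hp, mul_zero] at hγ
    exact hα0' ((EmbeddingLike.map_eq_zero_iff (f := σ)).mp hγ)
  obtain ⟨u, v, hv, rfl⟩ := IsFractionRing.div_surjective (A := 𝓞 K) γ
  have hv0 : v ≠ 0 := nonZeroDivisors.ne_zero hv
  have hv0' : (algebraMap (𝓞 K) K v) ≠ 0 := by
    intro h
    exact hv0 (RingOfIntegers.coe_injective (h.trans (map_zero (algebraMap (𝓞 K) K)).symm))
  have hu0 : u ≠ 0 := by
    rintro rfl
    rw [map_zero, zero_div] at hγ0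
    exact hγ0 rfl
  have key : RingOfIntegers.mapRingEquiv (σ : K ≃+* K) α * v ^ p = α ^ (k ^ 2) * u ^ p := by
    apply RingOfIntegers.coe_injective
    show ((RingOfIntegers.mapRingEquiv (σ : K ≃+* K) α : 𝓞 K) : K) * (algebraMap (𝓞 K) K v) ^ p
      = (α : K) ^ (k ^ 2) * (algebraMap (𝓞 K) K u) ^ p
    rw [hfα, hγ, div_pow]
    field_simp
  have hideal : (Ideal.span {v} * (𝔟 : Ideal (𝓞 K))) ^ p =
      (Ideal.span {u} * (𝔞 : Ideal (𝓞 K)) ^ (k ^ 2)) ^ p := by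
    rw [mul_pow, mul_pow, h𝔟, ← Ideal.map_pow, ← h𝔞, Ideal.map_span, Set.image_singleton,
      Ideal.span_singleton_pow, Ideal.span_singleton_mul_span_singleton, ← pow_mul, mul_comm _ p,
      pow_mul, ← h𝔞, Ideal.span_singleton_pow, Ideal.span_singleton_pow,
      Ideal.span_singleton_mul_span_singleton, mul_comm (v ^ p), key, mul_comm (u ^ p)]
  have hroot := clsi_pow_inj hp hideal
  rw [← map_pow]
  rw [ClassGroup.mk0_eq_mk0_iff]
  refine ⟨v, u, hv0, hu0, ?_⟩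
  rw [hroot]
  rfl

end Fermat.Agent.S14L
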