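import Mathlib
import Fermat.Agent.S14L.Defs
import Fermat.Agent.S14L.AnFinal
import Fermat.Agent.S14L.Kd
import Fermat.Agent.S14L.Thaine
import Fermat.Agent.S14L.Units
import Fermat.Agent.S14L.ClsAbs
import Fermat.Agent.S14L.ClsAct
import Fermat.Agent.S14L.ClsExp
import Fermat.Agent.S14L.ClsChar
import Fermat.Agent.S14L.ClsIdeal
import Fermat.Agent.S14L.ClsFinal

/-! S14 package C (owner: helper2): class group algebra and assembly of the number-theoretic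
core for `p ≥ 5`. -/

set_option autoImplicit false

open NumberField IsDedekindDomain
open scoped nonZeroDivisors

namespace Fermat.Agent.S14L

theorem witness_isPow (p : ℕ) [Fact p.Prime] (hp5 : 5 ≤ p) (K : Type) [Field K] [NumberField K]
    [IsCyclotomicExtension {p} ℚ K] (ζ : K) (hζ : IsPrimitiveRoot ζ p) (α : 𝓞 K)
    (hα : Witness p K ζ hζ α) : ∃ β : K, (α : K) = β ^ p := by
  have hp : p.Prime := Fact.out
  obtain ⟨𝔞, h𝔞⟩ := hα.span_eq
  have h𝔞0 : 𝔞 ≠ 0 := by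
    rintro rfl
    rw [zero_pow hp.ne_zero] at h𝔞
    exact hα.ne_zero (by simpa using h𝔞)
  have h𝔞mem : 𝔞 ∈ (Ideal (𝓞 K))⁰ := mem_nonZeroDivisors_of_ne_zero h𝔞0
  obtain ⟨T, hT, hTmul⟩ := cls_exists_action K
  obtain ⟨k, hkζ, hkp, hkmul⟩ := cls_exists_exponent p K ζ hζ
  have hc : ClassGroup.mk0 (⟨𝔞, h𝔞mem⟩ : (Ideal (𝓞 K))⁰) = 1 := by
    refine cls_abstract p (cls_card_aut p K) T hTmul k hkp hkmul ?_ _ ?_ ?_
    · intro χ hχp hχT
      refine cls_char_trivial p hp5 K ζ hζ χ hχp ?_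
      intro σ k' hk' I J hJ
      rw [← hT σ I J hJ, hχT σ (ClassGroup.mk0 I)]
      have h1 : k σ ≡ k' [MOD p] := by
        have h2 : ζ ^ k σ = ζ ^ k' := by rw [← hkζ σ, hk']
        have hpos : 0 < p := hp.pos
        have h3 : ζ ^ (k σ % p) = ζ ^ (k' % p) := by
          have e := hζ.eq_orderOf
          conv_lhs => rw [e, pow_mod_orderOf]
          conv_rhs => rw [e, pow_mod_orderOf]
          exact h2
        exact hζ.pow_inj (Nat.mod_lt _ hpos) (Nat.mod_lt _ hpos) h3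
      exact pow_eq_pow_iff_modEq.mpr
        ((h1.pow 2).of_dvd (orderOf_dvd_of_pow_eq_one (hχp _)))
    · rw [← map_pow, SubmonoidClass.mk_pow, ClassGroup.mk0_eq_one_iff, ← h𝔞]
      exact ⟨α, rfl⟩
    · intro σ
      obtain ⟨γ, hγ⟩ := hα.eigen σ (k σ) (hkζ σ)
      have hmem : Ideal.map (RingOfIntegers.mapRingEquiv (σ : K ≃+* K)) 𝔞 ∈ (Ideal (𝓞 K))⁰ := by
        refine mem_nonZeroDivisors_of_ne_zero ?_
        intro h0
        apply h𝔞0
        have := (Ideal.map_eq_bot_iff_of_injective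
          (RingOfIntegers.mapRingEquiv (σ : K ≃+* K)).injective).mp h0
        exact this
      rw [hT σ ⟨𝔞, h𝔞mem⟩ ⟨_, hmem⟩ rfl]
      exact cls_class_eigen p K α hα.ne_zero ⟨𝔞, h𝔞mem⟩ h𝔞 σ (k σ) γ hγ ⟨_, hmem⟩ rfl
  have hprin : 𝔞.IsPrincipal := (ClassGroup.mk0_eq_one_iff h𝔞mem).mp hc
  obtain ⟨β₀, hβ₀⟩ := hprin
  refine cls_final p hp5 K ζ hζ α hα β₀ ?_
  rw [h𝔞, hβ₀]

end Fermat.Agent.S14L
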