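import Mathlib
import Fermat.Agent.S14L.Defs

/-! S14 package P3: the case `p = 3`.  The ring of integers of `ℚ(ζ₃)` is a principal ideal
domain with units `±ζ^j`; a unit congruent to `±1` modulo `(ζ-1)²` is `±1`, and cubes prime to
`ζ-1` are `±1` modulo `(ζ-1)⁴`. -/

set_option autoImplicit false

open NumberField IsDedekindDomain
open scoped nonZeroDivisors

namespace Fermat.Agent.S14L

/-- a cube prime to `λ = ζ - 1` is `±1` modulo `λ³` -/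
theorem p3_cube_aux (K : Type) [Field K] [NumberField K]
    [IsCyclotomicExtension {3} ℚ K] (ζ : K) (hζ : IsPrimitiveRoot ζ 3) (x : 𝓞 K)
    (hx : ¬ (hζ.toInteger - 1) ∣ x) :
    ∃ e : ℤ, e * e = 1 ∧ (hζ.toInteger - 1) ^ 3 ∣ x ^ 3 - (e : 𝓞 K) := by
  have h34 : (hζ.toInteger - 1) ^ 3 ∣ (hζ.toInteger - 1) ^ 4 := pow_dvd_pow _ (by norm_num)
  rcases IsCyclotomicExtension.Rat.Three.lambda_pow_four_dvd_cube_sub_one_or_add_one_of_lambda_not_dvd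
    hζ hx with h | h
  · exact ⟨1, by norm_num, by simpa using h34.trans h⟩
  · refine ⟨-1, by norm_num, ?_⟩
    have := h34.trans h
    simpa [sub_neg_eq_add] using this

theorem witness_isPow_three [Fact (Nat.Prime 3)] (K : Type) [Field K] [NumberField K]
    [IsCyclotomicExtension {3} ℚ K] (ζ : K) (hζ : IsPrimitiveRoot ζ 3) (α : 𝓞 K)
    (hα : Witness 3 K ζ hζ α) : ∃ β : K, (α : K) = β ^ 3 := by
  have hpid : IsPrincipalIdealRing (𝓞 K) := IsCyclotomicExtension.Rat.three_pid K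
  have hpp : ppIdeal 3 K ζ hζ = Ideal.span {hζ.toInteger - 1} := rfl
  -- `α = b³ v` with `v` a unit
  obtain ⟨𝔞, h𝔞⟩ := hα.span_eq
  obtain ⟨b, hb⟩ := (IsPrincipalIdealRing.principal 𝔞).principal
  have hb' : 𝔞 = Ideal.span {b} := hb
  rw [hb', Ideal.span_singleton_pow, Ideal.span_singleton_eq_span_singleton] at h𝔞
  obtain ⟨u, hu⟩ := h𝔞
  have hαb : α = b ^ 3 * ((u⁻¹ : (𝓞 K)ˣ) : 𝓞 K) := by
    rw [← hu, mul_assoc, Units.mul_inv, mul_one]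
  -- divisibility facts
  have hnα : ¬ (hζ.toInteger - 1) ∣ α := by
    intro h
    exact hα.not_mem (hpp ▸ Ideal.mem_span_singleton.mpr h)
  have hnb : ¬ (hζ.toInteger - 1) ∣ b := by
    intro h
    apply hnα
    rw [hαb]
    exact Dvd.dvd.mul_right (dvd_pow h (by norm_num)) _
  obtain ⟨w, hw⟩ := hα.local_pow
  rw [hpp, Ideal.span_singleton_pow, Ideal.mem_span_singleton] at hw
  have hnw : ¬ (hζ.toInteger - 1) ∣ w := by
    intro h
    apply hnα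
    have h1 : (hζ.toInteger - 1) ∣ w ^ 3 := dvd_pow h (by norm_num)
    have h2 : (hζ.toInteger - 1) ∣ α - w ^ 3 := (dvd_pow_self _ (by norm_num)).trans hw
    have := dvd_add h2 h1
    simpa using this
  obtain ⟨eb, heb, hbe⟩ := p3_cube_aux K ζ hζ b hnb
  obtain ⟨ew, hew, hwe⟩ := p3_cube_aux K ζ hζ w hnw
  -- the unit is congruent to `±1`
  have hcong : (hζ.toInteger - 1) ^ 2 ∣ (((u⁻¹ : (𝓞 K)ˣ) : 𝓞 K) - ((eb * ew : ℤ) : 𝓞 K)) := by
    have h1 : (hζ.toInteger - 1) ^ 3 ∣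
        (eb : 𝓞 K) * ((α - w ^ 3) - (b ^ 3 - (eb : 𝓞 K)) * ((u⁻¹ : (𝓞 K)ˣ) : 𝓞 K)
          + (w ^ 3 - (ew : 𝓞 K))) :=
      Dvd.dvd.mul_left (dvd_add (dvd_sub hw (Dvd.dvd.mul_right hbe _)) hwe) _
    have h2 : (eb : 𝓞 K) * ((α - w ^ 3) - (b ^ 3 - (eb : 𝓞 K)) * ((u⁻¹ : (𝓞 K)ˣ) : 𝓞 K)
          + (w ^ 3 - (ew : 𝓞 K)))
        = ((u⁻¹ : (𝓞 K)ˣ) : 𝓞 K) - ((eb * ew : ℤ) : 𝓞 K) := by
      have heb' : (eb : 𝓞 K) * (eb : 𝓞 K) = 1 := by exact_mod_cast congrArg (Int.cast : ℤ → 𝓞 K) heb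
      rw [hαb]
      push_cast
      linear_combination ((u⁻¹ : (𝓞 K)ˣ) : 𝓞 K) * heb'
    rw [h2] at h1
    exact (pow_dvd_pow _ (by norm_num)).trans h1
  have hv := IsCyclotomicExtension.Rat.Three.eq_one_or_neg_one_of_unit_of_congruent hζ u⁻¹
    ⟨eb * ew, hcong⟩
  rcases hv with hv | hv
  · refine ⟨(b : K), ?_⟩
    rw [hαb, hv]
    simp
  · refine ⟨-(b : K), ?_⟩
    rw [hαb, hv]
    simp only [Units.val_neg, Units.val_one, mul_neg, mul_one]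
    push_cast
    ring

end Fermat.Agent.S14L
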