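import Fermat.Agent.S14L.LatPi

/-!
# S14L — lattice point counting with a power-saving error term
-/

namespace Fermat.Agent.S14L

open MeasureTheory Module Bornology Pointwise

theorem lct_smul_set {E : Type*} [AddCommGroup E] [Module ℝ E] {n : ℕ}
    {X : Set E} (hX : ∀ ⦃x⦄ ⦃r : ℝ⦄, x ∈ X → 0 < r → r • x ∈ X)
    {F : E → ℝ} (hF₁ : ∀ x ⦃r : ℝ⦄, 0 ≤ r → F (r • x) = r ^ n * (F x)) {c : ℝ} (hc : 0 < c) :
    c • {x ∈ X | F x ≤ 1} = {x ∈ X | F x ≤ c ^ n} := by
  ext x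
  simp_rw [Set.mem_smul_set_iff_inv_smul_mem₀ hc.ne', Set.mem_ofPred_eq, hF₁ _
    (inv_pos_of_pos hc).le, inv_pow, inv_mul_le_iff₀ (pow_pos hc _), mul_one, and_congr_left_iff]
  exact fun _ ↦ ⟨fun h ↦ (smul_inv_smul₀ hc.ne' x) ▸ hX h hc, fun h ↦ hX h (inv_pos_of_pos hc)⟩

theorem lct_lipFrontier_image {κ : Type*} [Fintype κ] {E E' : Type*} [NormedAddCommGroup E]
    [NormedSpace ℝ E] [NormedAddCommGroup E'] [NormedSpace ℝ E'] (e : E ≃L[ℝ] E') {S : Set E}
    (h : LipFrontier κ S) : LipFrontier κ (e '' S) := by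
  obtain ⟨M, Λ, Ψ, hΨ, hfr⟩ := h
  refine ⟨M, ‖(e : E →L[ℝ] E')‖₊ * Λ, fun j => e ∘ Ψ j, fun j => ?_, ?_⟩
  · exact (e : E →L[ℝ] E').lipschitz.comp_lipschitzOnWith (hΨ j)
  · have h1 : frontier (e '' S) = e '' frontier S := (e.toHomeomorph.image_frontier S).symm
    rw [h1]
    refine (Set.image_mono hfr).trans ?_
    rw [Set.image_iUnion]
    refine Set.iUnion_mono fun j => ?_
    rw [Set.image_comp]

theorem lct_rpow_aux {n : ℕ} (hn : n ≠ 0) {c : ℝ} (hc : 1 ≤ c) :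
    1 ≤ c ^ ((n : ℝ)⁻¹) ∧ (c ^ ((n : ℝ)⁻¹)) ^ n = c ∧
      (c ^ ((n : ℝ)⁻¹)) ^ (n - 1) = c ^ (1 - 1 / (n : ℝ)) := by
  have hc0 : 0 ≤ c := by linarith
  have hn' : (n : ℝ) ≠ 0 := Nat.cast_ne_zero.mpr hn
  refine ⟨Real.one_le_rpow hc (by positivity), ?_, ?_⟩
  · rw [← Real.rpow_natCast, ← Real.rpow_mul hc0, inv_mul_cancel₀ hn', Real.rpow_one]
  · rw [← Real.rpow_natCast, ← Real.rpow_mul hc0]
    congr 1
    rw [Nat.cast_sub (Nat.one_le_iff_ne_zero.mpr hn)]
    field_simp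
    simp

/-- Quantitative version of `ZLattice.covolume.tendsto_card_le_div''`: if the frontier of
`{x ∈ X | F x ≤ 1}` is Lipschitz-parametrizable then the number of lattice points in
`{x ∈ X | F x ≤ c}` is `V * c + O(c ^ (1 - 1 / n))`. -/
theorem lat_card_le_sub_le {E : Type*} [NormedAddCommGroup E] [NormedSpace ℝ E]
    [FiniteDimensional ℝ E] [MeasurableSpace E] [BorelSpace E]
    (L : Submodule ℤ E) [DiscreteTopology L] [IsZLattice ℝ L]
    {X : Set E} (hX : ∀ ⦃x⦄ ⦃r : ℝ⦄, x ∈ X → 0 < r → r • x ∈ X)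
    {F : E → ℝ} (h₁ : ∀ x ⦃r : ℝ⦄, 0 ≤ r → F (r • x) = r ^ finrank ℝ E * (F x))
    (h₂ : IsBounded {x ∈ X | F x ≤ 1}) (h₃ : MeasurableSet {x ∈ X | F x ≤ 1})
    {κ : Type*} [Fintype κ] (hκ : Fintype.card κ = finrank ℝ E)
    (h₄ : LipFrontier κ {x ∈ X | F x ≤ 1}) :
    ∃ V C : ℝ, ∀ c : ℝ, 1 ≤ c →
      |(Nat.card ({x ∈ X | F x ≤ c} ∩ L : Set E) : ℝ) - V * c|
        ≤ C * c ^ (1 - 1 / (finrank ℝ E : ℝ)) := by
  rcases Nat.eq_zero_or_pos (finrank ℝ E) with hn | hn
  · -- trivial space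
    have hsub : Subsingleton E := Module.finrank_zero_iff.mp hn
    refine ⟨0, 1, fun c hc => ?_⟩
    have hle : Nat.card ({x ∈ X | F x ≤ c} ∩ L : Set E) ≤ 1 :=
      Finite.card_le_one_iff_subsingleton.mpr inferInstance
    have hle' : (Nat.card ({x ∈ X | F x ≤ c} ∩ L : Set E) : ℝ) ≤ 1 := by exact_mod_cast hle
    rw [hn]
    simp only [zero_mul, sub_zero, Nat.cast_zero, div_zero, Real.rpow_one, one_mul, Nat.abs_cast]
    linarith
  · have : Module.Finite ℤ L := ZLattice.module_finite ℝ L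
    have : Module.Free ℤ L := ZLattice.module_free ℝ L
    let b := Module.Free.chooseBasis ℤ L
    let B := b.ofZLatticeBasis ℝ L
    have hcard : Fintype.card (Module.Free.ChooseBasisIndex ℤ L) = finrank ℝ E :=
      (finrank_eq_card_basis B).symm
    set S : Set E := {x ∈ X | F x ≤ 1} with hS
    have hS₁ : IsBounded (B.equivFun '' S) := by
      rw [← NormedSpace.isVonNBounded_iff ℝ] at h₂ ⊢
      exact Bornology.IsVonNBounded.image h₂ (B.equivFunL : E →L[ℝ] (Module.Free.ChooseBasisIndex ℤ L → ℝ))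
    have hS₂ : MeasurableSet (B.equivFun '' S) :=
      B.equivFunL.toHomeomorph.toMeasurableEquiv.measurableSet_image.mpr h₃
    have hS₃ : LipFrontier κ (B.equivFun '' S) := lct_lipFrontier_image B.equivFunL h₄
    obtain ⟨C, hC⟩ := lat_pi_count (hκ.trans hcard.symm) hS₁ hS₂ hS₃
    refine ⟨volume.real (B.equivFun '' S), C, fun c hc => ?_⟩
    obtain ⟨ht1, htn, htn'⟩ := lct_rpow_aux hn.ne' hc
    set t : ℝ := c ^ ((finrank ℝ E : ℝ)⁻¹) with ht
    have ht0 : 0 < t := by linarith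
    -- the parametrisation of the lattice
    let g : (Module.Free.ChooseBasisIndex ℤ L → ℤ) → E := fun z => ((b.equivFun.symm z : L) : E)
    have hg_inj : Function.Injective g :=
      Subtype.val_injective.comp b.equivFun.symm.injective
    have hg_range : Set.range g = (L : Set E) := by
      ext x
      constructor
      · rintro ⟨z, rfl⟩
        exact (b.equivFun.symm z).2
      · intro hx
        refine ⟨b.equivFun ⟨x, hx⟩, ?_⟩
        show ((b.equivFun.symm (b.equivFun ⟨x, hx⟩) : L) : E) = x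
        rw [LinearEquiv.symm_apply_apply]
    have hg_e : ∀ z, B.equivFun (g z) = latPt z := by
      intro z
      ext i
      show B.repr ((b.equivFun.symm z : L) : E) i = ((z i : ℤ) : ℝ)
      rw [Basis.ofZLatticeBasis_repr_apply, ← Basis.equivFun_apply, LinearEquiv.apply_symm_apply]
    have hset : {z : Module.Free.ChooseBasisIndex ℤ L → ℤ | latPt z ∈ t • (B.equivFun '' S)}
        = g ⁻¹' {x ∈ X | F x ≤ c} := by
      ext z
      rw [Set.mem_ofPred_eq, Set.mem_preimage, ← htn, ← lct_smul_set hX h₁ ht0, ← hg_e,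
        ← image_smul_set]
      exact B.equivFun.injective.mem_set_image
    have hcount : Nat.card ({x ∈ X | F x ≤ c} ∩ L : Set E)
        = Nat.card {z : Module.Free.ChooseBasisIndex ℤ L → ℤ // latPt z ∈ t • (B.equivFun '' S)} := by
      rw [← hg_range, ← Set.image_preimage_eq_inter_range, Nat.card_image_of_injective hg_inj,
        ← hset]
      rfl
    have := hC t ht1
    rw [hcard, htn, htn', ← hcount] at this
    exact this

end Fermat.Agent.S14L
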