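import Mathlib

/-!
# S14 package L3c, abstract part 1: the covering property `CoverProp`

`CoverProp d S`: the set `S` of a (pseudo)metric space has, for every `0 < δ ≤ 1`, a `δ`-net with
at most `C / δ ^ d` points (`C` independent of `δ`).  Lipschitz images of `d`-dimensional cubes have
this property; it is the only information on the frontier of a bounded set needed to count
lattice points with a power-saving error term.
-/

set_option autoImplicit false

namespace Fermat.Agent.S14L

open Metric Set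

/-- `S` has `δ`-nets of cardinality `≤ C / δ ^ d` for all `0 < δ ≤ 1`. -/
def CoverProp {X : Type*} [PseudoMetricSpace X] (d : ℕ) (S : Set X) : Prop :=
  ∃ C : ℝ, ∀ δ : ℝ, 0 < δ → δ ≤ 1 →
    ∃ P : Finset X, (P.card : ℝ) ≤ C / δ ^ d ∧ S ⊆ ⋃ p ∈ P, closedBall p δ

section general

variable {X : Type*} [PseudoMetricSpace X] {d : ℕ}

theorem CoverProp.mono {S T : Set X} (h : CoverProp d T) (hST : S ⊆ T) : CoverProp d S := by
  obtain ⟨C, hC⟩ := h
  refine ⟨C, fun δ hδ hδ1 => ?_⟩
  obtain ⟨P, hP, hcov⟩ := hC δ hδ hδ1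
  exact ⟨P, hP, hST.trans hcov⟩

theorem coverProp_empty : CoverProp d (∅ : Set X) :=
  ⟨0, fun δ _ _ => ⟨∅, by simp, by simp⟩⟩

theorem CoverProp.union {S T : Set X} (hS : CoverProp d S) (hT : CoverProp d T) :
    CoverProp d (S ∪ T) := by
  classical
  obtain ⟨C₁, h₁⟩ := hS
  obtain ⟨C₂, h₂⟩ := hT
  refine ⟨C₁ + C₂, fun δ hδ hδ1 => ?_⟩
  obtain ⟨P₁, hP₁, hc₁⟩ := h₁ δ hδ hδ1
  obtain ⟨P₂, hP₂, hc₂⟩ := h₂ δ hδ hδ1
  refine ⟨P₁ ∪ P₂, ?_, ?_⟩
  · have h1 : ((P₁ ∪ P₂).card : ℝ) ≤ (P₁.card : ℝ) + (P₂.card : ℝ) := by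
      exact_mod_cast Finset.card_union_le P₁ P₂
    rw [add_div]
    linarith
  · rintro x (hx | hx)
    · obtain ⟨p, hp, hxp⟩ := mem_iUnion₂.mp (hc₁ hx)
      exact mem_iUnion₂.mpr ⟨p, Finset.mem_union_left _ hp, hxp⟩
    · obtain ⟨p, hp, hxp⟩ := mem_iUnion₂.mp (hc₂ hx)
      exact mem_iUnion₂.mpr ⟨p, Finset.mem_union_right _ hp, hxp⟩

theorem coverProp_biUnion_finset {α : Type*} (s : Finset α) (S : α → Set X)
    (h : ∀ a ∈ s, CoverProp d (S a)) : CoverProp d (⋃ a ∈ s, S a) := by
  classical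
  induction s using Finset.induction_on with
  | empty => simpa using (coverProp_empty : CoverProp d (∅ : Set X))
  | insert a s ha ih =>
    rw [Finset.set_biUnion_insert]
    exact (h a (Finset.mem_insert_self a s)).union
      (ih fun b hb => h b (Finset.mem_insert_of_mem hb))

theorem coverProp_iUnion {α : Type*} [Finite α] (S : α → Set X)
    (h : ∀ a, CoverProp d (S a)) : CoverProp d (⋃ a, S a) := by
  classical
  obtain ⟨_⟩ := nonempty_fintype α
  have := coverProp_biUnion_finset (d := d) (Finset.univ : Finset α) S (fun a _ => h a)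
  simpa using this

/-- the image of a set with the covering property under a map that is Lipschitz on a superset -/
theorem CoverProp.image_lipschitzOn {Y : Type*} [PseudoMetricSpace Y] {S s : Set X} {f : X → Y}
    {K : NNReal} (hS : CoverProp d S) (hf : LipschitzOnWith K f s) (hSs : S ⊆ s) :
    CoverProp d (f '' S) := by
  classical
  obtain ⟨C, hC⟩ := hS
  -- radius used upstairs: `δ / (2 * (K + 1))`
  set M : ℝ := 2 * ((K : ℝ) + 1) with hM
  have hM1 : 1 ≤ M := by
    have : (0 : ℝ) ≤ K := K.coe_nonneg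
    rw [hM]; linarith
  have hM0 : 0 < M := lt_of_lt_of_le one_pos hM1
  refine ⟨C * M ^ d, fun δ hδ hδ1 => ?_⟩
  have hδ' : 0 < δ / M := div_pos hδ hM0
  have hδ'1 : δ / M ≤ 1 := by
    rw [div_le_one hM0]; linarith
  obtain ⟨P, hP, hcov⟩ := hC (δ / M) hδ' hδ'1
  -- recentre the balls at points of `S`
  let g : X → X := fun p =>
    if h : (S ∩ closedBall p (δ / M)).Nonempty then h.choose else p
  have hg : ∀ p, (S ∩ closedBall p (δ / M)).Nonempty → g p ∈ S ∩ closedBall p (δ / M) := by
    intro p h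
    simp only [g, dif_pos h]
    exact h.choose_spec
  refine ⟨(P.image g).image f, ?_, ?_⟩
  · have h1 : (((P.image g).image f).card : ℝ) ≤ (P.card : ℝ) := by
      exact_mod_cast (Finset.card_image_le).trans Finset.card_image_le
    refine h1.trans (hP.trans (le_of_eq ?_))
    rw [div_pow]
    field_simp
  · rintro y ⟨x, hx, rfl⟩
    obtain ⟨p, hp, hxp⟩ := mem_iUnion₂.mp (hcov hx)
    have hne : (S ∩ closedBall p (δ / M)).Nonempty := ⟨x, hx, hxp⟩
    have hgp := hg p hne
    refine mem_iUnion₂.mpr ⟨f (g p), ?_, ?_⟩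
    · exact Finset.mem_image_of_mem f (Finset.mem_image_of_mem g hp)
    · rw [mem_closedBall]
      have hd : dist x (g p) ≤ 2 * (δ / M) := by
        have h1 : dist x p ≤ δ / M := mem_closedBall.mp hxp
        have h2 : dist (g p) p ≤ δ / M := mem_closedBall.mp hgp.2
        calc dist x (g p) ≤ dist x p + dist p (g p) := dist_triangle _ _ _
          _ ≤ δ / M + δ / M := by rw [dist_comm p (g p)]; exact add_le_add h1 h2
          _ = 2 * (δ / M) := by ring
      have hKd := hf.dist_le_mul x (hSs hx) (g p) (hSs hgp.1)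
      have hK0 : (0 : ℝ) ≤ K := K.coe_nonneg
      calc dist (f x) (f (g p)) ≤ K * dist x (g p) := hKd
        _ ≤ K * (2 * (δ / M)) := mul_le_mul_of_nonneg_left hd hK0
        _ ≤ δ := by
          rw [hM]
          have h3 : (K : ℝ) * (2 * (δ / (2 * ((K : ℝ) + 1)))) = δ * ((K : ℝ) / ((K : ℝ) + 1)) := by
            field_simp
          rw [h3]
          have h4 : (K : ℝ) / ((K : ℝ) + 1) ≤ 1 := by
            rw [div_le_one (by linarith)]; linarith
          exact mul_le_of_le_one_right hδ.le h4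

end general

section cube

variable {ι : Type*} [Fintype ι]

/-- a face `x j = a` of the unit cube `[0,1]^ι` has the covering property in dimension
`card ι - 1` -/
theorem coverProp_face (j : ι) (a : ℝ) :
    CoverProp (Fintype.card ι - 1) {x : ι → ℝ | (∀ i, x i ∈ Icc (0 : ℝ) 1) ∧ x j = a} := by
  classical
  refine ⟨3 ^ (Fintype.card ι - 1), fun δ hδ hδ1 => ?_⟩
  set N : ℕ := ⌈1 / δ⌉₊ with hN
  have hNpos : 0 < N := Nat.ceil_pos.mpr (by positivity)
  have hNR : (0 : ℝ) < N := by exact_mod_cast hNpos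
  have hN1 : 1 / δ ≤ N := Nat.le_ceil _
  have hN2 : (N : ℝ) < 1 / δ + 1 := Nat.ceil_lt_add_one (by positivity)
  have hinv : 1 / (N : ℝ) ≤ δ := by
    rw [div_le_iff₀ hNR]
    have := (div_le_iff₀ hδ).mp hN1
    linarith
  let G : Finset (ι → ℝ) := Fintype.piFinset fun i =>
    if i = j then ({a} : Finset ℝ) else (Finset.range (N + 1)).image fun k : ℕ => (k : ℝ) / N
  refine ⟨G, ?_, ?_⟩
  · have hcard : G.card ≤ (N + 1) ^ (Fintype.card ι - 1) := by
      rw [Fintype.card_piFinset]
      calc ∏ i, (if i = j then ({a} : Finset ℝ)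
              else (Finset.range (N + 1)).image fun k : ℕ => (k : ℝ) / N).card
          ≤ ∏ i, (if i = j then 1 else (N + 1)) := by
            refine Finset.prod_le_prod' fun i _ => ?_
            split_ifs
            · simp
            · exact Finset.card_image_le.trans (by simp)
        _ = (N + 1) ^ (Fintype.card ι - 1) := by
            rw [← Finset.mul_prod_erase Finset.univ _ (Finset.mem_univ j), if_pos rfl, one_mul]
            rw [Finset.prod_congr rfl (fun i hi => if_neg (Finset.ne_of_mem_erase hi)),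
              Finset.prod_const, Finset.card_erase_of_mem (Finset.mem_univ j), Finset.card_univ]
    have h3 : ((N : ℝ) + 1) ≤ 3 / δ := by
      have h1 : (1 : ℝ) ≤ 1 / δ := by rw [le_div_iff₀ hδ]; linarith
      have : (3 : ℝ) / δ = 3 * (1 / δ) := by ring
      rw [this]; linarith
    calc (G.card : ℝ) ≤ ((N + 1) ^ (Fintype.card ι - 1) : ℕ) := by exact_mod_cast hcard
      _ = ((N : ℝ) + 1) ^ (Fintype.card ι - 1) := by push_cast; ring
      _ ≤ (3 / δ) ^ (Fintype.card ι - 1) := pow_le_pow_left₀ (by positivity) h3 _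
      _ = 3 ^ (Fintype.card ι - 1) / δ ^ (Fintype.card ι - 1) := by rw [div_pow]
  · rintro x ⟨hx, hxj⟩
    let p : ι → ℝ := fun i => if i = j then a else (⌊(N : ℝ) * x i⌋₊ : ℝ) / N
    refine mem_iUnion₂.mpr ⟨p, ?_, ?_⟩
    · rw [Fintype.mem_piFinset]
      intro i
      by_cases hi : i = j
      · simp [p, hi]
      · simp only [p, hi, if_false]
        refine Finset.mem_image.mpr ⟨⌊(N : ℝ) * x i⌋₊, ?_, rfl⟩
        rw [Finset.mem_range, Nat.lt_succ_iff]
        apply Nat.floor_le_of_le
        have := (hx i).2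
        nlinarith
    · rw [mem_closedBall, dist_pi_le_iff hδ.le]
      intro i
      by_cases hi : i = j
      · subst hi
        simp [p, hxj, hδ.le]
      · simp only [p, hi, if_false]
        have h0 : 0 ≤ (N : ℝ) * x i := mul_nonneg hNR.le (hx i).1
        have hfl : (⌊(N : ℝ) * x i⌋₊ : ℝ) ≤ N * x i := Nat.floor_le h0
        have hfl2 : (N : ℝ) * x i < ⌊(N : ℝ) * x i⌋₊ + 1 := Nat.lt_floor_add_one _
        rw [Real.dist_eq, abs_le]
        have hdiv : x i - (⌊(N : ℝ) * x i⌋₊ : ℝ) / N
            = ((N : ℝ) * x i - ⌊(N : ℝ) * x i⌋₊) / N := by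
          field_simp
        rw [hdiv]
        constructor
        · have : 0 ≤ ((N : ℝ) * x i - ⌊(N : ℝ) * x i⌋₊) / N :=
            div_nonneg (by linarith) hNR.le
          linarith
        · have : ((N : ℝ) * x i - ⌊(N : ℝ) * x i⌋₊) / N ≤ 1 / N :=
            div_le_div_of_nonneg_right (by linarith) hNR.le
          linarith

end cube

end Fermat.Agent.S14L
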