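import Fermat.Agent.S14L.LatDefs

/-!
# S14L — a unit cube meeting a set and its complement meets the frontier
-/

namespace Fermat.Agent.S14L

theorem lcf_convex_latQ {ι : Type*} (z : ι → ℤ) : Convex ℝ (latQ z) := by
  have : latQ z = Set.pi Set.univ (fun i => Set.Ico (z i : ℝ) (z i + 1)) := by
    ext x; simp [latQ]
  rw [this]
  exact convex_pi fun i _ => convex_Ico _ _

theorem lat_bdry_frontier {ι : Type*} [Fintype ι] {T : Set (ι → ℝ)} {z : ι → ℤ}
    (h1 : (latQ z ∩ T).Nonempty) (h2 : ¬ latQ z ⊆ T) : (latQ z ∩ frontier T).Nonempty := by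
  by_contra hne
  rw [Set.not_nonempty_iff_eq_empty] at hne
  have hpre : IsPreconnected (latQ z) := (lcf_convex_latQ z).isPreconnected
  obtain ⟨y, hyQ, hyT⟩ := Set.not_subset.mp h2
  obtain ⟨x, hxQ, hxT⟩ := h1
  have hcov : latQ z ⊆ interior T ∪ (closure T)ᶜ := by
    intro w hw
    by_cases hwc : w ∈ closure T
    · left
      by_contra hwi
      have : w ∈ latQ z ∩ frontier T := ⟨hw, hwc, hwi⟩
      rw [hne] at this
      exact this
    · right; exact hwc
  have hx : x ∈ interior T := by
    rcases hcov hxQ with h | h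
    · exact h
    · exact absurd (subset_closure hxT) h
  have hy : y ∈ (closure T)ᶜ := by
    rcases hcov hyQ with h | h
    · exact absurd (interior_subset h) hyT
    · exact h
  obtain ⟨w, hw, hw1, hw2⟩ := hpre _ _ isOpen_interior isClosed_closure.isOpen_compl hcov
    ⟨x, hxQ, hx⟩ ⟨y, hyQ, hy⟩
  exact hw2 (interior_subset_closure hw1)

end Fermat.Agent.S14L
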