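import Fermat.Agent.S14L.LatDefs

/-!
# S14L — unit cube lemma: number of integer points versus volume
-/

namespace Fermat.Agent.S14L

open MeasureTheory Bornology

theorem lcv_latQ_eq_pi {ι : Type*} (z : ι → ℤ) :
    latQ z = Set.pi Set.univ (fun i => Set.Ico (z i : ℝ) (z i + 1)) := by
  ext x
  simp [latQ, Set.mem_pi]

theorem lcv_measurableSet_latQ {ι : Type*} [Fintype ι] (z : ι → ℤ) : MeasurableSet (latQ z) := by
  rw [lcv_latQ_eq_pi]
  exact MeasurableSet.univ_pi (fun i => measurableSet_Ico)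

theorem lcv_volume_latQ {ι : Type*} [Fintype ι] (z : ι → ℤ) : volume (latQ z) = 1 := by
  rw [lcv_latQ_eq_pi, Real.volume_pi_Ico]
  simp

theorem lcv_eq_floor {ι : Type*} {z : ι → ℤ} {x : ι → ℝ} (hx : x ∈ latQ z) :
    z = fun i => ⌊x i⌋ := by
  funext i
  exact (Int.floor_eq_iff.mpr ⟨(hx i).1, (hx i).2⟩).symm

theorem lcv_mem_latQ_floor {ι : Type*} (x : ι → ℝ) : x ∈ latQ (fun i => ⌊x i⌋) :=
  fun _ => ⟨Int.floor_le _, Int.lt_floor_add_one _⟩

theorem lcv_latPt_mem_latQ {ι : Type*} (z : ι → ℤ) : latPt z ∈ latQ z :=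
  fun _ => ⟨le_rfl, lt_add_one _⟩

theorem lcv_disjoint_latQ {ι : Type*} {z w : ι → ℤ} (hzw : z ≠ w) :
    Disjoint (latQ z) (latQ w) := by
  rw [Set.disjoint_left]
  intro x hz hw
  exact hzw ((lcv_eq_floor hz).trans (lcv_eq_floor hw).symm)

theorem lcv_finite_meeting {ι : Type*} [Fintype ι] {T : Set (ι → ℝ)} (hT : IsBounded T) :
    {z : ι → ℤ | (latQ z ∩ T).Nonempty}.Finite := by
  classical
  obtain ⟨R, hR⟩ := hT.subset_closedBall (0 : ι → ℝ)
  refine Set.Finite.subset
    (Finset.finite_toSet (Fintype.piFinset fun _ : ι => Finset.Icc ⌊-R⌋ ⌊R⌋)) ?_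
  rintro z ⟨x, hxz, hxT⟩
  have hx : ‖x‖ ≤ R := by simpa using hR hxT
  rw [Finset.mem_coe, Fintype.mem_piFinset]
  intro i
  have hzi : z i = ⌊x i⌋ := congrFun (lcv_eq_floor hxz) i
  have hxi : |x i| ≤ R := (norm_le_pi_norm x i).trans hx
  rw [Finset.mem_Icc, hzi]
  exact ⟨Int.floor_mono (by linarith [neg_abs_le (x i)]), Int.floor_mono ((le_abs_self _).trans hxi)⟩

/-- The number of integer points of a bounded measurable set differs from its volume by at most
the number of unit cubes that meet the set without being contained in it. -/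
theorem lat_cube_count {ι : Type*} [Fintype ι] {T : Set (ι → ℝ)} (hT : IsBounded T)
    (hm : MeasurableSet T) (s : Finset (ι → ℤ))
    (hs : ∀ z : ι → ℤ, (latQ z ∩ T).Nonempty → ¬ latQ z ⊆ T → z ∈ s) :
    |(Nat.card {z : ι → ℤ // latPt z ∈ T} : ℝ) - volume.real T| ≤ s.card := by
  classical
  set Zs : Finset (ι → ℤ) := (lcv_finite_meeting hT).toFinset with hZs
  have hmemZs : ∀ z, z ∈ Zs ↔ (latQ z ∩ T).Nonempty := fun z => by
    rw [hZs, Set.Finite.mem_toFinset]; rfl
  have hfin : ∀ z : ι → ℤ, volume (T ∩ latQ z) ≠ ⊤ := fun z =>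
    ne_top_of_le_ne_top (by rw [lcv_volume_latQ]; exact ENNReal.one_ne_top)
      (measure_mono Set.inter_subset_right)
  -- the volume as a sum
  have hvol : volume.real T = ∑ z ∈ Zs, volume.real (T ∩ latQ z) := by
    have hU : T = ⋃ z ∈ Zs, T ∩ latQ z := by
      ext x
      simp only [Set.mem_iUnion, Set.mem_inter_iff, exists_prop]
      constructor
      · intro hx
        exact ⟨fun i => ⌊x i⌋, (hmemZs _).mpr ⟨x, lcv_mem_latQ_floor x, hx⟩, hx,
          lcv_mem_latQ_floor x⟩
      · rintro ⟨z, -, hx, -⟩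
        exact hx
    conv_lhs => rw [hU]
    refine measureReal_biUnion_finset ?_ (fun z _ => hm.inter (lcv_measurableSet_latQ z))
      (fun z _ => hfin z)
    intro z _ w _ hzw
    exact (lcv_disjoint_latQ hzw).mono Set.inter_subset_right Set.inter_subset_right
  -- the number of points as a sum
  have hcard : (Nat.card {z : ι → ℤ // latPt z ∈ T} : ℝ)
      = ∑ z ∈ Zs, (if latPt z ∈ T then (1 : ℝ) else 0) := by
    rw [Nat.subtype_card (Zs.filter fun z => latPt z ∈ T) (fun z => by
      rw [Finset.mem_filter, hmemZs]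
      exact ⟨fun h => h.2, fun h => ⟨⟨latPt z, lcv_latPt_mem_latQ z, h⟩, h⟩⟩)]
    rw [Finset.card_filter]
    push_cast
    rfl
  rw [hvol, hcard, ← Finset.sum_sub_distrib]
  have hterm : ∀ z ∈ Zs, |(if latPt z ∈ T then (1 : ℝ) else 0) - volume.real (T ∩ latQ z)|
      ≤ if latQ z ⊆ T then (0 : ℝ) else 1 := by
    intro z _
    by_cases hsub : latQ z ⊆ T
    · rw [if_pos hsub, if_pos (hsub (lcv_latPt_mem_latQ z)), Set.inter_eq_right.mpr hsub,
        measureReal_def, lcv_volume_latQ]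
      simp
    · rw [if_neg hsub]
      have h0 : 0 ≤ volume.real (T ∩ latQ z) := measureReal_nonneg
      have h1 : volume.real (T ∩ latQ z) ≤ 1 := by
        have := measureReal_mono (μ := volume) (Set.inter_subset_right : T ∩ latQ z ⊆ latQ z)
          (by rw [lcv_volume_latQ]; exact ENNReal.one_ne_top)
        rwa [measureReal_def (s := latQ z), lcv_volume_latQ, ENNReal.toReal_one] at this
      rw [abs_le]
      split_ifs <;> constructor <;> linarith
  calc |∑ z ∈ Zs, ((if latPt z ∈ T then (1 : ℝ) else 0) - volume.real (T ∩ latQ z))|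
      ≤ ∑ z ∈ Zs, |(if latPt z ∈ T then (1 : ℝ) else 0) - volume.real (T ∩ latQ z)| :=
        Finset.abs_sum_le_sum_abs _ _
    _ ≤ ∑ z ∈ Zs, (if latQ z ⊆ T then (0 : ℝ) else 1) := Finset.sum_le_sum hterm
    _ = ((Zs.filter fun z => ¬ latQ z ⊆ T).card : ℝ) := by
        rw [Finset.card_filter]
        push_cast
        refine Finset.sum_congr rfl fun z _ => ?_
        by_cases h : latQ z ⊆ T <;> simp [h]
    _ ≤ s.card := by
        have : (Zs.filter fun z => ¬ latQ z ⊆ T) ⊆ s := by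
          intro z hz
          rw [Finset.mem_filter] at hz
          exact hs z ((hmemZs z).mp hz.1) hz.2
        exact_mod_cast Finset.card_le_card this

end Fermat.Agent.S14L
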