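import Mathlib

/-!
# S14L — lattice point counting with a power-saving error term: definitions

`S14L.LipFrontier κ S`: the frontier of `S` is covered by finitely many images of the
boundary of the unit box of `κ → ℝ` under maps that are Lipschitz on the unit box.
-/

namespace Fermat.Agent.S14L

/-- The boundary of the unit box of `κ → ℝ`. -/
def boxBdry (κ : Type*) : Set (κ → ℝ) :=
  {x | x ∈ Set.Icc (0 : κ → ℝ) 1 ∧ ∃ i, x i = 0 ∨ x i = 1}

/-- The frontier of `S` is covered by finitely many images of the boundary of the unit box of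
`κ → ℝ` under maps that are Lipschitz on the unit box. -/
def LipFrontier (κ : Type*) [Fintype κ] {E : Type*} [PseudoMetricSpace E] (S : Set E) : Prop :=
  ∃ (M : ℕ) (Λ : NNReal) (Ψ : Fin M → (κ → ℝ) → E),
    (∀ j, LipschitzOnWith Λ (Ψ j) (Set.Icc (0 : κ → ℝ) 1)) ∧
    frontier S ⊆ ⋃ j, Ψ j '' boxBdry κ

/-- The integer point `z` seen in `ι → ℝ`. -/
def latPt {ι : Type*} (z : ι → ℤ) : ι → ℝ := fun i => (z i : ℝ)

/-- The half-open unit cube with lower corner `z`. -/
def latQ {ι : Type*} (z : ι → ℤ) : Set (ι → ℝ) :=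
  {x | ∀ i, (z i : ℝ) ≤ x i ∧ x i < z i + 1}

end Fermat.Agent.S14L
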