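import Fermat.Agent.S14L.LatDefs
import Fermat.Agent.S14L.LatCover

/-!
# S14L — a dilated set with the covering property meets `O(t ^ (n - 1))` unit cubes
-/

namespace Fermat.Agent.S14L

open Pointwise

/-- The boundary of the unit box has the covering property in codimension one. -/
theorem lfr_coverProp_boxBdry (κ : Type*) [Fintype κ] :
    CoverProp (Fintype.card κ - 1) (boxBdry κ) := by
  have h := coverProp_iUnion (d := Fintype.card κ - 1)
    (fun p : κ × Bool =>
      {x : κ → ℝ | (∀ i, x i ∈ Set.Icc (0 : ℝ) 1) ∧ x p.1 = (if p.2 then 1 else 0)})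
    (fun p => coverProp_face p.1 _)
  refine h.mono ?_
  rintro x ⟨hx, i, hi⟩
  have hx' : ∀ k, x k ∈ Set.Icc (0 : ℝ) 1 := fun k => ⟨hx.1 k, hx.2 k⟩
  rcases hi with hi | hi
  · exact Set.mem_iUnion.mpr ⟨(i, false), hx', by simpa using hi⟩
  · exact Set.mem_iUnion.mpr ⟨(i, true), hx', by simpa using hi⟩

/-- A set with Lipschitz-parametrizable frontier: the frontier has the covering property in
codimension one. -/
theorem lipFrontier_coverProp {κ : Type*} [Fintype κ] {E : Type*} [PseudoMetricSpace E]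
    {S : Set E} (h : LipFrontier κ S) : CoverProp (Fintype.card κ - 1) (frontier S) := by
  obtain ⟨M, Λ, Ψ, hΨ, hcov⟩ := h
  refine (coverProp_iUnion (fun j : Fin M => Ψ j '' boxBdry κ) (fun j => ?_)).mono hcov
  exact (lfr_coverProp_boxBdry κ).image_lipschitzOn (hΨ j) (fun x hx => hx.1)

/-- The integer points whose unit cube can meet the closed unit ball around `q`. -/
noncomputable def lfr_box {ι : Type*} [Fintype ι] [DecidableEq ι] (q : ι → ℝ) : Finset (ι → ℤ) :=
  Fintype.piFinset fun i => Finset.Icc (⌊q i⌋ - 1) (⌊q i⌋ + 1)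

theorem lfr_card_box {ι : Type*} [Fintype ι] [DecidableEq ι] (q : ι → ℝ) :
    (lfr_box q).card = 3 ^ Fintype.card ι := by
  rw [lfr_box, Fintype.card_piFinset]
  have : ∀ i : ι, (Finset.Icc (⌊q i⌋ - 1) (⌊q i⌋ + 1)).card = 3 := by
    intro i
    rw [Int.card_Icc]
    have : ⌊q i⌋ + 1 + 1 - (⌊q i⌋ - 1) = 3 := by ring
    rw [this]
    rfl
  rw [Finset.prod_congr rfl (fun i _ => this i), Finset.prod_const, Finset.card_univ]

theorem lfr_mem_box {ι : Type*} [Fintype ι] [DecidableEq ι] {q x : ι → ℝ} {z : ι → ℤ} (hx : x ∈ latQ z)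
    (hq : ∀ i, |x i - q i| ≤ 1) : z ∈ lfr_box q := by
  rw [lfr_box, Fintype.mem_piFinset]
  intro i
  have h1 := abs_le.mp (hq i)
  have hz := hx i
  have hfl := Int.floor_le (q i)
  have hfl2 := Int.lt_floor_add_one (q i)
  rw [Finset.mem_Icc]
  constructor
  · have h : ((⌊q i⌋ : ℤ) : ℝ) < ((z i + 2 : ℤ) : ℝ) := by push_cast; linarith
    have h' : ⌊q i⌋ < z i + 2 := by exact_mod_cast h
    omega
  · have h : ((z i : ℤ) : ℝ) < ((⌊q i⌋ + 2 : ℤ) : ℝ) := by push_cast; linarith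
    have h' : z i < ⌊q i⌋ + 2 := by exact_mod_cast h
    omega

/-- The dilates `t • Fr` of a set with the covering property in dimension `d` meet
`O(t ^ d)` unit cubes. -/
theorem lat_card_frontier_le {ι : Type*} [Fintype ι] {d : ℕ} {Fr : Set (ι → ℝ)}
    (hFr : CoverProp d Fr) :
    ∃ C : ℝ, ∀ t : ℝ, 1 ≤ t → ∃ s : Finset (ι → ℤ),
      (∀ z : ι → ℤ, (latQ z ∩ (t • Fr)).Nonempty → z ∈ s) ∧
      (s.card : ℝ) ≤ C * t ^ d := by
  classical
  obtain ⟨C₀, hC₀⟩ := hFr
  refine ⟨3 ^ Fintype.card ι * C₀, fun t ht => ?_⟩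
  have ht0 : 0 < t := lt_of_lt_of_le one_pos ht
  obtain ⟨P, hP, hcov⟩ := hC₀ (1 / t) (by positivity) (by rw [div_le_one ht0]; exact ht)
  refine ⟨P.biUnion fun p => lfr_box (t • p), ?_, ?_⟩
  · rintro z ⟨x, hxz, hxF⟩
    obtain ⟨y, hy, rfl⟩ := Set.mem_smul_set.mp hxF
    obtain ⟨p, hp, hyp⟩ := Set.mem_iUnion₂.mp (hcov hy)
    rw [Finset.mem_biUnion]
    refine ⟨p, hp, lfr_mem_box hxz fun i => ?_⟩
    have h1 : dist (y i) (p i) ≤ 1 / t :=
      (dist_le_pi_dist y p i).trans (Metric.mem_closedBall.mp hyp)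
    rw [Real.dist_eq] at h1
    have h2 : (t • y) i - (t • p) i = t * (y i - p i) := by
      simp only [Pi.smul_apply, smul_eq_mul]; ring
    rw [h2, abs_mul, abs_of_pos ht0]
    calc t * |y i - p i| ≤ t * (1 / t) := mul_le_mul_of_nonneg_left h1 ht0.le
      _ = 1 := by field_simp
  · have hcard : (P.biUnion fun p => lfr_box (t • p)).card ≤ P.card * 3 ^ Fintype.card ι := by
      refine Finset.card_biUnion_le.trans ?_
      rw [Finset.sum_congr rfl (fun p _ => lfr_card_box (t • p)), Finset.sum_const, smul_eq_mul]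
    have hP' : (P.card : ℝ) ≤ C₀ * t ^ d := by
      refine hP.trans (le_of_eq ?_)
      rw [one_div, inv_pow, div_inv_eq_mul]
    calc ((P.biUnion fun p => lfr_box (t • p)).card : ℝ)
        ≤ ((P.card * 3 ^ Fintype.card ι : ℕ) : ℝ) := by exact_mod_cast hcard
      _ = 3 ^ Fintype.card ι * (P.card : ℝ) := by push_cast; ring
      _ ≤ 3 ^ Fintype.card ι * (C₀ * t ^ d) :=
          mul_le_mul_of_nonneg_left hP' (by positivity)
      _ = 3 ^ Fintype.card ι * C₀ * t ^ d := by ring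

end Fermat.Agent.S14L
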