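import Fermat.Agent.S14L.NLODefs

/-!
# S14L — the parametrization `nloPsi` is Lipschitz on the unit box
-/

namespace Fermat.Agent.S14L

open NumberField NumberField.InfinitePlace NumberField.mixedEmbedding
  NumberField.mixedEmbedding.fundamentalCone NumberField.Units dirichletUnitTheorem

variable (K : Type*) [Field K] [NumberField K]

open scoped Classical in
/-- The modulus is a smooth function of the parameters. -/
theorem nlol_contDiff_nloU (w : InfinitePlace K) :
    ContDiff ℝ 1 (fun y : NLOIdx K → ℝ => nloU K y w) := by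
  unfold nloU
  refine (contDiff_apply ℝ ℝ (Sum.inl w₀ : NLOIdx K)).mul ?_
  refine contDiff_prod fun i _ => ?_
  refine ContDiff.rpow contDiff_const (contDiff_apply ℝ ℝ (Sum.inl i.1 : NLOIdx K)) fun _ => ?_
  exact (InfinitePlace.pos_iff.mpr (by simp)).ne'

open scoped Classical in
/-- The parametrization is continuously differentiable. -/
theorem nlol_contDiff_nloPsi (ε : {w : InfinitePlace K // w.IsReal} → ℝ) :
    ContDiff ℝ 1 (nloPsi K ε) := by
  unfold nloPsi
  refine ContDiff.prodMk ?_ ?_
  · refine contDiff_pi.mpr fun w => ?_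
    exact contDiff_const.mul (nlol_contDiff_nloU K w.1)
  · refine contDiff_pi.mpr fun w => ?_
    refine ContDiff.mul ?_ ?_
    · exact Complex.ofRealCLM.contDiff.comp (nlol_contDiff_nloU K w.1)
    · refine Complex.contDiff_exp.comp ?_
      refine contDiff_const.mul ?_
      exact Complex.ofRealCLM.contDiff.comp (contDiff_apply ℝ ℝ (Sum.inr w : NLOIdx K))

open scoped Classical in
theorem nlo_lipschitz (ε : {w : InfinitePlace K // w.IsReal} → ℝ) :
    ∃ Λ : NNReal, LipschitzOnWith Λ (nloPsi K ε) (Set.Icc (0 : NLOIdx K → ℝ) 1) := by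
  exact (nlol_contDiff_nloPsi K ε).locallyLipschitz.locallyLipschitzOn.exists_lipschitzOnWith_of_compact
    isCompact_Icc

end Fermat.Agent.S14L
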