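import Fermat.Agent.S14L.NLODefs

/-!
# S14L — the parametrization `nloPsi` reaches every frontier point from the boundary of the box
-/

namespace Fermat.Agent.S14L

open NumberField NumberField.InfinitePlace NumberField.mixedEmbedding
  NumberField.mixedEmbedding.fundamentalCone NumberField.Units dirichletUnitTheorem

variable (K : Type*) [Field K] [NumberField K]

theorem nlos_arg (z : ℂ) : ∃ θ : ℝ, 0 ≤ θ ∧ θ ≤ 1 ∧
    (‖z‖ : ℂ) * Complex.exp (2 * Real.pi * Complex.I * (θ : ℂ)) = z := by
  have hpi := Real.pi_pos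
  have h1 := Complex.neg_pi_lt_arg z
  have h2 := Complex.arg_le_pi z
  have hpi' : (Real.pi : ℂ) ≠ 0 := by exact_mod_cast hpi.ne'
  by_cases h : 0 ≤ Complex.arg z
  · refine ⟨Complex.arg z / (2 * Real.pi), by positivity, ?_, ?_⟩
    · rw [div_le_one (by positivity)]; linarith
    · conv_rhs => rw [← Complex.norm_mul_exp_arg_mul_I z]
      congr 2
      push_cast
      field_simp
  · push Not at h
    refine ⟨Complex.arg z / (2 * Real.pi) + 1, ?_, ?_, ?_⟩
    · have : -1 ≤ Complex.arg z / (2 * Real.pi) := by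
        rw [le_div_iff₀ (by positivity)]; linarith
      linarith
    · have : Complex.arg z / (2 * Real.pi) ≤ 0 :=
        div_nonpos_of_nonpos_of_nonneg h.le (by positivity)
      linarith
    · conv_rhs => rw [← Complex.norm_mul_exp_arg_mul_I z]
      congr 1
      have : 2 * (Real.pi : ℂ) * Complex.I * ((Complex.arg z / (2 * Real.pi) + 1 : ℝ) : ℂ)
          = Complex.arg z * Complex.I + 2 * Real.pi * Complex.I := by
        push_cast
        field_simp
      rw [this, Complex.exp_add, Complex.exp_two_pi_mul_I, mul_one]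

open scoped Classical in
theorem nlos_nloU (c : realSpace K) (y : NLOIdx K → ℝ)
    (h0 : y (Sum.inl w₀) = Real.exp (c w₀)) (h1 : ∀ w, w ≠ w₀ → y (Sum.inl w) = c w)
    (w : InfinitePlace K) : nloU K y w = expMapBasis c w := by
  rw [expMapBasis_apply', Pi.smul_apply, smul_eq_mul, nloU, h0]
  congr 1
  refine Finset.prod_congr rfl fun i _ => ?_
  rw [h1 i.1 i.2]

open scoped Classical in
theorem nlo_surj_zero (x : mixedSpace K) (hx : normAtAllPlaces x = 0) :
    ∃ y ∈ boxBdry (NLOIdx K), nloPsi K (fun _ => 1) y = x := by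
  have hx0 : x = 0 := by
    rw [← forall_normAtPlace_eq_zero_iff]
    intro w
    rw [← normAtAllPlaces_apply, hx]
    rfl
  have hU : ∀ w, nloU K (0 : NLOIdx K → ℝ) w = 0 := fun w => by simp [nloU]
  refine ⟨0, ⟨⟨le_refl _, zero_le_one⟩, Sum.inl w₀, Or.inl rfl⟩, ?_⟩
  rw [hx0]
  refine Prod.ext (funext fun w => ?_) (funext fun w => ?_)
  · simp [nloPsi, hU]
  · simp [nloPsi, hU]

open scoped Classical in
theorem nlo_surj (x : mixedSpace K) (c : realSpace K)
    (hc : c ∈ closure (paramSet K) \ interior (paramSet K))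
    (hx : normAtAllPlaces x = expMapBasis c) :
    ∃ ε : {w : InfinitePlace K // w.IsReal} → Bool, ∃ y ∈ boxBdry (NLOIdx K),
      nloPsi K (fun w => if ε w then 1 else -1) y = x := by
  obtain ⟨hcl, hint⟩ := hc
  rw [closure_paramSet, Set.mem_univ_pi] at hcl
  rw [interior_paramSet, Set.mem_univ_pi] at hint
  choose θ hθ0 hθ1 hθ using fun w : {w : InfinitePlace K // w.IsComplex} => nlos_arg (x.2 w)
  let y : NLOIdx K → ℝ := Sum.elim (fun w => if w = w₀ then Real.exp (c w₀) else c w) θ
  have hy0 : y (Sum.inl w₀) = Real.exp (c w₀) := by simp [y]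
  have hy1 : ∀ w, w ≠ w₀ → y (Sum.inl w) = c w := fun w hw => by simp [y, hw]
  have hy2 : ∀ w, y (Sum.inr w) = θ w := fun w => rfl
  have hU : ∀ w, nloU K y w = normAtPlace w x := fun w => by
    rw [nlos_nloU K c y hy0 hy1, ← hx, normAtAllPlaces_apply]
  have hc0 : c w₀ ≤ 0 := by simpa using hcl w₀
  have hc1 : ∀ w, w ≠ w₀ → c w ∈ Set.Icc (0 : ℝ) 1 := fun w hw => by simpa [hw] using hcl w
  refine ⟨fun w => decide (0 ≤ x.1 w), y, ⟨⟨?_, ?_⟩, ?_⟩, ?_⟩
  · rintro (w | w)
    · by_cases hw : w = w₀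
      · subst hw; rw [hy0]; exact (Real.exp_pos _).le
      · rw [hy1 w hw]; exact (hc1 w hw).1
    · exact hθ0 w
  · rintro (w | w)
    · by_cases hw : w = w₀
      · subst hw; rw [hy0]; exact Real.exp_le_one_iff.mpr hc0
      · rw [hy1 w hw]; exact (hc1 w hw).2
    · exact hθ1 w
  · by_contra hno
    push Not at hno
    apply hint
    intro w
    by_cases hw : w = w₀
    · subst hw
      rw [if_pos rfl]
      refine lt_of_le_of_ne hc0 fun h => ?_
      exact (hno (Sum.inl w₀)).2 (by rw [hy0, h, Real.exp_zero])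
    · rw [if_neg hw]
      have := hno (Sum.inl w)
      rw [hy1 w hw] at this
      exact ⟨lt_of_le_of_ne (hc1 w hw).1 (Ne.symm this.1), lt_of_le_of_ne (hc1 w hw).2 this.2⟩
  · refine Prod.ext (funext fun w => ?_) (funext fun w => ?_)
    · show (if decide (0 ≤ x.1 w) = true then (1 : ℝ) else -1) * nloU K y w.1 = x.1 w
      rw [hU, normAtPlace_apply_of_isReal w.2, Real.norm_eq_abs]
      by_cases h : 0 ≤ x.1 w
      · simp [h, abs_of_nonneg h]
      · simp [h, abs_of_neg (not_le.mp h)]
    · show (nloU K y w.1 : ℂ) * Complex.exp (2 * Real.pi * Complex.I * (y (Sum.inr w) : ℂ))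
        = x.2 w
      rw [hU, normAtPlace_apply_of_isComplex w.2, hy2]
      exact hθ w

end Fermat.Agent.S14L
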