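import Fermat.Agent.S14L.NLOFrontier
import Fermat.Agent.S14L.NLOLip
import Fermat.Agent.S14L.NLOSurj

/-!
# S14L — the frontier of `normLeOne K` is Lipschitz-parametrizable
-/

namespace Fermat.Agent.S14L

open NumberField NumberField.InfinitePlace NumberField.mixedEmbedding
  NumberField.mixedEmbedding.fundamentalCone NumberField.Units dirichletUnitTheorem

variable (K : Type*) [Field K] [NumberField K]

open scoped Classical in
theorem lipFrontier_normLeOne :
    LipFrontier (InfinitePlace K ⊕ {w : InfinitePlace K // w.IsComplex}) (normLeOne K) := by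
  let e := Fintype.equivFin ({w : InfinitePlace K // w.IsReal} → Bool)
  let sgn : ({w : InfinitePlace K // w.IsReal} → Bool) → ({w : InfinitePlace K // w.IsReal} → ℝ) :=
    fun b w => if b w then 1 else -1
  choose Λ hΛ using fun b => nlo_lipschitz K (sgn b)
  refine ⟨Fintype.card ({w : InfinitePlace K // w.IsReal} → Bool), Finset.univ.sup Λ,
    fun j => nloPsi K (sgn (e.symm j)), fun j => ?_, ?_⟩
  · exact (hΛ (e.symm j)).weaken (Finset.le_sup (Finset.mem_univ _))
  · intro x hx
    rcases nlo_frontier_subset K x hx with h0 | ⟨c, hc, hxc⟩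
    · obtain ⟨y, hy, hxy⟩ := nlo_surj_zero K x h0
      refine Set.mem_iUnion.mpr ⟨e (fun _ => true), y, hy, ?_⟩
      rw [← hxy]
      simp [sgn]
    · obtain ⟨ε, y, hy, hxy⟩ := nlo_surj K x c hc hxc
      refine Set.mem_iUnion.mpr ⟨e ε, y, hy, ?_⟩
      rw [← hxy]
      simp [sgn]

end Fermat.Agent.S14L
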