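import Fermat.Agent.S14L.LatCount
import Fermat.Agent.S14L.NLO

/-!
# S14L — (C) counting integral ideals of bounded norm in an ideal class, with a power-saving
error term

`latClassConst K` is the common density of the ideal classes (Mathlib's constant in
`NumberField.Ideal.tendsto_norm_le_and_mk_eq_div_atTop`).
-/

set_option autoImplicit false

namespace Fermat.Agent.S14L

open NumberField NumberField.InfinitePlace NumberField.mixedEmbedding
  NumberField.mixedEmbedding.fundamentalCone NumberField.Units Ideal Filter Topology Module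
  Submodule

open scoped nonZeroDivisors Real

variable (K : Type*) [Field K] [NumberField K]

/-- the density of the integral ideals in one ideal class -/
noncomputable def latClassConst : ℝ :=
  (2 ^ nrRealPlaces K * (2 * π) ^ nrComplexPlaces K * regulator K) /
    (torsionOrder K * Real.sqrt |discr K|)

/-- the number of nonzero integral ideals of norm `≤ s` in the class `C` -/
noncomputable def latClassCount (C : ClassGroup (𝓞 K)) (s : ℝ) : ℕ :=
  Nat.card {I : (Ideal (𝓞 K))⁰ // absNorm (I : Ideal (𝓞 K)) ≤ s ∧ ClassGroup.mk0 I = C}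

theorem tendsto_latClassCount_div (C : ClassGroup (𝓞 K)) :
    Tendsto (fun s : ℝ ↦ (latClassCount K C s : ℝ) / s) atTop (𝓝 (latClassConst K)) :=
  NumberField.Ideal.tendsto_norm_le_and_mk_eq_div_atTop K C

variable {K}

/-- ideals in the class `C` of norm `≤ s` correspond to principal ideals divisible by `J`
(`[J] = C⁻¹`) of norm `≤ s * N(J)` -/
theorem latI_card_class_eq {C : ClassGroup (𝓞 K)} {J : (Ideal (𝓞 K))⁰}
    (hJ : ClassGroup.mk0 J = C⁻¹) (s : ℝ) :
    latClassCount K C s
      = Nat.card {I : (Ideal (𝓞 K))⁰ // (J : Ideal (𝓞 K)) ∣ I ∧ IsPrincipal (I : Ideal (𝓞 K)) ∧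
        absNorm (I : Ideal (𝓞 K)) ≤ s * absNorm (J : Ideal (𝓞 K))} := by
  unfold latClassCount
  simp_rw [← nonZeroDivisors_dvd_iff_dvd_coe]
  refine Nat.card_congr ?_
  refine ((Equiv.dvd J).subtypeEquiv fun I ↦ ?_).trans
    (Equiv.subtypeSubtypeEquivSubtypeInter (fun I : (Ideal (𝓞 K))⁰ ↦ J ∣ I) _)
  rw [← ClassGroup.mk0_eq_one_iff (SetLike.coe_mem _)]
  simp_rw [Equiv.dvd_apply, Submonoid.coe_mul, ← Submonoid.mul_def, _root_.map_mul, hJ,
    inv_mul_eq_one, Nat.cast_mul, mul_comm s, eq_comm, and_comm, and_congr_left_iff]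
  exact fun _ ↦
    (mul_le_mul_iff_of_pos_left (Nat.cast_pos.mpr (absNorm_pos_of_nonZeroDivisors J))).symm

/-- the lattice points of the ideal lattice of `J` in the fundamental cone, of norm `≤ c` -/
theorem latI_card_cone_eq (J : (Ideal (𝓞 K))⁰) (c : ℝ) :
    Nat.card ({x ∈ fundamentalCone K | mixedEmbedding.norm x ≤ c} ∩
        (mixedEmbedding.idealLattice K (FractionalIdeal.mk0 K J)) : Set (mixedSpace K))
      = Nat.card {a : idealSet K J // mixedEmbedding.norm (a : mixedSpace K) ≤ c} := by
  refine Nat.card_congr ?_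
  refine (Equiv.subtypeEquivProp ?_).trans
    (Equiv.subtypeSubtypeEquivSubtypeInter (· ∈ idealSet K J) (mixedEmbedding.norm · ≤ c)).symm
  ext x
  simp only [idealSet, Set.mem_inter_iff, Set.mem_ofPred_eq, SetLike.mem_coe]
  tauto

open scoped Classical in
/-- the index type of the Lipschitz parametrization has the right cardinality -/
theorem latI_card_index :
    Fintype.card (InfinitePlace K ⊕ {w : InfinitePlace K // w.IsComplex})
      = finrank ℝ (mixedSpace K) := by
  rw [mixedEmbedding.finrank, Fintype.card_sum, ← card_add_two_mul_card_eq_rank,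
    card_eq_nrRealPlaces_add_nrComplexPlaces, nrRealPlaces, nrComplexPlaces]
  ring

variable (K) in
/-- **Counting ideals in a class with a power-saving error term.** -/
theorem latClassCount_sub_le (C : ClassGroup (𝓞 K)) :
    ∃ A : ℝ, ∀ s : ℝ, 1 ≤ s →
      |(latClassCount K C s : ℝ) - latClassConst K * s| ≤ A * s ^ (1 - 1 / (finrank ℚ K : ℝ)) := by
  classical
  obtain ⟨J, hJ⟩ := ClassGroup.mk0_surjective C⁻¹
  set n : ℕ := finrank ℚ K with hn
  have hnpos : 0 < n := Module.finrank_pos
  have hnR : (0 : ℝ) < n := by exact_mod_cast hnpos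
  have hfr : finrank ℝ (mixedSpace K) = n := mixedEmbedding.finrank K
  set NJ : ℝ := (absNorm (J : Ideal (𝓞 K)) : ℝ) with hNJ
  have hNJ1 : (1 : ℝ) ≤ NJ := by
    have : 1 ≤ absNorm (J : Ideal (𝓞 K)) := absNorm_pos_of_nonZeroDivisors J
    rw [hNJ]
    exact_mod_cast this
  have hNJ0 : 0 < NJ := lt_of_lt_of_le one_pos hNJ1
  set w : ℝ := (torsionOrder K : ℝ) with hw
  have hw0 : 0 < w := by
    have : 0 < torsionOrder K := torsionOrder_pos K
    rw [hw]
    exact_mod_cast this
  -- the lattice point count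
  obtain ⟨V, C', hV⟩ := lat_card_le_sub_le
    (mixedEmbedding.idealLattice K (FractionalIdeal.mk0 K J))
    (X := fundamentalCone K) (F := mixedEmbedding.norm)
    (fun x r hx hr => smul_mem_of_mem hx hr.ne')
    (fun x r hr => by rw [mixedEmbedding.norm_smul, abs_of_nonneg hr, hfr])
    (isBounded_normLeOne K) (measurableSet_normLeOne K) latI_card_index
    (lipFrontier_normLeOne K)
  rw [hfr] at hV
  -- the count of ideals in terms of lattice points
  have hcount : ∀ s : ℝ, (latClassCount K C s : ℝ) * w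
      = (Nat.card ({x ∈ fundamentalCone K | mixedEmbedding.norm x ≤ s * NJ} ∩
        (mixedEmbedding.idealLattice K (FractionalIdeal.mk0 K J)) : Set (mixedSpace K)) : ℝ) := by
    intro s
    rw [latI_card_class_eq hJ s, latI_card_cone_eq J (s * NJ), ← card_isPrincipal_dvd_norm_le,
      Nat.cast_mul]
  set e : ℝ := 1 - 1 / (n : ℝ) with he
  set κ' : ℝ := V * NJ / w with hκ'
  set A : ℝ := |C'| * NJ ^ e / w with hA
  have hA0 : 0 ≤ A := by positivity
  have hbound : ∀ s : ℝ, 1 ≤ s → |(latClassCount K C s : ℝ) - κ' * s| ≤ A * s ^ e := by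
    intro s hs
    have hs0 : 0 < s := lt_of_lt_of_le one_pos hs
    have h1 : (1 : ℝ) ≤ s * NJ := by nlinarith
    have h2 := hV (s * NJ) h1
    rw [← hcount s] at h2
    have h3 : (latClassCount K C s : ℝ) - κ' * s
        = ((latClassCount K C s : ℝ) * w - V * (s * NJ)) / w := by
      rw [hκ']; field_simp
    rw [h3, abs_div, abs_of_pos hw0, div_le_iff₀ hw0]
    refine h2.trans ?_
    have h4 : C' * (s * NJ) ^ e ≤ |C'| * (s * NJ) ^ e :=
      mul_le_mul_of_nonneg_right (le_abs_self _) (Real.rpow_nonneg (by positivity) _)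
    refine h4.trans (le_of_eq ?_)
    rw [Real.mul_rpow hs0.le hNJ0.le, hA]
    field_simp
  -- identification of the constant
  have hlim : Tendsto (fun s : ℝ ↦ (latClassCount K C s : ℝ) / s) atTop (𝓝 κ') := by
    have h0 : Tendsto (fun s : ℝ ↦ A * s ^ (-(1 / (n : ℝ)))) atTop (𝓝 0) := by
      have := (tendsto_rpow_neg_atTop (y := 1 / (n : ℝ)) (by positivity)).const_mul A
      simpa using this
    rw [tendsto_iff_dist_tendsto_zero]
    refine squeeze_zero' (Eventually.of_forall fun _ => dist_nonneg) ?_ h0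
    filter_upwards [eventually_ge_atTop (1 : ℝ)] with s hs
    have hs0 : 0 < s := lt_of_lt_of_le one_pos hs
    rw [Real.dist_eq]
    have h5 : (latClassCount K C s : ℝ) / s - κ' = ((latClassCount K C s : ℝ) - κ' * s) / s := by
      field_simp
    rw [h5, abs_div, abs_of_pos hs0, div_le_iff₀ hs0]
    refine (hbound s hs).trans (le_of_eq ?_)
    rw [mul_assoc, ← Real.rpow_add_one hs0.ne', he]
    congr 2
    ring
  have hκ : κ' = latClassConst K := tendsto_nhds_unique hlim (tendsto_latClassCount_div K C)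
  exact ⟨A, fun s hs => hκ ▸ hbound s hs⟩

end Fermat.Agent.S14L
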