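import Fermat.Agent.S14L.LatCubeVol
import Fermat.Agent.S14L.LatCubeFr
import Fermat.Agent.S14L.LatFrontier

/-!
# S14L — integer points in dilates of a set with Lipschitz-parametrizable frontier
-/

namespace Fermat.Agent.S14L

open MeasureTheory Bornology Pointwise

theorem lat_pi_count {ι κ : Type*} [Fintype ι] [Fintype κ]
    (hκ : Fintype.card κ = Fintype.card ι) {S : Set (ι → ℝ)} (hS : IsBounded S)
    (hm : MeasurableSet S) (hfr : LipFrontier κ S) :
    ∃ C : ℝ, ∀ t : ℝ, 1 ≤ t →
      |(Nat.card {z : ι → ℤ // latPt z ∈ t • S} : ℝ) - volume.real S * t ^ Fintype.card ι|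
        ≤ C * t ^ (Fintype.card ι - 1) := by
  have hcov : CoverProp (Fintype.card ι - 1) (frontier S) := by
    rw [← hκ]; exact lipFrontier_coverProp hfr
  obtain ⟨C, hC⟩ := lat_card_frontier_le hcov
  refine ⟨C, fun t ht => ?_⟩
  obtain ⟨s, hs, hcard⟩ := hC t ht
  have htpos : 0 < t := lt_of_lt_of_le one_pos ht
  have hfrt : frontier (t • S) = t • frontier S :=
    ((Homeomorph.smulOfNeZero t htpos.ne').image_frontier S).symm
  have hb : IsBounded (t • S) := hS.smul₀ t
  have hmt : MeasurableSet (t • S) := hm.const_smul₀ t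
  have hvol : volume.real (t • S) = volume.real S * t ^ Fintype.card ι := by
    rw [measureReal_def, Measure.addHaar_smul_of_nonneg volume htpos.le,
      Module.finrank_fintype_fun_eq_card, ENNReal.toReal_mul,
      ENNReal.toReal_ofReal (pow_nonneg htpos.le _), measureReal_def, mul_comm]
  have key := lat_cube_count hb hmt s (fun z h1 h2 => hs z (by
    rw [← hfrt]; exact lat_bdry_frontier h1 h2))
  rw [hvol] at key
  exact key.trans hcard

end Fermat.Agent.S14L
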