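import Fermat.Agent.S14L.LatIdeal

/-!
# S14L — (D) Dirichlet series of ideal classes: boundedness for a class function of sum zero

* `latS_lseries_norm_le_of_sum_le`: if the partial sums of `f` are `≤ A * n ^ θ` with `0 ≤ θ < 1`
  then `‖LSeries f s‖ ≤ A / (1 - θ)` for every real `s > 1` (Abel summation).
* `latClassCoeff K C m`: the number of nonzero integral ideals of norm `m` in the class `C`.
* `classLSeries_bounded`: for `χ : ClassGroup (𝓞 K) → ℂ` with `∑ C, χ C = 0`, the Dirichlet series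
  with coefficients `∑ C, χ C * latClassCoeff K C m` is bounded on `s > 1`.
-/

set_option autoImplicit false

namespace Fermat.Agent.S14L

open NumberField Ideal Filter Topology Module Finset MeasureTheory Asymptotics

open scoped nonZeroDivisors Real

/-- **Abel summation bound**: partial sums `O(n ^ θ)` with `θ < 1` give a Dirichlet series that is
bounded on the real half line `s > 1`. -/
theorem latS_lseries_norm_le_of_sum_le {f : ℕ → ℂ} {A θ : ℝ} (hθ0 : 0 ≤ θ) (hθ1 : θ < 1)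
    (hA : ∀ n : ℕ, ‖∑ k ∈ Icc 1 n, f k‖ ≤ A * (n : ℝ) ^ θ)
    {s : ℝ} (hs : 1 < s) (hS : LSeriesSummable f s) :
    ‖LSeries f s‖ ≤ A / (1 - θ) := by
  have hA0 : 0 ≤ A := by
    have := hA 1
    simp only [Nat.cast_one, Real.one_rpow, mul_one] at this
    exact (norm_nonneg _).trans this
  have hO : (fun n : ℕ ↦ ∑ k ∈ Icc 1 n, f k) =O[atTop] fun n : ℕ ↦ (n : ℝ) ^ θ := by
    refine IsBigO.of_bound A (Eventually.of_forall fun n => ?_)
    rw [Real.norm_of_nonneg (Real.rpow_nonneg (Nat.cast_nonneg n) θ)]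
    exact hA n
  have hsre : θ < (s : ℂ).re := by simpa using hθ1.trans hs
  rw [LSeries_eq_mul_integral f hθ0 hsre hS hO, norm_mul, Complex.norm_real,
    Real.norm_of_nonneg (by linarith)]
  have hlt : θ - s - 1 < -1 := by linarith
  have hint : IntegrableOn (fun t : ℝ ↦ A * t ^ (θ - s - 1)) (Set.Ioi 1) :=
    (integrableOn_Ioi_rpow_of_lt hlt one_pos).const_mul A
  have hbound : ∀ᵐ t : ℝ ∂(volume.restrict (Set.Ioi (1 : ℝ))),
      ‖(∑ k ∈ Icc 1 ⌊t⌋₊, f k) * (t : ℂ) ^ (-((s : ℂ) + 1))‖ ≤ A * t ^ (θ - s - 1) := by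
    filter_upwards [ae_restrict_mem measurableSet_Ioi] with t ht
    have ht1 : (1 : ℝ) < t := ht
    have ht0 : 0 < t := one_pos.trans ht1
    rw [norm_mul, Complex.norm_cpow_eq_rpow_re_of_pos ht0]
    have hre : (-((s : ℂ) + 1)).re = -(s + 1) := by simp
    rw [hre]
    have h1 : ‖∑ k ∈ Icc 1 ⌊t⌋₊, f k‖ ≤ A * t ^ θ := by
      refine (hA ⌊t⌋₊).trans (mul_le_mul_of_nonneg_left ?_ hA0)
      exact Real.rpow_le_rpow (Nat.cast_nonneg _) (Nat.floor_le ht0.le) hθ0
    calc ‖∑ k ∈ Icc 1 ⌊t⌋₊, f k‖ * t ^ (-(s + 1))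
        ≤ A * t ^ θ * t ^ (-(s + 1)) :=
          mul_le_mul_of_nonneg_right h1 (Real.rpow_nonneg ht0.le _)
      _ = A * t ^ (θ - s - 1) := by
          rw [mul_assoc, ← Real.rpow_add ht0]
          congr 2
          ring
  have hI := norm_integral_le_of_norm_le hint hbound
  have hval : ∫ t in Set.Ioi (1 : ℝ), A * t ^ (θ - s - 1) = A / (s - θ) := by
    rw [integral_const_mul, integral_Ioi_rpow_of_lt hlt one_pos, Real.one_rpow]
    have : s - θ ≠ 0 := by linarith
    have h2 : θ - s - 1 + 1 ≠ 0 := by linarith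
    field_simp
    ring
  rw [hval] at hI
  have hsθ : 0 < s - θ := by linarith
  have h1θ : 0 < 1 - θ := by linarith
  calc s * ‖∫ t in Set.Ioi (1 : ℝ), (∑ k ∈ Icc 1 ⌊t⌋₊, f k) * (t : ℂ) ^ (-((s : ℂ) + 1))‖
      ≤ s * (A / (s - θ)) := mul_le_mul_of_nonneg_left hI (by linarith)
    _ = A * (s / (s - θ)) := by ring
    _ ≤ A * (1 / (1 - θ)) := by
        refine mul_le_mul_of_nonneg_left ?_ hA0
        rw [div_le_div_iff₀ hsθ h1θ]
        nlinarith
    _ = A / (1 - θ) := by ring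

end Fermat.Agent.S14L
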