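import Fermat.Agent.S14L.LatDefs

/-!
# S14L — Lipschitz parametrization of the frontier of `normLeOne K`: definitions

`nloPsi K ε y`: the point of the mixed space with modulus
`y (inl w₀) * ∏_{i ≠ w₀} |ηᵢ|_w ^ y (inl i)` at the place `w`, sign `ε w` at the real places
and argument `2 π y (inr w)` at the complex places.
-/

namespace Fermat.Agent.S14L

open NumberField NumberField.InfinitePlace NumberField.mixedEmbedding
  NumberField.mixedEmbedding.fundamentalCone NumberField.Units dirichletUnitTheorem

variable (K : Type*) [Field K] [NumberField K]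

/-- The index type of the parametrization. -/
abbrev NLOIdx := InfinitePlace K ⊕ {w : InfinitePlace K // w.IsComplex}

open scoped Classical in
/-- The modulus at the place `w`. -/
noncomputable def nloU (y : NLOIdx K → ℝ) (w : InfinitePlace K) : ℝ :=
  y (Sum.inl w₀) * ∏ i : {w : InfinitePlace K // w ≠ w₀},
    w (fundSystem K (equivFinRank.symm i)) ^ y (Sum.inl i.1)

/-- The parametrization. -/
noncomputable def nloPsi (ε : {w : InfinitePlace K // w.IsReal} → ℝ) (y : NLOIdx K → ℝ) :
    mixedSpace K :=
  (fun w => ε w * nloU K y w.1,
   fun w => (nloU K y w.1 : ℂ) * Complex.exp (2 * Real.pi * Complex.I * (y (Sum.inr w) : ℂ)))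

end Fermat.Agent.S14L
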