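import Fermat.Agent.S14L.NLODefs

/-!
# S14L — the frontier of `normLeOne K` in terms of the parameter set
-/

namespace Fermat.Agent.S14L

open NumberField NumberField.InfinitePlace NumberField.mixedEmbedding
  NumberField.mixedEmbedding.fundamentalCone NumberField.Units dirichletUnitTheorem

variable (K : Type*) [Field K] [NumberField K]

open scoped Classical in
theorem nlo_frontier_subset (x : mixedSpace K) (hx : x ∈ frontier (normLeOne K)) :
    normAtAllPlaces x = 0 ∨
      ∃ c ∈ closure (paramSet K) \ interior (paramSet K), normAtAllPlaces x = expMapBasis c := by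
  have h1 : normAtAllPlaces x ∈ compactSet K := closure_normLeOne_subset K hx.1
  rw [compactSet_eq_union] at h1
  rcases h1 with ⟨c, hc, hcx⟩ | h0
  · right
    refine ⟨c, ⟨hc, fun hci => hx.2 ?_⟩, hcx.symm⟩
    exact subset_interior_normLeOne K ⟨c, hci, hcx⟩
  · left
    simpa using h0

end Fermat.Agent.S14L
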